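import Mathlib

set_option autoImplicit false

open UpperHalfPlane hiding I
open ModularForm ModularFormClass MatrixGroups EisensteinSeries Complex
  SlashInvariantForm SlashInvariantFormClass Filter Topology Derivative

open scoped Manifold Real

namespace Fermat.Agent.S24.JFun

local notation "Δ" => ModularForm.discriminant
local notation "𝕢" => Function.Periodic.qParam

/-- The analytic `j` function on the upper half plane, `j = E₄ ^ 3 / Δ`. -/
noncomputable def jFun (τ : ℍ) : ℂ := E₄ τ ^ 3 / Δ τ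

theorem jFun_def (τ : ℍ) : jFun τ = E₄ τ ^ 3 / Δ τ := rfl

theorem E4_smul (γ : SL(2, ℤ)) (τ : ℍ) : E₄ (γ • τ) = denom γ τ ^ (4 : ℤ) * E₄ τ := by
  have hγ : (γ : GL (Fin 2) ℝ) ∈ 𝒮ℒ := ⟨γ, rfl⟩
  exact slash_action_eqn'' E₄ hγ τ

theorem E6_smul (γ : SL(2, ℤ)) (τ : ℍ) : E₆ (γ • τ) = denom γ τ ^ (6 : ℤ) * E₆ τ := by
  have hγ : (γ : GL (Fin 2) ℝ) ∈ 𝒮ℒ := ⟨γ, rfl⟩
  exact slash_action_eqn'' E₆ hγ τ

theorem disc_smul (γ : SL(2, ℤ)) (τ : ℍ) : Δ (γ • τ) = denom γ τ ^ (12 : ℤ) * Δ τ := by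
  have hγ : (γ : GL (Fin 2) ℝ) ∈ 𝒮ℒ := ⟨γ, rfl⟩
  exact slash_action_eqn'' CuspForm.discriminant hγ τ

theorem jFun_smul (γ : SL(2, ℤ)) (τ : ℍ) : jFun (γ • τ) = jFun τ := by
  have hd : denom γ τ ≠ 0 := denom_ne_zero γ τ
  have hΔ : Δ τ ≠ 0 := discriminant_ne_zero τ
  rw [jFun, jFun, E4_smul, disc_smul]
  field_simp

theorem jFun_mdiff : MDiff jFun :=
  (E₄.holo'.pow 3).div CuspForm.discriminant.holo' discriminant_ne_zero

/-- A level one modular form tends to its constant `q`-coefficient at `i∞`. -/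
theorem tendsto_atImInfty_coeff_zero {k : ℤ} (f : ModularForm 𝒮ℒ k) :
    Tendsto f atImInfty (𝓝 ((qExpansion 1 f).coeff 0)) := by
  have hper := periodic_comp_ofComplex f one_mem_strictPeriods_SL
  have han := ModularFormClass.analyticAt_cuspFunction_zero f one_pos one_mem_strictPeriods_SL
  have h0 : (qExpansion 1 f).coeff 0 = cuspFunction 1 f 0 := by
    simp [qExpansion_coeff]
  have : (cuspFunction 1 f ∘ fun τ : ℍ ↦ Function.Periodic.qParam 1 τ : ℍ → ℂ) = f := by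
    funext τ
    simpa using eq_cuspFunction τ one_ne_zero hper
  rw [h0]
  simpa [this] using han.continuousAt.tendsto.comp (qParam_tendsto_atImInfty one_pos)

theorem tendsto_E4 : Tendsto E₄ atImInfty (𝓝 1) := by
  have h := tendsto_atImInfty_coeff_zero E₄
  rwa [E_qExpansion_coeff_zero _ ⟨2, rfl⟩] at h

theorem tendsto_E6 : Tendsto E₆ atImInfty (𝓝 1) := by
  have h := tendsto_atImInfty_coeff_zero E₆
  rwa [E_qExpansion_coeff_zero _ ⟨3, rfl⟩] at h

/-- The weight 12 form `E₄ ^ 3 - a Δ`. -/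
noncomputable def E4CubeSubSmulDisc (a : ℂ) : ModularForm 𝒮ℒ 12 :=
  ModularForm.mcast (by decide) (E₄.pow 3) - a • CuspForm.toModularFormₗ CuspForm.discriminant

theorem E4CubeSubSmulDisc_apply (a : ℂ) (z : ℍ) :
    E4CubeSubSmulDisc a z = E₄ z ^ 3 - a * Δ z := by
  have h3 : (E₄.pow 3) z = E₄ z ^ 3 := congrFun (ModularForm.coe_pow E₄ 3) z
  simp [E4CubeSubSmulDisc, h3]

theorem tendsto_disc : Tendsto Δ atImInfty (𝓝 0) := discriminant_isZeroAtImInfty

theorem tendsto_E4CubeSubSmulDisc (a : ℂ) :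
    Tendsto (E4CubeSubSmulDisc a) atImInfty (𝓝 1) := by
  have h : Tendsto (fun z : ℍ => E₄ z ^ 3 - a * Δ z) atImInfty (𝓝 (1 ^ 3 - a * 0)) :=
    (tendsto_E4.pow 3).sub (tendsto_disc.const_mul a)
  simp only [one_pow, mul_zero, sub_zero] at h
  exact h.congr fun z => (E4CubeSubSmulDisc_apply a z).symm

theorem jFun_surjective : Function.Surjective jFun := by
  intro a
  by_contra hne
  push Not at hne
  have hf : ∀ τ : ℍ, E4CubeSubSmulDisc a τ ≠ 0 := by
    intro τ h0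
    apply hne τ
    rw [E4CubeSubSmulDisc_apply] at h0
    rw [jFun, div_eq_iff (discriminant_ne_zero τ)]
    linear_combination h0
  have hslash : ∀ γ : SL(2, ℤ), (fun z ↦ (E4CubeSubSmulDisc a z)⁻¹) ∣[(-12 : ℤ)] γ
      = fun z ↦ (E4CubeSubSmulDisc a z)⁻¹ := by
    intro γ
    have hγ : (γ : GL (Fin 2) ℝ) ∈ 𝒮ℒ := ⟨γ, rfl⟩
    have h1 : (fun z ↦ (E4CubeSubSmulDisc a z)⁻¹) = (1 : ℍ → ℂ) / ⇑(E4CubeSubSmulDisc a) := by
      funext z; simp
    rw [h1, show (-12 : ℤ) = 0 - 12 by norm_num, div_slash_SL2, is_invariant_one, SL_slash,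
      slash_action_eqn _ _ hγ]
  let G : ModularForm 𝒮ℒ (-12) :=
    { toFun := fun z ↦ (E4CubeSubSmulDisc a z)⁻¹
      slash_action_eq' := fun _ ⟨γ, hγ⟩ ↦ hγ ▸ hslash γ
      holo' := by
        have : MDiff (fun z : ℍ ↦ (1 : ℂ) / E4CubeSubSmulDisc a z) :=
          (mdifferentiable_const).div (E4CubeSubSmulDisc a).holo' hf
        simpa using this
      bdd_at_cusps' := by
        intro c hc
        rw [Subgroup.IsArithmetic.isCusp_iff_isCusp_SL2Z] at hc
        rw [OnePoint.isBoundedAt_iff_forall_SL2Z hc]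
        intro γ _
        rw [hslash γ]
        have ht : Tendsto (fun z : ℍ ↦ (E4CubeSubSmulDisc a z)⁻¹) atImInfty (𝓝 1) := by
          simpa using (tendsto_E4CubeSubSmulDisc a).inv₀ one_ne_zero
        exact ht.isBigO_one ℝ }
  have hG : (⇑G : ℍ → ℂ) = 0 := levelOne_neg_weight_eq_zero (by norm_num) G
  have := congrFun hG UpperHalfPlane.I
  exact inv_ne_zero (hf UpperHalfPlane.I) this


/-- A periodic holomorphic function bounded at `i∞` tends to the value of its cusp function. -/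
theorem tendsto_cuspFunction_zero {f : ℍ → ℂ} (hper : Function.Periodic (f ∘ ofComplex) 1)
    (hhol : MDiff f) (hbdd : IsBoundedAtImInfty f) :
    Tendsto f atImInfty (𝓝 (cuspFunction 1 f 0)) := by
  have han := analyticAt_cuspFunction_zero one_pos hper hhol hbdd
  have : (cuspFunction 1 f ∘ fun τ : ℍ ↦ 𝕢 1 τ : ℍ → ℂ) = f := by
    funext τ
    simpa using eq_cuspFunction τ one_ne_zero hper
  simpa [this] using han.continuousAt.tendsto.comp (qParam_tendsto_atImInfty one_pos)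

/-- `D f → 0` at `i∞` for periodic holomorphic `f` bounded at `i∞`. -/
theorem tendsto_D_zero {f : ℍ → ℂ} (hper : Function.Periodic (f ∘ ofComplex) 1)
    (hhol : MDiff f) (hbdd : IsBoundedAtImInfty f) :
    Tendsto (D f) atImInfty (𝓝 0) := by
  have han := analyticAt_cuspFunction_zero one_pos hper hhol hbdd
  have hcont : ContinuousAt (deriv (cuspFunction 1 f)) 0 := han.deriv.continuousAt
  have hq := qParam_tendsto_atImInfty one_pos
  have key : ∀ z : ℍ, D f z = 𝕢 1 z * deriv (cuspFunction 1 f) (𝕢 1 z) := by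
    intro z
    have hzq : ‖𝕢 1 (z : ℂ)‖ < 1 := Function.Periodic.norm_qParam_lt_one one_pos z.im_pos
    have hF : DifferentiableAt ℂ (cuspFunction 1 f) (𝕢 1 (z : ℂ)) :=
      differentiableAt_cuspFunction one_pos hper hhol hbdd hzq
    have hqd : HasDerivAt (fun w : ℂ ↦ 𝕢 1 w) (2 * π * I * 𝕢 1 (z : ℂ)) (z : ℂ) := by
      have h1 : HasDerivAt (fun w : ℂ ↦ 2 * π * I * w) (2 * π * I) (z : ℂ) := by
        simpa using (hasDerivAt_id (z : ℂ)).const_mul (2 * π * I)
      have h2 := h1.cexp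
      have h3 : cexp (2 * π * I * (z : ℂ)) * (2 * π * I) = 2 * π * I * cexp (2 * π * I * (z : ℂ)) :=
        mul_comm _ _
      rw [h3] at h2
      simpa only [Function.Periodic.qParam, ofReal_one, div_one] using h2
    have hcomp : (f ∘ ofComplex) =ᶠ[𝓝 (z : ℂ)] fun w ↦ cuspFunction 1 f (𝕢 1 w) := by
      filter_upwards [isOpen_upperHalfPlaneSet.mem_nhds z.im_pos] with w hw
      have := eq_cuspFunction (f := f) ⟨w, hw⟩ one_ne_zero hper
      simp only [Function.comp_apply, ofComplex_apply_of_im_pos hw]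
      exact this.symm
    have hd : HasDerivAt (fun w ↦ cuspFunction 1 f (𝕢 1 w))
        (deriv (cuspFunction 1 f) (𝕢 1 (z : ℂ)) * (2 * π * I * 𝕢 1 (z : ℂ))) (z : ℂ) :=
      hF.hasDerivAt.comp (z : ℂ) hqd
    rw [normalizedDerivOfComplex, (hd.congr_of_eventuallyEq hcomp).deriv]
    have h2 : (2 * (π : ℂ) * I) ≠ 0 := by simp [Real.pi_ne_zero]
    field_simp
  have ht : Tendsto (fun z : ℍ ↦ 𝕢 1 z * deriv (cuspFunction 1 f) (𝕢 1 z)) atImInfty
      (𝓝 (0 * deriv (cuspFunction 1 f) 0)) :=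
    hq.mul (hcont.tendsto.comp hq)
  rw [zero_mul] at ht
  exact ht.congr fun z ↦ (key z).symm


theorem E2_periodic : Function.Periodic (E2 ∘ ofComplex) 1 := by
  intro w
  by_cases! hw : 0 < im w
  · have hw1 : 0 < im (w + 1) := by simpa using hw
    simp only [Function.comp_apply, ofComplex_apply_of_im_pos hw1, ofComplex_apply_of_im_pos hw]
    rw [E2_eq_tsum_cexp, E2_eq_tsum_cexp]
    have : cexp (2 * π * I * ((⟨w + 1, hw1⟩ : ℍ) : ℂ)) = cexp (2 * π * I * ((⟨w, hw⟩ : ℍ) : ℂ)) := by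
      show cexp (2 * π * I * (w + 1)) = cexp (2 * π * I * w)
      rw [mul_add, mul_one, Complex.exp_add, Complex.exp_two_pi_mul_I, mul_one]
    rw [this]
  · have : im (w + 1) ≤ 0 := by simpa using hw
    simp [ofComplex_apply_of_im_nonpos this, ofComplex_apply_of_im_nonpos hw]

theorem hasSum_E2' (τ : ℍ) : HasSum (fun m : ℕ ↦
      (if m = 0 then 1 else -24 * ArithmeticFunction.sigma 1 m : ℂ) • 𝕢 1 τ ^ m) (E2 τ) := by
  have := hasSum_qExpansion_E2 (z := τ)
  simpa only [Function.Periodic.qParam, ofReal_one, div_one] using this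

theorem tendsto_E2 : Tendsto E2 atImInfty (𝓝 1) := by
  have han := analyticAt_cuspFunction_zero one_pos E2_periodic E2_mdifferentiable
    isBoundedAtImInfty_E2
  have h := tendsto_cuspFunction_zero E2_periodic E2_mdifferentiable isBoundedAtImInfty_E2
  have hps := hasFPowerSeriesOnBall_cuspFunction one_pos han hasSum_E2'
  have h1 : cuspFunction 1 E2 0 = 1 := by
    have := hps.coeff_zero (fun _ => 0)
    rw [← this]
    simp [FormalMultilinearSeries.ofScalars]
  rwa [h1] at h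

/-- The Serre derivative of a level one modular form, as a modular form of weight `k + 2`. -/
noncomputable def serreMF {k : ℤ} (f : ModularForm 𝒮ℒ k) (k' : ℤ) (hk' : k' = k + 2) :
    ModularForm 𝒮ℒ k' where
  toFun := serreDerivative k f
  slash_action_eq' := by
    rintro _ ⟨γ, rfl⟩
    have hγ : (γ : GL (Fin 2) ℝ) ∈ 𝒮ℒ := ⟨γ, rfl⟩
    subst hk'
    have := serreDerivative_slash_invariant (k := k) (F := f) f.holo' (γ := γ)
      (by rw [SL_slash]; exact slash_action_eqn f _ hγ)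
    rwa [SL_slash] at this
  holo' := serreDerivative_mdifferentiable k f.holo'
  bdd_at_cusps' := by
    intro c hc
    rw [Subgroup.IsArithmetic.isCusp_iff_isCusp_SL2Z] at hc
    rw [OnePoint.isBoundedAt_iff_forall_SL2Z hc]
    intro γ _
    have hγ : (γ : GL (Fin 2) ℝ) ∈ 𝒮ℒ := ⟨γ, rfl⟩
    subst hk'
    have hinv := serreDerivative_slash_invariant (k := k) (F := f) f.holo' (γ := γ)
      (by rw [SL_slash]; exact slash_action_eqn f _ hγ)
    rw [hinv]
    have hper := periodic_comp_ofComplex f one_mem_strictPeriods_SL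
    have hbdd : IsBoundedAtImInfty f := ModularFormClass.bdd_at_infty f
    have h1 := tendsto_D_zero hper f.holo' hbdd
    have h2 := tendsto_cuspFunction_zero hper f.holo' hbdd
    have h3 : Tendsto (fun z : ℍ ↦ D f z - (k : ℂ) * 12⁻¹ * E2 z * f z) atImInfty
        (𝓝 (0 - (k : ℂ) * 12⁻¹ * 1 * cuspFunction 1 f 0)) :=
      h1.sub ((tendsto_E2.const_mul _).mul h2)
    exact h3.isBigO_one ℝ


theorem serreMF_apply {k : ℤ} (f : ModularForm 𝒮ℒ k) (k' : ℤ) (hk' : k' = k + 2) (z : ℍ) :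
    serreMF f k' hk' z = D f z - (k : ℂ) * 12⁻¹ * E2 z * f z := rfl

theorem tendsto_serreMF {k : ℤ} (f : ModularForm 𝒮ℒ k) (k' : ℤ) (hk' : k' = k + 2) {a : ℂ}
    (ha : Tendsto f atImInfty (𝓝 a)) :
    Tendsto (serreMF f k' hk') atImInfty (𝓝 (-((k : ℂ) * 12⁻¹ * a))) := by
  have hper := periodic_comp_ofComplex f one_mem_strictPeriods_SL
  have hbdd : IsBoundedAtImInfty f := ModularFormClass.bdd_at_infty f
  have h1 := tendsto_D_zero hper f.holo' hbdd
  have h3 : Tendsto (fun z : ℍ ↦ D f z - (k : ℂ) * 12⁻¹ * E2 z * f z) atImInfty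
      (𝓝 (0 - (k : ℂ) * 12⁻¹ * 1 * a)) :=
    h1.sub ((tendsto_E2.const_mul _).mul ha)
  simp only [mul_one, zero_sub] at h3
  exact h3

theorem eq_smul_of_rank_one {k : ℤ} (hk : Module.rank ℂ (ModularForm 𝒮ℒ k) = 1)
    (g h : ModularForm 𝒮ℒ k) {a b : ℂ} (hg : Tendsto g atImInfty (𝓝 a))
    (hh : Tendsto h atImInfty (𝓝 b)) (hb : b ≠ 0) (z : ℍ) : g z = a / b * h z := by
  have hne : h ≠ 0 := by
    rintro rfl
    have h0 : Tendsto (fun _ : ℍ => (0 : ℂ)) atImInfty (𝓝 0) := tendsto_const_nhds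
    exact hb (tendsto_nhds_unique hh h0)
  obtain ⟨c, hc⟩ := (finrank_eq_one_iff_of_nonzero' h hne).mp
      (Module.rank_eq_one_iff_finrank_eq_one.mp hk) g
  have hcz : ∀ w : ℍ, g w = c * h w := fun w => by rw [← hc]; rfl
  have h1 : Tendsto g atImInfty (𝓝 (c * b)) := (hh.const_mul c).congr fun w => (hcz w).symm
  have hab : a = c * b := tendsto_nhds_unique hg h1
  rw [hcz z, hab]
  field_simp


theorem rank_eight : Module.rank ℂ (ModularForm 𝒮ℒ 8) = 1 := by
  have := dimension_level_one 8 ⟨4, rfl⟩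
  simpa [Nat.ModEq] using this

theorem rank_fourteen : Module.rank ℂ (ModularForm 𝒮ℒ 14) = 1 := by
  have := dimension_level_one 14 ⟨7, rfl⟩
  simpa [Nat.ModEq] using this


/-- Ramanujan: `D E₄ = (E₂ E₄ - E₆) / 3`. -/
theorem D_E4 (z : ℍ) : D E₄ z = (E2 z * E₄ z - E₆ z) / 3 := by
  have h := eq_smul_of_rank_one levelOne_weight_six_rank_one (serreMF E₄ 6 (by norm_num)) E₆
    (tendsto_serreMF E₄ 6 (by norm_num) tendsto_E4) tendsto_E6 one_ne_zero z
  rw [serreMF_apply] at h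
  push_cast at h
  linear_combination h

/-- The form `E₄ ^ 2` of weight 8. -/
noncomputable def E4Sq : ModularForm 𝒮ℒ 8 := ModularForm.mcast (by norm_num) (E₄.mul E₄)

theorem E4Sq_apply (z : ℍ) : E4Sq z = E₄ z ^ 2 := by
  have h : (E₄.mul E₄) z = E₄ z * E₄ z := congrFun (ModularForm.coe_mul E₄ E₄) z
  simp [E4Sq, pow_two, h]

/-- The form `E₄ ^ 2 * E₆` of weight 14. -/
noncomputable def E4SqE6 : ModularForm 𝒮ℒ 14 :=
  ModularForm.mcast (by norm_num) ((E₄.mul E₄).mul E₆)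

theorem E4SqE6_apply (z : ℍ) : E4SqE6 z = E₄ z ^ 2 * E₆ z := by
  have h : (E₄.mul E₄) z = E₄ z * E₄ z := congrFun (ModularForm.coe_mul E₄ E₄) z
  have h' : ((E₄.mul E₄).mul E₆) z = (E₄.mul E₄) z * E₆ z :=
    congrFun (ModularForm.coe_mul (E₄.mul E₄) E₆) z
  simp [E4SqE6, pow_two, h, h']

/-- Ramanujan: `D E₆ = (E₂ E₆ - E₄²) / 2`. -/
theorem D_E6 (z : ℍ) : D E₆ z = (E2 z * E₆ z - E₄ z ^ 2) / 2 := by
  have hlim : Tendsto E4Sq atImInfty (𝓝 1) := by
    have : Tendsto (fun z : ℍ => E₄ z ^ 2) atImInfty (𝓝 (1 ^ 2)) := tendsto_E4.pow 2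
    rw [one_pow] at this
    exact this.congr fun z => (E4Sq_apply z).symm
  have h := eq_smul_of_rank_one rank_eight (serreMF E₆ 8 (by norm_num)) E4Sq
    (tendsto_serreMF E₆ 8 (by norm_num) tendsto_E6) hlim one_ne_zero z
  rw [serreMF_apply, E4Sq_apply] at h
  push_cast at h
  linear_combination h

/-- `D (E₄³ - aΔ) = E₂ (E₄³ - aΔ) - E₄² E₆`. -/
theorem D_E4CubeSubSmulDisc (a : ℂ) (z : ℍ) :
    D (E4CubeSubSmulDisc a) z = E2 z * E4CubeSubSmulDisc a z - E₄ z ^ 2 * E₆ z := by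
  have hlim : Tendsto E4SqE6 atImInfty (𝓝 1) := by
    have : Tendsto (fun z : ℍ => E₄ z ^ 2 * E₆ z) atImInfty (𝓝 (1 ^ 2 * 1)) :=
      (tendsto_E4.pow 2).mul tendsto_E6
    rw [one_pow, one_mul] at this
    exact this.congr fun z => (E4SqE6_apply z).symm
  have h := eq_smul_of_rank_one rank_fourteen (serreMF (E4CubeSubSmulDisc a) 14 (by norm_num))
    E4SqE6 (tendsto_serreMF (E4CubeSubSmulDisc a) 14 (by norm_num)
      (tendsto_E4CubeSubSmulDisc a)) hlim one_ne_zero z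
  rw [serreMF_apply, E4SqE6_apply] at h
  push_cast at h
  linear_combination h


/-- A holomorphic function on `ℍ` is analytic at every point, as a function on `ℂ`. -/
theorem analyticAt_comp_ofComplex {F : ℍ → ℂ} (hF : MDiff F) (z : ℍ) :
    AnalyticAt ℂ (F ∘ ofComplex) (z : ℂ) := by
  have h := UpperHalfPlane.mdifferentiable_iff.mp hF
  exact h.analyticAt (isOpen_upperHalfPlaneSet.mem_nhds z.im_pos)

theorem deriv_comp_ofComplex (F : ℍ → ℂ) (z : ℍ) :
    deriv (F ∘ ofComplex) (z : ℂ) = 2 * π * I * D F z := by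
  have h2 : (2 * (π : ℂ) * I) ≠ 0 := by simp [Real.pi_ne_zero]
  rw [normalizedDerivOfComplex]
  field_simp

/-- A simple zero: `F z = 0` and `D F z ≠ 0` give order one. -/
theorem analyticOrderAt_eq_one_of_D_ne_zero {F : ℍ → ℂ} (hF : MDiff F) (z : ℍ)
    (h0 : F z = 0) (h1 : D F z ≠ 0) : analyticOrderAt (F ∘ ofComplex) (z : ℂ) = 1 := by
  refine (analyticAt_comp_ofComplex hF z).analyticOrderAt_eq_one_of_zero_deriv_ne_zero ?_ ?_
  · simpa using h0
  · rw [deriv_comp_ofComplex]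
    have h2 : (2 * (π : ℂ) * I) ≠ 0 := by simp [Real.pi_ne_zero]
    exact mul_ne_zero h2 h1

theorem analyticOrderAt_eq_zero_of_ne_zero {F : ℍ → ℂ} (hF : MDiff F) (z : ℍ)
    (h0 : F z ≠ 0) : analyticOrderAt (F ∘ ofComplex) (z : ℂ) = 0 := by
  rw [(analyticAt_comp_ofComplex hF z).analyticOrderAt_eq_zero]
  simpa using h0

theorem disc_eq (z : ℍ) : (1728 : ℂ) * Δ z = E₄ z ^ 3 - E₆ z ^ 2 := by
  have := discriminant_eq_E₄_cube_sub_E₆_sq z
  rw [this]; ring

theorem jFun_eq_zero_iff (z : ℍ) : jFun z = 0 ↔ E₄ z = 0 := by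
  rw [jFun, div_eq_zero_iff]
  simp [discriminant_ne_zero z]

theorem jFun_eq_1728_iff (z : ℍ) : jFun z = 1728 ↔ E₆ z = 0 := by
  rw [jFun, div_eq_iff (discriminant_ne_zero z)]
  have := disc_eq z
  constructor
  · intro h
    have h2 : E₆ z ^ 2 = 0 := by linear_combination h + this
    exact pow_eq_zero_iff (two_ne_zero) |>.mp h2
  · intro h
    rw [h] at this
    linear_combination -this

/-- `(j - a) Δ = E₄³ - a Δ`. -/
theorem jFun_sub_mul_disc (a : ℂ) (z : ℍ) :
    (jFun z - a) * Δ z = E4CubeSubSmulDisc a z := by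
  rw [E4CubeSubSmulDisc_apply, jFun]
  field_simp [discriminant_ne_zero z]

theorem jFun_sub_mdiff (a : ℂ) : MDiff (fun z : ℍ => jFun z - a) :=
  jFun_mdiff.sub mdifferentiable_const

theorem disc_mdiff : MDiff (Δ : ℍ → ℂ) := CuspForm.discriminant.holo'

/-- Order of `j - a` at a point equals the order of `E₄³ - aΔ`. -/
theorem analyticOrderAt_jFun_sub_eq (a : ℂ) (z : ℍ) :
    analyticOrderAt ((fun z : ℍ => jFun z - a) ∘ ofComplex) (z : ℂ)
      = analyticOrderAt (E4CubeSubSmulDisc a ∘ ofComplex) (z : ℂ) := by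
  have h1 := analyticAt_comp_ofComplex (jFun_sub_mdiff a) z
  have h2 := analyticAt_comp_ofComplex disc_mdiff z
  have hmul := analyticOrderAt_mul h1 h2
  have hΔ : analyticOrderAt ((Δ : ℍ → ℂ) ∘ ofComplex) (z : ℂ) = 0 :=
    analyticOrderAt_eq_zero_of_ne_zero disc_mdiff z (discriminant_ne_zero z)
  rw [hΔ, add_zero] at hmul
  rw [← hmul]
  apply analyticOrderAt_congr
  filter_upwards with w
  simp only [Pi.mul_apply, Function.comp_apply]
  exact jFun_sub_mul_disc a (ofComplex w)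

theorem E4CubeSubSmulDisc_eq_zero_iff (a : ℂ) (z : ℍ) :
    E4CubeSubSmulDisc a z = 0 ↔ jFun z = a := by
  rw [← jFun_sub_mul_disc, mul_eq_zero, sub_eq_zero]
  simp [discriminant_ne_zero z]

/-- Away from `j = 0, 1728`, the function `j - j(z)` has a simple zero at `z`. -/
theorem analyticOrderAt_jFun_sub_self (z : ℍ) (h0 : jFun z ≠ 0) (h1 : jFun z ≠ 1728) :
    analyticOrderAt ((fun w : ℍ => jFun w - jFun z) ∘ ofComplex) (z : ℂ) = 1 := by
  rw [analyticOrderAt_jFun_sub_eq]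
  have hz : E4CubeSubSmulDisc (jFun z) z = 0 := (E4CubeSubSmulDisc_eq_zero_iff _ z).mpr rfl
  refine analyticOrderAt_eq_one_of_D_ne_zero (ModularFormClass.holo (E4CubeSubSmulDisc (jFun z))) z hz ?_
  rw [D_E4CubeSubSmulDisc, hz, mul_zero, zero_sub, neg_ne_zero]
  have h4 : E₄ z ≠ 0 := fun h => h0 ((jFun_eq_zero_iff z).mpr h)
  have h6 : E₆ z ≠ 0 := fun h => h1 ((jFun_eq_1728_iff z).mpr h)
  exact mul_ne_zero (pow_ne_zero 2 h4) h6

/-- The derivative of `j` does not vanish away from `j = 0, 1728`. -/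
theorem deriv_jFun_ne_zero (z : ℍ) (h0 : jFun z ≠ 0) (h1 : jFun z ≠ 1728) :
    deriv (jFun ∘ ofComplex) (z : ℂ) ≠ 0 := by
  intro hd
  have han := analyticAt_comp_ofComplex jFun_mdiff z
  have h := analyticOrderAt_jFun_sub_self z h0 h1
  have hle : (2 : ℕ∞) ≤ analyticOrderAt ((fun w : ℍ => jFun w - jFun z) ∘ ofComplex) (z : ℂ) := by
    have han' := analyticAt_comp_ofComplex (jFun_sub_mdiff (jFun z)) z
    have := (natCast_le_analyticOrderAt_iff_iteratedDeriv_eq_zero (n := 2) han').mpr ?_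
    · exact_mod_cast this
    · intro i hi
      interval_cases i
      · simp
      · rw [iteratedDeriv_one]
        have : ((fun w : ℍ => jFun w - jFun z) ∘ ofComplex) = fun w => (jFun ∘ ofComplex) w - jFun z := rfl
        rw [this, deriv_sub_const]
        exact hd
  rw [h] at hle
  norm_num at hle


/-! ### The elliptic point `i` -/

theorem S_smul_I : ModularGroup.S • UpperHalfPlane.I = UpperHalfPlane.I := by
  rw [UpperHalfPlane.ext_iff, modular_S_smul]
  simp [UpperHalfPlane.I]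

theorem denom_S_I : denom ModularGroup.S UpperHalfPlane.I = Complex.I := by
  rw [ModularGroup.denom_S]; rfl

theorem E6_I : E₆ UpperHalfPlane.I = 0 := by
  have h := E6_smul ModularGroup.S UpperHalfPlane.I
  rw [S_smul_I, denom_S_I] at h
  have h6 : (Complex.I : ℂ) ^ (6 : ℤ) = -1 := by
    have : (Complex.I : ℂ) ^ (6 : ℕ) = -1 := by
      rw [show (6 : ℕ) = 2 * 3 by norm_num, pow_mul, Complex.I_sq]; norm_num
    exact_mod_cast this
  rw [h6] at h
  linear_combination h / 2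

theorem jFun_I : jFun UpperHalfPlane.I = 1728 := (jFun_eq_1728_iff _).mpr E6_I

theorem E4_I_ne_zero : E₄ UpperHalfPlane.I ≠ 0 := by
  intro h
  have := disc_eq UpperHalfPlane.I
  rw [h, E6_I] at this
  have hΔ := discriminant_ne_zero UpperHalfPlane.I
  apply hΔ
  linear_combination this / 1728

/-- `(j - 1728) Δ = E₆²`. -/
theorem jFun_sub_1728_mul_disc (z : ℍ) : (jFun z - 1728) * Δ z = E₆ z ^ 2 := by
  rw [jFun]
  have := disc_eq z
  field_simp [discriminant_ne_zero z]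
  linear_combination -this

/-- `j - 1728` vanishes to order exactly `2` at `i`. -/
theorem analyticOrderAt_jFun_sub_I :
    analyticOrderAt ((fun w : ℍ => jFun w - 1728) ∘ ofComplex) (UpperHalfPlane.I : ℂ) = 2 := by
  have h1 := analyticAt_comp_ofComplex (jFun_sub_mdiff 1728) UpperHalfPlane.I
  have h2 := analyticAt_comp_ofComplex disc_mdiff UpperHalfPlane.I
  have h6 := analyticAt_comp_ofComplex (ModularFormClass.holo E₆) UpperHalfPlane.I
  have hmul := analyticOrderAt_mul h1 h2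
  have hΔ : analyticOrderAt ((Δ : ℍ → ℂ) ∘ ofComplex) (UpperHalfPlane.I : ℂ) = 0 :=
    analyticOrderAt_eq_zero_of_ne_zero disc_mdiff _ (discriminant_ne_zero _)
  rw [hΔ, add_zero] at hmul
  rw [← hmul]
  have hE6 : analyticOrderAt (E₆ ∘ ofComplex) (UpperHalfPlane.I : ℂ) = 1 := by
    refine analyticOrderAt_eq_one_of_D_ne_zero (ModularFormClass.holo E₆) _ E6_I ?_
    rw [D_E6, E6_I, mul_zero, zero_sub]
    exact div_ne_zero (neg_ne_zero.mpr (pow_ne_zero 2 E4_I_ne_zero)) two_ne_zero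
  have hpow := analyticOrderAt_pow h6 2
  rw [hE6] at hpow
  have hcongr : ((fun w : ℍ => jFun w - 1728) ∘ ofComplex) * ((Δ : ℍ → ℂ) ∘ ofComplex)
      = (E₆ ∘ ofComplex) ^ 2 := by
    funext w
    simp only [Pi.mul_apply, Function.comp_apply, Pi.pow_apply]
    exact jFun_sub_1728_mul_disc (ofComplex w)
  rw [hcongr, hpow]
  rfl

/-! ### The elliptic point `ρ` -/

/-- The point `ρ = (-1 + i√3)/2`. -/
noncomputable def rho : ℍ :=
  ⟨(-1 / 2 : ℝ) + (Real.sqrt 3 / 2 : ℝ) * Complex.I, by simp⟩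

theorem rho_coe : (rho : ℂ) = (-1 / 2 : ℝ) + (Real.sqrt 3 / 2 : ℝ) * Complex.I := rfl

theorem rho_sq_add : (rho : ℂ) ^ 2 + (rho : ℂ) + 1 = 0 := by
  rw [rho_coe]
  have h3 : ((Real.sqrt 3 : ℝ) : ℂ) ^ 2 = 3 := by
    rw [← Complex.ofReal_pow, Real.sq_sqrt (by norm_num)]; norm_num
  push_cast
  ring_nf
  rw [Complex.I_sq, h3]
  ring

theorem rho_cube : (rho : ℂ) ^ 3 = 1 := by
  have h := rho_sq_add
  linear_combination ((rho : ℂ) - 1) * h

theorem ST_smul_rho : (ModularGroup.S * ModularGroup.T) • rho = rho := by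
  rw [mul_smul, modular_T_smul, UpperHalfPlane.ext_iff, modular_S_smul]
  simp only [coe_vadd, Complex.ofReal_one]
  have h := rho_sq_add
  have hne : (1 + (rho : ℂ)) ≠ 0 := by
    intro h1
    have : (rho : ℂ) ^ 2 = 0 := by linear_combination h - h1
    have h0 : (rho : ℂ) = 0 := pow_eq_zero_iff (two_ne_zero) |>.mp this
    exact rho.ne_zero h0
  rw [inv_eq_iff_eq_inv]
  exact eq_inv_of_mul_eq_one_left (by linear_combination -h)

theorem ST_apply_one_zero : (ModularGroup.S * ModularGroup.T : SL(2, ℤ)) 1 0 = 1 := by decide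

theorem ST_apply_one_one : (ModularGroup.S * ModularGroup.T : SL(2, ℤ)) 1 1 = 1 := by decide

theorem denom_ST_rho :
    denom ((ModularGroup.S * ModularGroup.T : SL(2, ℤ)) : GL (Fin 2) ℝ) rho = (rho : ℂ) + 1 := by
  rw [ModularGroup.denom_apply, ST_apply_one_zero, ST_apply_one_one]
  simp

theorem rho_add_one_pow_four : ((rho : ℂ) + 1) ^ (4 : ℤ) = (rho : ℂ) ^ 2 := by
  have h := rho_sq_add
  have h3 := rho_cube
  have : ((rho : ℂ) + 1) ^ (4 : ℕ) = (rho : ℂ) ^ 2 := by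
    have h1 : (rho : ℂ) + 1 = -(rho : ℂ) ^ 2 := by linear_combination h
    rw [h1]
    linear_combination ((rho : ℂ) ^ 5 + (rho : ℂ) ^ 2) * h3
  exact_mod_cast this

theorem rho_sq_ne_one : (rho : ℂ) ^ 2 ≠ 1 := by
  intro h1
  have h := rho_sq_add
  have h2 : (rho : ℂ) = -2 := by linear_combination h - h1
  have him : (rho : ℂ).im = 0 := by rw [h2]; simp
  exact (ne_of_gt rho.im_pos) him

theorem E4_rho : E₄ rho = 0 := by
  have h := E4_smul (ModularGroup.S * ModularGroup.T) rho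
  rw [ST_smul_rho, denom_ST_rho, rho_add_one_pow_four] at h
  have h' : (1 - (rho : ℂ) ^ 2) * E₄ rho = 0 := by linear_combination h
  rcases mul_eq_zero.mp h' with h1 | h1
  · exact absurd (by linear_combination -h1 : (rho : ℂ) ^ 2 = 1) rho_sq_ne_one
  · exact h1

theorem jFun_rho : jFun rho = 0 := (jFun_eq_zero_iff _).mpr E4_rho

theorem E6_rho_ne_zero : E₆ rho ≠ 0 := by
  intro h
  have := disc_eq rho
  rw [h, E4_rho] at this
  have hΔ := discriminant_ne_zero rho
  apply hΔ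
  linear_combination this / 1728

/-- `j Δ = E₄³`. -/
theorem jFun_mul_disc (z : ℍ) : jFun z * Δ z = E₄ z ^ 3 := by
  rw [jFun]
  field_simp [discriminant_ne_zero z]

/-- `j` vanishes to order exactly `3` at `ρ`. -/
theorem analyticOrderAt_jFun_rho :
    analyticOrderAt (jFun ∘ ofComplex) (rho : ℂ) = 3 := by
  have h1 := analyticAt_comp_ofComplex jFun_mdiff rho
  have h2 := analyticAt_comp_ofComplex disc_mdiff rho
  have h4 := analyticAt_comp_ofComplex (ModularFormClass.holo E₄) rho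
  have hmul := analyticOrderAt_mul h1 h2
  have hΔ : analyticOrderAt ((Δ : ℍ → ℂ) ∘ ofComplex) (rho : ℂ) = 0 :=
    analyticOrderAt_eq_zero_of_ne_zero disc_mdiff _ (discriminant_ne_zero _)
  rw [hΔ, add_zero] at hmul
  rw [← hmul]
  have hE4 : analyticOrderAt (E₄ ∘ ofComplex) (rho : ℂ) = 1 := by
    refine analyticOrderAt_eq_one_of_D_ne_zero (ModularFormClass.holo E₄) _ E4_rho ?_
    rw [D_E4, E4_rho, mul_zero, zero_sub]
    exact div_ne_zero (neg_ne_zero.mpr E6_rho_ne_zero) three_ne_zero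
  have hpow := analyticOrderAt_pow h4 3
  rw [hE4] at hpow
  have hcongr : (jFun ∘ ofComplex) * ((Δ : ℍ → ℂ) ∘ ofComplex) = (E₄ ∘ ofComplex) ^ 3 := by
    funext w
    simp only [Pi.mul_apply, Function.comp_apply, Pi.pow_apply]
    exact jFun_mul_disc (ofComplex w)
  rw [hcongr, hpow]
  rfl


end Fermat.Agent.S24.JFun
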