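import Mathlib
import Fermat.Prelude.Def_ModularCurve_X0

set_option autoImplicit false

noncomputable section

namespace Fermat.Agent.S24.QBridge

open Filter Topology

/-- `g` is given on the open unit disc by the power series `a`. -/
def HasQExp (a : PowerSeries ℂ) (g : ℂ → ℂ) : Prop :=
  ∀ q : ℂ, ‖q‖ < 1 → HasSum (fun n : ℕ => PowerSeries.coeff n a * q ^ n) (g q)

theorem HasQExp.congr {a : PowerSeries ℂ} {g h : ℂ → ℂ} (ha : HasQExp a g)
    (hgh : ∀ q : ℂ, ‖q‖ < 1 → g q = h q) : HasQExp a h := fun q hq => hgh q hq ▸ ha q hq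

theorem HasQExp.summable_norm {a : PowerSeries ℂ} {g : ℂ → ℂ} (ha : HasQExp a g)
    {q : ℂ} (hq : ‖q‖ < 1) : Summable (fun n : ℕ => ‖PowerSeries.coeff n a * q ^ n‖) := by
  set r : ℝ := (‖q‖ + 1) / 2 with hr
  have hr0 : 0 < r := by have := norm_nonneg q; rw [hr]; linarith
  have hr1 : r < 1 := by rw [hr]; linarith
  have hqr : ‖q‖ < r := by rw [hr]; linarith
  have hrn : ‖(r : ℂ)‖ < 1 := by
    rw [Complex.norm_real, Real.norm_eq_abs, abs_of_pos hr0]; exact hr1
  have htend := (ha (r : ℂ) hrn).summable.tendsto_atTop_zero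
  obtain ⟨C, hC⟩ := (Metric.isBounded_range_of_tendsto _ htend).exists_norm_le
  have hC' : ∀ n : ℕ, ‖PowerSeries.coeff n a‖ * r ^ n ≤ C := by
    intro n
    have := hC _ (Set.mem_range_self n)
    rwa [norm_mul, norm_pow, Complex.norm_real, Real.norm_eq_abs, abs_of_pos hr0] at this
  have hgeo : Summable (fun n : ℕ => C * (‖q‖ / r) ^ n) :=
    (summable_geometric_of_lt_one (div_nonneg (norm_nonneg q) hr0.le)
      ((div_lt_one hr0).mpr hqr)).mul_left C
  refine Summable.of_nonneg_of_le (fun n => norm_nonneg _) (fun n => ?_) hgeo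
  rw [norm_mul, norm_pow, div_pow]
  have h1 : ‖PowerSeries.coeff n a‖ * ‖q‖ ^ n
      = (‖PowerSeries.coeff n a‖ * r ^ n) * (‖q‖ ^ n / r ^ n) := by
    field_simp
  rw [h1]
  exact mul_le_mul_of_nonneg_right (hC' n) (by positivity)

theorem HasQExp.mul {a b : PowerSeries ℂ} {g h : ℂ → ℂ} (ha : HasQExp a g) (hb : HasQExp b h) :
    HasQExp (a * b) (fun q => g q * h q) := by
  intro q hq
  set f : ℕ → ℂ := fun n => PowerSeries.coeff n a * q ^ n with hf
  set f' : ℕ → ℂ := fun n => PowerSeries.coeff n b * q ^ n with hf'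
  have hsa : Summable (fun n => ‖f n‖) := ha.summable_norm hq
  have hsb : Summable (fun n => ‖f' n‖) := hb.summable_norm hq
  have hfun : (fun n : ℕ => PowerSeries.coeff n (a * b) * q ^ n) =
      fun n => ∑ kl ∈ Finset.HasAntidiagonal.antidiagonal n, f kl.1 * f' kl.2 := by
    funext n
    rw [PowerSeries.coeff_mul, Finset.sum_mul]
    refine Finset.sum_congr rfl fun kl hkl => ?_
    rw [hf, hf', ← Finset.HasAntidiagonal.mem_antidiagonal.mp hkl, pow_add]
    ring
  rw [hfun]
  have hsum : Summable (fun n : ℕ => ∑ kl ∈ Finset.HasAntidiagonal.antidiagonal n,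
      f kl.1 * f' kl.2) :=
    Summable.of_norm (summable_norm_sum_mul_antidiagonal_of_summable_norm hsa hsb)
  have hval : ∑' n : ℕ, ∑ kl ∈ Finset.HasAntidiagonal.antidiagonal n, f kl.1 * f' kl.2
      = g q * h q := by
    rw [← tsum_mul_tsum_eq_tsum_sum_antidiagonal_of_summable_norm hsa hsb,
      (ha q hq).tsum_eq, (hb q hq).tsum_eq]
  have hfin := hsum.hasSum
  rw [hval] at hfin
  exact hfin

theorem hasQExp_one : HasQExp 1 (fun _ => 1) := by
  intro q _
  have h := hasSum_ite_eq (0 : ℕ) (1 : ℂ)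
  convert h using 2 with n
  by_cases hn : n = 0
  · subst hn; simp
  · simp [PowerSeries.coeff_one, hn]

theorem HasQExp.pow {a : PowerSeries ℂ} {g : ℂ → ℂ} (ha : HasQExp a g) (k : ℕ) :
    HasQExp (a ^ k) (fun q => g q ^ k) := by
  induction k with
  | zero => simpa using hasQExp_one
  | succ k ih => simpa [pow_succ] using ih.mul ha

/-- The power series is determined by the function. -/
theorem HasQExp.hasFPowerSeriesOnBall {a : PowerSeries ℂ} {g : ℂ → ℂ} (ha : HasQExp a g) :
    HasFPowerSeriesOnBall g (FormalMultilinearSeries.ofScalars ℂ (fun n => PowerSeries.coeff n a))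
      0 1 := by
  constructor
  · refine le_of_forall_lt_imp_le_of_dense fun r hr => ?_
    lift r to NNReal using hr.ne_top
    apply FormalMultilinearSeries.le_radius_of_summable
    have hr' : ‖((r : ℝ) : ℂ)‖ < 1 := by
      rw [Complex.norm_real, Real.norm_eq_abs, abs_of_nonneg r.coe_nonneg]
      exact_mod_cast hr
    have := ha.summable_norm hr'
    simpa [norm_mul, norm_pow, FormalMultilinearSeries.ofScalars_norm] using this
  · simp
  · intro y hy
    rw [← ENNReal.coe_one, Metric.eball_coe, NNReal.coe_one, mem_ball_zero_iff] at hy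
    simpa [FormalMultilinearSeries.ofScalars_apply_eq, mul_comm] using ha y hy

theorem HasQExp.unique {a b : PowerSeries ℂ} {g : ℂ → ℂ} (ha : HasQExp a g) (hb : HasQExp b g) :
    a = b := by
  have h := ha.hasFPowerSeriesOnBall.hasFPowerSeriesAt.eq_formalMultilinearSeries
    hb.hasFPowerSeriesOnBall.hasFPowerSeriesAt
  ext n
  have h2 := congrArg (fun p => FormalMultilinearSeries.coeff p n) h
  simpa [FormalMultilinearSeries.coeff_ofScalars] using h2

theorem HasQExp.of_differentiableOn {g : ℂ → ℂ}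
    (hg : DifferentiableOn ℂ g (Metric.ball 0 1)) :
    HasQExp (PowerSeries.mk fun n => ((n.factorial : ℂ))⁻¹ * iteratedDeriv n g 0) g := by
  intro q hq
  have h := Complex.hasSum_taylorSeries_on_ball hg (z := q) (by simpa using hq)
  have hfun : (fun n : ℕ => PowerSeries.coeff n
      (PowerSeries.mk fun n => ((n.factorial : ℂ))⁻¹ * iteratedDeriv n g 0) * q ^ n) =
      fun n : ℕ => ((n.factorial : ℂ))⁻¹ • (q - 0) ^ n • iteratedDeriv n g 0 := by
    funext n
    rw [PowerSeries.coeff_mk, sub_zero, smul_eq_mul, smul_eq_mul]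
    ring
  rw [hfun]
  exact h

theorem HasQExp.inv {a b : PowerSeries ℂ} {g : ℂ → ℂ} (ha : HasQExp a g)
    (hg : DifferentiableOn ℂ g (Metric.ball 0 1)) (hne : ∀ q : ℂ, ‖q‖ < 1 → g q ≠ 0)
    (hab : a * b = 1) : HasQExp b (fun q => (g q)⁻¹) := by
  have hdiff : DifferentiableOn ℂ (fun q => (g q)⁻¹) (Metric.ball 0 1) :=
    hg.inv (fun q hq => hne q (by simpa using hq))
  have hc := HasQExp.of_differentiableOn hdiff
  set c := PowerSeries.mk fun n => ((n.factorial : ℂ))⁻¹ * iteratedDeriv n (fun q => (g q)⁻¹) 0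
  have h1 : HasQExp (a * c) (fun _ => 1) :=
    (ha.mul hc).congr fun q hq => mul_inv_cancel₀ (hne q hq)
  have hac : a * c = 1 := h1.unique hasQExp_one
  have : b = c := by
    calc b = b * (a * c) := by rw [hac, mul_one]
      _ = (a * b) * c := by ring
      _ = c := by rw [hab, one_mul]
  exact this ▸ hc


section EtaProd

open scoped PowerSeries.WithPiTopology

theorem hasQExp_one_sub_X_pow (n : ℕ) :
    HasQExp (1 - PowerSeries.X ^ (n + 1)) (fun q => 1 - q ^ (n + 1)) := by
  intro q _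
  have h1 := hasSum_ite_eq (0 : ℕ) (1 : ℂ)
  have h2 := hasSum_ite_eq (n + 1 : ℕ) (q ^ (n + 1) : ℂ)
  have h := h1.sub h2
  have hfun : (fun k : ℕ => PowerSeries.coeff k (1 - PowerSeries.X ^ (n + 1) : PowerSeries ℂ)
      * q ^ k) = fun b : ℕ => (if b = 0 then (1 : ℂ) else 0) -
        if b = n + 1 then q ^ (n + 1) else 0 := by
    funext k
    rw [map_sub, PowerSeries.coeff_one, PowerSeries.coeff_X_pow]
    by_cases hk0 : k = 0
    · subst hk0; simp
    · by_cases hk : k = n + 1
      · subst hk; simp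
      · simp [hk0, hk]
  rw [hfun]
  exact h

/-- Finite partial products of the eta product over `ℂ`. -/
def etaPartial (s : Finset ℕ) : PowerSeries ℂ := ∏ n ∈ s, (1 - PowerSeries.X ^ (n + 1))

theorem hasQExp_etaPartial (s : Finset ℕ) :
    HasQExp (etaPartial s) (fun q => ∏ n ∈ s, (1 - q ^ (n + 1))) := by
  classical
  induction s using Finset.induction_on with
  | empty => simpa [etaPartial] using hasQExp_one
  | insert a s ha ih =>
    have h := (hasQExp_one_sub_X_pow a).mul ih
    simpa [etaPartial, Finset.prod_insert ha] using h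

theorem norm_coeff_etaPartial_le {r : ℝ} (hr : 0 ≤ r) (s : Finset ℕ) (k : ℕ) :
    ‖PowerSeries.coeff k (etaPartial s)‖ * r ^ k ≤ ∏ n ∈ s, (1 + r ^ (n + 1)) := by
  classical
  induction s using Finset.induction_on generalizing k with
  | empty =>
    simp only [etaPartial, Finset.prod_empty, PowerSeries.coeff_one]
    by_cases hk : k = 0
    · subst hk; simp
    · simp [hk]
  | insert a s ha ih =>
    have hM : 0 ≤ ∏ n ∈ s, (1 + r ^ (n + 1)) :=
      Finset.prod_nonneg fun n _ => by positivity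
    rw [Finset.prod_insert ha]
    have hcoeff : PowerSeries.coeff k (etaPartial (insert a s)) =
        PowerSeries.coeff k (etaPartial s) -
          if a + 1 ≤ k then PowerSeries.coeff (k - (a + 1)) (etaPartial s) else 0 := by
      have : etaPartial (insert a s) = etaPartial s - etaPartial s * PowerSeries.X ^ (a + 1) := by
        simp only [etaPartial, Finset.prod_insert ha]; ring
      rw [this, map_sub, PowerSeries.coeff_mul_X_pow']
    rw [hcoeff]
    by_cases hak : a + 1 ≤ k
    · rw [if_pos hak]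
      have h1 := ih k
      have h2 := ih (k - (a + 1))
      have hpow : r ^ k = r ^ (k - (a + 1)) * r ^ (a + 1) := by
        rw [← pow_add]; congr 1; omega
      calc ‖PowerSeries.coeff k (etaPartial s) - PowerSeries.coeff (k - (a + 1)) (etaPartial s)‖
            * r ^ k
          ≤ (‖PowerSeries.coeff k (etaPartial s)‖
              + ‖PowerSeries.coeff (k - (a + 1)) (etaPartial s)‖) * r ^ k :=
            mul_le_mul_of_nonneg_right (norm_sub_le _ _) (by positivity)
        _ = ‖PowerSeries.coeff k (etaPartial s)‖ * r ^ k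
              + (‖PowerSeries.coeff (k - (a + 1)) (etaPartial s)‖ * r ^ (k - (a + 1)))
                * r ^ (a + 1) := by rw [hpow]; ring
        _ ≤ ∏ n ∈ s, (1 + r ^ (n + 1)) + (∏ n ∈ s, (1 + r ^ (n + 1))) * r ^ (a + 1) :=
            add_le_add h1 (mul_le_mul_of_nonneg_right h2 (by positivity))
        _ = (1 + r ^ (a + 1)) * ∏ n ∈ s, (1 + r ^ (n + 1)) := by ring
    · rw [if_neg hak, sub_zero]
      calc ‖PowerSeries.coeff k (etaPartial s)‖ * r ^ k ≤ ∏ n ∈ s, (1 + r ^ (n + 1)) := ih k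
        _ ≤ (1 + r ^ (a + 1)) * ∏ n ∈ s, (1 + r ^ (n + 1)) :=
            le_mul_of_one_le_left hM (by have : 0 ≤ r ^ (a + 1) := by positivity
                                         linarith)

theorem prod_one_add_pow_le {r : ℝ} (hr : 0 ≤ r) (hr1 : r < 1) (s : Finset ℕ) :
    ∏ n ∈ s, (1 + r ^ (n + 1)) ≤ Real.exp (∑' n : ℕ, r ^ (n + 1)) := by
  have hsum : Summable (fun n : ℕ => r ^ (n + 1)) :=
    (summable_nat_add_iff 1).mpr (summable_geometric_of_lt_one hr hr1)
  calc ∏ n ∈ s, (1 + r ^ (n + 1)) ≤ ∏ n ∈ s, Real.exp (r ^ (n + 1)) :=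
        Finset.prod_le_prod (fun n _ => by positivity)
          (fun n _ => by have := Real.add_one_le_exp (r ^ (n + 1)); linarith)
    _ = Real.exp (∑ n ∈ s, r ^ (n + 1)) := (Real.exp_sum _ _).symm
    _ ≤ Real.exp (∑' n : ℕ, r ^ (n + 1)) :=
        Real.exp_le_exp.mpr (hsum.sum_le_tsum s (fun n _ => by positivity))

/-- The formal eta product, with complex coefficients. -/
def etaProdC : PowerSeries ℂ := PowerSeries.map (Int.castRingHom ℂ) ModularCurve.etaProd

theorem coeff_etaPartial_eventually_eq (d : ℕ) :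
    ∀ᶠ s in (atTop : Filter (Finset ℕ)),
      PowerSeries.coeff d (etaPartial s) = PowerSeries.coeff d etaProdC := by
  have h := (PowerSeries.WithPiTopology.multipliable_one_sub_X_pow ℤ).hasProd
  rw [HasProd, PowerSeries.WithPiTopology.tendsto_iff_coeff_tendsto] at h
  have hd := h d
  rw [nhds_discrete, tendsto_pure] at hd
  filter_upwards [hd] with s hs
  have hmap : etaPartial s = PowerSeries.map (Int.castRingHom ℂ)
      (∏ n ∈ s, (1 - PowerSeries.X ^ (n + 1))) := by
    simp [etaPartial, map_prod]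
  rw [hmap, etaProdC, PowerSeries.coeff_map, PowerSeries.coeff_map]
  exact congrArg _ hs

theorem hasQExp_etaProdC : HasQExp etaProdC (fun q => ∏' n : ℕ, (1 - q ^ (n + 1))) := by
  intro q hq
  set r : ℝ := (‖q‖ + 1) / 2 with hr
  have hr0 : 0 < r := by have := norm_nonneg q; rw [hr]; linarith
  have hr1 : r < 1 := by rw [hr]; linarith
  have hqr : ‖q‖ < r := by rw [hr]; linarith
  set B : ℝ := Real.exp (∑' n : ℕ, r ^ (n + 1)) with hB
  set bound : ℕ → ℝ := fun k => B * (‖q‖ / r) ^ k with hbound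
  have hbsum : Summable bound :=
    (summable_geometric_of_lt_one (div_nonneg (norm_nonneg q) hr0.le)
      ((div_lt_one hr0).mpr hqr)).mul_left B
  set f : Finset ℕ → ℕ → ℂ := fun s k => PowerSeries.coeff k (etaPartial s) * q ^ k with hf
  set g : ℕ → ℂ := fun k => PowerSeries.coeff k etaProdC * q ^ k with hg
  have hfb : ∀ s k, ‖f s k‖ ≤ bound k := by
    intro s k
    have h1 := (norm_coeff_etaPartial_le hr0.le s k).trans (prod_one_add_pow_le hr0.le hr1 s)
    rw [hf, hbound]
    simp only [norm_mul, norm_pow, div_pow]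
    have h2 : ‖PowerSeries.coeff k (etaPartial s)‖ * ‖q‖ ^ k
        = (‖PowerSeries.coeff k (etaPartial s)‖ * r ^ k) * (‖q‖ ^ k / r ^ k) := by
      field_simp
    rw [h2]
    exact mul_le_mul_of_nonneg_right h1 (by positivity)
  have hab : ∀ k, Tendsto (fun s => f s k) atTop (𝓝 (g k)) := by
    intro k
    refine tendsto_nhds_of_eventually_eq ?_
    filter_upwards [coeff_etaPartial_eventually_eq k] with s hs
    rw [hf, hg]; simp only; rw [hs]
  have htan := tendsto_tsum_of_dominated_convergence hbsum hab (Eventually.of_forall hfb)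
  have hfs : ∀ s, ∑' k, f s k = ∏ n ∈ s, (1 - q ^ (n + 1)) := fun s =>
    (hasQExp_etaPartial s q hq).tsum_eq
  simp_rw [hfs] at htan
  have hprod : Tendsto (fun s : Finset ℕ => ∏ n ∈ s, (1 - q ^ (n + 1))) atTop
      (𝓝 (∏' n : ℕ, (1 - q ^ (n + 1)))) := (ModularForm.multipliable_one_sub_pow hq).hasProd
  have hval : ∑' k, g k = ∏' n : ℕ, (1 - q ^ (n + 1)) := tendsto_nhds_unique htan hprod
  have hgb : ∀ k, ‖g k‖ ≤ bound k := by
    intro k
    obtain ⟨s, hs⟩ := (coeff_etaPartial_eventually_eq k).exists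
    have := hfb s k
    rw [hf] at this; simp only at this; rw [hs] at this
    exact this
  have hgsum : Summable g := Summable.of_norm_bounded hbsum hgb
  have hfin := hgsum.hasSum
  rw [hval] at hfin
  exact hfin

end EtaProd


section Main

open ModularForm EisensteinSeries UpperHalfPlane
open scoped MatrixGroups

/-- The formal `E₄`, with complex coefficients. -/
def e4C : PowerSeries ℂ := PowerSeries.map (Int.castRingHom ℂ) ModularCurve.eisenstein4

theorem qExpansion_E4 : qExpansion 1 E₄ = e4C := by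
  ext m
  have hb : bernoulli 4 = -1 / 30 := by
    rw [bernoulli_eq_bernoulli'_of_ne_one (by norm_num), bernoulli'_four]
  rw [E_qExpansion_coeff (by norm_num) ⟨2, rfl⟩ m, e4C, PowerSeries.coeff_map,
    ModularCurve.eisenstein4, PowerSeries.coeff_mk, hb]
  by_cases hm : m = 0
  · simp [hm]
  · simp only [hm, if_false, ArithmeticFunction.sigma_apply]
    push_cast
    norm_num

theorem hasQExp_E4 : HasQExp e4C (cuspFunction 1 E₄) := by
  intro q hq
  have h := hasSum_qExpansion_of_norm_lt (h := 1) (f := E₄) one_pos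
    (SlashInvariantFormClass.periodic_comp_ofComplex E₄ one_mem_strictPeriods_SL)
    (ModularFormClass.holo E₄) (ModularFormClass.bdd_at_infty E₄) hq
  rw [qExpansion_E4] at h
  simpa [smul_eq_mul] using h

/-- `(∏ (1 - Xⁿ))²⁴` with complex coefficients. -/
def etaUnitC : PowerSeries ℂ := PowerSeries.map (Int.castRingHom ℂ) ModularCurve.dedekindEtaUnit

/-- The inverse of `(∏ (1 - Xⁿ))²⁴` with complex coefficients. -/
def etaUnitInvC : PowerSeries ℂ :=
  PowerSeries.map (Int.castRingHom ℂ) ModularCurve.dedekindEtaUnitInv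

/-- `q * j` as a formal power series with complex coefficients. -/
def jNumC : PowerSeries ℂ := PowerSeries.map (Int.castRingHom ℂ) ModularCurve.jNum

theorem hasQExp_etaUnitC : HasQExp etaUnitC (fun q => (∏' n : ℕ, (1 - q ^ (n + 1))) ^ 24) := by
  have h := hasQExp_etaProdC.pow 24
  have he : etaUnitC = etaProdC ^ 24 := by
    rw [etaUnitC, ModularCurve.dedekindEtaUnit, map_pow, etaProdC]
  rw [he]
  exact h

theorem tprod_one_sub_pow_ne_zero {q : ℂ} (hq : ‖q‖ < 1) : ∏' n : ℕ, (1 - q ^ (n + 1)) ≠ 0 := by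
  have h := tprod_one_add_ne_zero_of_summable (f := fun n : ℕ => -q ^ (n + 1)) ?_ ?_
  · simpa [sub_eq_add_neg] using h
  · intro i h0
    have h1 : q ^ (i + 1) = 1 := by
      have : (1 : ℂ) + -q ^ (i + 1) = 0 := h0
      linear_combination -this
    have h2 : ‖q‖ ^ (i + 1) = 1 := by rw [← norm_pow, h1, norm_one]
    have h3 : ‖q‖ ^ (i + 1) < 1 := pow_lt_one₀ (norm_nonneg q) hq (by omega)
    linarith
  · have hs : Summable (fun n : ℕ => ‖q‖ ^ (n + 1)) :=
      (summable_nat_add_iff 1).mpr (summable_geometric_of_lt_one (norm_nonneg q) hq)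
    simpa [norm_pow] using hs

theorem hasQExp_etaUnitInvC :
    HasQExp etaUnitInvC (fun q => ((∏' n : ℕ, (1 - q ^ (n + 1))) ^ 24)⁻¹) := by
  refine hasQExp_etaUnitC.inv ?_ ?_ ?_
  · exact differentiableOn_tprod_one_sub_pow.fun_pow 24
  · intro q hq
    exact pow_ne_zero 24 (tprod_one_sub_pow_ne_zero hq)
  · rw [etaUnitC, etaUnitInvC, ← map_mul, ModularCurve.dedekindEtaUnit_mul_inv, map_one]

theorem hasQExp_jNumC : HasQExp jNumC
    (fun q => cuspFunction 1 E₄ q ^ 3 * ((∏' n : ℕ, (1 - q ^ (n + 1))) ^ 24)⁻¹) := by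
  have h := (hasQExp_E4.pow 3).mul hasQExp_etaUnitInvC
  have he : jNumC = e4C ^ 3 * etaUnitInvC := by
    rw [jNumC, ModularCurve.jNum, map_mul, map_pow, e4C, etaUnitInvC]
  rw [he]
  exact h

/-- **q-expansion of the analytic `j`**: `q · j(τ) = ∑ₙ (jNum)ₙ qⁿ`, i.e. the analytic
`j = E₄³/Δ` has the formal Laurent expansion `ModularCurve.jq`. -/
theorem hasSum_jNum (τ : ℍ) :
    HasSum (fun n : ℕ => ((PowerSeries.coeff n ModularCurve.jNum : ℤ) : ℂ)
        * Function.Periodic.qParam 1 τ ^ n)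
      (Function.Periodic.qParam 1 τ * (E₄ τ ^ 3 / discriminant τ)) := by
  have hq : ‖Function.Periodic.qParam 1 (τ : ℂ)‖ < 1 :=
    Function.Periodic.norm_qParam_lt_one one_pos τ.im_pos
  have h := hasQExp_jNumC _ hq
  have hE : cuspFunction 1 E₄ (Function.Periodic.qParam 1 τ) = E₄ τ :=
    eq_cuspFunction τ one_ne_zero
      (SlashInvariantFormClass.periodic_comp_ofComplex E₄ one_mem_strictPeriods_SL)
  have hΔ : discriminant τ = Function.Periodic.qParam 1 τ *
      (∏' n : ℕ, (1 - Function.Periodic.qParam 1 (τ : ℂ) ^ (n + 1))) ^ 24 := by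
    rw [discriminant_eq_q_prod, (multipliable_one_sub_pow hq).tprod_pow 24]
  have hq0 : Function.Periodic.qParam 1 (τ : ℂ) ≠ 0 := Function.Periodic.qParam_ne_zero _
  have hP : (∏' n : ℕ, (1 - Function.Periodic.qParam 1 (τ : ℂ) ^ (n + 1))) ^ 24 ≠ 0 :=
    pow_ne_zero 24 (tprod_one_sub_pow_ne_zero hq)
  have hval : cuspFunction 1 E₄ (Function.Periodic.qParam 1 τ) ^ 3 *
      ((∏' n : ℕ, (1 - Function.Periodic.qParam 1 (τ : ℂ) ^ (n + 1))) ^ 24)⁻¹
      = Function.Periodic.qParam 1 τ * (E₄ τ ^ 3 / discriminant τ) := by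
    rw [hE, hΔ]
    field_simp
  rw [← hval]
  have hfun : (fun n : ℕ => ((PowerSeries.coeff n ModularCurve.jNum : ℤ) : ℂ)
        * Function.Periodic.qParam 1 τ ^ n) =
      fun n : ℕ => PowerSeries.coeff n jNumC * Function.Periodic.qParam 1 (τ : ℂ) ^ n := by
    funext n
    rw [jNumC, PowerSeries.coeff_map]
    rfl
  rw [hfun]
  exact h


/-- Absolute summability of the q-expansion of `q · j`. -/
theorem summable_norm_jNum (τ : ℍ) :
    Summable (fun n : ℕ => ‖((PowerSeries.coeff n ModularCurve.jNum : ℤ) : ℂ)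
        * Function.Periodic.qParam 1 τ ^ n‖) := by
  have hq : ‖Function.Periodic.qParam 1 (τ : ℂ)‖ < 1 :=
    Function.Periodic.norm_qParam_lt_one one_pos τ.im_pos
  have h := hasQExp_jNumC.summable_norm hq
  have hfun : (fun n : ℕ => ‖((PowerSeries.coeff n ModularCurve.jNum : ℤ) : ℂ)
        * Function.Periodic.qParam 1 τ ^ n‖) =
      fun n : ℕ => ‖PowerSeries.coeff n jNumC * Function.Periodic.qParam 1 (τ : ℂ) ^ n‖ := by
    funext n
    rw [jNumC, PowerSeries.coeff_map]
    rfl
  rw [hfun]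
  exact h

/-- Coefficients of the formal Laurent series `jq` in terms of `jNum`. -/
theorem coeff_jq (n : ℕ) :
    ModularCurve.jq.coeff ((n : ℤ) - 1) = ((PowerSeries.coeff n ModularCurve.jNum : ℤ) : ℚ) := by
  rw [ModularCurve.jq, HahnSeries.coeff_single_mul, one_mul,
    show ((n : ℤ) - 1 - (-1)) = (n : ℤ) by ring, HahnSeries.ofPowerSeries_apply_coeff,
    ModularCurve.jNumQ, PowerSeries.coeff_map]
  rfl

/-- Laurent form: `j(τ) = ∑_{n ≥ 0} jq.coeff (n - 1) · q^(n-1)` (written multiplied by `q`). -/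
theorem hasSum_jq (τ : ℍ) :
    HasSum (fun n : ℕ => ((ModularCurve.jq.coeff ((n : ℤ) - 1) : ℚ) : ℂ)
        * Function.Periodic.qParam 1 τ ^ n)
      (Function.Periodic.qParam 1 τ * (E₄ τ ^ 3 / discriminant τ)) := by
  have h := hasSum_jNum τ
  have hfun : (fun n : ℕ => ((ModularCurve.jq.coeff ((n : ℤ) - 1) : ℚ) : ℂ)
        * Function.Periodic.qParam 1 τ ^ n) =
      fun n : ℕ => ((PowerSeries.coeff n ModularCurve.jNum : ℤ) : ℂ)
        * Function.Periodic.qParam 1 τ ^ n := by
    funext n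
    rw [coeff_jq]
    push_cast
    rfl
  rw [hfun]
  exact h

end Main

end Fermat.Agent.S24.QBridge
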