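import Fermat.Agent.S24.HolH

set_option autoImplicit false
set_option linter.dupNamespace false

open scoped Manifold MatrixGroups Topology
open UpperHalfPlane Filter

noncomputable section

namespace Fermat.Agent.S24.HolH

/-- `f` read as a function on `ℂ` (junk outside the upper half plane). -/
def toC (f : HolH) : ℂ → ℂ := (f : ℍ → ℂ) ∘ ofComplex

theorem toC_apply (f : HolH) (τ : ℍ) : toC f (τ : ℂ) = (f : ℍ → ℂ) τ := by
  simp [toC, ofComplex_apply]

theorem toC_mul (f g : HolH) : toC (f * g) = toC f * toC g := rfl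

theorem toC_add (f g : HolH) : toC (f + g) = toC f + toC g := rfl

theorem toC_analyticAt (f : HolH) (τ : ℍ) : AnalyticAt ℂ (toC f) (τ : ℂ) := HolH.analyticAt f τ

/-- The vanishing order of a holomorphic function at a point of the upper half plane. -/
def ordAt (τ0 : ℍ) (f : HolH) : ℕ∞ := analyticOrderAt (toC f) (τ0 : ℂ)

theorem ordAt_eq_top_iff {τ0 : ℍ} {f : HolH} : ordAt τ0 f = ⊤ ↔ f = 0 := by
  constructor
  · intro h
    rw [ordAt, analyticOrderAt_eq_top] at h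
    have hdiff := mem_HolH_iff_differentiableOn.mp f.2
    have han : AnalyticOnNhd ℂ (toC f) {z : ℂ | 0 < z.im} :=
      hdiff.analyticOnNhd isOpen_upperHalfPlaneSet
    have hpre : IsPreconnected {z : ℂ | 0 < z.im} :=
      (Complex.isConnected_of_upperHalfPlane subset_rfl (by grind)).isPreconnected
    have heq := han.eqOn_zero_of_preconnected_of_eventuallyEq_zero hpre τ0.im_pos h
    apply Subtype.ext
    funext w
    have := heq w.im_pos
    rw [toC_apply] at this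
    simpa using this
  · rintro rfl
    rw [ordAt, analyticOrderAt_eq_top]
    exact Eventually.of_forall fun z => rfl

theorem ordAt_ne_top {τ0 : ℍ} {f : HolH} (hf : f ≠ 0) : ordAt τ0 f ≠ ⊤ :=
  fun h => hf (ordAt_eq_top_iff.mp h)

theorem ordAt_mul (τ0 : ℍ) (f g : HolH) : ordAt τ0 (f * g) = ordAt τ0 f + ordAt τ0 g := by
  rw [ordAt, toC_mul, analyticOrderAt_mul (toC_analyticAt f τ0) (toC_analyticAt g τ0)]
  rfl

theorem min_le_ordAt_add (τ0 : ℍ) (f g : HolH) :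
    min (ordAt τ0 f) (ordAt τ0 g) ≤ ordAt τ0 (f + g) := by
  rw [ordAt, ordAt, ordAt, toC_add]
  exact le_analyticOrderAt_add

theorem ordAt_eq_zero_iff {τ0 : ℍ} {f : HolH} : ordAt τ0 f = 0 ↔ (f : ℍ → ℂ) τ0 ≠ 0 := by
  rw [ordAt, (toC_analyticAt f τ0).analyticOrderAt_eq_zero, toC_apply]

theorem ordAt_algebraMap {τ0 : ℍ} {c : ℂ} (hc : c ≠ 0) : ordAt τ0 (algebraMap ℂ HolH c) = 0 := by
  rw [ordAt_eq_zero_iff]
  exact hc

theorem ordAt_one (τ0 : ℍ) : ordAt τ0 (1 : HolH) = 0 := by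
  rw [ordAt_eq_zero_iff]
  exact one_ne_zero

/-- Möbius transport of the order: the order of `f ∘ g` at `τ0` is the order of `f` at `g • τ0`. -/
theorem ordAt_compSL (g : SL(2, ℤ)) (τ0 : ℍ) (f : HolH) :
    ordAt τ0 (compSL g f) = ordAt (g • τ0) f := by
  have hg' : (0 : ℝ) < ((g : GL (Fin 2) ℝ)).det.val := by simp
  have hg : (0 : ℝ) < ((g : GL (Fin 2) ℝ)).val.det := hg'
  have hcomp : toC (compSL g f) = toC f ∘ (fun z : ℂ => ((g : GL (Fin 2) ℝ) • ofComplex z : ℍ)) := by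
    funext z
    simp only [toC, Function.comp_apply, compSL_apply, ofComplex_apply]
    rfl
  rw [ordAt, hcomp,
    analyticOrderAt_comp_of_deriv_ne_zero (τ0.analyticAt_smul hg) (τ0.deriv_smul_ne_zero hg)]
  simp only [ofComplex_apply]
  rfl

/-- The integer-valued order (junk value `0` at `f = 0`). -/
def ordZ (τ0 : ℍ) (f : HolH) : ℤ := ((ordAt τ0 f).toNat : ℤ)

theorem ordZ_nonneg (τ0 : ℍ) (f : HolH) : 0 ≤ ordZ τ0 f := Int.natCast_nonneg _

theorem ordZ_mul (τ0 : ℍ) {a b : HolH} (ha : a ≠ 0) (hb : b ≠ 0) :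
    ordZ τ0 (a * b) = ordZ τ0 a + ordZ τ0 b := by
  rw [ordZ, ordZ, ordZ, ordAt_mul, ENat.toNat_add (ordAt_ne_top ha) (ordAt_ne_top hb)]
  push_cast
  rfl

theorem min_le_ordZ_add (τ0 : ℍ) {a b : HolH} (ha : a ≠ 0) (hb : b ≠ 0) (hab : a + b ≠ 0) :
    min (ordZ τ0 a) (ordZ τ0 b) ≤ ordZ τ0 (a + b) := by
  have h := min_le_ordAt_add τ0 a b
  obtain ⟨n, hn⟩ := ENat.ne_top_iff_exists.mp (ordAt_ne_top (τ0 := τ0) ha)
  obtain ⟨m, hm⟩ := ENat.ne_top_iff_exists.mp (ordAt_ne_top (τ0 := τ0) hb)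
  obtain ⟨k, hk⟩ := ENat.ne_top_iff_exists.mp (ordAt_ne_top (τ0 := τ0) hab)
  rw [← hn, ← hm, ← hk] at h
  simp only [ordZ, ← hn, ← hm, ← hk, ENat.toNat_natCast]
  have h' : min n m ≤ k := by
    rcases le_total n m with h1 | h1
    · rw [min_eq_left h1]
      rw [min_eq_left (by exact_mod_cast h1)] at h
      exact_mod_cast h
    · rw [min_eq_right h1]
      rw [min_eq_right (by exact_mod_cast h1)] at h
      exact_mod_cast h
  exact_mod_cast h'

theorem ordZ_algebraMap {τ0 : ℍ} {c : ℂ} (hc : c ≠ 0) : ordZ τ0 (algebraMap ℂ HolH c) = 0 := by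
  rw [ordZ, ordAt_algebraMap hc]
  rfl

theorem ordZ_one (τ0 : ℍ) : ordZ τ0 (1 : HolH) = 0 := by
  rw [ordZ, ordAt_one]
  rfl

theorem ordZ_compSL (g : SL(2, ℤ)) (τ0 : ℍ) (f : HolH) :
    ordZ τ0 (compSL g f) = ordZ (g • τ0) f := by
  rw [ordZ, ordZ, ordAt_compSL]

theorem ordZ_eq_zero_iff {τ0 : ℍ} {f : HolH} (hf : f ≠ 0) :
    ordZ τ0 f = 0 ↔ (f : ℍ → ℂ) τ0 ≠ 0 := by
  rw [← ordAt_eq_zero_iff, ordZ]
  obtain ⟨n, hn⟩ := ENat.ne_top_iff_exists.mp (ordAt_ne_top (τ0 := τ0) hf)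
  rw [← hn]
  simp

theorem ordZ_pos_iff {τ0 : ℍ} {f : HolH} (hf : f ≠ 0) :
    0 < ordZ τ0 f ↔ (f : ℍ → ℂ) τ0 = 0 := by
  have h := ordZ_eq_zero_iff (τ0 := τ0) hf
  have h0 := ordZ_nonneg τ0 f
  constructor
  · intro hpos
    by_contra hne
    exact absurd (h.mpr hne) (ne_of_gt hpos)
  · intro hz
    rcases h0.lt_or_eq with hlt | heq
    · exact hlt
    · exact absurd hz (h.mp heq.symm)

end Fermat.Agent.S24.HolH

end
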