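import Mathlib

/-!
# Hermite normal form for `diag(d, 1) * g`, `g ∈ SL(2, ℤ)`  (S24, task 64 / Q3)

For `g ∈ SL(2, ℤ)` and `d ≥ 1` there are `γ ∈ SL(2, ℤ)`, `a d' : ℕ`, `b : ℤ` with
`a * d' = d`, `0 ≤ b < d'`, `a = gcd (d, g 1 0)` and
`diag(d, 1) * g = γ * !![a, b; 0, d']`.  Consequently `d • (g • τ) = γ • ((a τ + b) / d')`
in the upper half plane and `f (d • (g • τ)) = f ((a τ + b) / d')` for every
`SL(2, ℤ)`-invariant `f`.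
-/

set_option autoImplicit false

open UpperHalfPlane Matrix
open scoped MatrixGroups

namespace Fermat.Agent.S24.HNF

/-- Integer Hermite normal form, entrywise:
`!![d, 0; 0, 1] * g = γ * !![a, b; 0, d']`. -/
theorem exists_hnf_entries (d : ℕ) (hd : 0 < d) (g : SL(2, ℤ)) :
    ∃ (γ : SL(2, ℤ)) (a d' : ℕ) (b : ℤ), 0 < a ∧ 0 < d' ∧ a * d' = d ∧ 0 ≤ b ∧ b < d' ∧
      a = Int.gcd d (g 1 0) ∧
      (d : ℤ) * g 0 0 = γ 0 0 * a ∧ (d : ℤ) * g 0 1 = γ 0 0 * b + γ 0 1 * d' ∧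
      g 1 0 = γ 1 0 * a ∧ g 1 1 = γ 1 0 * b + γ 1 1 * d' := by
  set p : ℤ := g 0 0 with hp
  set q : ℤ := g 0 1 with hq
  set c : ℤ := g 1 0 with hc
  set s : ℤ := g 1 1 with hs
  have hdet : p * s - q * c = 1 := by
    have h := g.det_coe
    rw [Matrix.det_fin_two] at h
    exact h
  set a : ℕ := Int.gcd d c with ha
  have hd0 : (d : ℤ) ≠ 0 := by exact_mod_cast hd.ne'
  have ha0 : a ≠ 0 := by
    rw [ha, Ne, Int.gcd_eq_zero_iff]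
    exact fun h => hd0 h.1
  have hapos : 0 < a := Nat.pos_of_ne_zero ha0
  have haZ : (a : ℤ) ≠ 0 := by exact_mod_cast ha0
  have hadvd : a ∣ d := by
    have h : (a : ℤ) ∣ (d : ℤ) := Int.gcd_dvd_left (d : ℤ) c
    exact_mod_cast h
  obtain ⟨d', hd'⟩ := hadvd
  obtain ⟨c', hc'⟩ : (a : ℤ) ∣ c := Int.gcd_dvd_right (d : ℤ) c
  have hd'pos : 0 < d' := by
    rcases Nat.eq_zero_or_pos d' with h | h
    · rw [h, mul_zero] at hd'; omega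
    · exact h
  have hd'Z : (d : ℤ) = a * d' := by exact_mod_cast hd'
  -- coprimality of `d' * p` and `c'`
  have hcop1 : IsCoprime (d' : ℤ) c' := by
    have hg1 := Int.gcd_div_gcd_div_gcd (i := (d : ℤ)) (j := c) (by rw [← ha]; exact hapos)
    rw [← ha] at hg1
    have e1 : (d : ℤ) / (a : ℤ) = d' := by
      rw [hd'Z, Int.mul_ediv_cancel_left _ haZ]
    have e2 : c / (a : ℤ) = c' := by
      rw [hc', Int.mul_ediv_cancel_left _ haZ]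
    rw [e1, e2] at hg1
    exact Int.isCoprime_iff_gcd_eq_one.mpr hg1
  have hcop2 : IsCoprime p c' := by
    have h3 : IsCoprime p c := ⟨s, -q, by linear_combination hdet⟩
    rw [hc'] at h3
    exact IsCoprime.of_mul_right_right h3
  obtain ⟨u, v, huv⟩ : IsCoprime ((d' : ℤ) * p) c' := IsCoprime.mul_left hcop1 hcop2
  -- `b₀ = k * d' + b`
  set b₀ : ℤ := u * (d * q) + v * s with hb₀
  set k : ℤ := b₀ / d' with hk
  set b : ℤ := b₀ % d' with hb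
  have hd'Z0 : (d' : ℤ) ≠ 0 := by exact_mod_cast hd'pos.ne'
  have hbk : b₀ = k * d' + b := by
    rw [hk, hb, mul_comm]; exact (Int.mul_ediv_add_emod b₀ d').symm
  have hb0 : 0 ≤ b := Int.emod_nonneg _ hd'Z0
  have hblt : b < d' := Int.emod_lt_of_pos _ (by exact_mod_cast hd'pos)
  refine ⟨⟨!![(d' : ℤ) * p, (d' : ℤ) * p * k - v; c', c' * k + u], ?_⟩, a, d', b, hapos, hd'pos,
    hd'.symm, hb0, hblt, rfl, ?_, ?_, ?_, ?_⟩
  · rw [Matrix.det_fin_two_of]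
    linear_combination huv
  · simp only [Matrix.of_apply, Matrix.cons_val', Matrix.cons_val_zero]
    rw [hd'Z]; ring
  · simp only [Matrix.of_apply, Matrix.cons_val', Matrix.cons_val_zero, Matrix.cons_val_one]
    linear_combination ((d' : ℤ) * p) * hbk - ((d' : ℤ) * p) * hb₀ - ((d : ℤ) * q) * huv
      - (v * d') * hdet + (v * c' * q) * hd'Z - (v * d' * q) * hc'
  · simp only [Matrix.of_apply, Matrix.cons_val', Matrix.cons_val_zero, Matrix.cons_val_one]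
    rw [hc']; ring
  · simp only [Matrix.of_apply, Matrix.cons_val', Matrix.cons_val_zero, Matrix.cons_val_one]
    linear_combination c' * hbk - c' * hb₀ - s * huv + (u * d') * hdet - (u * c' * q) * hd'Z
      + (u * d' * q) * hc'

/-- Matrix form of `exists_hnf_entries`:
`!![d, 0; 0, 1] * g = γ * !![a, b; 0, d']` as integer matrices. -/
theorem exists_hnf_matrix (d : ℕ) (hd : 0 < d) (g : SL(2, ℤ)) :
    ∃ (γ : SL(2, ℤ)) (a d' : ℕ) (b : ℤ), 0 < a ∧ 0 < d' ∧ a * d' = d ∧ 0 ≤ b ∧ b < d' ∧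
      a = Int.gcd d (g 1 0) ∧
      !![(d : ℤ), 0; 0, 1] * (g : Matrix (Fin 2) (Fin 2) ℤ)
        = (γ : Matrix (Fin 2) (Fin 2) ℤ) * !![(a : ℤ), b; 0, (d' : ℤ)] := by
  obtain ⟨γ, a, d', b, ha, hd', had, hb0, hb, hgcd, h00, h01, h10, h11⟩ :=
    exists_hnf_entries d hd g
  refine ⟨γ, a, d', b, ha, hd', had, hb0, hb, hgcd, ?_⟩
  ext i j
  fin_cases i <;> fin_cases j <;>
    simp [Matrix.mul_apply, Fin.sum_univ_two, h00, h01, h10, h11]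

/-- The action on the upper half plane encoded by the entrywise Hermite normal form:
if `w = d * (g • τ)` and `z = (a * τ + b) / d'` (as complex numbers), then `w = γ • z`.
The points `z w : ℍ` are arbitrary, so this applies to any way of writing them. -/
theorem eq_smul_of_entries {g γ : SL(2, ℤ)} {d a d' : ℕ} {b : ℤ} (hd' : 0 < d')
    (h00 : (d : ℤ) * g 0 0 = γ 0 0 * a) (h01 : (d : ℤ) * g 0 1 = γ 0 0 * b + γ 0 1 * d')
    (h10 : g 1 0 = γ 1 0 * a) (h11 : g 1 1 = γ 1 0 * b + γ 1 1 * d')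
    (τ z w : ℍ) (hw : (w : ℂ) = (d : ℂ) * ((g • τ : ℍ) : ℂ))
    (hz : (z : ℂ) = ((a : ℂ) * (τ : ℂ) + (b : ℂ)) / (d' : ℂ)) :
    w = γ • z := by
  have hd'C : (d' : ℂ) ≠ 0 := by exact_mod_cast hd'.ne'
  have e00 : (d : ℂ) * ((g 0 0 : ℤ) : ℂ) = ((γ 0 0 : ℤ) : ℂ) * (a : ℂ) := by exact_mod_cast h00
  have e01 : (d : ℂ) * ((g 0 1 : ℤ) : ℂ) = ((γ 0 0 : ℤ) : ℂ) * (b : ℂ) + ((γ 0 1 : ℤ) : ℂ) * (d' : ℂ) := by
    exact_mod_cast h01
  have e10 : ((g 1 0 : ℤ) : ℂ) = ((γ 1 0 : ℤ) : ℂ) * (a : ℂ) := by exact_mod_cast h10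
  have e11 : ((g 1 1 : ℤ) : ℂ) = ((γ 1 0 : ℤ) : ℂ) * (b : ℂ) + ((γ 1 1 : ℤ) : ℂ) * (d' : ℂ) := by
    exact_mod_cast h11
  apply UpperHalfPlane.ext
  rw [hw, coe_specialLinearGroup_apply, coe_specialLinearGroup_apply, hz]
  simp only [algebraMap_int_eq, eq_intCast, Complex.ofReal_intCast]
  have hnum : ((γ 0 0 : ℤ) : ℂ) * (((a : ℂ) * (τ : ℂ) + (b : ℂ)) / (d' : ℂ)) + ((γ 0 1 : ℤ) : ℂ)
      = (d : ℂ) * (((g 0 0 : ℤ) : ℂ) * (τ : ℂ) + ((g 0 1 : ℤ) : ℂ)) / (d' : ℂ) := by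
    field_simp
    linear_combination (-(τ : ℂ)) * e00 - e01
  have hden : ((γ 1 0 : ℤ) : ℂ) * (((a : ℂ) * (τ : ℂ) + (b : ℂ)) / (d' : ℂ)) + ((γ 1 1 : ℤ) : ℂ)
      = (((g 1 0 : ℤ) : ℂ) * (τ : ℂ) + ((g 1 1 : ℤ) : ℂ)) / (d' : ℂ) := by
    field_simp
    linear_combination (-(τ : ℂ)) * e10 - e11
  rw [hnum, hden, div_div_div_cancel_right₀ hd'C, mul_div_assoc]

/-- **Hermite normal form, action on `ℍ`** (task 64 / Q3).  For `g ∈ SL(2, ℤ)` and `d ≥ 1`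
there are `γ ∈ SL(2, ℤ)` and a triple `(a, b, d')` with `a * d' = d`, `0 ≤ b < d'`,
`a = gcd (d, g 1 0)`, such that `d * (g • τ) = γ • ((a * τ + b) / d')` for all `τ`. -/
theorem exists_hnf (d : ℕ) (hd : 0 < d) (g : SL(2, ℤ)) :
    ∃ (γ : SL(2, ℤ)) (a d' : ℕ) (b : ℤ), 0 < a ∧ 0 < d' ∧ a * d' = d ∧ 0 ≤ b ∧ b < d' ∧
      a = Int.gcd d (g 1 0) ∧
      ∀ τ z w : ℍ, (w : ℂ) = (d : ℂ) * ((g • τ : ℍ) : ℂ) →
        (z : ℂ) = ((a : ℂ) * (τ : ℂ) + (b : ℂ)) / (d' : ℂ) → w = γ • z := by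
  obtain ⟨γ, a, d', b, ha, hd', had, hb0, hb, hgcd, h00, h01, h10, h11⟩ :=
    exists_hnf_entries d hd g
  exact ⟨γ, a, d', b, ha, hd', had, hb0, hb, hgcd,
    fun τ z w hw hz => eq_smul_of_entries hd' h00 h01 h10 h11 τ z w hw hz⟩

/-- **Hermite normal form for `SL(2, ℤ)`-invariant functions** (task 64 / Q3):
`f (d * (g • τ)) = f ((a * τ + b) / d')`. -/
theorem exists_hnf_invariant (d : ℕ) (hd : 0 < d) (g : SL(2, ℤ)) :
    ∃ (a d' : ℕ) (b : ℤ), 0 < a ∧ 0 < d' ∧ a * d' = d ∧ 0 ≤ b ∧ b < d' ∧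
      a = Int.gcd d (g 1 0) ∧
      ∀ {α : Type*} (f : ℍ → α), (∀ (γ : SL(2, ℤ)) (τ : ℍ), f (γ • τ) = f τ) →
        ∀ τ z w : ℍ, (w : ℂ) = (d : ℂ) * ((g • τ : ℍ) : ℂ) →
          (z : ℂ) = ((a : ℂ) * (τ : ℂ) + (b : ℂ)) / (d' : ℂ) → f w = f z := by
  obtain ⟨γ, a, d', b, ha, hd', had, hb0, hb, hgcd, h⟩ := exists_hnf d hd g
  refine ⟨a, d', b, ha, hd', had, hb0, hb, hgcd, fun f hf τ z w hw hz => ?_⟩
  rw [h τ z w hw hz, hf]

/-- The point `d * τ` of `ℍ` (`d ≥ 1`). -/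
noncomputable def mulPt (d : ℕ) (hd : 0 < d) (τ : ℍ) : ℍ :=
  ⟨(d : ℂ) * (τ : ℂ), by
    have h : (0 : ℝ) < d := by exact_mod_cast hd
    simpa using mul_pos h τ.im_pos⟩

@[simp] theorem coe_mulPt (d : ℕ) (hd : 0 < d) (τ : ℍ) :
    ((mulPt d hd τ : ℍ) : ℂ) = (d : ℂ) * (τ : ℂ) := rfl

/-- The point `(a * τ + b) / d'` of `ℍ` (`a, d' ≥ 1`). -/
noncomputable def affPt (a d' : ℕ) (b : ℤ) (ha : 0 < a) (hd' : 0 < d') (τ : ℍ) : ℍ :=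
  ⟨((a : ℂ) * (τ : ℂ) + (b : ℂ)) / (d' : ℂ), by
    have h1 : (0 : ℝ) < a := by exact_mod_cast ha
    have h2 : (0 : ℝ) < d' := by exact_mod_cast hd'
    have e : (((a : ℂ) * (τ : ℂ) + (b : ℂ)) / (d' : ℂ)).im = (a : ℝ) * τ.im / d' := by
      rw [Complex.div_natCast_im]
      simp
    rw [e]
    exact div_pos (mul_pos h1 τ.im_pos) h2⟩

@[simp] theorem coe_affPt (a d' : ℕ) (b : ℤ) (ha : 0 < a) (hd' : 0 < d') (τ : ℍ) :
    ((affPt a d' b ha hd' τ : ℍ) : ℂ) = ((a : ℂ) * (τ : ℂ) + (b : ℂ)) / (d' : ℂ) := rfl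

theorem im_affPt (a d' : ℕ) (b : ℤ) (ha : 0 < a) (hd' : 0 < d') (τ : ℍ) :
    (affPt a d' b ha hd' τ).im = (a : ℝ) * τ.im / d' := by
  change (((a : ℂ) * (τ : ℂ) + (b : ℂ)) / (d' : ℂ)).im = _
  rw [Complex.div_natCast_im]
  simp

/-- `affPt d 1 0 = mulPt d`. -/
theorem affPt_one_zero (d : ℕ) (hd : 0 < d) (τ : ℍ) :
    affPt d 1 0 hd one_pos τ = mulPt d hd τ := by
  apply UpperHalfPlane.ext
  simp

/-- **Hermite normal form with explicit points**: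
`mulPt d (g • τ) = γ • affPt a d' b τ`. -/
theorem exists_hnf_pt (d : ℕ) (hd : 0 < d) (g : SL(2, ℤ)) :
    ∃ (γ : SL(2, ℤ)) (a d' : ℕ) (b : ℤ) (ha : 0 < a) (hd' : 0 < d'), a * d' = d ∧ 0 ≤ b ∧
      b < d' ∧ a = Int.gcd d (g 1 0) ∧
      ∀ τ : ℍ, mulPt d hd (g • τ) = γ • affPt a d' b ha hd' τ := by
  obtain ⟨γ, a, d', b, ha, hd', had, hb0, hb, hgcd, h⟩ := exists_hnf d hd g
  exact ⟨γ, a, d', b, ha, hd', had, hb0, hb, hgcd, fun τ => h τ _ _ rfl rfl⟩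

/-- **Hermite normal form for invariant functions, explicit points**:
`f (mulPt d (g • τ)) = f (affPt a d' b τ)` for every `SL(2, ℤ)`-invariant `f`. -/
theorem exists_hnf_pt_invariant (d : ℕ) (hd : 0 < d) (g : SL(2, ℤ)) :
    ∃ (a d' : ℕ) (b : ℤ) (ha : 0 < a) (hd' : 0 < d'), a * d' = d ∧ 0 ≤ b ∧ b < d' ∧
      a = Int.gcd d (g 1 0) ∧
      ∀ {α : Type*} (f : ℍ → α), (∀ (γ : SL(2, ℤ)) (τ : ℍ), f (γ • τ) = f τ) →
        ∀ τ : ℍ, f (mulPt d hd (g • τ)) = f (affPt a d' b ha hd' τ) := by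
  obtain ⟨γ, a, d', b, ha, hd', had, hb0, hb, hgcd, h⟩ := exists_hnf_pt d hd g
  exact ⟨a, d', b, ha, hd', had, hb0, hb, hgcd, fun f hf τ => by rw [h τ, hf]⟩

end Fermat.Agent.S24.HNF
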