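import Mathlib

set_option autoImplicit false

open scoped Manifold MatrixGroups
open UpperHalfPlane

noncomputable section

set_option linter.dupNamespace false

namespace Fermat.Agent.S24.HolH

/-- The `ℂ`-algebra of holomorphic functions on the upper half plane. -/
def HolH : Subalgebra ℂ (ℍ → ℂ) where
  carrier := {f | MDifferentiable 𝓘(ℂ) 𝓘(ℂ) f}
  mul_mem' := fun {f g} hf hg => by
    have hf' : MDifferentiable 𝓘(ℂ) 𝓘(ℂ) f := hf
    have hg' : MDifferentiable 𝓘(ℂ) 𝓘(ℂ) g := hg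
    exact hf'.mul hg'
  add_mem' := fun {f g} hf hg => by
    have hf' : MDifferentiable 𝓘(ℂ) 𝓘(ℂ) f := hf
    have hg' : MDifferentiable 𝓘(ℂ) 𝓘(ℂ) g := hg
    exact hf'.add hg'
  algebraMap_mem' := fun c => by
    show MDifferentiable 𝓘(ℂ) 𝓘(ℂ) (fun _ : ℍ => c)
    exact mdifferentiable_const

theorem mem_HolH {f : ℍ → ℂ} : f ∈ HolH ↔ MDifferentiable 𝓘(ℂ) 𝓘(ℂ) f := Iff.rfl

theorem mem_HolH_iff_differentiableOn {f : ℍ → ℂ} :
    f ∈ HolH ↔ DifferentiableOn ℂ (f ∘ ofComplex) {z | 0 < z.im} :=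
  UpperHalfPlane.mdifferentiable_iff

theorem HolH.mdifferentiable (f : HolH) : MDifferentiable 𝓘(ℂ) 𝓘(ℂ) (f : ℍ → ℂ) := f.2

/-- A function in `HolH`, read on `ℂ` through `ofComplex`, is analytic at every point of `ℍ`. -/
theorem HolH.analyticAt (f : HolH) (τ : ℍ) : AnalyticAt ℂ ((f : ℍ → ℂ) ∘ ofComplex) (τ : ℂ) := by
  have h := mem_HolH_iff_differentiableOn.mp f.2
  exact h.analyticAt (isOpen_upperHalfPlaneSet.mem_nhds τ.im_pos)

theorem HolH.eq_zero_of_frequently (f : HolH) {τ : ℍ}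
    (h : ∃ᶠ z in nhdsWithin τ {τ}ᶜ, (f : ℍ → ℂ) z = 0) : f = 0 :=
  Subtype.ext (UpperHalfPlane.eq_zero_of_frequently f.2 h)

instance : Nontrivial HolH := ⟨⟨0, 1, fun h => by
  have h1 := congrArg (fun f : HolH => (f : ℍ → ℂ) UpperHalfPlane.I) h
  simp at h1⟩⟩

instance : NoZeroDivisors HolH where
  eq_zero_or_eq_zero_of_mul_eq_zero := by
    intro f g h
    have h' : (f : ℍ → ℂ) * (g : ℍ → ℂ) = 0 := congrArg Subtype.val h
    rcases (UpperHalfPlane.mul_eq_zero_iff f.2 g.2).mp h' with h0 | h0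
    · exact Or.inl (Subtype.ext h0)
    · exact Or.inr (Subtype.ext h0)

instance : IsDomain HolH := NoZeroDivisors.to_isDomain _

/-- Precomposition with the action of `g : SL(2, ℤ)` as an algebra endomorphism of `HolH`. -/
def compSL (g : SL(2, ℤ)) : HolH →ₐ[ℂ] HolH where
  toFun f := ⟨fun τ => (f : ℍ → ℂ) (g • τ), by
    have hg : (0 : ℝ) < ((g : GL (Fin 2) ℝ)).det.val := by simp
    exact (f.2 : MDifferentiable 𝓘(ℂ) 𝓘(ℂ) (f : ℍ → ℂ)).comp (mdifferentiable_smul hg)⟩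
  map_one' := rfl
  map_mul' _ _ := rfl
  map_zero' := rfl
  map_add' _ _ := rfl
  commutes' _ := rfl

@[simp]
theorem compSL_apply (g : SL(2, ℤ)) (f : HolH) (τ : ℍ) :
    (compSL g f : ℍ → ℂ) τ = (f : ℍ → ℂ) (g • τ) := rfl

@[simp]
theorem compSL_one (f : HolH) : compSL 1 f = f := by
  ext τ
  simp

theorem compSL_mul (g h : SL(2, ℤ)) (f : HolH) : compSL (g * h) f = compSL h (compSL g f) := by
  ext τ
  simp [mul_smul]

theorem compSL_inv_compSL (g : SL(2, ℤ)) (f : HolH) : compSL g⁻¹ (compSL g f) = f := by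
  rw [← compSL_mul, mul_inv_cancel, compSL_one]

theorem compSL_compSL_inv (g : SL(2, ℤ)) (f : HolH) : compSL g (compSL g⁻¹ f) = f := by
  rw [← compSL_mul, inv_mul_cancel, compSL_one]

theorem compSL_injective (g : SL(2, ℤ)) : Function.Injective (compSL g) :=
  Function.LeftInverse.injective (compSL_inv_compSL g)

/-- Precomposition with `g` as an algebra automorphism (`compSLEquiv g f = f ∘ (g • ·)`). -/
def compSLEquiv (g : SL(2, ℤ)) : HolH ≃ₐ[ℂ] HolH :=
  AlgEquiv.ofAlgHom (compSL g) (compSL g⁻¹)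
    (AlgHom.ext fun f => compSL_compSL_inv g f) (AlgHom.ext fun f => compSL_inv_compSL g f)

@[simp]
theorem compSLEquiv_apply (g : SL(2, ℤ)) (f : HolH) : compSLEquiv g f = compSL g f := rfl

end Fermat.Agent.S24.HolH

end
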