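import Mathlib

set_option autoImplicit false

namespace Fermat.Agent.S24.StabAbs

open UpperHalfPlane Filter Topology MatrixGroups CongruenceSubgroup ModularGroup
open scoped Real

noncomputable section

/-- The point `d τ` of the upper half plane. -/
def scaleH (d : ℕ) [NeZero d] (τ : ℍ) : ℍ :=
  ⟨(d : ℂ) * τ, by
    have hd : (0 : ℝ) < d := by exact_mod_cast Nat.pos_of_ne_zero (NeZero.ne d)
    simpa using mul_pos hd τ.im_pos⟩

@[simp] theorem coe_scaleH (d : ℕ) [NeZero d] (τ : ℍ) :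
    ((scaleH d τ : ℍ) : ℂ) = (d : ℂ) * τ := rfl

@[simp] theorem im_scaleH (d : ℕ) [NeZero d] (τ : ℍ) : (scaleH d τ).im = d * τ.im := by
  change ((d : ℂ) * (τ : ℂ)).im = _
  simp

theorem exists_im_eq_of_stab (J : ℍ → ℂ)
    (hinv : ∀ (g : SL(2, ℤ)) (τ : ℍ), J (g • τ) = J τ)
    (N : ℕ) [NeZero N] (g : SL(2, ℤ))
    (h : ∀ τ : ℍ, J (scaleH N (g • τ)) = J (scaleH N τ)) (τ : ℍ) :
    ∃ z : ℍ, z.im = ((Int.gcd (g 1 0) N : ℝ) ^ 2 / N) * τ.im ∧ J (scaleH N τ) = J z := by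
  set c : ℤ := g 1 0 with hc
  set d : ℤ := g 1 1 with hd
  set G : ℕ := Int.gcd c N with hG
  have hN0 : (N : ℤ) ≠ 0 := by exact_mod_cast NeZero.ne N
  have hG0 : G ≠ 0 := by
    rw [hG, Ne, Int.gcd_eq_zero_iff]
    exact fun h => hN0 h.2
  have hGpos : 0 < G := Nat.pos_of_ne_zero hG0
  obtain ⟨c', hc'⟩ : (G : ℤ) ∣ c := Int.gcd_dvd_left c N
  obtain ⟨N', hN'⟩ : (G : ℤ) ∣ (N : ℤ) := Int.gcd_dvd_right c N
  have hcop1 : IsCoprime c' N' := by
    have hg1 := Int.gcd_div_gcd_div_gcd (i := c) (j := (N : ℤ)) (by rw [← hG]; exact hGpos)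
    rw [← hG] at hg1
    have e1 : c / (G : ℤ) = c' := by
      rw [hc', Int.mul_ediv_cancel_left _ (by exact_mod_cast hG0)]
    have e2 : (N : ℤ) / (G : ℤ) = N' := by
      rw [hN', Int.mul_ediv_cancel_left _ (by exact_mod_cast hG0)]
    rw [e1, e2] at hg1
    exact Int.isCoprime_iff_gcd_eq_one.mpr hg1
  have hcd : IsCoprime c d := by
    have hdet := g.det_coe
    rw [Matrix.det_fin_two] at hdet
    exact ⟨-(g 0 1), g 0 0, by rw [hc, hd]; linarith⟩
  have hcop2 : IsCoprime c' d := by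
    have h3 : IsCoprime ((G : ℤ) * c') d := by rw [← hc']; exact hcd
    exact IsCoprime.of_mul_left_right h3
  have hcop : IsCoprime c' (N' * d) := IsCoprime.mul_right hcop1 hcop2
  obtain ⟨δ, -, hδ⟩ := bottom_row_surj (R := ℤ) (show ![c', N' * d] ∈ {cd | IsCoprime (cd 0) (cd 1)}
    by simpa using hcop)
  have hδ0 : δ 1 0 = c' := by
    have := congrFun hδ 0
    simpa using this
  have hδ1 : δ 1 1 = N' * d := by
    have := congrFun hδ 1
    simpa using this
  set w : ℍ := g⁻¹ • τ with hw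
  have hgw : g • w = τ := by rw [hw, smul_inv_smul]
  refine ⟨δ • scaleH N w, ?_, ?_⟩
  · rw [ModularGroup.im_smul_eq_div_normSq, ModularGroup.denom_apply, hδ0, hδ1, ← hgw,
      ModularGroup.im_smul_eq_div_normSq, ModularGroup.denom_apply, ← hc, ← hd, im_scaleH,
      coe_scaleH]
    have hGr : (G : ℝ) ≠ 0 := by exact_mod_cast hG0
    have hNr : (N : ℝ) ≠ 0 := by exact_mod_cast NeZero.ne N
    have hNeq : (N : ℝ) = G * N' := by exact_mod_cast hN'
    have hceq : (c : ℝ) = G * c' := by exact_mod_cast hc'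
    have hN'r : (N' : ℝ) ≠ 0 := by
      intro h0
      rw [h0, mul_zero] at hNeq
      exact hNr hNeq
    have key : ((c' : ℤ) : ℂ) * ((N : ℂ) * (w : ℂ)) + ((N' * d : ℤ) : ℂ)
        = (N' : ℂ) * ((c : ℂ) * (w : ℂ) + (d : ℂ)) := by
      have h1 : (N : ℂ) = (G : ℂ) * (N' : ℂ) := by exact_mod_cast hN'
      have h2 : (c : ℂ) = (G : ℂ) * (c' : ℂ) := by exact_mod_cast hc'
      push_cast
      rw [h1, h2]
      ring
    rw [key, Complex.normSq_mul]
    have hns : Complex.normSq ((c : ℂ) * (w : ℂ) + (d : ℂ)) ≠ 0 := by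
      rw [Ne, Complex.normSq_eq_zero]
      have := UpperHalfPlane.denom_ne_zero
        (Matrix.SpecialLinearGroup.toGL ((Matrix.SpecialLinearGroup.map (Int.castRingHom ℝ)) g)) w
      rwa [ModularGroup.denom_apply] at this
    have hnn : Complex.normSq ((N' : ℤ) : ℂ) = (N' : ℝ) ^ 2 := by
      rw [show ((N' : ℤ) : ℂ) = ((N' : ℝ) : ℂ) by push_cast; rfl, Complex.normSq_ofReal]
      ring
    rw [hnn, hNeq]
    field_simp
  · rw [hinv, ← h w, hgw]

theorem mem_Gamma0_of_stab (J : ℍ → ℂ)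
    (hinv : ∀ (g : SL(2, ℤ)) (τ : ℍ), J (g • τ) = J τ)
    (hasymp : Tendsto (fun τ : ℍ => ‖J τ‖ * Real.exp (-2 * π * τ.im)) atImInfty (𝓝 1))
    (N : ℕ) [NeZero N] (g : SL(2, ℤ))
    (h : ∀ τ : ℍ, J (scaleH N (g • τ)) = J (scaleH N τ)) : g ∈ Gamma0 N := by
  set G : ℕ := Int.gcd (g 1 0) N with hG
  have hN0 : N ≠ 0 := NeZero.ne N
  have hNpos : 0 < N := Nat.pos_of_ne_zero hN0
  have hGdvd : G ∣ N := by
    have := Int.gcd_dvd_right (g 1 0) (N : ℤ)
    rw [← hG] at this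
    exact_mod_cast this
  have hGle : G ≤ N := Nat.le_of_dvd hNpos hGdvd
  have hG0 : G ≠ 0 := fun h0 => hN0 (by rw [h0] at hGdvd; exact Nat.eq_zero_of_zero_dvd hGdvd)
  suffices hGN : G = N by
    rw [Gamma0_mem, ZMod.intCast_zmod_eq_zero_iff_dvd]
    have := Int.gcd_dvd_left (g 1 0) (N : ℤ)
    rw [← hG, hGN] at this
    exact this
  by_contra hne
  have hlt : G < N := lt_of_le_of_ne hGle hne
  set r : ℝ := (G : ℝ) ^ 2 / N with hr
  have hNr : (0 : ℝ) < N := by exact_mod_cast hNpos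
  have hGr : (0 : ℝ) < G := by exact_mod_cast Nat.pos_of_ne_zero hG0
  have hrpos : 0 < r := by positivity
  have hrlt : r < N := by
    rw [hr, div_lt_iff₀ hNr]
    have : (G : ℝ) < N := by exact_mod_cast hlt
    nlinarith
  -- eventual bounds
  have hev : ∀ᶠ z : ℍ in atImInfty,
      ‖J z‖ * Real.exp (-2 * π * z.im) ∈ Set.Ioo (1 / 2 : ℝ) 2 :=
    hasymp.eventually (Ioo_mem_nhds (by norm_num) (by norm_num))
  obtain ⟨A, hA⟩ := (atImInfty_mem _).mp hev
  -- choose t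
  set t : ℝ := max 1 (max (|A| / r) (max |A| (1 / (N - r)))) with ht
  have ht1 : 1 ≤ t := le_max_left _ _
  have htpos : 0 < t := lt_of_lt_of_le one_pos ht1
  have htA1 : |A| / r ≤ t := le_trans (le_max_left _ _) (le_max_right _ _)
  have htA2 : |A| ≤ t := le_trans (le_trans (le_max_left _ _) (le_max_right _ _)) (le_max_right _ _)
  have htN : 1 / (N - r) ≤ t :=
    le_trans (le_trans (le_max_right _ _) (le_max_right _ _)) (le_max_right _ _)
  set τ : ℍ := ⟨Complex.I * t, by simpa using htpos⟩ with hτ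
  have hτim : τ.im = t := by
    change (Complex.I * (t : ℂ)).im = t
    simp
  obtain ⟨z, hzim, hJz⟩ := exists_im_eq_of_stab J hinv N g h τ
  rw [← hG, ← hr, hτim] at hzim
  have h1 := hA (scaleH N τ) (by
    rw [im_scaleH, hτim]
    have : (1 : ℝ) ≤ N := by exact_mod_cast hNpos
    calc A ≤ |A| := le_abs_self A
      _ ≤ t := htA2
      _ = 1 * t := (one_mul t).symm
      _ ≤ N * t := by gcongr)
  have h2 := hA z (by
    rw [hzim]
    calc A ≤ |A| := le_abs_self A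
      _ = r * (|A| / r) := by field_simp
      _ ≤ r * t := by gcongr)
  simp only [Set.mem_Ioo, Set.mem_ofPred_eq] at h1 h2
  rw [im_scaleH, hτim] at h1
  rw [hzim, ← hJz] at h2
  have b1 : (1 / 2 : ℝ) * Real.exp (2 * π * (N * t)) < ‖J (scaleH N τ)‖ := by
    have h11 := h1.1
    rw [show -2 * π * ((N : ℝ) * t) = -(2 * π * (N * t)) by ring, Real.exp_neg,
      ← div_eq_mul_inv, lt_div_iff₀ (Real.exp_pos _)] at h11
    exact h11
  have b2 : ‖J (scaleH N τ)‖ < 2 * Real.exp (2 * π * (r * t)) := by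
    have h22 := h2.2
    rw [show -2 * π * (r * t) = -(2 * π * (r * t)) by ring, Real.exp_neg,
      ← div_eq_mul_inv, div_lt_iff₀ (Real.exp_pos _)] at h22
    exact h22
  have b3 : Real.exp (2 * π * (N * t)) < 4 * Real.exp (2 * π * (r * t)) := by linarith
  have b4 : Real.exp (2 * π * ((N - r) * t)) < 4 := by
    have hsplit : Real.exp (2 * π * (N * t))
        = Real.exp (2 * π * ((N - r) * t)) * Real.exp (2 * π * (r * t)) := by
      rw [← Real.exp_add]; ring_nf
    rw [hsplit] at b3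
    exact lt_of_mul_lt_mul_right b3 (Real.exp_pos _).le
  have hNr' : 0 < (N : ℝ) - r := sub_pos.mpr hrlt
  have b5 : 1 ≤ (N - r) * t := by
    have := mul_le_mul_of_nonneg_left htN hNr'.le
    rwa [mul_one_div_cancel hNr'.ne'] at this
  have b6 : (4 : ℝ) < Real.exp (2 * π * ((N - r) * t)) := by
    have hpi : (3 : ℝ) < π := Real.pi_gt_three
    have h6 : (6 : ℝ) ≤ 2 * π * ((N - r) * t) := by nlinarith
    have := Real.add_one_le_exp (2 * π * ((N - r) * t))
    linarith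
  linarith

end

end Fermat.Agent.S24.StabAbs
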