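import Mathlib
import Fermat.Agent.S24.JFun
import Fermat.Agent.S24.StabAbs

set_option autoImplicit false

namespace Fermat.Agent.S24.StabJ

open UpperHalfPlane Filter Topology MatrixGroups CongruenceSubgroup ModularGroup ModularForm
open Fermat.Agent.S24.JFun Fermat.Agent.S24.StabAbs
open scoped Real

local notation "Δ" => ModularForm.discriminant
local notation "𝕢" => Function.Periodic.qParam

/-- `|j(τ)| e^{-2π Im τ} → 1` as `Im τ → ∞`. -/
theorem tendsto_norm_jFun_mul_exp :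
    Tendsto (fun τ : ℍ => ‖jFun τ‖ * Real.exp (-2 * π * τ.im)) atImInfty (𝓝 1) := by
  have h1 : Tendsto (fun τ : ℍ => ‖E₄ τ‖ ^ 3) atImInfty (𝓝 1) := by
    have := (tendsto_E4.norm).pow 3
    simpa using this
  have h2 : Tendsto (fun τ : ℍ => ‖∏' (n : ℕ), (1 - eta_q n τ) ^ 24‖) atImInfty (𝓝 1) := by
    have := tendsto_atImInfty_tprod_one_sub_eta_q_pow.norm
    simpa using this
  have h3 : Tendsto (fun τ : ℍ => ‖E₄ τ‖ ^ 3 / ‖∏' (n : ℕ), (1 - eta_q n τ) ^ 24‖)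
      atImInfty (𝓝 1) := by
    have := h1.div h2 one_ne_zero
    rw [div_one] at this
    exact this
  refine h3.congr fun τ => ?_
  have hq_norm : ‖𝕢 1 τ‖ = Real.exp (-2 * π * τ.im) := by
    simp [Function.Periodic.qParam, Complex.norm_exp]
  have hq0 : ‖𝕢 1 τ‖ ≠ 0 := by rw [hq_norm]; exact (Real.exp_pos _).ne'
  rw [jFun, norm_div, norm_pow, discriminant_eq_q_prod, norm_mul, ← hq_norm]
  field_simp

/-- The stabiliser of `τ ↦ j(Nτ)` in `SL(2, ℤ)` is contained in `Γ₀(N)`. -/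
theorem mem_Gamma0_of_jFun_scale (N : ℕ) [NeZero N] (g : SL(2, ℤ))
    (h : ∀ τ : ℍ, jFun (scaleH N (g • τ)) = jFun (scaleH N τ)) : g ∈ Gamma0 N :=
  mem_Gamma0_of_stab jFun jFun_smul tendsto_norm_jFun_mul_exp N g h

/-- Conversely `τ ↦ j(dτ)` is `Γ₀(N)`-invariant for `d ∣ N`. -/
theorem jFun_scale_smul_of_mem_Gamma0 {N d : ℕ} [NeZero d] (hd : d ∣ N) (g : SL(2, ℤ))
    (hg : g ∈ Gamma0 N) (τ : ℍ) : jFun (scaleH d (g • τ)) = jFun (scaleH d τ) := by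
  -- `d (g τ) = g' (d τ)` with `g' = [a, b d; c / d, e]`
  have hc : (d : ℤ) ∣ g 1 0 := by
    rw [Gamma0_mem, ZMod.intCast_zmod_eq_zero_iff_dvd] at hg
    exact (Int.natCast_dvd_natCast.mpr hd).trans hg
  obtain ⟨c', hc'⟩ := hc
  have hdet := g.det_coe
  rw [Matrix.det_fin_two] at hdet
  let g' : SL(2, ℤ) := ⟨!![g 0 0, g 0 1 * d; c', g 1 1], by
    rw [Matrix.det_fin_two_of]
    rw [hc'] at hdet
    linarith⟩
  have hkey : scaleH d (g • τ) = g' • scaleH d τ := by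
    apply UpperHalfPlane.ext
    rw [coe_scaleH, UpperHalfPlane.coe_specialLinearGroup_apply,
      UpperHalfPlane.coe_specialLinearGroup_apply, coe_scaleH]
    have hd0 : (d : ℂ) ≠ 0 := by exact_mod_cast NeZero.ne d
    have hden := UpperHalfPlane.denom_ne_zero
      (Matrix.SpecialLinearGroup.toGL ((Matrix.SpecialLinearGroup.map (Int.castRingHom ℝ)) g)) τ
    rw [ModularGroup.denom_apply] at hden
    have hc'' : ((g 1 0 : ℤ) : ℂ) = (d : ℂ) * (c' : ℂ) := by exact_mod_cast hc'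
    simp only [g', Matrix.of_apply, Matrix.cons_val',
      Matrix.cons_val_zero, Matrix.cons_val_one, Matrix.cons_val_fin_one,
      algebraMap_int_eq, Int.coe_castRingHom, Int.cast_mul, Int.cast_natCast]
    push_cast
    rw [hc''] at hden
    have hden' : (c' : ℂ) * ((d : ℂ) * (τ : ℂ)) + ((g 1 1 : ℤ) : ℂ) ≠ 0 := by
      intro h0
      apply hden
      rw [← h0]
      ring
    rw [hc'']
    field_simp
  rw [hkey, jFun_smul]

/-- `ofComplex (d τ) = scaleH d τ`. -/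
theorem ofComplex_natCast_mul (d : ℕ) [NeZero d] (τ : ℍ) :
    UpperHalfPlane.ofComplex ((d : ℂ) * (τ : ℂ)) = scaleH d τ := by
  have h : 0 < ((d : ℂ) * (τ : ℂ)).im := (scaleH d τ).im_pos
  rw [UpperHalfPlane.ofComplex_apply_of_im_pos h]
  rfl

/-- Distinct left cosets of `Γ₀(N)` give distinct conjugates of `τ ↦ j(Nτ)`
(conjugate attached to `g Γ₀(N)` is `τ ↦ j(N g⁻¹ τ)`). -/
theorem mk_eq_mk_of_jFun_scale_inv (N : ℕ) [NeZero N] (g₁ g₂ : SL(2, ℤ))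
    (h : ∀ τ : ℍ, jFun (scaleH N (g₁⁻¹ • τ)) = jFun (scaleH N (g₂⁻¹ • τ))) :
    (QuotientGroup.mk g₁ : SL(2, ℤ) ⧸ Gamma0 N) = QuotientGroup.mk g₂ := by
  rw [QuotientGroup.eq]
  apply mem_Gamma0_of_jFun_scale
  intro τ
  have := h (g₂ • τ)
  rw [inv_smul_smul] at this
  rw [mul_smul]
  exact this

/-- The conjugate `τ ↦ j(d g⁻¹ τ)` only depends on the left coset `g Γ₀(N)` when `d ∣ N`. -/
theorem jFun_scale_inv_eq_of_mk_eq {N d : ℕ} [NeZero d] (hd : d ∣ N) (g₁ g₂ : SL(2, ℤ))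
    (h : (QuotientGroup.mk g₁ : SL(2, ℤ) ⧸ Gamma0 N) = QuotientGroup.mk g₂) (τ : ℍ) :
    jFun (scaleH d (g₁⁻¹ • τ)) = jFun (scaleH d (g₂⁻¹ • τ)) := by
  rw [QuotientGroup.eq] at h
  have h2 : g₂⁻¹ * g₁ ∈ Gamma0 N := by
    have := inv_mem h
    rwa [mul_inv_rev, inv_inv] at this
  have := jFun_scale_smul_of_mem_Gamma0 hd (g₂⁻¹ * g₁) h2 (g₁⁻¹ • τ)
  rw [mul_smul, smul_inv_smul] at this
  exact this.symm

end Fermat.Agent.S24.StabJ
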