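import Mathlib
import Fermat.Agent.S24.JFun

set_option autoImplicit false

namespace Fermat.Agent.S24.PolyJ

open UpperHalfPlane ModularForm Complex Filter Function Asymptotics
open Fermat.Agent.S24.JFun
open scoped MatrixGroups Topology Manifold

local notation "𝕢" => Periodic.qParam

/-- An `SL(2,ℤ)`-invariant function on `ℍ` is `1`-periodic. -/
theorem periodic_of_invariant {φ : ℍ → ℂ} (hinv : ∀ (γ : SL(2, ℤ)) (τ : ℍ), φ (γ • τ) = φ τ) :
    Periodic (φ ∘ ofComplex) (1 : ℝ) := by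
  intro w
  by_cases hw : 0 < im w
  · have hw1 : 0 < im (w + (1 : ℝ)) := by simpa using hw
    simp only [comp_apply, ofComplex_apply_of_im_pos hw1, ofComplex_apply_of_im_pos hw]
    have h := hinv ModularGroup.T ⟨w, hw⟩
    rw [← h]
    congr 1
    ext
    rw [modular_T_smul]
    simp [add_comm]
  · have hw' : im w ≤ 0 := not_lt.mp hw
    have hw1 : im (w + (1 : ℝ)) ≤ 0 := by simpa using hw'
    simp only [comp_apply]
    rw [ofComplex_apply_of_im_nonpos hw1, ofComplex_apply_of_im_nonpos hw']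

theorem periodic_qParam_comp : Periodic ((fun τ : ℍ => 𝕢 1 (τ : ℂ)) ∘ ofComplex) (1 : ℝ) := by
  intro w
  by_cases hw : 0 < im w
  · have hw1 : 0 < im (w + (1 : ℝ)) := by simpa using hw
    simp only [comp_apply, ofComplex_apply_of_im_pos hw1, ofComplex_apply_of_im_pos hw]
    simp only [Periodic.qParam, ofReal_one, div_one]
    rw [mul_add, Complex.exp_add]
    simp
  · have hw' : im w ≤ 0 := not_lt.mp hw
    have hw1 : im (w + (1 : ℝ)) ≤ 0 := by simpa using hw'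
    simp only [comp_apply]
    rw [ofComplex_apply_of_im_nonpos hw1, ofComplex_apply_of_im_nonpos hw']

theorem mdifferentiable_qParam : MDiff (fun τ : ℍ => 𝕢 1 (τ : ℂ)) := by
  rw [UpperHalfPlane.mdifferentiable_iff]
  have h : DifferentiableOn ℂ (𝕢 1) {z : ℂ | 0 < z.im} :=
    (Periodic.differentiable_qParam (h := 1)).differentiableOn
  refine h.congr fun z hz => ?_
  simp [ofComplex_apply_of_im_pos hz]

/-- a periodic holomorphic function bounded at `i∞` tends to its value at infinity -/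
theorem tendsto_valueAtInfty {f : ℍ → ℂ} (hper : Periodic (f ∘ ofComplex) (1 : ℝ))
    (hhol : MDiff f) (hbdd : IsBoundedAtImInfty f) :
    Tendsto f atImInfty (𝓝 (valueAtInfty f)) := by
  have han := analyticAt_cuspFunction_zero one_pos hper hhol hbdd
  have h0 := cuspFunction_apply_zero one_pos han hper
  have : (cuspFunction 1 f ∘ fun τ : ℍ ↦ 𝕢 1 τ : ℍ → ℂ) = f := by
    funext τ
    simpa using eq_cuspFunction τ one_ne_zero hper
  rw [← h0]
  simpa [this] using han.continuousAt.tendsto.comp (qParam_tendsto_atImInfty one_pos)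

theorem tendsto_E₄ : Tendsto (fun τ : ℍ => E₄ τ) atImInfty (𝓝 1) := by
  have hper : Periodic ((E₄ : ℍ → ℂ) ∘ ofComplex) (1 : ℝ) :=
    SlashInvariantFormClass.periodic_comp_ofComplex E₄ one_mem_strictPeriods_SL
  have hhol : MDiff (E₄ : ℍ → ℂ) := ModularFormClass.holo E₄
  have hbdd : IsBoundedAtImInfty (E₄ : ℍ → ℂ) := ModularFormClass.bdd_at_infty E₄
  have h := tendsto_valueAtInfty hper hhol hbdd
  have han := analyticAt_cuspFunction_zero one_pos hper hhol hbdd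
  have h0 := UpperHalfPlane.qExpansion_coeff_zero one_pos han hper
  have h1 : (PowerSeries.coeff 0) (qExpansion 1 (E₄ : ℍ → ℂ)) = 1 :=
    EisensteinSeries.E_qExpansion_coeff_zero (by norm_num) (by decide)
  rw [← h0, h1] at h
  exact h

theorem qParam_mul_jFun (τ : ℍ) :
    𝕢 1 (τ : ℂ) * jFun τ = E₄ τ ^ 3 / ∏' n : ℕ, (1 - eta_q n (τ : ℂ)) ^ 24 := by
  have hq : 𝕢 1 (τ : ℂ) ≠ 0 := Periodic.qParam_ne_zero _
  have hΔ := discriminant_ne_zero τ
  have hprod := discriminant_eq_q_prod τ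
  have hP : (∏' n : ℕ, (1 - eta_q n (τ : ℂ)) ^ 24) ≠ 0 := by
    intro h0
    rw [h0, mul_zero] at hprod
    exact hΔ hprod
  rw [jFun, hprod]
  field_simp

theorem tendsto_qParam_mul_jFun :
    Tendsto (fun τ : ℍ => 𝕢 1 (τ : ℂ) * jFun τ) atImInfty (𝓝 1) := by
  have h1 : Tendsto (fun τ : ℍ => E₄ τ ^ 3 / ∏' n : ℕ, (1 - eta_q n (τ : ℂ)) ^ 24)
      atImInfty (𝓝 (1 ^ 3 / 1)) :=
    (tendsto_E₄.pow 3).div tendsto_atImInfty_tprod_one_sub_eta_q_pow one_ne_zero
  simp only [one_pow, div_one] at h1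
  exact h1.congr fun τ => (qParam_mul_jFun τ).symm


theorem const_of_bounded {φ : ℍ → ℂ} (hhol : MDiff φ)
    (hinv : ∀ (γ : SL(2, ℤ)) (τ : ℍ), φ (γ • τ) = φ τ) (hbdd : IsBoundedAtImInfty φ) :
    ∃ c : ℂ, ∀ τ, φ τ = c := by
  have hslash : ∀ γ : SL(2, ℤ), φ ∣[(0 : ℤ)] γ = φ := by
    intro γ
    ext τ
    rw [SL_slash_apply, hinv γ τ]
    simp
  let f : ModularForm 𝒮ℒ 0 :=
    { toFun := φ
      slash_action_eq' := fun _ ⟨γ, hγ⟩ ↦ hγ ▸ hslash γ
      holo' := hhol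
      bdd_at_cusps' := fun {c} hc => by
        rw [Subgroup.IsArithmetic.isCusp_iff_isCusp_SL2Z] at hc
        rw [OnePoint.isBoundedAt_iff_forall_SL2Z hc]
        intro γ _
        rw [hslash γ]
        exact hbdd }
  obtain ⟨c, hc⟩ := ModularFormClass.levelOne_weight_zero_const f
  exact ⟨c, fun τ => congrFun hc τ⟩

theorem norm_qParam_coe (τ : ℍ) : ‖𝕢 1 (τ : ℂ)‖ = Real.exp (-2 * Real.pi * τ.im / 1) :=
  Periodic.norm_qParam 1 (τ : ℂ)

/-- dividing an `O(exp(-2π im τ))` function by `q` gives a bounded function -/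
theorem isBounded_div_qParam {f : ℍ → ℂ}
    (hf : f =O[atImInfty] fun τ : ℍ => Real.exp (-2 * Real.pi * τ.im / 1)) :
    IsBoundedAtImInfty (fun τ : ℍ => f τ / 𝕢 1 (τ : ℂ)) := by
  obtain ⟨C, hC⟩ := hf.bound
  refine IsBigO.of_bound C ?_
  filter_upwards [hC] with τ hτ
  have hq : 0 < ‖𝕢 1 (τ : ℂ)‖ := norm_pos_iff.mpr (Periodic.qParam_ne_zero _)
  rw [norm_div, norm_qParam_coe] at *
  rw [Real.norm_of_nonneg (Real.exp_pos _).le] at hτ
  simp only [Pi.one_apply, norm_one, mul_one]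
  rw [div_le_iff₀ hq]
  exact hτ

theorem step {φ : ℍ → ℂ} (hhol : MDiff φ)
    (hinv : ∀ (γ : SL(2, ℤ)) (τ : ℍ), φ (γ • τ) = φ τ) (m : ℕ)
    (hbdd : IsBoundedAtImInfty (fun τ : ℍ => 𝕢 1 (τ : ℂ) ^ (m + 1) * φ τ)) :
    ∃ c : ℂ, IsBoundedAtImInfty
      (fun τ : ℍ => 𝕢 1 (τ : ℂ) ^ m * (φ τ - c * jFun τ ^ (m + 1))) := by
  set g : ℍ → ℂ := fun τ : ℍ => 𝕢 1 (τ : ℂ) ^ (m + 1) * φ τ with hg
  have hgper : Periodic (g ∘ ofComplex) (1 : ℝ) := by
    intro w
    have h1 := periodic_qParam_comp w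
    have h2 := periodic_of_invariant hinv w
    simp only [comp_apply] at h1 h2 ⊢
    simp only [hg, h1, h2]
  have hghol : MDiff g := (mdifferentiable_qParam.pow (m + 1)).mul hhol
  set c := valueAtInfty g with hc
  have h1 := exp_decay_sub_atImInfty one_pos hgper hghol hbdd
  set G : ℍ → ℂ := fun τ : ℍ => (𝕢 1 (τ : ℂ) * jFun τ) ^ (m + 1) with hG
  have hGper : Periodic (G ∘ ofComplex) (1 : ℝ) := by
    intro w
    have h1 := periodic_qParam_comp w
    have h2 := periodic_of_invariant jFun_smul w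
    simp only [comp_apply] at h1 h2 ⊢
    simp only [hG, h1, h2]
  have hGhol : MDiff G := (mdifferentiable_qParam.mul jFun_mdiff).pow (m + 1)
  have hGt : Tendsto G atImInfty (𝓝 1) := by
    simpa using tendsto_qParam_mul_jFun.pow (m + 1)
  have hGbdd : IsBoundedAtImInfty G := hGt.isBigO_one ℝ
  have hGv : valueAtInfty G = 1 := hGt.limUnder_eq
  have h2 := exp_decay_sub_atImInfty one_pos hGper hGhol hGbdd
  rw [hGv] at h2
  refine ⟨c, ?_⟩
  have h3 := isBounded_div_qParam (h1.sub (h2.const_mul_left c))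
  refine h3.congr' ?_ EventuallyEq.rfl
  filter_upwards with τ
  have hq : 𝕢 1 (τ : ℂ) ≠ 0 := Periodic.qParam_ne_zero _
  simp only [hg, hG]
  field_simp
  ring

/-- **PJ1**: a holomorphic `SL(2,ℤ)`-invariant function on `ℍ` with a pole of order at most `m`
at `i∞` is a polynomial of degree at most `m` in `j`. -/
theorem exists_polynomial_eval_jFun (m : ℕ) : ∀ {φ : ℍ → ℂ}, MDiff φ →
    (∀ (γ : SL(2, ℤ)) (τ : ℍ), φ (γ • τ) = φ τ) →
    IsBoundedAtImInfty (fun τ : ℍ => 𝕢 1 (τ : ℂ) ^ m * φ τ) →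
    ∃ P : Polynomial ℂ, P.natDegree ≤ m ∧ ∀ τ, φ τ = P.eval (jFun τ) := by
  induction m with
  | zero =>
    intro φ hhol hinv hbdd
    have hbdd' : IsBoundedAtImInfty φ := by simpa using hbdd
    obtain ⟨c, hc⟩ := const_of_bounded hhol hinv hbdd'
    exact ⟨Polynomial.C c, by simp, fun τ => by simp [hc τ]⟩
  | succ m ih =>
    intro φ hhol hinv hbdd
    obtain ⟨c, hc⟩ := step hhol hinv m hbdd
    have hψhol : MDiff (fun τ : ℍ => φ τ - c * jFun τ ^ (m + 1)) :=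
      hhol.sub ((mdifferentiable_const (c := c)).mul (jFun_mdiff.pow (m + 1)))
    have hψinv : ∀ (γ : SL(2, ℤ)) (τ : ℍ),
        φ (γ • τ) - c * jFun (γ • τ) ^ (m + 1) = φ τ - c * jFun τ ^ (m + 1) := by
      intro γ τ
      rw [hinv, jFun_smul]
    obtain ⟨P₀, hdeg, hP₀⟩ := ih hψhol hψinv hc
    refine ⟨P₀ + Polynomial.C c * Polynomial.X ^ (m + 1), ?_, fun τ => ?_⟩
    · refine (Polynomial.natDegree_add_le _ _).trans (max_le (hdeg.trans (Nat.le_succ m)) ?_)
      exact (Polynomial.natDegree_C_mul_X_pow_le c (m + 1))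
    · have := hP₀ τ
      simp only [Polynomial.eval_add, Polynomial.eval_mul, Polynomial.eval_C, Polynomial.eval_pow,
        Polynomial.eval_X]
      rw [← this]
      ring

/-- Variant of `exists_polynomial_eval_jFun` with the pole-order hypothesis given by a convergent
`q`-expansion of `q ^ m * φ`. -/
theorem exists_polynomial_eval_jFun_of_hasSum (m : ℕ) {φ : ℍ → ℂ} (hhol : MDiff φ)
    (hinv : ∀ (γ : SL(2, ℤ)) (τ : ℍ), φ (γ • τ) = φ τ) (c : ℕ → ℂ)
    (hsum : ∀ τ : ℍ, HasSum (fun k : ℕ => c k • 𝕢 1 (τ : ℂ) ^ k) (𝕢 1 (τ : ℂ) ^ m * φ τ)) :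
    ∃ P : Polynomial ℂ, P.natDegree ≤ m ∧ ∀ τ, φ τ = P.eval (jFun τ) :=
  exists_polynomial_eval_jFun m hhol hinv (isBoundedAtImInfty_of_hasSum_qExpansion one_pos hsum)

end Fermat.Agent.S24.PolyJ
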