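import Mathlib

set_option autoImplicit false

namespace Fermat.Agent.S24.DegreeAbs

open IntermediateField

section

variable {K F : Type*} [Field K] [Field F] [Algebra K F]

/-- Two ring homs out of `F` that agree on `K` and on `J` agree on `K⟮J⟯`. -/
theorem agree_on_adjoin_simple {E : Type*} [Field E] (J : F) (f g : F →+* E)
    (hK : ∀ c : K, f (algebraMap K F c) = g (algebraMap K F c)) (hJ : f J = g J)
    (l : K⟮J⟯) : f (l : F) = g (l : F) := by
  obtain ⟨l, hl⟩ := l
  show f l = g l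
  induction hl using IntermediateField.adjoin_induction with
  | mem x hx =>
      rw [Set.mem_singleton_iff] at hx
      subst hx
      exact hJ
  | algebraMap c => exact hK c
  | add x y _ _ hx hy => rw [map_add, map_add, hx, hy]
  | inv x _ hx => rw [map_inv₀, map_inv₀, hx]
  | mul x y _ _ hx hy => rw [map_mul, map_mul, hx, hy]

/-- Lower bound for the degree: pairwise distinct embeddings agreeing on `K⟮J⟯`. -/
theorem card_le_finrank_of_injective {E : Type*} [Field E] (J : F) [Module.Finite K⟮J⟯ F]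
    {X : Type*} [Finite X] (ι : X → (F →+* E)) (hinj : Function.Injective ι)
    (hagree : ∀ (x y : X) (l : K⟮J⟯), ι x (l : F) = ι y (l : F)) :
    Nat.card X ≤ Module.finrank K⟮J⟯ F := by
  rcases isEmpty_or_nonempty X with hX | ⟨⟨x₀⟩⟩
  · simp
  let _ : Algebra K⟮J⟯ E := ((ι x₀).comp (algebraMap K⟮J⟯ F)).toAlgebra
  let φ : X → (F →ₐ[K⟮J⟯] E) := fun x =>
    { ι x with commutes' := fun l => hagree x x₀ l }
  have hφ : Function.Injective φ := by
    intro x y hxy
    apply hinj
    ext a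
    exact congrArg (fun ψ : F →ₐ[K⟮J⟯] E => ψ a) hxy
  exact (Nat.card_le_card_of_injective φ hφ).trans (card_algHom_le_finrank K⟮J⟯ F E)

/-- The same with agreement only required on `K` and on `J`. -/
theorem card_le_finrank_of_injective' {E : Type*} [Field E] (J : F) [Module.Finite K⟮J⟯ F]
    {X : Type*} [Finite X] (ι : X → (F →+* E)) (hinj : Function.Injective ι)
    (hK : ∀ (x y : X) (c : K), ι x (algebraMap K F c) = ι y (algebraMap K F c))
    (hJ : ∀ x y : X, ι x J = ι y J) :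
    Nat.card X ≤ Module.finrank K⟮J⟯ F :=
  card_le_finrank_of_injective J ι hinj
    (fun x y l => agree_on_adjoin_simple J (ι x) (ι y) (hK x y) (hJ x y) l)

/-- If `F` is algebraic over `K⟮J⟯` with `J` transcendental over `K`, then `trdeg K F = 1`. -/
theorem trdeg_eq_one (J : F) (hJ : Transcendental K J) [Algebra.IsAlgebraic K⟮J⟯ F] :
    Algebra.trdeg K F = 1 := by
  have hind : AlgebraicIndependent K (fun _ : Unit => J) :=
    algebraicIndependent_unique_type_iff.mpr hJ
  have hrange : Set.range (fun _ : Unit => J) = {J} := by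
    ext y; simp [eq_comm]
  have halg : Algebra.IsAlgebraic (Algebra.adjoin K (Set.range (fun _ : Unit => J))) F := by
    rw [hrange]
    open scoped IntermediateField.algebraAdjoinAdjoin in
    exact Algebra.IsAlgebraic.trans (Algebra.adjoin K {J}) K⟮J⟯ F
  have hb : IsTranscendenceBasis K (fun _ : Unit => J) :=
    hind.isTranscendenceBasis_iff_isAlgebraic.mpr halg
  have h := hb.lift_cardinalMk_eq_trdeg
  rw [Cardinal.mk_unit, Cardinal.lift_one] at h
  exact (Cardinal.lift_eq_one.mp h.symm)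

end

section Upper

variable {K F : Type*} [Field K] [Field F] [Algebra K F]

/-- every element of `F` is generated over `K⟮J⟯` by `S` once it is generated over `K`. -/
theorem adjoin_simple_adjoin_eq_top (J : F) (S : Set F) (hS : IntermediateField.adjoin K S = ⊤) :
    IntermediateField.adjoin K⟮J⟯ S = ⊤ := by
  rw [eq_top_iff]
  intro x _
  have hx : x ∈ IntermediateField.adjoin K S := by rw [hS]; trivial
  induction hx using IntermediateField.adjoin_induction with
  | mem x hx => exact IntermediateField.subset_adjoin _ _ hx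
  | algebraMap c =>
      rw [IsScalarTower.algebraMap_apply K K⟮J⟯ F]
      exact IntermediateField.algebraMap_mem _ _
  | add x y _ _ hx hy => exact add_mem (hx trivial) (hy trivial)
  | inv x _ hx => exact inv_mem (hx trivial)
  | mul x y _ _ hx hy => exact mul_mem (hx trivial) (hy trivial)

/-- Elements of `Algebra.adjoin K⟮J⟯ S` are fractions `r / s` with `r ∈ K[S]`, `s ∈ K[J] \ {0}`. -/
theorem exists_mul_eq_of_mem_adjoin (J : F) (S : Set F) (hJ : J ∈ Algebra.adjoin K S)
    {a : F} (ha : a ∈ Algebra.adjoin K⟮J⟯ S) :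
    ∃ r ∈ Algebra.adjoin K S, ∃ s ∈ Algebra.adjoin K {J}, s ≠ 0 ∧ s * a = r := by
  have hle : Algebra.adjoin K {J} ≤ Algebra.adjoin K S :=
    Algebra.adjoin_le (Set.singleton_subset_iff.mpr hJ)
  induction ha using Algebra.adjoin_induction with
  | mem x hx =>
      exact ⟨x, Algebra.subset_adjoin hx, 1, one_mem _, one_ne_zero, one_mul x⟩
  | algebraMap l =>
      obtain ⟨l, hl⟩ := l
      obtain ⟨u, hu, v, hv, rfl⟩ := IntermediateField.mem_adjoin_iff_div.mp hl
      by_cases hv0 : v = 0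
      · refine ⟨0, zero_mem _, 1, one_mem _, one_ne_zero, ?_⟩
        show (1 : F) * (u / v) = 0
        rw [hv0, div_zero, mul_zero]
      · refine ⟨u, hle hu, v, hv, hv0, ?_⟩
        show v * (u / v) = u
        field_simp
  | add x y _ _ hx hy =>
      obtain ⟨r₁, hr₁, s₁, hs₁, hs₁0, h₁⟩ := hx
      obtain ⟨r₂, hr₂, s₂, hs₂, hs₂0, h₂⟩ := hy
      refine ⟨s₂ * r₁ + s₁ * r₂, add_mem (mul_mem (hle hs₂) hr₁) (mul_mem (hle hs₁) hr₂),
        s₁ * s₂, mul_mem hs₁ hs₂, mul_ne_zero hs₁0 hs₂0, ?_⟩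
      rw [← h₁, ← h₂]; ring
  | mul x y _ _ hx hy =>
      obtain ⟨r₁, hr₁, s₁, hs₁, hs₁0, h₁⟩ := hx
      obtain ⟨r₂, hr₂, s₂, hs₂, hs₂0, h₂⟩ := hy
      refine ⟨r₁ * r₂, mul_mem hr₁ hr₂, s₁ * s₂, mul_mem hs₁ hs₂, mul_ne_zero hs₁0 hs₂0, ?_⟩
      rw [← h₁, ← h₂]; ring

/-- Upper bound for the degree: if every element of the `K`-algebra generated by a finite
generating set `S` is a root of a monic polynomial of degree `n` over `K⟮J⟯`, then
`[F : K⟮J⟯] ≤ n`. -/
theorem finite_and_finrank_le [CharZero K] (J : F) (S : Set F) (hSfin : S.Finite)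
    (hS : IntermediateField.adjoin K S = ⊤) (hJ : J ∈ Algebra.adjoin K S) (n : ℕ)
    (hpoly : ∀ a ∈ Algebra.adjoin K S, ∃ p : Polynomial K⟮J⟯,
      p.Monic ∧ p.natDegree = n ∧ Polynomial.aeval a p = 0) :
    Module.Finite K⟮J⟯ F ∧ Module.finrank K⟮J⟯ F ≤ n := by
  have hint : ∀ a ∈ Algebra.adjoin K S, IsIntegral K⟮J⟯ a := by
    intro a ha
    obtain ⟨p, hp, -, hpa⟩ := hpoly a ha
    exact ⟨p, hp, hpa⟩
  have hSint : ∀ x ∈ S, IsIntegral K⟮J⟯ x := fun x hx => hint x (Algebra.subset_adjoin hx)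
  have htop : IntermediateField.adjoin K⟮J⟯ S = ⊤ := adjoin_simple_adjoin_eq_top J S hS
  have : Finite S := hSfin.to_subtype
  have hfin' : FiniteDimensional K⟮J⟯ (IntermediateField.adjoin K⟮J⟯ S) :=
    IntermediateField.finiteDimensional_adjoin hSint
  have hfin : Module.Finite K⟮J⟯ F := by
    rw [htop] at hfin'
    exact Module.Finite.equiv (IntermediateField.topEquiv (F := K⟮J⟯) (E := F)).toLinearEquiv
  refine ⟨hfin, ?_⟩
  have halgtop : Algebra.adjoin K⟮J⟯ S = ⊤ := by
    have h := IntermediateField.adjoin_toSubalgebra_of_isAlgebraic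
      (F := K⟮J⟯) (S := S) (fun x hx => (hSint x hx).isAlgebraic)
    rw [htop] at h
    rw [← h]
    rfl
  obtain ⟨α, hα⟩ := Field.exists_primitive_element K⟮J⟯ F
  have hαmem : α ∈ Algebra.adjoin K⟮J⟯ S := by rw [halgtop]; trivial
  obtain ⟨r, hr, s, hs, hs0, hsr⟩ := exists_mul_eq_of_mem_adjoin J S hJ hαmem
  have hsL : s ∈ K⟮J⟯ := IntermediateField.algebra_adjoin_le_adjoin K {J} hs
  have hrtop : K⟮J⟯⟮r⟯ = ⊤ := by
    rw [eq_top_iff, ← hα, IntermediateField.adjoin_le_iff, Set.singleton_subset_iff]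
    have hα' : α = s⁻¹ * r := by
      rw [← hsr, ← mul_assoc, inv_mul_cancel₀ hs0, one_mul]
    rw [hα']
    have h1 : (s⁻¹ : F) ∈ K⟮J⟯⟮r⟯ := by
      have : (s⁻¹ : F) = algebraMap K⟮J⟯ F (⟨s, hsL⟩⁻¹) := by
        rw [map_inv₀]; rfl
      rw [this]
      exact IntermediateField.algebraMap_mem _ _
    exact mul_mem h1 (IntermediateField.mem_adjoin_simple_self _ r)
  obtain ⟨p, hp, hpn, hpr⟩ := hpoly r hr
  have hrint : IsIntegral K⟮J⟯ r := hint r hr
  have h1 : Module.finrank K⟮J⟯ F = (minpoly K⟮J⟯ r).natDegree := by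
    rw [← IntermediateField.adjoin.finrank hrint, hrtop, IntermediateField.finrank_top']
  rw [h1, ← hpn]
  exact Polynomial.natDegree_le_natDegree (minpoly.min K⟮J⟯ r hp hpr)

/-- Exact degree from the two bounds. -/
theorem finrank_eq_card [CharZero K] {E : Type*} [Field E] (J : F) (S : Set F)
    (hSfin : S.Finite) (hS : IntermediateField.adjoin K S = ⊤) (hJ : J ∈ Algebra.adjoin K S)
    {X : Type*} [Finite X]
    (hpoly : ∀ a ∈ Algebra.adjoin K S, ∃ p : Polynomial K⟮J⟯,
      p.Monic ∧ p.natDegree = Nat.card X ∧ Polynomial.aeval a p = 0)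
    (ι : X → (F →+* E)) (hinj : Function.Injective ι)
    (hK : ∀ (x y : X) (c : K), ι x (algebraMap K F c) = ι y (algebraMap K F c))
    (hJ' : ∀ x y : X, ι x J = ι y J) :
    Module.Finite K⟮J⟯ F ∧ Module.finrank K⟮J⟯ F = Nat.card X := by
  obtain ⟨hfin, hle⟩ := finite_and_finrank_le J S hSfin hS hJ (Nat.card X) hpoly
  exact ⟨hfin, le_antisymm hle (card_le_finrank_of_injective' J ι hinj hK hJ')⟩

end Upper

end Fermat.Agent.S24.DegreeAbs
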