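import Fermat.Agent.S24.HolHRot

set_option autoImplicit false
set_option linter.dupNamespace false

open scoped Manifold MatrixGroups Topology
open UpperHalfPlane Filter CongruenceSubgroup

noncomputable section

namespace Fermat.Agent.S24.HolH

variable {N : ℕ} {A : Type*} [CommRing A]

/-- The coset-indexed family of ring homs `a ↦ θ a ∘ (g⁻¹ • ·)`, `x = g Γ₀(N)`. -/
def cosetHom (θ : A →+* HolH) (x : SL(2, ℤ) ⧸ Gamma0 N) : A →+* HolH :=
  ((compSL (Quotient.out x)⁻¹ : HolH →ₐ[ℂ] HolH) : HolH →+* HolH).comp θ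

theorem cosetHom_apply (θ : A →+* HolH) (x : SL(2, ℤ) ⧸ Gamma0 N) (a : A) :
    cosetHom θ x a = compSL (Quotient.out x)⁻¹ (θ a) := rfl

theorem cosetHom_mk (θ : A →+* HolH)
    (hθ : ∀ γ ∈ Gamma0 N, ∀ a, compSL γ (θ a) = θ a) (g : SL(2, ℤ)) (a : A) :
    cosetHom θ (g : SL(2, ℤ) ⧸ Gamma0 N) a = compSL g⁻¹ (θ a) := by
  obtain ⟨γ, hγ⟩ := QuotientGroup.mk_out_eq_mul (Gamma0 N) g
  rw [cosetHom_apply, hγ, mul_inv_rev, compSL_mul, hθ _ (inv_mem γ.2)]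

theorem cosetHom_smul (θ : A →+* HolH)
    (hθ : ∀ γ ∈ Gamma0 N, ∀ a, compSL γ (θ a) = θ a) (σ : SL(2, ℤ))
    (x : SL(2, ℤ) ⧸ Gamma0 N) (a : A) :
    cosetHom θ (σ • x) a = compSL σ⁻¹ (cosetHom θ x a) := by
  obtain ⟨g, rfl⟩ := QuotientGroup.mk_surjective x
  rw [MulAction.Quotient.smul_mk, smul_eq_mul, cosetHom_mk θ hθ, cosetHom_mk θ hθ, mul_inv_rev,
    compSL_mul]

theorem cosetHom_injective (θ : A →+* HolH) (hinj : Function.Injective θ)
    (x : SL(2, ℤ) ⧸ Gamma0 N) : Function.Injective (cosetHom θ x) := by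
  intro a b hab
  exact hinj (compSL_injective _ hab)

/-- values at a point: `cosetHom θ (gΓ) a τ = θ a (g⁻¹ • τ)` -/
theorem cosetHom_mk_apply (θ : A →+* HolH)
    (hθ : ∀ γ ∈ Gamma0 N, ∀ a, compSL γ (θ a) = θ a) (g : SL(2, ℤ)) (a : A) (τ : ℍ) :
    (cosetHom θ (g : SL(2, ℤ) ⧸ Gamma0 N) a : ℍ → ℂ) τ = (θ a : ℍ → ℂ) (g⁻¹ • τ) := by
  rw [cosetHom_mk θ hθ]
  rfl

/-- an element with `SL(2,ℤ)`-invariant image has the same image under all `cosetHom θ x` -/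
theorem cosetHom_of_invariant (θ : A →+* HolH) {a : A}
    (ha : ∀ g : SL(2, ℤ), compSL g (θ a) = θ a) (x : SL(2, ℤ) ⧸ Gamma0 N) :
    cosetHom θ x a = θ a := by
  rw [cosetHom_apply, ha]

/-- `hg` of the fibre-count theorem: the order at a fixed point of `σ` does not change along
`σ`-orbits of cosets. -/
theorem ordZ_cosetHom_smul (θ : A →+* HolH)
    (hθ : ∀ γ ∈ Gamma0 N, ∀ a, compSL γ (θ a) = θ a) {σ : SL(2, ℤ)} {τ0 : ℍ}
    (hfix : σ • τ0 = τ0) (x : SL(2, ℤ) ⧸ Gamma0 N) (a : A) :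
    ordZ τ0 (cosetHom θ (σ • x) a) = ordZ τ0 (cosetHom θ x a) := by
  have hfix' : σ⁻¹ • τ0 = τ0 := by
    rw [inv_smul_eq_iff, hfix]
  rw [cosetHom_smul θ hθ, ordZ_compSL, hfix']

/-- `hρ_ne` of the fibre-count theorem: if the stabiliser of `θ a` in `SL(2,ℤ)` is contained in
`Γ₀(N)` for one `a`, then distinct cosets give distinct homs. -/
theorem cosetHom_index_injective (θ : A →+* HolH)
    (hθ : ∀ γ ∈ Gamma0 N, ∀ a, compSL γ (θ a) = θ a) (a : A)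
    (hstab : ∀ g : SL(2, ℤ), compSL g (θ a) = θ a → g ∈ Gamma0 N) :
    Function.Injective (cosetHom (N := N) θ) := by
  intro x y hxy
  obtain ⟨g, rfl⟩ := QuotientGroup.mk_surjective x
  obtain ⟨h, rfl⟩ := QuotientGroup.mk_surjective y
  have h1 := congrArg (fun ρ : A →+* HolH => ρ a) hxy
  simp only [cosetHom_mk θ hθ] at h1
  have h2 : compSL (g⁻¹ * h) (θ a) = θ a := by
    rw [compSL_mul, h1, ← compSL_mul, inv_mul_cancel, compSL_one]
  exact QuotientGroup.eq.mpr (hstab _ h2)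


theorem neg_one_mem_Gamma0 (N : ℕ) : (-1 : SL(2, ℤ)) ∈ Gamma0 N := by
  rw [Gamma0_mem]
  simp

theorem neg_one_smul_coset (x : SL(2, ℤ) ⧸ Gamma0 N) : (-1 : SL(2, ℤ)) • x = x := by
  obtain ⟨g, rfl⟩ := QuotientGroup.mk_surjective x
  rw [MulAction.Quotient.smul_mk, smul_eq_mul]
  apply QuotientGroup.eq.mpr
  have : (-1 * g)⁻¹ * g = (-1 : SL(2, ℤ)) := by
    rw [neg_one_mul, inv_neg, neg_mul, inv_mul_cancel]
  rw [this]
  exact neg_one_mem_Gamma0 N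

theorem S_sq_eq : (ModularGroup.S : SL(2, ℤ)) ^ 2 = -1 := by
  ext i j
  fin_cases i <;> fin_cases j <;>
    simp [pow_two, ModularGroup.coe_S, Matrix.mul_apply, Fin.sum_univ_two]

theorem ST_cube_eq : (ModularGroup.S * ModularGroup.T : SL(2, ℤ)) ^ 3 = -1 := by
  ext i j
  fin_cases i <;> fin_cases j <;>
    simp [pow_succ, ModularGroup.coe_S, ModularGroup.coe_T, Matrix.mul_apply, Fin.sum_univ_two]

/-- `hdiv` of the fibre-count theorem, generic form: `σ^s` acts trivially on cosets, `s` prime,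
and `σ`-invariant nonzero functions have order divisible by `s` at `τ0`. -/
theorem dvd_ordZ_cosetHom_mul_minimalPeriod (θ : A →+* HolH) (hinj : Function.Injective θ)
    (hθ : ∀ γ ∈ Gamma0 N, ∀ a, compSL γ (θ a) = θ a) {σ : SL(2, ℤ)} {τ0 : ℍ} {s : ℕ}
    (hs : s.Prime) (hper : ∀ x : SL(2, ℤ) ⧸ Gamma0 N, (σ ^ s) • x = x)
    (hrot : ∀ f : HolH, f ≠ 0 → compSL σ f = f → (s : ℤ) ∣ ordZ τ0 f)
    (x : SL(2, ℤ) ⧸ Gamma0 N) (a : A) (ha : a ≠ 0) :
    (s : ℤ) ∣ ordZ τ0 (cosetHom θ x a) * (Function.minimalPeriod (σ • ·) x : ℤ) := by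
  have hdvd : Function.minimalPeriod (σ • ·) x ∣ s := by
    apply Function.IsPeriodicPt.minimalPeriod_dvd
    show (σ • ·)^[s] x = x
    rw [smul_iterate]
    exact hper x
  rcases (Nat.dvd_prime hs).mp hdvd with h1 | h1
  · have hfixed : σ • x = x := Function.minimalPeriod_eq_one_iff_isFixedPt.mp h1
    have hne : cosetHom θ x a ≠ 0 := by
      intro h0
      exact ha (cosetHom_injective θ hinj x (by rw [h0, map_zero]))
    have hinv' : compSL σ⁻¹ (cosetHom θ x a) = cosetHom θ x a := by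
      rw [← cosetHom_smul θ hθ, hfixed]
    exact Dvd.dvd.mul_right (hrot _ hne (compSL_eq_self_of_inv hinv')) _
  · rw [h1]
    exact dvd_mul_left _ _

/-- `hdiv` for `σ = S`, `s = 2`, at any fixed point of `S`. -/
theorem two_dvd_ordZ_cosetHom_mul_minimalPeriod_S (θ : A →+* HolH)
    (hinj : Function.Injective θ) (hθ : ∀ γ ∈ Gamma0 N, ∀ a, compSL γ (θ a) = θ a) {τ0 : ℍ}
    (hfix : ModularGroup.S • τ0 = τ0) (x : SL(2, ℤ) ⧸ Gamma0 N) (a : A) (ha : a ≠ 0) :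
    ((2 : ℕ) : ℤ) ∣ ordZ τ0 (cosetHom θ x a)
      * (Function.minimalPeriod (ModularGroup.S • ·) x : ℤ) :=
  dvd_ordZ_cosetHom_mul_minimalPeriod θ hinj hθ Nat.prime_two
    (fun y => by rw [S_sq_eq]; exact neg_one_smul_coset y)
    (fun f hf hinv => two_dvd_ordZ_of_S_fixed hfix hf hinv) x a ha

/-- `hdiv` for `σ = S * T`, `s = 3`, at any fixed point of `S * T`. -/
theorem three_dvd_ordZ_cosetHom_mul_minimalPeriod_ST (θ : A →+* HolH)
    (hinj : Function.Injective θ) (hθ : ∀ γ ∈ Gamma0 N, ∀ a, compSL γ (θ a) = θ a) {τ0 : ℍ}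
    (hfix : (ModularGroup.S * ModularGroup.T) • τ0 = τ0) (x : SL(2, ℤ) ⧸ Gamma0 N) (a : A)
    (ha : a ≠ 0) :
    ((3 : ℕ) : ℤ) ∣ ordZ τ0 (cosetHom θ x a)
      * (Function.minimalPeriod ((ModularGroup.S * ModularGroup.T) • ·) x : ℤ) :=
  dvd_ordZ_cosetHom_mul_minimalPeriod θ hinj hθ Nat.prime_three
    (fun y => by rw [ST_cube_eq]; exact neg_one_smul_coset y)
    (fun f hf hinv => three_dvd_ordZ_of_ST_fixed hfix hf hinv) x a ha

/-- `hdiv` for the trivial element (generic fibres, `s = 1`). -/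
theorem one_dvd_ordZ_cosetHom_mul_minimalPeriod (θ : A →+* HolH) {τ0 : ℍ}
    (x : SL(2, ℤ) ⧸ Gamma0 N) (a : A) :
    ((1 : ℕ) : ℤ) ∣ ordZ τ0 (cosetHom θ x a)
      * (Function.minimalPeriod ((1 : SL(2, ℤ)) • ·) x : ℤ) := by
  simp

end Fermat.Agent.S24.HolH

end
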