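import Mathlib
import Fermat.Prelude.Def_ModularCurve_ArithmeticGalois
import Fermat.Agent.S24.FF.Basic

set_option autoImplicit false

namespace Fermat.Agent.S24.DegreeGen

open ModularCurve IntermediateField HahnSeries

noncomputable section

section General

variable (L : Type*) [Field L] [Algebra ℚ L]

theorem coeffEmb_algebraMap (c : ℚ) :
    coeffEmb L (algebraMap ℚ (LaurentSeries ℚ) c)
      = algebraMap L (LaurentSeries L) (algebraMap ℚ L c) := by
  rw [ModularCurve.algebraMap_apply_eq_single, algebraMap_laurentSeries_eq_single]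
  exact coeffMap_single _ _ _

theorem laurentBaseChange_adjoin (S : Set (LaurentSeries ℚ)) :
    laurentBaseChange L (IntermediateField.adjoin ℚ S)
      = IntermediateField.adjoin L (⇑(coeffEmb L) '' S) := by
  apply le_antisymm
  · rw [laurentBaseChange, IntermediateField.adjoin_le_iff]
    rintro _ ⟨x, hx, rfl⟩
    induction hx using IntermediateField.adjoin_induction with
    | mem x hx => exact IntermediateField.subset_adjoin L _ ⟨x, hx, rfl⟩
    | algebraMap c =>
        rw [coeffEmb_algebraMap]
        exact IntermediateField.algebraMap_mem _ _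
    | add x y _ _ hx hy => rw [map_add]; exact add_mem hx hy
    | inv x _ hx => rw [map_inv₀]; exact inv_mem hx
    | mul x y _ _ hx hy => rw [map_mul]; exact mul_mem hx hy
  · exact IntermediateField.adjoin.mono L _ _
      (Set.image_mono (IntermediateField.subset_adjoin ℚ S))

/-- The finite generating set of the level-`N` modular function field over `L`:
the series `j(q^d)`, `d ∣ N`, with coefficients mapped to `L`. -/
def gens (N : ℕ) : Set (LaurentSeries L) := ⇑(coeffEmb L) '' divisorExpansions N

theorem laurentBaseChange_full_eq_adjoin (N : ℕ) :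
    laurentBaseChange L (modularFunctionFieldFull N)
      = IntermediateField.adjoin L (gens L N) :=
  laurentBaseChange_adjoin L (divisorExpansions N)

theorem divisorExpansions_finite (N : ℕ) [NeZero N] : (divisorExpansions N).Finite := by
  classical
  let g : ℕ → LaurentSeries ℚ := fun d =>
    if h : d = 0 then 0 else (haveI : NeZero d := ⟨h⟩; qExpand ℚ d jq)
  apply Set.Finite.subset ((N.divisors : Set ℕ).toFinite.image g)
  rintro x ⟨d, hd, hdN, rfl⟩
  refine ⟨d, ?_, ?_⟩
  · simpa using ⟨hdN, NeZero.ne N⟩
  · simp only [g]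
    rw [dif_neg (NeZero.ne d)]

theorem gens_finite (N : ℕ) [NeZero N] : (gens L N).Finite :=
  (divisorExpansions_finite N).image _

theorem coeffEmb_qExpand_mem_gens {N d : ℕ} [NeZero d] (hd : d ∣ N) :
    coeffEmb L (qExpand ℚ d jq) ∈ gens L N :=
  ⟨_, mem_divisorExpansions N hd, rfl⟩

theorem coeffEmb_jq_mem_gens (N : ℕ) : coeffEmb L jq ∈ gens L N := by
  have h := coeffEmb_qExpand_mem_gens L (N := N) (d := 1) (one_dvd N)
  rwa [qExpand_one_apply] at h

theorem fg_laurentBaseChange_full (N : ℕ) [NeZero N] :
    (laurentBaseChange L (modularFunctionFieldFull N)).FG := by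
  rw [laurentBaseChange_full_eq_adjoin]
  have h := IntermediateField.fg_adjoin_finset (F := L) (gens_finite L N).toFinset
  simpa using h

instance essFiniteType_laurentBaseChange_full (N : ℕ) [NeZero N] :
    Algebra.EssFiniteType L ↥(laurentBaseChange L (modularFunctionFieldFull N)) :=
  IntermediateField.essFiniteType_iff.mpr (fg_laurentBaseChange_full L N)

theorem coeffEmb_jq_coeff_neg_one : (coeffEmb L jq).coeff (-1) = 1 := by
  rw [coeffEmb_coeff, coeff_jq_neg_one, map_one]

theorem coeffEmb_jq_not_mem_range :
    coeffEmb L jq ∉ Set.range (algebraMap L (LaurentSeries L)) := by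
  rintro ⟨c, hc⟩
  have h := congrArg (fun x : LaurentSeries L => x.coeff (-1)) hc
  simp only [algebraMap_laurentSeries_eq_single, coeffEmb_jq_coeff_neg_one] at h
  rw [HahnSeries.coeff_single_of_ne (by norm_num)] at h
  exact zero_ne_one h

end General

section Bar

variable (N : ℕ)

/-- The element `j` of the function field of `X₀(N)` over `ℚ̄`. -/
def jBar : ↥(modularFunctionFieldBar N) :=
  ⟨coeffEmb (AlgebraicClosure ℚ) jq,
    coeffEmb_mem_laurentBaseChange (AlgebraicClosure ℚ)
      (by have h := jqd_mem_full N (one_dvd N); rwa [qExpand_one_apply] at h)⟩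

@[simp] theorem coe_jBar :
    ((jBar N : ↥(modularFunctionFieldBar N)) : LaurentSeries (AlgebraicClosure ℚ))
      = coeffEmb (AlgebraicClosure ℚ) jq := rfl

theorem jBar_not_mem_range :
    jBar N ∉ Set.range (algebraMap (AlgebraicClosure ℚ) ↥(modularFunctionFieldBar N)) := by
  rintro ⟨c, hc⟩
  apply coeffEmb_jq_not_mem_range (AlgebraicClosure ℚ)
  refine ⟨c, ?_⟩
  have h := congrArg (fun x : ↥(modularFunctionFieldBar N) =>
    (x : LaurentSeries (AlgebraicClosure ℚ))) hc
  exact h

theorem transcendental_jBar : Transcendental (AlgebraicClosure ℚ) (jBar N) :=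
  Fermat.Agent.S24.FF.transcendental_of_not_mem_range (jBar_not_mem_range N)

instance essFiniteType_bar [NeZero N] :
    Algebra.EssFiniteType (AlgebraicClosure ℚ) ↥(modularFunctionFieldBar N) :=
  essFiniteType_laurentBaseChange_full (AlgebraicClosure ℚ) N

end Bar

end

end Fermat.Agent.S24.DegreeGen
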