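import Mathlib
import Fermat.Agent.S24.HolH
import Fermat.Agent.S24.JFun
import Fermat.Agent.S24.StabJ
import Fermat.Agent.S24.QBridge
import Fermat.Agent.S24.Puiseux.Subst
import Fermat.Agent.S24.QB.QExpK
import Fermat.Agent.S24.Modular.Defs

set_option autoImplicit false

/-!
# Theta: the function field side meets the analytic side

`theta ι N : A0 N →+* HolH` sends the generator `j(q^d)` (`d ∣ N`) of the `ℚ̄`-algebra
`A0 N ⊆ F_N` to the holomorphic function `τ ↦ j(dτ)`.  It is injective and compatible with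
`q`-expansions.
-/

noncomputable section

open UpperHalfPlane ModularCurve HahnSeries ModularForm
open scoped MatrixGroups Manifold

namespace Fermat.Agent.S24.Theta

open Fermat.Agent.S24.HolH Fermat.Agent.S24.JFun Fermat.Agent.S24.StabAbs
open Fermat.Agent.S24.Modular

local notation "𝕢" => Function.Periodic.qParam

section General

variable {K : Type*} [Field K] (ι : K →+* ℂ)

/-- `φ` has the `q`-expansion `A` (coefficients read in `ℂ` through `ι`). -/
def HasQ (A : LaurentSeries K) (φ : ℍ → ℂ) : Prop :=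
  ∀ τ : ℍ, HasSum (fun n : ℤ => ι (A.coeff n) * 𝕢 1 τ ^ n) (φ τ)

variable {ι}

theorem HasQ.fun_unique {A : LaurentSeries K} {φ ψ : ℍ → ℂ} (h1 : HasQ ι A φ) (h2 : HasQ ι A ψ) :
    φ = ψ :=
  funext fun τ => (h1 τ).unique (h2 τ)

theorem HasQ.add {A B : LaurentSeries K} {φ ψ : ℍ → ℂ} (h1 : HasQ ι A φ) (h2 : HasQ ι B ψ) :
    HasQ ι (A + B) (φ + ψ) := by
  intro τ
  have h := (h1 τ).add (h2 τ)
  have hfun : (fun n : ℤ => ι ((A + B).coeff n) * 𝕢 1 τ ^ n) =
      fun n : ℤ => ι (A.coeff n) * 𝕢 1 τ ^ n + ι (B.coeff n) * 𝕢 1 τ ^ n := by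
    funext n
    rw [HahnSeries.coeff_add, map_add, add_mul]
  rw [hfun]
  exact h

theorem HasQ.neg {A : LaurentSeries K} {φ : ℍ → ℂ} (h1 : HasQ ι A φ) :
    HasQ ι (-A) (-φ) := by
  intro τ
  have h := (h1 τ).neg
  have hfun : (fun n : ℤ => ι ((-A).coeff n) * 𝕢 1 τ ^ n) =
      fun n : ℤ => -(ι (A.coeff n) * 𝕢 1 τ ^ n) := by
    funext n
    rw [HahnSeries.coeff_neg, map_neg, neg_mul]
  rw [hfun]
  exact h

theorem HasQ.sub {A B : LaurentSeries K} {φ ψ : ℍ → ℂ} (h1 : HasQ ι A φ) (h2 : HasQ ι B ψ) :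
    HasQ ι (A - B) (φ - ψ) := by
  rw [sub_eq_add_neg, sub_eq_add_neg]
  exact h1.add h2.neg

variable (ι)

theorem hasQ_algebraMap (c : K) :
    HasQ ι (algebraMap K (LaurentSeries K) c) (fun _ => ι c) := by
  intro τ
  rw [algebraMap_laurentSeries_eq_single]
  have h := hasSum_single (f := fun n : ℤ => ι ((HahnSeries.single (0 : ℤ) c).coeff n) * 𝕢 1 τ ^ n)
    0 (fun n hn => by simp [HahnSeries.coeff_single_of_ne hn])
  simpa using h

theorem hasQ_zero : HasQ ι (0 : LaurentSeries K) 0 := by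
  have h := hasQ_algebraMap ι (0 : K)
  rw [map_zero, map_zero] at h
  exact h

theorem hasQ_one : HasQ ι (1 : LaurentSeries K) 1 := by
  have h := hasQ_algebraMap ι (1 : K)
  rw [map_one, map_one] at h
  exact h

/-- The analytic `j` has `q`-expansion the formal `jq`. -/
theorem hasQ_jqModC : HasQ ι (jqModC K) jFun := by
  intro τ
  have hq : 𝕢 1 (τ : ℂ) ≠ 0 := Function.Periodic.qParam_ne_zero _
  have h := (Fermat.Agent.S24.QBridge.hasSum_jNum τ).mul_left (𝕢 1 (τ : ℂ))⁻¹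
  have hval : (𝕢 1 (τ : ℂ))⁻¹ * (𝕢 1 τ * (E₄ τ ^ 3 / ModularForm.discriminant τ)) = jFun τ := by
    rw [jFun_def]
    field_simp
  rw [hval] at h
  have he : Function.Injective (fun n : ℕ => (n : ℤ) - 1) := by
    intro a b hab
    simpa using hab
  refine (he.hasSum_iff ?_).mp ?_
  · intro n hn
    have hlt : n < -1 := by
      by_contra hcon
      rw [not_lt] at hcon
      exact hn ⟨(n + 1).toNat, by simp; omega⟩
    rw [Fermat.Agent.S24.Puiseux.jqModC_coeff_of_lt hlt, map_zero, zero_mul]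
  · have hfun : ((fun n : ℤ => ι ((jqModC K).coeff n) * 𝕢 1 τ ^ n) ∘ fun n : ℕ => (n : ℤ) - 1) =
        fun n : ℕ => (𝕢 1 (τ : ℂ))⁻¹ *
          (((PowerSeries.coeff n ModularCurve.jNum : ℤ) : ℂ) * 𝕢 1 τ ^ n) := by
      funext n
      simp only [Function.comp_apply]
      have hc : (jqModC K).coeff ((n : ℤ) - 1) = ((PowerSeries.coeff n ModularCurve.jNum : ℤ) : K) := by
        rw [jqModC, HahnSeries.coeff_single_mul, one_mul,
          show ((n : ℤ) - 1 - (-1)) = (n : ℤ) by ring, HahnSeries.ofPowerSeries_apply_coeff,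
          PowerSeries.coeff_map]
        rfl
      rw [hc, map_intCast, zpow_sub₀ hq, zpow_natCast, zpow_one]
      field_simp
    rw [hfun]
    exact h

theorem qParam_scaleH (d : ℕ) [NeZero d] (τ : ℍ) :
    𝕢 1 ((scaleH d τ : ℍ) : ℂ) = 𝕢 1 (τ : ℂ) ^ d := by
  rw [coe_scaleH]
  simp only [Function.Periodic.qParam, Complex.ofReal_one, div_one]
  rw [← Complex.exp_nat_mul]
  congr 1
  ring

/-- `τ ↦ j(dτ)` has `q`-expansion the formal `j(q^d)`. -/
theorem hasQ_qExpand_jqModC (d : ℕ) [NeZero d] :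
    HasQ ι (qExpand K d (jqModC K)) (fun τ => jFun (scaleH d τ)) := by
  intro τ
  have h := hasQ_jqModC ι (scaleH d τ)
  rw [qParam_scaleH] at h
  exact (Fermat.Agent.S24.Puiseux.hasSum_qExpand_iff ι d (jqModC K) (𝕢 1 τ) _).mpr h

theorem hasQ_coeffEmb_qExpand_jq [Algebra ℚ K] (d : ℕ) [NeZero d] :
    HasQ ι (coeffEmb K (qExpand ℚ d jq)) (fun τ => jFun (scaleH d τ)) := by
  rw [Fermat.Agent.S24.Puiseux.coeffEmb_qExpand_jq]
  exact hasQ_qExpand_jqModC ι d

variable {ι}

/-- `HasQ` is the level-one case of `QB.HasQExpK`. -/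
theorem hasQ_iff_hasQExpK {A : LaurentSeries K} {φ : ℍ → ℂ} :
    HasQ ι A φ ↔ Fermat.Agent.S24.QB.HasQExpK ι 1 A φ := by
  rw [Fermat.Agent.S24.QB.hasQExpK_iff_qParam, Nat.cast_one]
  rfl

/-- Cauchy product. -/
theorem HasQ.mul {A B : LaurentSeries K} {φ ψ : ℍ → ℂ} (h1 : HasQ ι A φ) (h2 : HasQ ι B ψ) :
    HasQ ι (A * B) (φ * ψ) :=
  hasQ_iff_hasQExpK.mpr ((hasQ_iff_hasQExpK.mp h1).mul (hasQ_iff_hasQExpK.mp h2))

/-- The expansion is determined by the function. -/
theorem HasQ.eq_zero {A : LaurentSeries K} (h : HasQ ι A 0) : A = 0 :=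
  Fermat.Agent.S24.QB.HasQExpK.eq_zero one_ne_zero (hasQ_iff_hasQExpK.mp h)

/-- A function with a `q`-expansion is holomorphic. -/
theorem HasQ.mdiff {A : LaurentSeries K} {φ : ℍ → ℂ} (h : HasQ ι A φ) :
    MDifferentiable 𝓘(ℂ) 𝓘(ℂ) φ :=
  Fermat.Agent.S24.QB.HasQExpK.mdiff one_ne_zero (hasQ_iff_hasQExpK.mp h)

theorem HasQ.unique {A B : LaurentSeries K} {φ : ℍ → ℂ} (h1 : HasQ ι A φ) (h2 : HasQ ι B φ) :
    A = B := by
  have h := h1.sub h2
  rw [sub_self] at h
  exact sub_eq_zero.mp (HasQ.eq_zero h)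

theorem mdiff_jScale (d : ℕ) [NeZero d] :
    MDifferentiable 𝓘(ℂ) 𝓘(ℂ) (fun τ : ℍ => jFun (scaleH d τ)) := by
  rw [UpperHalfPlane.mdifferentiable_iff]
  have h1 : DifferentiableOn ℂ (jFun ∘ ofComplex) upperHalfPlaneSet :=
    UpperHalfPlane.mdifferentiable_iff.mp jFun_mdiff
  have hd : (0 : ℝ) < d := by exact_mod_cast Nat.pos_of_ne_zero (NeZero.ne d)
  have h2 : DifferentiableOn ℂ ((jFun ∘ ofComplex) ∘ fun z : ℂ => (d : ℂ) * z)
      upperHalfPlaneSet := by
    refine h1.comp (by fun_prop) ?_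
    intro z hz
    have hz' : 0 < z.im := hz
    show 0 < ((d : ℂ) * z).im
    simpa using mul_pos hd hz'
  refine h2.congr ?_
  intro z hz
  have hz' : 0 < z.im := hz
  have hdz : 0 < ((d : ℂ) * z).im := by simpa using mul_pos hd hz'
  simp only [Function.comp_apply]
  rw [ofComplex_apply_of_im_pos hz', ofComplex_apply_of_im_pos hdz]
  rfl

/-- The holomorphic function `τ ↦ j(dτ)`. -/
def jScale (d : ℕ) [NeZero d] : HolH := ⟨fun τ : ℍ => jFun (scaleH d τ), mdiff_jScale d⟩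

@[simp] theorem jScale_apply (d : ℕ) [NeZero d] (τ : ℍ) :
    (jScale d : ℍ → ℂ) τ = jFun (scaleH d τ) := rfl

end General

/-! ### The subalgebra `A0 N` of `F_N` generated by the `j(q^d)`, `d ∣ N` -/

section A0

open Fermat.Agent.S24.DegreeGen

variable (N : ℕ)

/-- The `ℚ̄`-subalgebra of `F_N` generated by the `j(q^d)`, `d ∣ N`. -/
def A0 : Subalgebra Kbar (FN N) :=
  (Algebra.adjoin Kbar (gens Kbar N)).comap (modularFunctionFieldBar N).val

variable {N}

theorem mem_A0 {x : FN N} :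
    x ∈ A0 N ↔ (x : LaurentSeries Kbar) ∈ Algebra.adjoin Kbar (gens Kbar N) := Iff.rfl

theorem adjoin_gens_le :
    Algebra.adjoin Kbar (gens Kbar N) ≤ (modularFunctionFieldBar N).toSubalgebra := by
  have h := IntermediateField.algebra_adjoin_le_adjoin Kbar (gens Kbar N)
  rw [← laurentBaseChange_full_eq_adjoin] at h
  exact h

theorem mem_FN_of_mem_adjoin {y : LaurentSeries Kbar}
    (hy : y ∈ Algebra.adjoin Kbar (gens Kbar N)) : y ∈ modularFunctionFieldBar N :=
  adjoin_gens_le hy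

/-- An element of `A0 N` from a Laurent series in the algebra generated by the `j(q^d)`. -/
def mkA0 (y : LaurentSeries Kbar) (hy : y ∈ Algebra.adjoin Kbar (gens Kbar N)) : A0 N :=
  ⟨⟨y, mem_FN_of_mem_adjoin hy⟩, hy⟩

@[simp] theorem coe_mkA0 (y : LaurentSeries Kbar) (hy : y ∈ Algebra.adjoin Kbar (gens Kbar N)) :
    (((mkA0 y hy : A0 N) : FN N) : LaurentSeries Kbar) = y := rfl

variable (N)

/-- The generator `j(q^d)` of `A0 N`. -/
def gen (d : ℕ) [NeZero d] (hd : d ∣ N) : A0 N :=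
  mkA0 (coeffEmb Kbar (qExpand ℚ d jq)) (Algebra.subset_adjoin (coeffEmb_qExpand_mem_gens Kbar hd))

@[simp] theorem coe_gen (d : ℕ) [NeZero d] (hd : d ∣ N) :
    (((gen N d hd : A0 N) : FN N) : LaurentSeries Kbar) = coeffEmb Kbar (qExpand ℚ d jq) := rfl

/-- `j` as an element of `A0 N`. -/
def jA0 : A0 N :=
  ⟨jF N, Algebra.subset_adjoin (coeffEmb_jq_mem_gens Kbar N)⟩

@[simp] theorem coe_jA0 : ((jA0 N : A0 N) : FN N) = jF N := rfl

theorem jA0_eq_gen : jA0 N = gen N 1 (one_dvd N) := by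
  apply Subtype.ext
  apply Subtype.ext
  show coeffEmb Kbar jq = coeffEmb Kbar (qExpand ℚ 1 jq)
  rw [qExpand_one_apply]

variable {N}

theorem mkA0_add (a b : LaurentSeries Kbar) (ha : a ∈ Algebra.adjoin Kbar (gens Kbar N))
    (hb : b ∈ Algebra.adjoin Kbar (gens Kbar N)) :
    mkA0 (a + b) (add_mem ha hb) = mkA0 a ha + mkA0 b hb := by
  apply Subtype.ext
  apply Subtype.ext
  simp

theorem mkA0_mul (a b : LaurentSeries Kbar) (ha : a ∈ Algebra.adjoin Kbar (gens Kbar N))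
    (hb : b ∈ Algebra.adjoin Kbar (gens Kbar N)) :
    mkA0 (a * b) (mul_mem ha hb) = mkA0 a ha * mkA0 b hb := by
  apply Subtype.ext
  apply Subtype.ext
  simp

theorem mkA0_algebraMap (c : Kbar) :
    mkA0 (algebraMap Kbar (LaurentSeries Kbar) c)
      (Subalgebra.algebraMap_mem (Algebra.adjoin Kbar (gens Kbar N)) c)
      = algebraMap Kbar (A0 N) c := by
  apply Subtype.ext
  apply Subtype.ext
  rfl

theorem mkA0_coe (x : A0 N) : mkA0 ((x : FN N) : LaurentSeries Kbar) x.2 = x := rfl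

/-- Induction principle for `A0 N`. -/
theorem A0_induction {p : A0 N → Prop}
    (hgen : ∀ (d : ℕ) [NeZero d] (hd : d ∣ N), p (gen N d hd))
    (hC : ∀ c : Kbar, p (algebraMap Kbar (A0 N) c))
    (hadd : ∀ x y, p x → p y → p (x + y))
    (hmul : ∀ x y, p x → p y → p (x * y)) (x : A0 N) : p x := by
  have key : ∀ (y : LaurentSeries Kbar) (hy : y ∈ Algebra.adjoin Kbar (gens Kbar N)),
      p (mkA0 y hy) := by
    intro y hy
    induction hy using Algebra.adjoin_induction with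
    | mem y hy =>
      obtain ⟨z, ⟨d, hd0, hdN, rfl⟩, rfl⟩ := hy
      exact hgen d hdN
    | algebraMap c => rw [mkA0_algebraMap]; exact hC c
    | add a b ha hb iha ihb => rw [mkA0_add a b ha hb]; exact hadd _ _ iha ihb
    | mul a b ha hb iha ihb => rw [mkA0_mul a b ha hb]; exact hmul _ _ iha ihb
  rw [← mkA0_coe x]
  exact key _ _

/-- Every element of `F_N` is a quotient of elements of `A0 N` (shape of `hF₀` in G3). -/
theorem exists_mul_eq (f : FN N) : ∃ a b : A0 N, (b : FN N) ≠ 0 ∧ f * b = a := by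
  have hf : (f : LaurentSeries Kbar) ∈ IntermediateField.adjoin Kbar (gens Kbar N) := by
    rw [← laurentBaseChange_full_eq_adjoin]
    exact f.2
  obtain ⟨r, hr, s, hs, h⟩ := IntermediateField.mem_adjoin_iff_div.mp hf
  by_cases hs0 : s = 0
  · refine ⟨0, 1, one_ne_zero, ?_⟩
    apply Subtype.ext
    have h1 : (f : LaurentSeries Kbar) = 0 := by rw [h, hs0, div_zero]
    simp [h1]
  · refine ⟨mkA0 r hr, mkA0 s hs, ?_, ?_⟩
    · intro h0
      apply hs0
      have h1 := congrArg (fun x : FN N => (x : LaurentSeries Kbar)) h0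
      simpa using h1
    · apply Subtype.ext
      have h1 : (f : LaurentSeries Kbar) * s = r := by rw [h, div_mul_cancel₀ _ hs0]
      simpa using h1

instance isFractionRing_A0 : IsFractionRing (A0 N) (FN N) :=
  IsFractionRing.of_field _ _ fun z => by
    obtain ⟨a, b, hb, hab⟩ := exists_mul_eq z
    refine ⟨a, b, ?_⟩
    show z = (a : FN N) / (b : FN N)
    rw [← hab, mul_div_cancel_right₀ _ hb]

end A0

/-! ### The homomorphism `theta` -/

section ThetaDef

variable (ι : Kbar →+* ℂ) (N : ℕ)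

theorem exists_hol (x : A0 N) :
    ∃ φ : HolH, HasQ ι ((x : FN N) : LaurentSeries Kbar) (φ : ℍ → ℂ) := by
  refine A0_induction (p := fun x : A0 N =>
    ∃ φ : HolH, HasQ ι ((x : FN N) : LaurentSeries Kbar) (φ : ℍ → ℂ)) ?_ ?_ ?_ ?_ x
  · intro d _ hd
    exact ⟨jScale d, hasQ_coeffEmb_qExpand_jq ι d⟩
  · intro c
    exact ⟨algebraMap ℂ HolH (ι c), hasQ_algebraMap ι c⟩
  · rintro x y ⟨φ, hφ⟩ ⟨ψ, hψ⟩
    refine ⟨φ + ψ, ?_⟩
    have h := hφ.add hψ
    simpa using h
  · rintro x y ⟨φ, hφ⟩ ⟨ψ, hψ⟩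
    refine ⟨φ * ψ, ?_⟩
    have h := hφ.mul hψ
    simpa using h

/-- underlying function of `theta` -/
def thetaFun (x : A0 N) : HolH := (exists_hol ι N x).choose

theorem hasQ_thetaFun (x : A0 N) :
    HasQ ι ((x : FN N) : LaurentSeries Kbar) (thetaFun ι N x : ℍ → ℂ) :=
  (exists_hol ι N x).choose_spec

theorem thetaFun_eq {x : A0 N} {φ : HolH}
    (h : HasQ ι ((x : FN N) : LaurentSeries Kbar) (φ : ℍ → ℂ)) : thetaFun ι N x = φ :=
  Subtype.ext ((hasQ_thetaFun ι N x).fun_unique h)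

/-- **Theta**: the ring homomorphism `A0 N → HolH` sending `j(q^d)` to `τ ↦ j(dτ)`; an element
of `A0 N` is sent to the holomorphic function whose `q`-expansion it is. -/
def theta : A0 N →+* HolH where
  toFun := thetaFun ι N
  map_one' := thetaFun_eq ι N (by
    have h := hasQ_one (K := Kbar) ι
    simpa using h)
  map_mul' x y := thetaFun_eq ι N (by
    have h := (hasQ_thetaFun ι N x).mul (hasQ_thetaFun ι N y)
    simpa using h)
  map_zero' := thetaFun_eq ι N (by
    have h := hasQ_zero (K := Kbar) ι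
    simpa using h)
  map_add' x y := thetaFun_eq ι N (by
    have h := (hasQ_thetaFun ι N x).add (hasQ_thetaFun ι N y)
    simpa using h)

/-- `theta x` has `q`-expansion `x`. -/
theorem hasQ_theta (x : A0 N) :
    HasQ ι ((x : FN N) : LaurentSeries Kbar) (theta ι N x : ℍ → ℂ) :=
  hasQ_thetaFun ι N x

variable {ι N}

theorem theta_eq_of_hasQ {x : A0 N} {φ : HolH}
    (h : HasQ ι ((x : FN N) : LaurentSeries Kbar) (φ : ℍ → ℂ)) : theta ι N x = φ :=
  thetaFun_eq ι N h

variable (ι N)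

theorem theta_gen (d : ℕ) [NeZero d] (hd : d ∣ N) : theta ι N (gen N d hd) = jScale d :=
  theta_eq_of_hasQ (hasQ_coeffEmb_qExpand_jq ι d)

theorem theta_gen_apply (d : ℕ) [NeZero d] (hd : d ∣ N) (τ : ℍ) :
    (theta ι N (gen N d hd) : ℍ → ℂ) τ = jFun (scaleH d τ) := by
  rw [theta_gen]
  rfl

theorem theta_algebraMap (c : Kbar) :
    theta ι N (algebraMap Kbar (A0 N) c) = algebraMap ℂ HolH (ι c) :=
  theta_eq_of_hasQ (hasQ_algebraMap ι c)

theorem theta_algebraMap_apply (c : Kbar) (τ : ℍ) :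
    (theta ι N (algebraMap Kbar (A0 N) c) : ℍ → ℂ) τ = ι c := by
  rw [theta_algebraMap]
  rfl

theorem scaleH_one (τ : ℍ) : scaleH 1 τ = τ := by
  apply UpperHalfPlane.ext
  simp

theorem theta_jA0 : (theta ι N (jA0 N) : ℍ → ℂ) = jFun := by
  rw [jA0_eq_gen, theta_gen]
  funext τ
  rw [jScale_apply, scaleH_one]

theorem theta_jA0_apply (τ : ℍ) : (theta ι N (jA0 N) : ℍ → ℂ) τ = jFun τ := by
  rw [theta_jA0]

theorem theta_injective : Function.Injective (theta ι N) := by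
  intro x y h
  have h1 := hasQ_theta ι N x
  have h2 := hasQ_theta ι N y
  rw [h] at h1
  exact Subtype.ext (Subtype.ext (h1.unique h2))

variable {ι N}

/-- Induction principle for the graph of `theta`. -/
theorem theta_induction {P : A0 N → HolH → Prop}
    (hgen : ∀ (d : ℕ) [NeZero d] (hd : d ∣ N), P (gen N d hd) (jScale d))
    (hC : ∀ c : Kbar, P (algebraMap Kbar (A0 N) c) (algebraMap ℂ HolH (ι c)))
    (hadd : ∀ x y φ ψ, P x φ → P y ψ → P (x + y) (φ + ψ))
    (hmul : ∀ x y φ ψ, P x φ → P y ψ → P (x * y) (φ * ψ)) (x : A0 N) :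
    P x (theta ι N x) := by
  refine A0_induction (p := fun x : A0 N => P x (theta ι N x)) ?_ ?_ ?_ ?_ x
  · intro d _ hd
    rw [theta_gen]
    exact hgen d hd
  · intro c
    rw [theta_algebraMap]
    exact hC c
  · intro x y hx hy
    rw [map_add]
    exact hadd _ _ _ _ hx hy
  · intro x y hx hy
    rw [map_mul]
    exact hmul _ _ _ _ hx hy

/-- Induction principle for the image of `theta`. -/
theorem theta_image_induction {P : HolH → Prop}
    (hgen : ∀ (d : ℕ) [NeZero d], d ∣ N → P (jScale d))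
    (hC : ∀ c : Kbar, P (algebraMap ℂ HolH (ι c)))
    (hadd : ∀ φ ψ, P φ → P ψ → P (φ + ψ))
    (hmul : ∀ φ ψ, P φ → P ψ → P (φ * ψ)) (x : A0 N) :
    P (theta ι N x) :=
  theta_induction (P := fun _ φ => P φ) (fun d _ hd => hgen d hd) hC
    (fun _ _ φ ψ => hadd φ ψ) (fun _ _ φ ψ => hmul φ ψ) x

/-- `theta x` is `Γ₀(N)`-invariant. -/
theorem compSL_theta_of_mem_Gamma0 {g : SL(2, ℤ)} (hg : g ∈ CongruenceSubgroup.Gamma0 N)
    (x : A0 N) : compSL g (theta ι N x) = theta ι N x := by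
  refine theta_image_induction (P := fun φ : HolH => compSL g φ = φ) ?_ ?_ ?_ ?_ x
  · intro d _ hd
    apply Subtype.ext
    funext τ
    exact Fermat.Agent.S24.StabJ.jFun_scale_smul_of_mem_Gamma0 hd g hg τ
  · intro c
    exact (compSL g).commutes (ι c)
  · intro φ ψ hφ hψ
    rw [map_add, hφ, hψ]
  · intro φ ψ hφ hψ
    rw [map_mul, hφ, hψ]

theorem theta_smul_of_mem_Gamma0 {g : SL(2, ℤ)} (hg : g ∈ CongruenceSubgroup.Gamma0 N)
    (x : A0 N) (τ : ℍ) : (theta ι N x : ℍ → ℂ) (g • τ) = (theta ι N x : ℍ → ℂ) τ := by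
  have h := congrArg (fun φ : HolH => (φ : ℍ → ℂ) τ) (compSL_theta_of_mem_Gamma0 (ι := ι) hg x)
  simpa using h

variable (ι N)

/-- The `ℚ̄`-algebra structure on `HolH` induced by `ι`. -/
@[reducible] def algebraOfIota : Algebra Kbar HolH := ((algebraMap ℂ HolH).comp ι).toAlgebra

/-- `theta` as a `ℚ̄`-algebra homomorphism, for the algebra structure `algebraOfIota ι`. -/
def thetaAlg : @AlgHom Kbar (A0 N) HolH _ _ _ _ (algebraOfIota ι) :=
  letI := algebraOfIota ι
  { theta ι N with commutes' := theta_algebraMap ι N }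

theorem thetaAlg_apply (x : A0 N) : thetaAlg ι N x = theta ι N x := rfl

/-- A fixed embedding `ℚ̄ → ℂ` (any other one may be used: everything above is stated for an
arbitrary `ι`). -/
def iotaBar : Kbar →+* ℂ :=
  haveI : Algebra.IsAlgebraic ℚ (AlgebraicClosure ℚ) := AlgebraicClosure.isAlgebraic ℚ
  (IsAlgClosed.lift : AlgebraicClosure ℚ →ₐ[ℚ] ℂ).toRingHom

theorem iotaBar_injective : Function.Injective iotaBar := iotaBar.injective

end ThetaDef

end Fermat.Agent.S24.Theta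

end
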