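import Mathlib

/-!
Degree of a finitely generated field extension from a finite family of embeddings whose
symmetric functions are rational (S24, block "Degree", pure algebra part).
-/

namespace Fermat.Agent.S24.DegEmb

open Polynomial

section Generic

variable {k F E : Type*} [Field k] [Field F] [Field E] [Algebra k F]
variable {ι : Type*} [Fintype ι]

/-- If `P.map φ₀ = ∏ x, (X - C (μ x a))` for embeddings `μ x` extending `φ₀`,
then `P` kills `a`. -/
theorem aeval_eq_zero_of_map_eq_prod [Nonempty ι]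
    (φ₀ : k →+* E) (μ : ι → F →+* E) (hμ : ∀ x r, μ x (algebraMap k F r) = φ₀ r)
    (a : F) (P : k[X]) (hP : P.map φ₀ = ∏ x, (X - C (μ x a))) : aeval a P = 0 := by
  obtain ⟨x⟩ := ‹Nonempty ι›
  apply (μ x).injective
  rw [map_zero]
  have hcomp : (μ x).comp (algebraMap k F) = φ₀ := RingHom.ext fun r => hμ x r
  have h1 : μ x (aeval a P) = (P.map φ₀).eval (μ x a) := by
    rw [aeval_def, hom_eval₂, eval_map, hcomp]
  rw [h1, hP, eval_prod]
  apply Finset.prod_eq_zero (Finset.mem_univ x)
  simp

/-- A polynomial over `k` whose image is a product of `card ι` monic linear factors is nonzero. -/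
theorem ne_zero_of_map_eq_prod (φ₀ : k →+* E) (c : ι → E) (P : k[X])
    (hP : P.map φ₀ = ∏ x, (X - C (c x))) : P ≠ 0 := by
  rintro rfl
  rw [Polynomial.map_zero] at hP
  have hmonic : (∏ x, (X - C (c x)) : E[X]).Monic := monic_prod_of_monic _ _ fun x _ => monic_X_sub_C _
  exact hmonic.ne_zero hP.symm

/-- Every element of the additive closure of the generators is integral. -/
theorem isIntegral_of_hsym [Nonempty ι]
    (φ₀ : k →+* E) (μ : ι → F →+* E) (hμ : ∀ x r, μ x (algebraMap k F r) = φ₀ r)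
    (a : F) (ha : ∃ P : k[X], P.map φ₀ = ∏ x, (X - C (μ x a))) : IsIntegral k a := by
  obtain ⟨P, hP⟩ := ha
  exact isAlgebraic_iff_isIntegral.mp
    ⟨P, ne_zero_of_map_eq_prod φ₀ _ P hP, aeval_eq_zero_of_map_eq_prod φ₀ μ hμ a P hP⟩

/-- Two ring homs out of `F` that agree on `k` and on a generating set agree. -/
theorem ringHom_ext_of_adjoin_eq_top {G : Set F} (hgen : IntermediateField.adjoin k G = ⊤)
    {Ω : Type*} [Field Ω] (f g : F →+* Ω)
    (hk : ∀ r : k, f (algebraMap k F r) = g (algebraMap k F r))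
    (hG : ∀ y ∈ G, f y = g y) : f = g := by
  have hcl : Subfield.closure (Set.range (algebraMap k F) ∪ G) = ⊤ := by
    rw [← IntermediateField.adjoin_toSubfield, hgen]
    rfl
  refine RingHom.eq_of_eqOn_of_field_closure_eq_top hcl ?_
  rintro y (⟨r, rfl⟩ | hy)
  · exact hk r
  · exact hG y hy

/-- Core lemma: every embedding of `F` extending `j ∘ φ₀` into a field `Ω` over `E`
is one of the given ones. -/
theorem exists_eq_comp_of_ringHom [CharZero k] [Nonempty ι]
    {G : Set F} (hG : G.Finite) (hgen : IntermediateField.adjoin k G = ⊤)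
    (φ₀ : k →+* E) (μ : ι → F →+* E) (hμ : ∀ x r, μ x (algebraMap k F r) = φ₀ r)
    (hsym : ∀ a ∈ AddSubmonoid.closure G, ∃ P : k[X], P.map φ₀ = ∏ x, (X - C (μ x a)))
    {Ω : Type*} [Field Ω] (j : E →+* Ω) (τ : F →+* Ω)
    (hτ : ∀ r, τ (algebraMap k F r) = j (φ₀ r)) : ∃ x, τ = j.comp (μ x) := by
  classical
  by_contra hne
  push Not at hne
  have : CharZero Ω := charZero_of_injective_ringHom ((j.comp φ₀).injective)
  have : Finite G := hG.to_subtype
  -- for each `x` a generator on which `τ` and `j ∘ μ x` differ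
  have hdiff : ∀ x, ∃ g : G, τ g ≠ j (μ x g) := by
    intro x
    by_contra hall
    push Not at hall
    apply hne x
    refine ringHom_ext_of_adjoin_eq_top hgen _ _ (fun r => ?_) (fun y hy => hall ⟨y, hy⟩)
    rw [hτ, RingHom.comp_apply, hμ]
  choose gx hgx using hdiff
  obtain ⟨m, ⟨e⟩⟩ := Finite.exists_equiv_fin G
  let _ : Fintype G := Fintype.ofFinite G
  -- the generic combination
  let a : ℕ → F := fun T => ∑ g : G, (T ^ (e g : ℕ)) • (g : F)
  have ha : ∀ T, a T ∈ AddSubmonoid.closure G := fun T =>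
    AddSubmonoid.sum_mem _ fun g _ =>
      AddSubmonoid.nsmul_mem _ (AddSubmonoid.subset_closure g.2) _
  let p : ι → Polynomial Ω := fun x => ∑ g : G, C (τ g - j (μ x g)) * X ^ (e g : ℕ)
  have hp : ∀ x, p x ≠ 0 := by
    intro x h0
    have hc : (p x).coeff (e (gx x) : ℕ) = τ (gx x) - j (μ x (gx x)) := by
      simp only [p, finsetSum_coeff, coeff_C_mul, coeff_X_pow]
      rw [Finset.sum_eq_single (gx x)]
      · simp
      · intro g _ hg
        have : (e (gx x) : ℕ) ≠ (e g : ℕ) := fun h => hg (e.injective (Fin.ext h.symm))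
        simp [this]
      · intro h; exact absurd (Finset.mem_univ _) h
    rw [h0, coeff_zero] at hc
    exact hgx x (sub_eq_zero.mp hc.symm)
  have heval : ∀ x (T : ℕ), (p x).eval (T : Ω) = τ (a T) - j (μ x (a T)) := by
    intro x T
    simp only [p, a, eval_finsetSum, eval_mul, eval_C, eval_pow, eval_X, map_sum, nsmul_eq_mul,
      Nat.cast_pow, map_mul, map_pow, map_natCast]
    rw [← Finset.sum_sub_distrib]
    refine Finset.sum_congr rfl fun g _ => ?_
    ring
  -- the bad set of `T` is finite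
  have hbad : ∀ x, {T : ℕ | (p x).eval (T : Ω) = 0}.Finite := by
    intro x
    have hfin : {z : Ω | (p x).IsRoot z}.Finite := by
      simpa using (p x).rootSet_finite Ω |>.subset (by
        intro z hz
        rw [mem_rootSet]
        exact ⟨hp x, by simpa [aeval_def, eval₂_eq_eval_map] using hz⟩)
    exact Set.Finite.preimage (Nat.cast_injective.injOn) hfin
  have hbadU : (⋃ x, {T : ℕ | (p x).eval (T : Ω) = 0}).Finite := Set.finite_iUnion hbad
  obtain ⟨T, hT⟩ := hbadU.exists_notMem
  simp only [Set.mem_iUnion, Set.mem_ofPred_eq, not_exists] at hT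
  obtain ⟨P, hP⟩ := hsym (a T) (ha T)
  have h0 : aeval (a T) P = 0 := aeval_eq_zero_of_map_eq_prod φ₀ μ hμ (a T) P hP
  have hcomp : τ.comp (algebraMap k F) = j.comp φ₀ := RingHom.ext fun r => hτ r
  have h1 : (P.map (j.comp φ₀)).eval (τ (a T)) = 0 := by
    have := congrArg τ h0
    rw [map_zero, aeval_def, hom_eval₂, hcomp] at this
    rw [eval_map]
    exact this
  have h2 : P.map (j.comp φ₀) = ∏ x, (X - C (j (μ x (a T)))) := by
    rw [← Polynomial.map_map, hP, Polynomial.map_prod]
    simp
  rw [h2, eval_prod, Finset.prod_eq_zero_iff] at h1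
  obtain ⟨x, -, hx⟩ := h1
  rw [eval_sub, eval_X, eval_C] at hx
  exact hT x (by rw [heval]; exact hx)

end Generic

section Main

variable {k F E : Type*} [Field k] [Field F] [Field E] [Algebra k F]
variable {ι : Type*} [Fintype ι]

/-- `F` is finite over `k`. -/
theorem finite_of_hsym [Nonempty ι]
    {G : Set F} (hG : G.Finite) (hgen : IntermediateField.adjoin k G = ⊤)
    (φ₀ : k →+* E) (μ : ι → F →+* E) (hμ : ∀ x r, μ x (algebraMap k F r) = φ₀ r)
    (hsym : ∀ a ∈ AddSubmonoid.closure G, ∃ P : k[X], P.map φ₀ = ∏ x, (X - C (μ x a))) :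
    Module.Finite k F := by
  have : Finite G := hG.to_subtype
  have hint : ∀ g ∈ G, IsIntegral k g := fun g hg =>
    isIntegral_of_hsym φ₀ μ hμ g (hsym g (AddSubmonoid.subset_closure hg))
  have hfin : FiniteDimensional k (IntermediateField.adjoin k G) :=
    IntermediateField.finiteDimensional_adjoin hint
  rw [hgen] at hfin
  exact Module.Finite.equiv (IntermediateField.topEquiv (F := k) (E := F)).toLinearEquiv

/-- The given embeddings are exactly all embeddings into `E` extending `φ₀`. -/
theorem exists_eq_of_ringHom [CharZero k] [Nonempty ι]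
    {G : Set F} (hG : G.Finite) (hgen : IntermediateField.adjoin k G = ⊤)
    (φ₀ : k →+* E) (μ : ι → F →+* E) (hμ : ∀ x r, μ x (algebraMap k F r) = φ₀ r)
    (hsym : ∀ a ∈ AddSubmonoid.closure G, ∃ P : k[X], P.map φ₀ = ∏ x, (X - C (μ x a)))
    (τ : F →+* E) (hτ : ∀ r, τ (algebraMap k F r) = φ₀ r) : ∃ x, τ = μ x := by
  obtain ⟨x, hx⟩ := exists_eq_comp_of_ringHom hG hgen φ₀ μ hμ hsym (RingHom.id E) τ
    (fun r => by rw [hτ]; rfl)
  exact ⟨x, by rw [hx, RingHom.id_comp]⟩

/-- The bijection between the index type and the embeddings into an algebraic closure. -/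
theorem finrank_eq_card_and_norm [CharZero k] [Nonempty ι]
    {G : Set F} (hG : G.Finite) (hgen : IntermediateField.adjoin k G = ⊤)
    (φ₀ : k →+* E) (μ : ι → F →+* E) (hinj : Function.Injective μ)
    (hμ : ∀ x r, μ x (algebraMap k F r) = φ₀ r)
    (hsym : ∀ a ∈ AddSubmonoid.closure G, ∃ P : k[X], P.map φ₀ = ∏ x, (X - C (μ x a))) :
    Module.finrank k F = Fintype.card ι ∧ ∀ a : F, φ₀ (Algebra.norm k a) = ∏ x, μ x a := by
  classical
  have hfin : Module.Finite k F := finite_of_hsym hG hgen φ₀ μ hμ hsym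
  let _ : Algebra k E := φ₀.toAlgebra
  let Ω := AlgebraicClosure E
  have halg : ∀ r : k, algebraMap k Ω r = algebraMap E Ω (φ₀ r) := fun r => by
    rw [IsScalarTower.algebraMap_apply k E Ω, RingHom.algebraMap_toAlgebra]
  let ν : ι → (F →ₐ[k] Ω) := fun x =>
    { toRingHom := (algebraMap E Ω).comp (μ x)
      commutes' := fun r => by
        show algebraMap E Ω (μ x (algebraMap k F r)) = algebraMap k Ω r
        rw [hμ, halg] }
  have hν : ∀ x (a : F), ν x a = algebraMap E Ω (μ x a) := fun x a => rfl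
  have hνinj : Function.Injective ν := by
    intro x y hxy
    apply hinj
    ext a
    have := congrArg (fun σ : F →ₐ[k] Ω => σ a) hxy
    simp only [hν] at this
    exact (algebraMap E Ω).injective this
  have hνsurj : Function.Surjective ν := by
    intro σ
    obtain ⟨x, hx⟩ := exists_eq_comp_of_ringHom hG hgen φ₀ μ hμ hsym (algebraMap E Ω)
      (σ : F →+* Ω) (fun r => by
        rw [← halg]; exact σ.commutes r)
    refine ⟨x, ?_⟩
    ext a
    rw [hν]
    exact (congrArg (fun f : F →+* Ω => f a) hx).symm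
  let eν : ι ≃ (F →ₐ[k] Ω) := Equiv.ofBijective ν ⟨hνinj, hνsurj⟩
  refine ⟨?_, fun a => ?_⟩
  · rw [← AlgHom.card k F Ω]
    exact (Fintype.card_congr eν).symm
  · apply (algebraMap E Ω).injective
    rw [← halg, Algebra.norm_eq_prod_embeddings k Ω a, map_prod]
    exact (Fintype.prod_equiv eν (fun x => algebraMap E Ω (μ x a)) (fun σ => σ a)
      (fun x => rfl)).symm

end Main

end Fermat.Agent.S24.DegEmb
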