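import Mathlib

set_option autoImplicit false

/-!
Embeddings `ι : K →+* ℂ` of an algebraically closed field and roots of unity:
there is a primitive `N`-th root of unity `ζ ∈ K` with `ι ζ = exp (2πi/N)`.
-/

namespace Fermat.Agent.S24.IotaRoot

open Complex

/-- A ring hom from a field to `ℂ` forces characteristic zero. -/
theorem charZero_of_ringHom {K : Type*} [Field K] (ι : K →+* ℂ) : CharZero K :=
  (RingHom.charZero_iff ι.injective).mpr inferInstance

/-- For an algebraically closed field `K` with an embedding `ι : K →+* ℂ` there is a primitive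
`N`-th root of unity in `K` mapping to `exp (2πi/N)`. -/
theorem exists_primitiveRoot_map_eq {K : Type*} [Field K] [IsAlgClosed K] (ι : K →+* ℂ)
    (N : ℕ) [NeZero N] :
    ∃ ζ : Kˣ, IsPrimitiveRoot ζ N ∧ ι (ζ : K) = Complex.exp (2 * Real.pi * Complex.I / N) := by
  have : CharZero K := charZero_of_ringHom ι
  have hN : N ≠ 0 := NeZero.ne N
  obtain ⟨ζ₀, hζ₀⟩ : ∃ ζ₀ : K, IsPrimitiveRoot ζ₀ N :=
    HasEnoughRootsOfUnity.exists_primitiveRoot K N
  have h1 : IsPrimitiveRoot (ι ζ₀) N := hζ₀.map_of_injective ι.injective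
  have h2 : IsPrimitiveRoot (Complex.exp (2 * Real.pi * Complex.I / N)) N :=
    Complex.isPrimitiveRoot_exp N hN
  obtain ⟨k, hk, hcop, hkeq⟩ := h1.isPrimitiveRoot_iff.mp h2
  have h3 : IsPrimitiveRoot (ζ₀ ^ k) N := hζ₀.pow_of_coprime k hcop
  have hne : ζ₀ ^ k ≠ 0 := h3.ne_zero hN
  refine ⟨Units.mk0 (ζ₀ ^ k) hne, ?_, ?_⟩
  · exact IsPrimitiveRoot.coe_units_iff.mp (by simpa using h3)
  · simpa using hkeq

/-- Version with the value of every power: `ι (ζ ^ m) = exp (2πi m/N)`. -/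
theorem exists_primitiveRoot_map_pow_eq {K : Type*} [Field K] [IsAlgClosed K] (ι : K →+* ℂ)
    (N : ℕ) [NeZero N] :
    ∃ ζ : Kˣ, IsPrimitiveRoot ζ N ∧
      (∀ m : ℤ, ι ((ζ ^ m : Kˣ) : K) = Complex.exp (2 * Real.pi * Complex.I * m / N)) ∧
      (∀ d : ℕ, d ∣ N → ι ((ζ ^ (N / d) : Kˣ) : K) = Complex.exp (2 * Real.pi * Complex.I / d)) := by
  obtain ⟨ζ, hζ, h⟩ := exists_primitiveRoot_map_eq ι N
  have hN : (N : ℂ) ≠ 0 := Nat.cast_ne_zero.mpr (NeZero.ne N)
  have hm : ∀ m : ℤ, ι ((ζ ^ m : Kˣ) : K) = Complex.exp (2 * Real.pi * Complex.I * m / N) := by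
    intro m
    rw [Units.val_zpow_eq_zpow_val, map_zpow₀, h, ← Complex.exp_int_mul]
    congr 1
    field_simp
  refine ⟨ζ, hζ, hm, ?_⟩
  intro d hd
  obtain ⟨e, rfl⟩ := hd
  have hd0 : d ≠ 0 := fun h0 => by simp [h0] at hN
  have he0 : e ≠ 0 := fun h0 => by simp [h0] at hN
  have := hm ((d * e / d : ℕ) : ℤ)
  rw [zpow_natCast] at this
  rw [this, Nat.mul_div_cancel_left e (Nat.pos_of_ne_zero hd0)]
  congr 1
  have hd' : (d : ℂ) ≠ 0 := Nat.cast_ne_zero.mpr hd0
  have he' : (e : ℂ) ≠ 0 := Nat.cast_ne_zero.mpr he0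
  push_cast
  field_simp

/-- A chosen embedding of `AlgebraicClosure ℚ` into `ℂ`. -/
noncomputable def embQbar : AlgebraicClosure ℚ →+* ℂ :=
  haveI : Algebra.IsAlgebraic ℚ (AlgebraicClosure ℚ) := AlgebraicClosure.isAlgebraic ℚ
  (IsAlgClosed.lift : AlgebraicClosure ℚ →ₐ[ℚ] ℂ).toRingHom

/-- There is a ring embedding of `AlgebraicClosure ℚ` into `ℂ`. -/
theorem exists_embedding : Nonempty (AlgebraicClosure ℚ →+* ℂ) := ⟨embQbar⟩

theorem embQbar_injective : Function.Injective embQbar := embQbar.injective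

/-- The image of an embedding of an algebraically closed field algebraic over `ℚ` contains
every complex number that is algebraic over `ℚ`. -/
theorem exists_map_eq_of_isAlgebraic {K : Type*} [Field K] [IsAlgClosed K] (ι : K →+* ℂ)
    (z : ℂ) (hz : IsAlgebraic ℚ z) : ∃ x : K, ι x = z := by
  have : CharZero K := charZero_of_ringHom ι
  obtain ⟨p, hp0, hpz⟩ := hz
  -- `p` splits in `K`; compare root multisets
  have hsplit : (p.map (algebraMap ℚ K)).Splits := IsAlgClosed.splits _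
  have hmap : (p.map (algebraMap ℚ K)).map ι = p.map (algebraMap ℚ ℂ) := by
    rw [Polynomial.map_map]
    congr 1
    exact Subsingleton.elim _ _
  have hsplit' : (p.map (algebraMap ℚ ℂ)).Splits := by
    rw [← hmap]; exact hsplit.map ι
  have hroots : (p.map (algebraMap ℚ ℂ)).roots = ((p.map (algebraMap ℚ K)).roots).map ι := by
    rw [← hmap]; exact hsplit.roots_map ι
  have hzroot : z ∈ (p.map (algebraMap ℚ ℂ)).roots := by
    rw [Polynomial.mem_roots (Polynomial.map_ne_zero hp0), Polynomial.IsRoot, Polynomial.eval_map,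
      ← Polynomial.aeval_def]
    exact hpz
  rw [hroots, Multiset.mem_map] at hzroot
  obtain ⟨x, -, hx⟩ := hzroot
  exact ⟨x, hx⟩

/-- `q_N(z + 1) = e^{2πi/N} q_N(z)`. -/
theorem qParam_add_one (N : ℕ) [NeZero N] (z : ℂ) :
    Function.Periodic.qParam (N : ℝ) (z + 1) =
      Complex.exp (2 * Real.pi * Complex.I / N) * Function.Periodic.qParam (N : ℝ) z := by
  have hN : (N : ℂ) ≠ 0 := Nat.cast_ne_zero.mpr (NeZero.ne N)
  simp only [Function.Periodic.qParam, ← Complex.exp_add]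
  congr 1
  push_cast
  field_simp
  ring

/-- `q_N(z + b) = e^{2πi b/N} q_N(z)` for integer `b`. -/
theorem qParam_add_int (N : ℕ) [NeZero N] (z : ℂ) (b : ℤ) :
    Function.Periodic.qParam (N : ℝ) (z + b) =
      Complex.exp (2 * Real.pi * Complex.I * b / N) * Function.Periodic.qParam (N : ℝ) z := by
  have hN : (N : ℂ) ≠ 0 := Nat.cast_ne_zero.mpr (NeZero.ne N)
  simp only [Function.Periodic.qParam, ← Complex.exp_add]
  congr 1
  push_cast
  field_simp
  ring

/-- With `ι ζ = e^{2πi/N}`: `q_N(z + b) = ι (ζ ^ b) · q_N(z)`. -/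
theorem qParam_add_int_eq_map {K : Type*} [Field K] (ι : K →+* ℂ) (N : ℕ) [NeZero N] (ζ : Kˣ)
    (hζ : ι (ζ : K) = Complex.exp (2 * Real.pi * Complex.I / N)) (z : ℂ) (b : ℤ) :
    Function.Periodic.qParam (N : ℝ) (z + b) =
      ι ((ζ ^ b : Kˣ) : K) * Function.Periodic.qParam (N : ℝ) z := by
  have hN : (N : ℂ) ≠ 0 := Nat.cast_ne_zero.mpr (NeZero.ne N)
  rw [qParam_add_int, Units.val_zpow_eq_zpow_val, map_zpow₀, hζ, ← Complex.exp_int_mul]
  congr 2
  field_simp

end Fermat.Agent.S24.IotaRoot
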