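import Mathlib

set_option autoImplicit false
set_option linter.unusedSectionVars false

/-!
Power series expansion of a discrete valuation ring `O` containing a field `K`
which maps onto the residue field, with respect to a uniformizer `π`.
-/

namespace Fermat.Agent.S24.DiffExpansion

open PowerSeries IsLocalRing

section Coord

variable {K O : Type*} [Field K] [CommRing O] [IsDomain O] [Algebra K O]
variable {π : O} (hπ : Irreducible π) {r : O → K} {s : O → O}
  (hrs : ∀ a : O, a = algebraMap K O (r a) + π * s a)

include hπ hrs

theorem uniq {a b : O} {c : K} (h : a = algebraMap K O c + π * b) : c = r a ∧ b = s a := by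
  have h1 : algebraMap K O (c - r a) = π * (s a - b) := by
    have h2 := hrs a
    rw [map_sub]
    linear_combination h2 - h
  have hc : c = r a := by
    by_contra hne
    have hu : IsUnit (algebraMap K O (c - r a)) :=
      (IsUnit.mk0 _ (sub_ne_zero.mpr hne)).map (algebraMap K O)
    rw [h1] at hu
    exact hπ.not_isUnit (isUnit_of_mul_isUnit_left hu)
  refine ⟨hc, ?_⟩
  rw [hc, sub_self, map_zero] at h1
  have h3 : s a - b = 0 := by
    rcases mul_eq_zero.mp h1.symm with h4 | h4
    · exact absurd h4 hπ.ne_zero
    · exact h4
  exact (sub_eq_zero.mp h3).symm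

theorem r_add (a b : O) : r (a + b) = r a + r b :=
  ((uniq hπ hrs (a := a + b) (b := s a + s b) (c := r a + r b) (by
    have h1 := hrs a
    have h2 := hrs b
    rw [map_add]
    linear_combination h1 + h2)).1).symm

theorem s_add (a b : O) : s (a + b) = s a + s b :=
  ((uniq hπ hrs (a := a + b) (b := s a + s b) (c := r a + r b) (by
    have h1 := hrs a
    have h2 := hrs b
    rw [map_add]
    linear_combination h1 + h2)).2).symm

theorem r_algebraMap (c : K) : r (algebraMap K O c) = c :=
  ((uniq hπ hrs (a := algebraMap K O c) (b := 0) (c := c) (by simp)).1).symm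

theorem s_algebraMap (c : K) : s (algebraMap K O c) = 0 :=
  ((uniq hπ hrs (a := algebraMap K O c) (b := 0) (c := c) (by simp)).2).symm

theorem r_pi_mul (a : O) : r (π * a) = 0 :=
  ((uniq hπ hrs (a := π * a) (b := a) (c := 0) (by simp)).1).symm

theorem s_pi_mul (a : O) : s (π * a) = a :=
  ((uniq hπ hrs (a := π * a) (b := a) (c := 0) (by simp)).2).symm

theorem r_mul (a b : O) : r (a * b) = r a * r b :=
  ((uniq hπ hrs (a := a * b)
    (b := algebraMap K O (r a) * s b + algebraMap K O (r b) * s a + π * (s a * s b))
    (c := r a * r b) (by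
    have h1 := hrs a
    have h2 := hrs b
    rw [map_mul]
    linear_combination b * h1 + (algebraMap K O (r a) + π * s a) * h2)).1).symm

theorem s_mul (a b : O) :
    s (a * b) = algebraMap K O (r a) * s b + algebraMap K O (r b) * s a + π * (s a * s b) :=
  ((uniq hπ hrs (a := a * b)
    (b := algebraMap K O (r a) * s b + algebraMap K O (r b) * s a + π * (s a * s b))
    (c := r a * r b) (by
    have h1 := hrs a
    have h2 := hrs b
    rw [map_mul]
    linear_combination b * h1 + (algebraMap K O (r a) + π * s a) * h2)).2).symm

omit hπ hrs in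
/-- The expansion as a function. -/
noncomputable def expand (r : O → K) (s : O → O) (a : O) : K⟦X⟧ :=
  PowerSeries.mk fun n => r (s^[n] a)

omit hπ hrs in
theorem expand_eq (a : O) :
    expand r s a = C (r a) + X * expand r s (s a) := by
  ext n
  cases n with
  | zero => simp [expand]
  | succ n =>
    simp [expand, PowerSeries.coeff_succ_X_mul]

omit hπ hrs in
theorem eq_of_forall_X_pow_dvd_sub {f g : K⟦X⟧} (h : ∀ n : ℕ, (X : K⟦X⟧) ^ n ∣ f - g) :
    f = g := by
  refine sub_eq_zero.mp ?_
  ext n
  have h1 := h (n + 1)
  rw [PowerSeries.X_pow_dvd_iff] at h1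
  simpa using h1 n (Nat.lt_succ_self n)

theorem expand_add (a b : O) : expand r s (a + b) = expand r s a + expand r s b := by
  have key : ∀ n : ℕ, ∀ a b : O,
      (X : K⟦X⟧) ^ n ∣ expand r s (a + b) - (expand r s a + expand r s b) := by
    intro n
    induction n with
    | zero => intro a b; simp
    | succ n ih =>
      intro a b
      obtain ⟨g, hg⟩ := ih (s a) (s b)
      refine ⟨g, ?_⟩
      rw [expand_eq (a + b), expand_eq a, expand_eq b, r_add hπ hrs, s_add hπ hrs, map_add,
        pow_succ]
      linear_combination (X : K⟦X⟧) * hg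
  exact eq_of_forall_X_pow_dvd_sub fun n => key n a b

theorem expand_algebraMap_mul (c : K) (a : O) :
    expand r s (algebraMap K O c * a) = C c * expand r s a := by
  have key : ∀ n : ℕ, ∀ a : O,
      (X : K⟦X⟧) ^ n ∣ expand r s (algebraMap K O c * a) - C c * expand r s a := by
    intro n
    induction n with
    | zero => intro a; simp
    | succ n ih =>
      intro a
      obtain ⟨g, hg⟩ := ih (s a)
      refine ⟨g, ?_⟩
      rw [expand_eq (algebraMap K O c * a), expand_eq a, r_mul hπ hrs, s_mul hπ hrs,
        r_algebraMap hπ hrs, s_algebraMap hπ hrs, map_mul, pow_succ]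
      simp only [mul_zero, zero_mul, add_zero]
      linear_combination (X : K⟦X⟧) * hg
  exact eq_of_forall_X_pow_dvd_sub fun n => key n a

theorem expand_zero : expand r s (0 : O) = 0 := by
  have h := expand_algebraMap_mul hπ hrs 0 (0 : O)
  simpa using h

theorem expand_pi_mul (a : O) : expand r s (π * a) = X * expand r s a := by
  rw [expand_eq (π * a), r_pi_mul hπ hrs, s_pi_mul hπ hrs, map_zero, zero_add]

theorem expand_algebraMap (c : K) : expand r s (algebraMap K O c) = C c := by
  rw [expand_eq, r_algebraMap hπ hrs, s_algebraMap hπ hrs, expand_zero hπ hrs, mul_zero,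
    add_zero]

theorem expand_mul (a b : O) : expand r s (a * b) = expand r s a * expand r s b := by
  have key : ∀ n : ℕ, ∀ a b : O,
      (X : K⟦X⟧) ^ n ∣ expand r s (a * b) - expand r s a * expand r s b := by
    intro n
    induction n using Nat.strong_induction_on with
    | _ n ih =>
      intro a b
      rcases Nat.lt_or_ge n 2 with hn | hn
      · have hE : expand r s (a * b) - expand r s a * expand r s b
            = X ^ 2 * (expand r s (s a * s b) - expand r s (s a) * expand r s (s b)) := by
          rw [expand_eq (a * b), expand_eq a, expand_eq b, r_mul hπ hrs, s_mul hπ hrs,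
            expand_add hπ hrs, expand_add hπ hrs, expand_algebraMap_mul hπ hrs,
            expand_algebraMap_mul hπ hrs, expand_pi_mul hπ hrs, map_mul]
          ring
        rw [hE]
        exact Dvd.dvd.mul_right (pow_dvd_pow _ (by omega)) _
      · obtain ⟨m, rfl⟩ : ∃ m, n = m + 2 := ⟨n - 2, by omega⟩
        obtain ⟨g, hg⟩ := ih m (by omega) (s a) (s b)
        refine ⟨g, ?_⟩
        have hE : expand r s (a * b) - expand r s a * expand r s b
            = X ^ 2 * (expand r s (s a * s b) - expand r s (s a) * expand r s (s b)) := by
          rw [expand_eq (a * b), expand_eq a, expand_eq b, r_mul hπ hrs, s_mul hπ hrs,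
            expand_add hπ hrs, expand_add hπ hrs, expand_algebraMap_mul hπ hrs,
            expand_algebraMap_mul hπ hrs, expand_pi_mul hπ hrs, map_mul]
          ring
        rw [hE, hg, pow_add]
        ring
  exact eq_of_forall_X_pow_dvd_sub fun n => key n a b

/-- The expansion as a `K`-algebra homomorphism. -/
noncomputable def expandHom : O →ₐ[K] K⟦X⟧ where
  toFun := expand r s
  map_one' := by
    have h := expand_algebraMap hπ hrs 1
    simpa using h
  map_mul' := expand_mul hπ hrs
  map_zero' := expand_zero hπ hrs
  map_add' := expand_add hπ hrs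
  commutes' c := by
    rw [expand_algebraMap hπ hrs]
    rfl

theorem expandHom_apply (a : O) : expandHom hπ hrs a = expand r s a := rfl

theorem expandHom_pi : expandHom hπ hrs π = X := by
  have h := expand_pi_mul hπ hrs 1
  rw [mul_one] at h
  rw [expandHom_apply, h]
  have h1 := expand_algebraMap hπ hrs 1
  rw [map_one] at h1
  rw [h1]
  simp

theorem constantCoeff_expandHom (a : O) :
    PowerSeries.constantCoeff (expandHom hπ hrs a) = r a := by
  rw [expandHom_apply, expand_eq]
  simp

end Coord

end Fermat.Agent.S24.DiffExpansion
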