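import Mathlib

set_option autoImplicit false

/-!
The derivative of Laurent series over a field is a derivation.
-/

namespace Fermat.Agent.S24.DiffLaurent

open HahnSeries

variable {K : Type*} [Field K]

theorem algebraMap_eq_single (c : K) :
    algebraMap K (LaurentSeries K) c = HahnSeries.single 0 c := by
  have h1 : algebraMap K (PowerSeries K) c = PowerSeries.C c := by
    simp
  rw [HahnSeries.algebraMap_apply', h1, HahnSeries.ofPowerSeries_C]
  rfl

theorem coeff_ofPowerSeries_of_neg (f : PowerSeries K) {k : ℤ} (hk : k < 0) :
    (HahnSeries.ofPowerSeries ℤ K f).coeff k = 0 := by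
  rw [HahnSeries.ofPowerSeries_apply]
  refine HahnSeries.embDomain_of_notMem_range ?_
  rintro ⟨m, rfl⟩
  exact absurd hk (not_lt.mpr (Int.natCast_nonneg m))

theorem derivative_coeff (f : LaurentSeries K) (n : ℤ) :
    (LaurentSeries.derivative K f).coeff n = ((n + 1 : ℤ) : K) * f.coeff (n + 1) := by
  rw [LaurentSeries.derivative_apply, LaurentSeries.hasseDeriv_coeff]
  simp [zsmul_eq_mul]

theorem derivative_single_mul (a : ℤ) (h : LaurentSeries K) :
    LaurentSeries.derivative K (single a (1 : K) * h)
      = single a (1 : K) * LaurentSeries.derivative K h + single (a - 1) (a : K) * h := by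
  ext n
  rw [derivative_coeff, HahnSeries.coeff_add, HahnSeries.coeff_single_mul,
    HahnSeries.coeff_single_mul, HahnSeries.coeff_single_mul, derivative_coeff]
  have e1 : n + 1 - a = n - a + 1 := by ring
  have e2 : n - (a - 1) = n - a + 1 := by ring
  rw [e1, e2]
  push_cast
  ring

theorem derivative_ofPowerSeries (p : PowerSeries K) :
    LaurentSeries.derivative K (HahnSeries.ofPowerSeries ℤ K p)
      = HahnSeries.ofPowerSeries ℤ K (PowerSeries.derivative K p) := by
  ext n
  rw [derivative_coeff]
  rcases lt_or_ge n 0 with hn | hn
  · rw [coeff_ofPowerSeries_of_neg _ hn]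
    rcases lt_or_eq_of_le (Int.add_one_le_of_lt hn) with h1 | h1
    · rw [coeff_ofPowerSeries_of_neg _ h1, mul_zero]
    · rw [h1]
      simp
  · lift n to ℕ using hn
    rw [show ((n : ℤ) + 1) = ((n + 1 : ℕ) : ℤ) by push_cast; ring,
      HahnSeries.ofPowerSeries_apply_coeff, HahnSeries.ofPowerSeries_apply_coeff,
      PowerSeries.coeff_derivative]
    push_cast
    ring

theorem derivative_mul (f g : LaurentSeries K) :
    LaurentSeries.derivative K (f * g)
      = f * LaurentSeries.derivative K g + g * LaurentSeries.derivative K f := by
  obtain ⟨a, p, rfl⟩ : ∃ (a : ℤ) (p : PowerSeries K),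
      f = single a (1 : K) * HahnSeries.ofPowerSeries ℤ K p :=
    ⟨_, _, (LaurentSeries.single_order_mul_powerSeriesPart f).symm⟩
  obtain ⟨b, q, rfl⟩ : ∃ (b : ℤ) (q : PowerSeries K),
      g = single b (1 : K) * HahnSeries.ofPowerSeries ℤ K q :=
    ⟨_, _, (LaurentSeries.single_order_mul_powerSeriesPart g).symm⟩
  have e1 : single (a + b) (1 : K) = single a (1 : K) * single b (1 : K) := by
    rw [HahnSeries.single_mul_single, one_mul]
  have hfg : single a (1 : K) * HahnSeries.ofPowerSeries ℤ K p
        * (single b (1 : K) * HahnSeries.ofPowerSeries ℤ K q)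
      = single (a + b) (1 : K) * HahnSeries.ofPowerSeries ℤ K (p * q) := by
    rw [map_mul, e1]
    ring
  have e2 : single (a + b - 1) (((a + b : ℤ)) : K)
      = single (a - 1) (a : K) * single b (1 : K)
        + single a (1 : K) * single (b - 1) (b : K) := by
    rw [HahnSeries.single_mul_single, HahnSeries.single_mul_single, mul_one, one_mul,
      show a - 1 + b = a + b - 1 by ring, show a + (b - 1) = a + b - 1 by ring,
      ← HahnSeries.single_add]
    push_cast
    rfl
  rw [hfg, derivative_single_mul, derivative_single_mul, derivative_single_mul,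
    derivative_ofPowerSeries, derivative_ofPowerSeries, derivative_ofPowerSeries,
    Derivation.leibniz, smul_eq_mul, smul_eq_mul, e1, e2]
  simp only [map_add, map_mul]
  ring

theorem derivative_algebraMap_mul (c : K) (f : LaurentSeries K) :
    LaurentSeries.derivative K (algebraMap K (LaurentSeries K) c * f)
      = algebraMap K (LaurentSeries K) c * LaurentSeries.derivative K f := by
  ext n
  rw [algebraMap_eq_single, derivative_coeff, HahnSeries.coeff_single_mul,
    HahnSeries.coeff_single_mul, derivative_coeff]
  simp only [sub_zero]
  ring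

theorem derivative_one : LaurentSeries.derivative K (1 : LaurentSeries K) = 0 := by
  ext n
  rw [derivative_coeff, HahnSeries.coeff_one]
  by_cases h : n + 1 = 0
  · have : ((n + 1 : ℤ) : K) = 0 := by rw [h]; simp
    rw [this, zero_mul]; rfl
  · rw [if_neg h, mul_zero]; rfl

/-- The formal derivative of Laurent series as a derivation. -/
noncomputable def laurentDerivation : Derivation K (LaurentSeries K) (LaurentSeries K) where
  toFun f := LaurentSeries.derivative K f
  map_add' f g := map_add _ f g
  map_smul' c f := by
    simp only [RingHom.id_apply]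
    rw [Algebra.smul_def, derivative_algebraMap_mul]
    ext n
    rw [algebraMap_eq_single, HahnSeries.coeff_single_mul, sub_zero]
    rfl
  map_one_eq_zero' := derivative_one
  leibniz' f g := by
    show LaurentSeries.derivative K (f * g)
      = f • LaurentSeries.derivative K g + g • LaurentSeries.derivative K f
    rw [smul_eq_mul, smul_eq_mul, derivative_mul]

theorem laurentDerivation_apply (f : LaurentSeries K) :
    laurentDerivation f = LaurentSeries.derivative K f := rfl

end Fermat.Agent.S24.DiffLaurent
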