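import Mathlib
import Fermat.Prelude.Def_AlgebraicCurve_CanonicalDivisor
import Fermat.Agent.S24.DiffExpansion
import Fermat.Agent.S24.DiffLaurent

set_option autoImplicit false
set_option linter.style.haveILetI false

/-!
Order of differentials at a place, via Laurent expansion.
-/

namespace Fermat.Agent.S24.DiffOrd

open AlgebraicCurve KaehlerDifferential HahnSeries IsLocalRing
open Fermat.Agent.S24.DiffExpansion Fermat.Agent.S24.DiffLaurent

variable {K F : Type*} [Field K] [Field F] [Algebra K F]

/-- `f` has order exactly `m`. -/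
def HasOrd (f : LaurentSeries K) (m : ℤ) : Prop :=
  f.coeff m ≠ 0 ∧ ∀ k < m, f.coeff k = 0

theorem HasOrd.unique {f : LaurentSeries K} {m n : ℤ} (hm : HasOrd f m) (hn : HasOrd f n) :
    m = n := by
  rcases lt_trichotomy m n with h | h | h
  · exact absurd (hn.2 m h) hm.1
  · exact h
  · exact absurd (hm.2 n h) hn.1

theorem HasOrd.ne_zero {f : LaurentSeries K} {m : ℤ} (hm : HasOrd f m) : f ≠ 0 :=
  HahnSeries.ne_zero_of_coeff_ne_zero hm.1

theorem hasOrd_ofPowerSeries_mul_single {w : PowerSeries K}
    (hw : PowerSeries.constantCoeff w ≠ 0) (e : ℤ) :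
    HasOrd (HahnSeries.ofPowerSeries ℤ K w * HahnSeries.single e (1 : K)) e := by
  constructor
  · rw [HahnSeries.coeff_mul_single, sub_self, mul_one,
      show (0 : ℤ) = ((0 : ℕ) : ℤ) from rfl, HahnSeries.ofPowerSeries_apply_coeff,
      PowerSeries.coeff_zero_eq_constantCoeff]
    exact hw
  · intro k hk
    rw [HahnSeries.coeff_mul_single, mul_one]
    exact coeff_ofPowerSeries_of_neg _ (by omega)

theorem hasOrd_derivative [CharZero K] {f : LaurentSeries K} {m : ℤ} (hf : HasOrd f m)
    (hm : m ≠ 0) : HasOrd (LaurentSeries.derivative K f) (m - 1) := by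
  constructor
  · rw [derivative_coeff, sub_add_cancel]
    exact mul_ne_zero (Int.cast_ne_zero.mpr hm) hf.1
  · intro k hk
    rw [derivative_coeff, hf.2 (k + 1) (by omega), mul_zero]

variable (v : Place K F)

theorem ord_algebraMap (c : K) : v.ord (algebraMap K F c) = 0 := by
  rcases eq_or_ne c 0 with rfl | hc
  · simp
  · have hu : IsUnit (algebraMap K v.toValuationSubring c) :=
      (IsUnit.mk0 c hc).map (algebraMap K v.toValuationSubring)
    have h := v.ord_coe_unit hu.unit
    rwa [IsUnit.unit_spec, Place.coe_algebraMap] at h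

/-- Laurent expansion at a place whose residue field is `K`. -/
theorem exists_expansion
    (hres : ∀ a : v.toValuationSubring, ∃ c : K,
      a - algebraMap K v.toValuationSubring c ∈ maximalIdeal v.toValuationSubring)
    {π : v.toValuationSubring} (hπ : Irreducible π) :
    ∃ ι : F →ₐ[K] LaurentSeries K, ι (π : F) = HahnSeries.single 1 1 ∧
      ∀ y : F, y ≠ 0 → HasOrd (ι y) (v.ord y) := by
  have hex : ∀ a : v.toValuationSubring, ∃ (c : K) (b : v.toValuationSubring),
      a = algebraMap K v.toValuationSubring c + π * b := by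
    intro a
    obtain ⟨c, hc⟩ := hres a
    rw [hπ.maximalIdeal_eq, Ideal.mem_span_singleton'] at hc
    obtain ⟨b, hb⟩ := hc
    exact ⟨c, b, by rw [mul_comm, hb]; ring⟩
  choose r s hrs using hex
  let ι₀ : v.toValuationSubring →ₐ[K] PowerSeries K := expandHom hπ hrs
  have hunit : ∀ u : v.toValuationSubring, IsUnit u →
      PowerSeries.constantCoeff (ι₀ u) ≠ 0 := by
    intro u hu
    have h1 : IsUnit (ι₀ u) := hu.map ι₀
    exact (PowerSeries.isUnit_iff_constantCoeff.mp h1).ne_zero
  have hinj₀ : Function.Injective ι₀ := by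
    rw [injective_iff_map_eq_zero]
    intro a ha
    by_contra hne
    obtain ⟨n, u, hu⟩ := IsDiscreteValuationRing.eq_unit_mul_pow_irreducible hne hπ
    rw [hu, map_mul, map_pow, expandHom_pi] at ha
    have h1 := hunit u u.isUnit
    have h2 : PowerSeries.coeff n (ι₀ (u : v.toValuationSubring) * PowerSeries.X ^ n) = 0 := by
      rw [ha]; simp
    rw [PowerSeries.coeff_mul_X_pow', if_pos le_rfl, Nat.sub_self,
      PowerSeries.coeff_zero_eq_constantCoeff] at h2
    exact h1 h2
  let g : v.toValuationSubring →+* LaurentSeries K :=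
    (HahnSeries.ofPowerSeries ℤ K).comp ι₀.toRingHom
  have hg : Function.Injective g :=
    (HahnSeries.ofPowerSeries_injective).comp hinj₀
  let ι' : F →+* LaurentSeries K := IsFractionRing.lift hg
  have hι' : ∀ a : v.toValuationSubring, ι' (a : F) = HahnSeries.ofPowerSeries ℤ K (ι₀ a) :=
    fun a => IsFractionRing.lift_algebraMap hg a
  let ι : F →ₐ[K] LaurentSeries K :=
    { ι' with
      commutes' := fun c => by
        show ι' (algebraMap K F c) = algebraMap K (LaurentSeries K) c
        rw [← v.coe_algebraMap c, hι', AlgHom.commutes, HahnSeries.algebraMap_apply'] }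
  have hιπ : ι (π : F) = HahnSeries.single 1 1 := by
    show ι' (π : F) = _
    rw [hι']
    show HahnSeries.ofPowerSeries ℤ K (expandHom hπ hrs π) = _
    rw [expandHom_pi, HahnSeries.ofPowerSeries_X]
  refine ⟨ι, hιπ, ?_⟩
  intro y hy
  obtain ⟨u, hu⟩ := v.exists_unit_mul_zpow hy hπ
  have h1 : ι y = HahnSeries.ofPowerSeries ℤ K (ι₀ (u : v.toValuationSubring))
      * HahnSeries.single (v.ord y) (1 : K) := by
    conv_lhs => rw [hu]
    rw [map_mul, map_zpow₀, hιπ, ← RatFunc.single_zpow]
    congr 1
    exact hι' _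
  rw [h1]
  exact hasOrd_ofPowerSeries_mul_single (hunit _ u.isUnit) _

omit [Field F] [Algebra K F] in
theorem smul_eq_algebraMap_mul (c : K) (f : LaurentSeries K) :
    c • f = algebraMap K (LaurentSeries K) c * f := by
  ext n
  rw [algebraMap_eq_single, HahnSeries.coeff_single_mul, sub_zero]
  rfl

/-- A derivation-induced additive map on differentials attached to an expansion. -/
theorem exists_lift (ι : F →ₐ[K] LaurentSeries K) :
    ∃ L : Ω[F⁄K] →+ LaurentSeries K, (∀ (c : F) (ω : Ω[F⁄K]), L (c • ω) = ι c * L ω) ∧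
      (∀ y : F, L (D K F y) = LaurentSeries.derivative K (ι y)) := by
  letI : Algebra F (LaurentSeries K) := ι.toRingHom.toAlgebra
  haveI : IsScalarTower K F (LaurentSeries K) := ⟨fun c a m => by
    show ι (c • a) * m = c • (ι a * m)
    rw [Algebra.smul_def, map_mul, AlgHom.commutes, smul_eq_algebraMap_mul, mul_assoc]⟩
  let δ : Derivation K F (LaurentSeries K) :=
    { toFun := fun y => LaurentSeries.derivative K (ι y)
      map_add' := fun a b => by rw [map_add, map_add]
      map_smul' := fun c a => by
        simp only [RingHom.id_apply]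
        rw [Algebra.smul_def, map_mul, AlgHom.commutes, derivative_algebraMap_mul,
          smul_eq_algebraMap_mul]
      map_one_eq_zero' := by
        show LaurentSeries.derivative K (ι 1) = 0
        rw [map_one, derivative_one]
      leibniz' := fun a b => by
        show LaurentSeries.derivative K (ι (a * b))
          = ι a * LaurentSeries.derivative K (ι b) + ι b * LaurentSeries.derivative K (ι a)
        rw [map_mul, derivative_mul] }
  refine ⟨δ.liftKaehlerDifferential.toAddMonoidHom, fun c ω => ?_, fun y => ?_⟩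
  · show δ.liftKaehlerDifferential (c • ω) = ι c * δ.liftKaehlerDifferential ω
    rw [map_smul]
    rfl
  · exact δ.liftKaehlerDifferential_comp_D y

theorem exists_irreducible_dCoord :
    ∃ π : v.toValuationSubring, Irreducible π ∧ v.dCoord = D K F (π : F) :=
  ⟨_, (IsDiscreteValuationRing.exists_irreducible v.toValuationSubring).choose_spec, rfl⟩

omit [Field F] [Algebra K F] in
theorem derivative_single_one : LaurentSeries.derivative K (HahnSeries.single 1 (1 : K)) = 1 := by
  ext n
  rw [derivative_coeff, HahnSeries.coeff_one, HahnSeries.coeff_single]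
  by_cases h : n = 0
  · subst h; simp
  · rw [if_neg h, if_neg (by omega), mul_zero]

/-- Main local statement. -/
theorem ordDifferential_D [CharZero K]
    (hres : ∀ a : v.toValuationSubring, ∃ c : K,
      a - algebraMap K v.toValuationSubring c ∈ maximalIdeal v.toValuationSubring)
    (hspan : ∀ π : v.toValuationSubring, Irreducible π →
      Submodule.span F {D K F (π : F)} = ⊤) :
    Nontrivial Ω[F⁄K] ∧ v.DCoordGenerates ∧
      ∀ y : F, v.ord y ≠ 0 →
        v.differentialCoeff (D K F y) ≠ 0 ∧ v.ordDifferential (D K F y) = v.ord y - 1 := by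
  obtain ⟨π, hπ, hd⟩ := exists_irreducible_dCoord v
  obtain ⟨ι, hιπ, hι⟩ := exists_expansion v hres hπ
  obtain ⟨L, hLsmul, hLD⟩ := exists_lift ι
  have hL1 : L v.dCoord = 1 := by
    rw [hd, hLD, hιπ, derivative_single_one]
  have hd0 : v.dCoord ≠ 0 := by
    intro h0
    rw [h0, map_zero] at hL1
    exact zero_ne_one hL1
  have hnt : Nontrivial Ω[F⁄K] := ⟨⟨v.dCoord, 0, hd0⟩⟩
  have hgen : v.DCoordGenerates := ⟨by rw [hd]; exact hspan π hπ⟩
  refine ⟨hnt, hgen, ?_⟩
  intro y hy
  have hy0 : y ≠ 0 := by
    rintro rfl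
    exact hy v.ord_zero
  have hc := v.differentialCoeff_smul_dCoord (D K F y)
  have h1 : ι (v.differentialCoeff (D K F y)) = LaurentSeries.derivative K (ι y) := by
    have h2 := congrArg L hc
    rw [hLsmul, hL1, mul_one, hLD] at h2
    exact h2
  have h3 : HasOrd (ι (v.differentialCoeff (D K F y))) (v.ord y - 1) := by
    rw [h1]
    exact hasOrd_derivative (hι y hy0) hy
  have hc0 : v.differentialCoeff (D K F y) ≠ 0 := by
    intro h0
    rw [h0, map_zero] at h3
    exact h3.ne_zero rfl
  refine ⟨hc0, ?_⟩
  exact (hι _ hc0).unique h3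

end Fermat.Agent.S24.DiffOrd
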