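import Mathlib

set_option autoImplicit false
set_option linter.style.haveILetI false

/-!
If `F` is algebraic over `K(x)` in characteristic zero then `dx` spans `Ω[F/K]`.
-/

namespace Fermat.Agent.S24.DiffSpan

open KaehlerDifferential IntermediateField

variable {K F : Type*} [Field K] [Field F] [Algebra K F]

theorem D_mem_span_of_mem_adjoin (x : F) {a : F} (ha : a ∈ K⟮x⟯) :
    D K F a ∈ Submodule.span F {D K F x} := by
  induction ha using IntermediateField.adjoin_induction with
  | mem y hy =>
    rw [Set.mem_singleton_iff] at hy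
    subst hy
    exact Submodule.subset_span rfl
  | algebraMap c =>
    rw [Derivation.map_algebraMap]
    exact Submodule.zero_mem _
  | add y z _ _ hy hz =>
    rw [map_add]
    exact Submodule.add_mem _ hy hz
  | inv y _ hy =>
    rw [Derivation.leibniz_inv]
    exact Submodule.smul_mem _ _ hy
  | mul y z _ _ hy hz =>
    rw [Derivation.leibniz]
    exact Submodule.add_mem _ (Submodule.smul_mem _ _ hz) (Submodule.smul_mem _ _ hy)

theorem span_D_eq_top [CharZero K] (x : F) [Algebra.IsAlgebraic K⟮x⟯ F] :
    Submodule.span F {D K F x} = ⊤ := by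
  have hchar : CharZero K⟮x⟯ := charZero_of_injective_algebraMap (algebraMap K K⟮x⟯).injective
  have hsep : Algebra.IsSeparable K⟮x⟯ F := inferInstance
  have hunr : Algebra.FormallyUnramified K⟮x⟯ F := Algebra.FormallyUnramified.of_isSeparable _ _
  have hsub : Subsingleton Ω[F⁄K⟮x⟯] := inferInstance
  have hsurj : Function.Surjective (KaehlerDifferential.mapBaseChange K K⟮x⟯ F) := by
    have hex := KaehlerDifferential.exact_mapBaseChange_map K K⟮x⟯ F
    intro ω
    exact (hex ω).mp (Subsingleton.elim _ _)
  have hmap : ∀ y : Ω[K⟮x⟯⁄K],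
      (KaehlerDifferential.map K K K⟮x⟯ F) y ∈ Submodule.span F {D K F x} := by
    intro y
    have hy : y ∈ Submodule.span K⟮x⟯ (Set.range (D K K⟮x⟯)) := by
      rw [KaehlerDifferential.span_range_derivation]
      trivial
    induction hy using Submodule.span_induction with
    | mem z hz =>
      obtain ⟨a, rfl⟩ := hz
      rw [KaehlerDifferential.map_D]
      exact D_mem_span_of_mem_adjoin x a.2
    | zero => simp
    | add z w _ _ hz hw =>
      rw [map_add]
      exact Submodule.add_mem _ hz hw
    | smul c z _ hz =>
      rw [map_smul]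
      have : c • (KaehlerDifferential.map K K K⟮x⟯ F) z
          = (c : F) • (KaehlerDifferential.map K K K⟮x⟯ F) z := rfl
      rw [this]
      exact Submodule.smul_mem _ _ hz
  have key : ∀ t : TensorProduct K⟮x⟯ F Ω[K⟮x⟯⁄K],
      KaehlerDifferential.mapBaseChange K K⟮x⟯ F t ∈ Submodule.span F {D K F x} := by
    intro t
    induction t using TensorProduct.induction_on with
    | zero => simp
    | tmul b y =>
      rw [KaehlerDifferential.mapBaseChange_tmul]
      exact Submodule.smul_mem _ _ (hmap y)
    | add t u ht hu =>
      rw [map_add]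
      exact Submodule.add_mem _ ht hu
  rw [eq_top_iff]
  intro ω _
  obtain ⟨t, rfl⟩ := hsurj ω
  exact key t

end Fermat.Agent.S24.DiffSpan
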