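import Mathlib
import Fermat.Prelude.Def_AlgebraicCurve_CanonicalDivisor
import Fermat.Agent.S24.DiffOrd
import Fermat.Agent.S24.DiffSpan

set_option autoImplicit false
set_option linter.unusedSectionVars false
set_option linter.style.haveILetI false

/-!
Orders of differentials at places of a function field in one variable
(characteristic zero, all residue fields equal to the constant field).

Standing hypotheses (to be discharged by the function-field block):
* `hres`: every place has residue field `K`;
* `halg`: `F` is algebraic over `K(u)` for every `u` not in `K`.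
-/

namespace Fermat.Agent.S24.DiffMain

open AlgebraicCurve KaehlerDifferential IsLocalRing IntermediateField
open Fermat.Agent.S24.DiffOrd Fermat.Agent.S24.DiffSpan

variable {K F : Type*} [Field K] [Field F] [Algebra K F]

/-- Residue field of `v` is `K`. -/
def ResidueIsBase (v : Place K F) : Prop :=
  ∀ a : v.toValuationSubring, ∃ c : K,
    a - algebraMap K v.toValuationSubring c ∈ maximalIdeal v.toValuationSubring

/-- `F` is algebraic over `K(u)` for every non-constant `u`. -/
def AlgOverNonconst (K F : Type*) [Field K] [Field F] [Algebra K F] : Prop :=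
  ∀ u : F, u ∉ (algebraMap K F).range → Algebra.IsAlgebraic K⟮u⟯ F

section ordAPI

variable (v : Place K F)

theorem mem_of_ord_nonneg {f : F} (h : 0 ≤ v.ord f) : f ∈ v.toValuationSubring := by
  rcases eq_or_ne f 0 with rfl | hf
  · exact zero_mem _
  obtain ⟨π, hπ⟩ := IsDiscreteValuationRing.exists_irreducible v.toValuationSubring
  obtain ⟨u, hu⟩ := v.exists_unit_mul_zpow hf hπ
  obtain ⟨n, hn⟩ := Int.eq_ofNat_of_zero_le h
  rw [hu, hn, zpow_natCast]
  exact mul_mem (u : v.toValuationSubring).2 (pow_mem π.2 n)

theorem ord_pos_of_mem_maximalIdeal {a : v.toValuationSubring}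
    (ha : a ∈ maximalIdeal v.toValuationSubring) (ha0 : a ≠ 0) : 0 < v.ord (a : F) := by
  obtain ⟨π, hπ⟩ := IsDiscreteValuationRing.exists_irreducible v.toValuationSubring
  obtain ⟨n, u, hu⟩ := IsDiscreteValuationRing.eq_unit_mul_pow_irreducible ha0 hπ
  have hn : n ≠ 0 := by
    rintro rfl
    rw [pow_zero, mul_one] at hu
    rw [hu] at ha
    exact (IsLocalRing.mem_maximalIdeal _).mp ha u.isUnit
  have h1 : (a : F) = ((u : v.toValuationSubring) : F) * ((π : F) ^ (n : ℤ)) := by
    rw [hu, zpow_natCast]
    rfl
  rw [h1, v.ord_unit_smul_zpow u hπ]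
  exact_mod_cast Nat.pos_of_ne_zero hn

theorem irreducible_coe_notMem_range {π : v.toValuationSubring} (hπ : Irreducible π) :
    (π : F) ∉ (algebraMap K F).range := by
  rintro ⟨c, hc⟩
  have h1 := v.ord_coe_irreducible hπ
  rw [← hc, ord_algebraMap] at h1
  exact zero_ne_one h1

end ordAPI

section main

variable [CharZero K] (v : Place K F) (hres : ResidueIsBase v) (halg : AlgOverNonconst K F)

include hres halg

theorem main_aux :
    Nontrivial Ω[F⁄K] ∧ v.DCoordGenerates ∧
      ∀ y : F, v.ord y ≠ 0 →
        v.differentialCoeff (D K F y) ≠ 0 ∧ v.ordDifferential (D K F y) = v.ord y - 1 := by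
  refine ordDifferential_D v hres ?_
  intro π hπ
  haveI := halg (π : F) (irreducible_coe_notMem_range v hπ)
  exact span_D_eq_top (π : F)

theorem nontrivial_kaehler : Nontrivial Ω[F⁄K] := (main_aux v hres halg).1

theorem dCoordGenerates : v.DCoordGenerates := (main_aux v hres halg).2.1

/-- If `y` has a zero or pole of order `e ≠ 0` at `v`, then `dy` has order `e - 1`. -/
theorem ordDifferential_D_of_ord_ne_zero {y : F} (hy : v.ord y ≠ 0) :
    v.ordDifferential (D K F y) = v.ord y - 1 :=
  ((main_aux v hres halg).2.2 y hy).2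

theorem differentialCoeff_ne_zero {ω : Ω[F⁄K]} (hω : ω ≠ 0) : v.differentialCoeff ω ≠ 0 := by
  haveI := dCoordGenerates v hres halg
  intro h
  apply hω
  rw [← v.differentialCoeff_smul_dCoord ω, h, zero_smul]

theorem ordDifferential_smul {f : F} (hf : f ≠ 0) {ω : Ω[F⁄K]} (hω : ω ≠ 0) :
    v.ordDifferential (f • ω) = v.ord f + v.ordDifferential ω := by
  haveI := dCoordGenerates v hres halg
  haveI := nontrivial_kaehler v hres halg
  exact v.ordDifferential_smul hf (differentialCoeff_ne_zero v hres halg hω)

omit hres in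
theorem exists_eq_smul_D {x : F} (hx : x ∉ (algebraMap K F).range) (ω : Ω[F⁄K]) :
    ∃ f : F, ω = f • D K F x := by
  haveI := halg x hx
  have h : ω ∈ Submodule.span F {D K F x} := by
    rw [span_D_eq_top x]
    trivial
  obtain ⟨f, hf⟩ := Submodule.mem_span_singleton.mp h
  exact ⟨f, hf.symm⟩

theorem D_ne_zero {x : F} (hx : x ∉ (algebraMap K F).range) : D K F x ≠ 0 := by
  haveI := nontrivial_kaehler v hres halg
  intro h0
  obtain ⟨ω, hω⟩ := exists_ne (0 : Ω[F⁄K])
  obtain ⟨f, hf⟩ := exists_eq_smul_D halg hx ω
  rw [h0, smul_zero] at hf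
  exact hω hf

/-- Order of `dx` at a zero of `x - c`. -/
theorem ordDifferential_D_of_center {x : F} {c : K}
    (h : 0 < v.ord (x - algebraMap K F c)) :
    v.ordDifferential (D K F x) = v.ord (x - algebraMap K F c) - 1 := by
  have h1 : D K F x = D K F (x - algebraMap K F c) := by
    rw [map_sub, Derivation.map_algebraMap, sub_zero]
  rw [h1]
  exact ordDifferential_D_of_ord_ne_zero v hres halg (ne_of_gt h)

/-- Order of `dx` at a pole of `x`. -/
theorem ordDifferential_D_of_pole {x : F} (h : v.ord x < 0) :
    v.ordDifferential (D K F x) = v.ord x - 1 :=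
  ordDifferential_D_of_ord_ne_zero v hres halg (ne_of_lt h)

omit halg in
/-- A non-constant function regular at `v` has a centre `c ∈ K`. -/
theorem exists_center {x : F} (hx : x ∉ (algebraMap K F).range) (h : 0 ≤ v.ord x) :
    ∃ c : K, 0 < v.ord (x - algebraMap K F c) := by
  have hmem := mem_of_ord_nonneg v h
  obtain ⟨c, hc⟩ := hres ⟨x, hmem⟩
  refine ⟨c, ?_⟩
  have hne : (⟨x, hmem⟩ : v.toValuationSubring) - algebraMap K v.toValuationSubring c ≠ 0 := by
    intro h0
    apply hx
    refine ⟨c, ?_⟩
    have h1 := congrArg (fun a : v.toValuationSubring => (a : F)) h0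
    simp only [AddSubgroupClass.coe_sub, Place.coe_algebraMap, ZeroMemClass.coe_zero] at h1
    exact (sub_eq_zero.mp h1).symm
  have h2 := ord_pos_of_mem_maximalIdeal v hc hne
  simpa using h2

end main

end Fermat.Agent.S24.DiffMain
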