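import Mathlib
import Fermat.Prelude.Def_AlgebraicCurve_CanonicalDivisor
import Fermat.Agent.S24.FF.Ord

set_option autoImplicit false

namespace Fermat.Agent.S24.RH

open AlgebraicCurve KaehlerDifferential

variable {K F : Type*} [Field K] [Field F] [Algebra K F]

/-- The input data for the Riemann–Hurwitz count for the function `x`, of degree `n`. -/
structure Data (K F : Type*) [Field K] [Field F] [Algebra K F] (x : F) (n : ℕ) : Prop where
  deg_one : ∀ v : Place K F, v.deg = 1
  residue : ∀ v : Place K F, v.ord x < 0 ∨ ∃ c : K, 0 < v.ord (x - algebraMap K F c)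
  ordDiff : ∀ (v : Place K F) (y : F), v.ord y ≠ 0 →
    v.ordDifferential (D K F y) = v.ord y - 1
  ordDiff_smul : ∀ (v : Place K F) (f : F), f ≠ 0 →
    v.ordDifferential (f • D K F x) = v.ord f + v.ordDifferential (D K F x)
  exists_smul : ∀ ω : Ω[F⁄K], ∃ f : F, ω = f • D K F x
  principal : ∀ f : F, f ≠ 0 → ∀ E : Divisor K F, (∀ v, E v = v.ord f) → Divisor.degree E = 0
  zeros_finite : ∀ c : K, {v : Place K F | 0 < v.ord (x - algebraMap K F c)}.Finite
  zeros_sum : ∀ c : K,
    ∑ᶠ v ∈ {v : Place K F | 0 < v.ord (x - algebraMap K F c)}, v.ord (x - algebraMap K F c) = n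
  poles_finite : {v : Place K F | v.ord x < 0}.Finite
  poles_sum : ∑ᶠ v ∈ {v : Place K F | v.ord x < 0}, (- v.ord x) = n

variable {x : F} {n : ℕ}

/-- The set of zeros of `x - c`. -/
def zeros (x : F) (c : K) : Set (Place K F) := {v | 0 < v.ord (x - algebraMap K F c)}

/-- The set of poles of `x`. -/
def poles (K : Type*) {F : Type*} [Field K] [Field F] [Algebra K F] (x : F) : Set (Place K F) :=
  {v | v.ord x < 0}

theorem mem_zeros {c : K} {v : Place K F} : v ∈ zeros x c ↔ 0 < v.ord (x - algebraMap K F c) :=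
  Iff.rfl

theorem mem_poles {v : Place K F} : v ∈ poles K x ↔ v.ord x < 0 := Iff.rfl

theorem not_pole_of_zero {c : K} {v : Place K F} (h : 0 < v.ord (x - algebraMap K F c)) :
    ¬ v.ord x < 0 := by
  intro hx
  have hx0 : x ≠ 0 := by rintro rfl; simp at hx
  rcases eq_or_ne c 0 with rfl | hc
  · simp only [map_zero, sub_zero] at h; omega
  · have hc' : algebraMap K F c ≠ 0 := by simpa using hc
    have h1 : v.ord (x + (- algebraMap K F c)) = v.ord x := by
      apply FF.ord_add_eq_of_lt v _ hx0 (neg_ne_zero.mpr hc')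
      rw [FF.ord_neg, FF.ord_algebraMap]; exact hx
    rw [sub_eq_add_neg, h1] at h
    omega

theorem zeros_disjoint {c c' : K} (hcc : c ≠ c') {v : Place K F}
    (h : 0 < v.ord (x - algebraMap K F c)) (h' : 0 < v.ord (x - algebraMap K F c')) : False := by
  have hne : algebraMap K F (c' - c) ≠ 0 := by
    simpa [sub_eq_zero] using hcc.symm
  have h0 : v.ord (algebraMap K F (c' - c)) = 0 := FF.ord_algebraMap v _
  have heq : (x - algebraMap K F c) - (x - algebraMap K F c') = algebraMap K F (c' - c) := by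
    rw [map_sub]; ring
  have := FF.ord_sub_ge v (f := x - algebraMap K F c) (g := x - algebraMap K F c')
    (by rw [heq]; exact hne)
  rw [heq, h0] at this
  have h3 : 0 < min (v.ord (x - algebraMap K F c)) (v.ord (x - algebraMap K F c')) :=
    lt_min h h'
  omega


theorem D_sub_algebraMap (x : F) (c : K) : D K F (x - algebraMap K F c) = D K F x := by
  rw [map_sub, (D K F).map_algebraMap, sub_zero]

theorem degree_eq_sum (hdeg : ∀ v : Place K F, v.deg = 1) (E : Divisor K F)
    (T : Finset (Place K F)) (hT : E.support ⊆ T) :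
    Divisor.degree E = ∑ v ∈ T, E v := by
  rw [Divisor.degree, Finsupp.liftAddHom_apply, Finsupp.sum_of_support_subset E hT _ (by simp)]
  refine Finset.sum_congr rfl fun v _ => ?_
  simp [hdeg v]

theorem eq_one_of_sum_eq_card {ι : Type*} (s : Finset ι) (f : ι → ℤ) (hf : ∀ i ∈ s, 1 ≤ f i)
    (hsum : ∑ i ∈ s, f i = s.card) : ∀ i ∈ s, f i = 1 := by
  have h0 : ∑ i ∈ s, (f i - 1) = 0 := by
    rw [Finset.sum_sub_distrib, hsum]; simp
  have h1 := (Finset.sum_eq_zero_iff_of_nonneg (fun i hi => by have := hf i hi; omega)).mp h0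
  intro i hi
  have := h1 i hi
  omega

section Main

variable [HasCanonicalDivisor (K := K) (F := F)]

omit [HasCanonicalDivisor (K := K) (F := F)] in
theorem D_ne_zero (h : Data K F x n) {ω : Ω[F⁄K]} (hω : ω ≠ 0) : D K F x ≠ 0 := by
  intro h0
  obtain ⟨f, hf⟩ := h.exists_smul ω
  rw [h0, smul_zero] at hf
  exact hω hf

theorem degree_eq_degree_D (h : Data K F x n) {ω : Ω[F⁄K]} (hω : ω ≠ 0) :
    Divisor.degree (canonicalDivisorOf hω) =
      Divisor.degree (canonicalDivisorOf (D_ne_zero h hω)) := by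
  have hDx := D_ne_zero h hω
  obtain ⟨f, hf⟩ := h.exists_smul ω
  have hf0 : f ≠ 0 := by rintro rfl; rw [zero_smul] at hf; exact hω hf
  have key := h.principal f hf0 (canonicalDivisorOf hω - canonicalDivisorOf hDx) (fun v => by
    rw [Finsupp.sub_apply, canonicalDivisorOf_apply, canonicalDivisorOf_apply]
    have h1 : v.ordDifferential ω = v.ord f + v.ordDifferential (D K F x) := by
      rw [hf]; exact h.ordDiff_smul v f hf0
    rw [h1]; ring)
  rw [map_sub, sub_eq_zero] at key
  exact key

theorem degree_D (h : Data K F x n) (hDx : D K F x ≠ 0) (S : Finset K)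
    (hS : ∀ c ∉ S, (zeros (K := K) x c).ncard = n) :
    Divisor.degree (canonicalDivisorOf hDx) =
      ∑ c ∈ S, ((n : ℤ) - (zeros (K := K) x c).ncard) - n - (poles K x).ncard := by
  classical
  set Dx := canonicalDivisorOf hDx with hDxdef
  have hval_pole : ∀ v : Place K F, v.ord x < 0 → Dx v = v.ord x - 1 := by
    intro v hv
    rw [hDxdef, canonicalDivisorOf_apply]
    exact h.ordDiff v x (by omega)
  have hval_zero : ∀ (v : Place K F) (c : K), 0 < v.ord (x - algebraMap K F c) →
      Dx v = v.ord (x - algebraMap K F c) - 1 := by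
    intro v c hv
    rw [hDxdef, canonicalDivisorOf_apply, ← D_sub_algebraMap x c]
    exact h.ordDiff v _ (by omega)
  set Pf : Finset (Place K F) := h.poles_finite.toFinset with hPf
  set Zf : K → Finset (Place K F) := fun c => (h.zeros_finite c).toFinset with hZf
  have hmemP : ∀ v, v ∈ Pf ↔ v.ord x < 0 := fun v => by
    rw [hPf, Set.Finite.mem_toFinset]; rfl
  have hmemZ : ∀ c v, v ∈ Zf c ↔ 0 < v.ord (x - algebraMap K F c) := fun c v => by
    rw [hZf, Set.Finite.mem_toFinset]; rfl
  have hsumZ : ∀ c, ∑ v ∈ Zf c, v.ord (x - algebraMap K F c) = n := fun c => by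
    rw [← h.zeros_sum c, finsum_mem_eq_finite_toFinset_sum _ (h.zeros_finite c)]
  have hsumP : ∑ v ∈ Pf, (- v.ord x) = n := by
    rw [← h.poles_sum, finsum_mem_eq_finite_toFinset_sum _ h.poles_finite]
  have hcardZ : ∀ c, (zeros (K := K) x c).ncard = (Zf c).card := fun c =>
    Set.ncard_eq_toFinset_card _ (h.zeros_finite c)
  have hcardP : (poles K x).ncard = Pf.card := Set.ncard_eq_toFinset_card _ h.poles_finite
  -- the support
  have hsupp : Dx.support ⊆ Pf ∪ S.biUnion Zf := by
    intro v hv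
    rw [Finsupp.mem_support_iff] at hv
    rw [Finset.mem_union, Finset.mem_biUnion]
    rcases h.residue v with hp | ⟨c, hc⟩
    · exact Or.inl ((hmemP v).mpr hp)
    · by_cases hcS : c ∈ S
      · exact Or.inr ⟨c, hcS, (hmemZ c v).mpr hc⟩
      · exfalso
        apply hv
        rw [hval_zero v c hc]
        have hall := eq_one_of_sum_eq_card (Zf c) (fun w => w.ord (x - algebraMap K F c))
          (fun w hw => by have := (hmemZ c w).mp hw; omega)
          (by rw [hsumZ c, ← hcardZ c, hS c hcS])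
        have := hall v ((hmemZ c v).mpr hc)
        omega
  rw [degree_eq_sum h.deg_one Dx _ hsupp]
  have hdisj1 : Disjoint Pf (S.biUnion Zf) := by
    rw [Finset.disjoint_left]
    intro v hvP hvZ
    rw [Finset.mem_biUnion] at hvZ
    obtain ⟨c, -, hc⟩ := hvZ
    exact not_pole_of_zero ((hmemZ c v).mp hc) ((hmemP v).mp hvP)
  have hdisj2 : (S : Set K).PairwiseDisjoint Zf := by
    intro c _ c' _ hcc
    rw [Function.onFun, Finset.disjoint_left]
    intro v hv hv'
    exact zeros_disjoint hcc ((hmemZ c v).mp hv) ((hmemZ c' v).mp hv')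
  rw [Finset.sum_union hdisj1, Finset.sum_biUnion hdisj2]
  have hP : ∑ v ∈ Pf, Dx v = - (n : ℤ) - Pf.card := by
    rw [Finset.sum_congr rfl (fun v hv => hval_pole v ((hmemP v).mp hv))]
    rw [Finset.sum_sub_distrib, ← hsumP]
    simp
  have hZ : ∀ c, ∑ v ∈ Zf c, Dx v = (n : ℤ) - (Zf c).card := by
    intro c
    rw [Finset.sum_congr rfl (fun v hv => hval_zero v c ((hmemZ c v).mp hv))]
    rw [Finset.sum_sub_distrib, hsumZ c]
    simp
  rw [hP, Finset.sum_congr rfl (fun c _ => hZ c), hcardP]
  simp only [hcardZ]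
  ring

/-- Riemann–Hurwitz: the degree of the divisor of any nonzero differential. -/
theorem degree_canonicalDivisorOf (h : Data K F x n) (S : Finset K)
    (hS : ∀ c ∉ S, (zeros (K := K) x c).ncard = n) {ω : Ω[F⁄K]} (hω : ω ≠ 0) :
    Divisor.degree (canonicalDivisorOf hω) =
      ∑ c ∈ S, ((n : ℤ) - (zeros (K := K) x c).ncard) - n - (poles K x).ncard := by
  rw [degree_eq_degree_D h hω, degree_D h (D_ne_zero h hω) S hS]

/-- The genus, computed from the fibre cardinalities. -/
theorem genus_eq (h : Data K F x n) (hnt : ∃ ω : Ω[F⁄K], ω ≠ 0) (S : Finset K)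
    (hS : ∀ c ∉ S, (zeros (K := K) x c).ncard = n) :
    genus K F =
      (∑ c ∈ S, ((n : ℤ) - (zeros (K := K) x c).ncard) - n - (poles K x).ncard + 2).toNat / 2 := by
  unfold genus
  rw [dif_pos hnt, degree_canonicalDivisorOf h S hS]

end Main

end Fermat.Agent.S24.RH
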