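import Mathlib
import Fermat.Prelude.Def_AlgebraicCurve_DivisorClassGroup

/-!
Glue lemmas for S24: the simple extensions `K⟮x - c⟯`, `K⟮x⁻¹⟯` coincide with `K⟮x⟯`
(so G3-type fibre counts for `x - c` and `x⁻¹` can be fed with data about `K⟮x⟯`).
-/

namespace Fermat.Agent.S24.AdjoinShift

open IntermediateField AlgebraicCurve

variable {K F : Type*} [Field K] [Field F] [Algebra K F]

theorem adjoin_sub_algebraMap (x : F) (c : K) : K⟮x - algebraMap K F c⟯ = K⟮x⟯ := by
  apply le_antisymm
  · rw [adjoin_simple_le_iff]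
    exact sub_mem (mem_adjoin_simple_self K x) (IntermediateField.algebraMap_mem _ c)
  · rw [adjoin_simple_le_iff]
    have h1 := add_mem (mem_adjoin_simple_self K (x - algebraMap K F c))
      (IntermediateField.algebraMap_mem K⟮x - algebraMap K F c⟯ c)
    rwa [sub_add_cancel] at h1

theorem adjoin_inv (x : F) : K⟮x⁻¹⟯ = K⟮x⟯ := by
  apply le_antisymm
  · rw [adjoin_simple_le_iff]
    exact inv_mem (mem_adjoin_simple_self K x)
  · rw [adjoin_simple_le_iff]
    have h1 := inv_mem (mem_adjoin_simple_self K x⁻¹)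
    rwa [inv_inv] at h1

theorem finrank_eq_of_eq {E₁ E₂ : IntermediateField K F} (h : E₁ = E₂) :
    Module.finrank E₁ F = Module.finrank E₂ F := by
  subst h; rfl

theorem finiteDimensional_of_eq {E₁ E₂ : IntermediateField K F} (h : E₁ = E₂)
    (hfin : FiniteDimensional E₁ F) : FiniteDimensional E₂ F := by
  subst h; exact hfin

theorem finrank_sub_algebraMap (x : F) (c : K) :
    Module.finrank K⟮x - algebraMap K F c⟯ F = Module.finrank K⟮x⟯ F :=
  finrank_eq_of_eq (adjoin_sub_algebraMap x c)

theorem finrank_inv (x : F) : Module.finrank K⟮x⁻¹⟯ F = Module.finrank K⟮x⟯ F :=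
  finrank_eq_of_eq (adjoin_inv x)

theorem finiteDimensional_sub_algebraMap (x : F) (c : K) (hfin : FiniteDimensional K⟮x⟯ F) :
    FiniteDimensional K⟮x - algebraMap K F c⟯ F :=
  finiteDimensional_of_eq (adjoin_sub_algebraMap x c).symm hfin

theorem finiteDimensional_inv (x : F) (hfin : FiniteDimensional K⟮x⟯ F) :
    FiniteDimensional K⟮x⁻¹⟯ F :=
  finiteDimensional_of_eq (adjoin_inv x).symm hfin

theorem transcendental_sub_algebraMap {x : F} (hx : Transcendental K x) (c : K) :
    Transcendental K (x - algebraMap K F c) := by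
  intro h
  apply hx
  have h2 : IsAlgebraic K ((x - algebraMap K F c) + algebraMap K F c) :=
    h.add (isAlgebraic_algebraMap c)
  simpa using h2

theorem transcendental_inv {x : F} (hx : Transcendental K x) : Transcendental K x⁻¹ :=
  fun h => hx (IsAlgebraic.inv_iff.mp h)

/-- Places where `x⁻¹` vanishes are the poles of `x`. -/
theorem ord_inv_pos_iff (v : Place K F) (x : F) : 0 < v.ord x⁻¹ ↔ v.ord x < 0 := by
  rw [v.ord_inv]; omega

/-- The subtype of zeros of `x⁻¹` is equivalent to the subtype of poles of `x`. -/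
def zerosInvEquivPoles (x : F) :
    {v : Place K F // 0 < v.ord x⁻¹} ≃ {v : Place K F // v.ord x < 0} :=
  Equiv.subtypeEquivRight fun v => ord_inv_pos_iff v x

theorem card_zeros_inv (x : F) :
    Nat.card {v : Place K F // 0 < v.ord x⁻¹} = Nat.card {v : Place K F // v.ord x < 0} :=
  Nat.card_congr (zerosInvEquivPoles x)

end Fermat.Agent.S24.AdjoinShift
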