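import Mathlib
import Fermat.Prelude.Def_ModularCurve_X0
import Fermat.Prelude.Def_ModularCurve_LaurentCoeff

set_option autoImplicit false

namespace Fermat.Agent.S24.PolyJFormal

open ModularCurve

/-- coefficients of powers of the formal `jq` are integers -/
theorem exists_int_coeff_jq_pow (i : ℕ) (m : ℤ) :
    ∃ z : ℤ, (jq ^ i).coeff m = (z : ℚ) := by
  rw [jq_pow, HahnSeries.coeff_single_mul, one_mul]
  by_cases hm : m - -(i : ℤ) < 0
  · exact ⟨0, by rw [ofPowerSeries_coeff_of_neg _ hm]; simp⟩
  · obtain ⟨n, hn⟩ := Int.eq_ofNat_of_zero_le (not_lt.mp hm)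
    rw [hn, HahnSeries.ofPowerSeries_apply_coeff, jNumQ, ← map_pow, PowerSeries.coeff_map]
    exact ⟨_, rfl⟩

variable {L : Type*} [Field L] [Algebra ℚ L]

theorem coeff_coeffEmb_jq_pow (i : ℕ) (m : ℤ) :
    ((coeffEmb L jq) ^ i).coeff m = algebraMap ℚ L ((jq ^ i).coeff m) := by
  rw [← map_pow, coeffEmb_coeff]

theorem coeff_aeval (P : Polynomial L) (m : ℤ) :
    (Polynomial.aeval (coeffEmb L jq) P).coeff m =
      ∑ i ∈ Finset.range (P.natDegree + 1), P.coeff i * algebraMap ℚ L ((jq ^ i).coeff m) := by
  rw [Polynomial.aeval_eq_sum_range]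
  rw [← HahnSeries.coeff.addMonoidHom_apply, map_sum]
  refine Finset.sum_congr rfl fun i _ => ?_
  rw [HahnSeries.coeff.addMonoidHom_apply, ← coeff_coeffEmb_jq_pow, Algebra.smul_def,
    algebraMap_laurentSeries_eq_single, HahnSeries.coeff_single_mul, sub_zero]

/-- **PJ2 (formal rationality)**: if the principal part and constant term of `P(jq)` lie in an
additive subgroup `S`, then all coefficients of `P` lie in `S`. -/
theorem coeff_mem_of_aeval_jq (S : AddSubgroup L) (P : Polynomial L)
    (h : ∀ n : ℤ, n ≤ 0 → (Polynomial.aeval (coeffEmb L jq) P).coeff n ∈ S) :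
    ∀ k, P.coeff k ∈ S := by
  have key : ∀ i k : ℕ, P.natDegree + 1 ≤ k + i → P.coeff k ∈ S := by
    intro i
    induction i with
    | zero =>
      intro k hk
      rw [Polynomial.coeff_eq_zero_of_natDegree_lt (by omega)]
      exact S.zero_mem
    | succ i ih =>
      intro k hk
      by_cases hk' : P.natDegree < k
      · rw [Polynomial.coeff_eq_zero_of_natDegree_lt hk']
        exact S.zero_mem
      have hmem := h (-(k : ℤ)) (by omega)
      rw [coeff_aeval] at hmem
      have hkr : k ∈ Finset.range (P.natDegree + 1) := Finset.mem_range.mpr (by omega)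
      rw [← Finset.add_sum_erase _ _ hkr, coeff_jq_pow_self, map_one, mul_one] at hmem
      have hrest : ∑ x ∈ (Finset.range (P.natDegree + 1)).erase k,
          P.coeff x * algebraMap ℚ L ((jq ^ x).coeff (-(k : ℤ))) ∈ S := by
        refine S.sum_mem fun x hx => ?_
        rcases Nat.lt_or_gt_of_ne (Finset.ne_of_mem_erase hx) with hlt | hgt
        · rw [coeff_jq_pow_of_lt (by omega), map_zero, mul_zero]
          exact S.zero_mem
        · obtain ⟨z, hz⟩ := exists_int_coeff_jq_pow x (-(k : ℤ))
          rw [hz, mul_comm]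
          have : algebraMap ℚ L (z : ℚ) * P.coeff x = z • P.coeff x := by
            rw [zsmul_eq_mul]; simp
          rw [this]
          exact S.zsmul_mem (ih x (by omega)) z
      have := S.sub_mem hmem hrest
      simpa using this
  intro k
  exact key (P.natDegree + 1) k (by omega)

section Descent

variable {K M : Type*} [Field K] [Field M] [Algebra ℚ K] [Algebra ℚ M]

theorem coeffMap_coeffEmb_ringHom (ι : K →+* M) (x : LaurentSeries ℚ) :
    coeffMap ι (coeffEmb K x) = coeffEmb M x := by
  rw [coeffEmb, coeffMap_coeffMap]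
  exact coeffMap_congr (Subsingleton.elim _ _) x

omit [Algebra ℚ K] [Algebra ℚ M] in
theorem coeffMap_injective (ι : K →+* M) : Function.Injective (coeffMap ι) := by
  intro x y h
  ext k
  have := congrArg (fun z : LaurentSeries M => z.coeff k) h
  simp only [coeffMap_coeff] at this
  exact ι.injective this

/-- base change of `P(jq)` along a field embedding -/
theorem coeffMap_aeval_jq (ι : K →+* M) (Q : Polynomial K) :
    coeffMap ι (Polynomial.aeval (coeffEmb K jq) Q) =
      Polynomial.aeval (coeffEmb M jq) (Q.map ι) := by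
  ext m
  rw [coeffMap_coeff, coeff_aeval, coeff_aeval, map_sum, Polynomial.natDegree_map]
  refine Finset.sum_congr rfl fun i _ => ?_
  rw [map_mul, Polynomial.coeff_map]
  congr 1
  rw [← RingHom.comp_apply]
  exact congrFun (congrArg DFunLike.coe (Subsingleton.elim _ _)) _

/-- **PJ2 (descent form)**: if a Laurent series `A` over `K` becomes `P(jq)` over the bigger
field `M` for some `P : M[X]`, then `P` has coefficients in `K` and `A = Q(jq)` over `K`. -/
theorem exists_polynomial_descent (ι : K →+* M) (A : LaurentSeries K) (P : Polynomial M)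
    (h : coeffMap ι A = Polynomial.aeval (coeffEmb M jq) P) :
    ∃ Q : Polynomial K, Q.map ι = P ∧ A = Polynomial.aeval (coeffEmb K jq) Q := by
  have hmem : ∀ k, P.coeff k ∈ ι.range.toAddSubgroup := by
    refine coeff_mem_of_aeval_jq _ P fun n _ => ?_
    rw [← h, coeffMap_coeff]
    exact ⟨_, rfl⟩
  have hP : P ∈ Polynomial.lifts ι := by
    rw [Polynomial.lifts_iff_coeff_lifts]
    intro n
    obtain ⟨x, hx⟩ := hmem n
    exact ⟨x, hx⟩
  obtain ⟨Q, hQ⟩ := (Polynomial.mem_lifts P).mp hP
  refine ⟨Q, hQ, coeffMap_injective ι ?_⟩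
  rw [h, coeffMap_aeval_jq, hQ]

end Descent

end Fermat.Agent.S24.PolyJFormal
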