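import Mathlib
import Fermat.Agent.S24.PolyJ
import Fermat.Agent.S24.PolyJFormal
import Fermat.Agent.S24.QBridge

set_option autoImplicit false

/-!
# PolyJ, glue (PJ3)

A holomorphic `SL(2,ℤ)`-invariant function on `ℍ` which has a `K`-rational Laurent expansion in
`𝕢 N τ = exp(2πiτ/N)` (pointwise `HasSum` over `ℤ`) is a `K`-polynomial in `j`, and its expansion
is that polynomial evaluated at the Prelude's formal `jq` (in the variable `q^(1/N)`).
-/

namespace Fermat.Agent.S24.PolyJGlue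

open UpperHalfPlane ModularForm Complex Filter Function Asymptotics ModularCurve
open Fermat.Agent.S24.JFun
open scoped MatrixGroups Topology Manifold

local notation "𝕢" => Periodic.qParam

/-- a Laurent series has coefficients vanishing below some `-M` -/
theorem exists_bound {R : Type*} [Zero R] (A : HahnSeries ℤ R) :
    ∃ M : ℕ, ∀ n : ℤ, n < -(M : ℤ) → A.coeff n = 0 := by
  by_cases hA : A = 0
  · exact ⟨0, fun n _ => by rw [hA]; rfl⟩
  · refine ⟨(-A.order).toNat, fun n hn => HahnSeries.coeff_eq_zero_of_lt_order ?_⟩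
    have := Int.self_le_toNat (-A.order)
    omega

/-- shifting a bounded-below `ℤ`-indexed expansion to an `ℕ`-indexed one -/
theorem hasSum_int_iff_nat {a : ℤ → ℂ} {M : ℕ} (ha : ∀ n : ℤ, n < -(M : ℤ) → a n = 0)
    {s : ℂ} (hs : s ≠ 0) (v : ℂ) :
    HasSum (fun n : ℤ => a n * s ^ n) v ↔
      HasSum (fun k : ℕ => a ((k : ℤ) - M) * s ^ k) (s ^ M * v) := by
  have h1 : HasSum (fun n : ℤ => a n * s ^ n) v ↔
      HasSum (fun n : ℤ => a (n - M) * s ^ (n - M)) v :=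
    ((Equiv.subRight (M : ℤ)).hasSum_iff (f := fun n : ℤ => a n * s ^ n)).symm
  have h2 : HasSum (fun n : ℤ => a (n - M) * s ^ (n - M)) v ↔
      HasSum (fun n : ℤ => a (n - M) * s ^ n) (s ^ M * v) := by
    rw [← hasSum_mul_left_iff (pow_ne_zero M hs)]
    have hfun : (fun n : ℤ => s ^ M * (a (n - M) * s ^ (n - M))) =
        fun n : ℤ => a (n - M) * s ^ n := by
      funext n
      rw [zpow_sub₀ hs, zpow_natCast]
      field_simp
    rw [hfun]
  have h3 : HasSum (fun n : ℤ => a (n - M) * s ^ n) (s ^ M * v) ↔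
      HasSum (fun k : ℕ => a ((k : ℤ) - M) * s ^ k) (s ^ M * v) := by
    rw [← Nat.cast_injective.hasSum_iff (f := fun n : ℤ => a (n - M) * s ^ n)]
    · simp [Function.comp_def, zpow_natCast]
    · intro x hx
      have hx0 : x < 0 := by
        by_contra h
        exact hx ⟨x.toNat, Int.toNat_of_nonneg (not_lt.mp h)⟩
      rw [ha _ (by omega), zero_mul]
  exact h1.trans (h2.trans h3)

/-- uniqueness of `ℕ`-indexed expansions in `𝕢 N` -/
theorem coeff_eq_zero_of_hasSum_zero {N : ℕ} [NeZero N] {d : ℕ → ℂ}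
    (h : ∀ τ : ℍ, HasSum (fun k : ℕ => d k * 𝕢 (N : ℝ) (τ : ℂ) ^ k) (0 : ℂ)) : ∀ k, d k = 0 := by
  have hN : (0 : ℝ) < N := Nat.cast_pos.mpr (NeZero.pos N)
  have key : QBridge.HasQExp (PowerSeries.X * PowerSeries.mk d) (fun _ => 0) := by
    intro q hq
    rcases eq_or_ne q 0 with rfl | hq0
    · have : (fun n : ℕ => PowerSeries.coeff n (PowerSeries.X * PowerSeries.mk d) * (0:ℂ) ^ n)
          = fun _ => 0 := by
        funext n
        rcases Nat.eq_zero_or_pos n with rfl | hn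
        · simp
        · simp [hn.ne']
      rw [this]; exact hasSum_zero
    · have h1 := Periodic.im_invQParam_pos_of_norm_lt_one hN hq hq0
      have h2 := h ⟨Periodic.invQParam N q, h1⟩
      rw [UpperHalfPlane.coe_mk, Periodic.qParam_right_inv hN.ne' hq0] at h2
      have h3 := (h2.mul_right q)
      rw [zero_mul] at h3
      have h4 := (hasSum_nat_add_iff (f := fun n : ℕ =>
        PowerSeries.coeff n (PowerSeries.X * PowerSeries.mk d) * q ^ n) 1).mp (by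
        simpa [PowerSeries.coeff_succ_X_mul, pow_succ, mul_assoc] using h3)
      simpa using h4
  have hz : QBridge.HasQExp (0 : PowerSeries ℂ) (fun _ => 0) := by
    intro q _; simp
  have := key.unique hz
  intro k
  have := congrArg (PowerSeries.coeff (k+1)) this
  simpa [PowerSeries.coeff_succ_X_mul] using this

/-- uniqueness of Laurent expansions in `𝕢 N` -/
theorem laurent_unique {N : ℕ} [NeZero N] {A B : LaurentSeries ℂ} {φ : ℍ → ℂ}
    (hA : ∀ τ : ℍ, HasSum (fun n : ℤ => A.coeff n * 𝕢 (N : ℝ) (τ : ℂ) ^ n) (φ τ))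
    (hB : ∀ τ : ℍ, HasSum (fun n : ℤ => B.coeff n * 𝕢 (N : ℝ) (τ : ℂ) ^ n) (φ τ)) : A = B := by
  obtain ⟨M, hM⟩ := exists_bound (A - B)
  have h0 : ∀ τ : ℍ,
      HasSum (fun k : ℕ => (A - B).coeff ((k : ℤ) - M) * 𝕢 (N : ℝ) (τ : ℂ) ^ k) (0 : ℂ) := by
    intro τ
    have hs : 𝕢 (N : ℝ) (τ : ℂ) ≠ 0 := Periodic.qParam_ne_zero _
    have h1 : HasSum (fun n : ℤ => (A - B).coeff n * 𝕢 (N : ℝ) (τ : ℂ) ^ n) 0 := by
      have := (hA τ).sub (hB τ)
      simpa [sub_mul] using this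
    have := (hasSum_int_iff_nat hM hs 0).mp h1
    simpa using this
  have h1 := coeff_eq_zero_of_hasSum_zero h0
  rw [← sub_eq_zero]
  ext n
  by_cases hn : n < -(M : ℤ)
  · exact hM n hn
  · obtain ⟨k, hk⟩ := Int.eq_ofNat_of_zero_le (show 0 ≤ n + M by omega)
    have := h1 k
    rw [← hk] at this
    simpa using this

theorem qParam_pow_N (N : ℕ) [NeZero N] (z : ℂ) : 𝕢 (N : ℝ) z ^ N = 𝕢 (1 : ℝ) z := by
  have hN : (N : ℂ) ≠ 0 := Nat.cast_ne_zero.mpr (NeZero.ne N)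
  rw [Periodic.qParam, Periodic.qParam, ← Complex.exp_nat_mul]
  congr 1
  push_cast
  field_simp

/-- the level-one expansion of `j ^ i` -/
theorem hasSum_jFun_pow (i : ℕ) (τ : ℍ) :
    HasSum (fun n : ℤ => algebraMap ℚ ℂ ((jq ^ i).coeff n) * 𝕢 (1 : ℝ) (τ : ℂ) ^ n)
      (jFun τ ^ i) := by
  have hq0 : 𝕢 (1 : ℝ) (τ : ℂ) ≠ 0 := Periodic.qParam_ne_zero _
  have hq : ‖𝕢 (1 : ℝ) (τ : ℂ)‖ < 1 := Periodic.norm_qParam_lt_one one_pos τ.im_pos
  rw [hasSum_int_iff_nat (a := fun n : ℤ => algebraMap ℚ ℂ ((jq ^ i).coeff n)) (M := i)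
    (fun n hn => by rw [coeff_jq_pow_of_lt hn, map_zero]) hq0]
  have hcoe : ∀ k : ℕ, algebraMap ℚ ℂ ((jq ^ i).coeff ((k : ℤ) - i)) =
      PowerSeries.coeff k (QBridge.jNumC ^ i) := by
    intro k
    rw [jq_pow, HahnSeries.coeff_single_mul, one_mul, sub_neg_eq_add, sub_add_cancel,
      HahnSeries.ofPowerSeries_apply_coeff, jNumQ, ← map_pow, PowerSeries.coeff_map,
      QBridge.jNumC, ← map_pow, PowerSeries.coeff_map]
    simp
  have h1 := (QBridge.hasQExp_jNumC.pow i) _ hq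
  have h2 := QBridge.hasQExp_jNumC _ hq
  have h3 := QBridge.hasSum_jNum τ
  have hfun : (fun n : ℕ => ((PowerSeries.coeff n ModularCurve.jNum : ℤ) : ℂ)
        * 𝕢 (1 : ℝ) (τ : ℂ) ^ n) =
      fun n : ℕ => PowerSeries.coeff n QBridge.jNumC * 𝕢 (1 : ℝ) (τ : ℂ) ^ n := by
    funext n
    rw [QBridge.jNumC, PowerSeries.coeff_map]
    rfl
  rw [hfun] at h3
  have hval := h2.unique h3
  simp only [hcoe]
  have hv : 𝕢 (1 : ℝ) (τ : ℂ) ^ i * jFun τ ^ i =
      (𝕢 (1 : ℝ) (τ : ℂ) * (E₄ τ ^ 3 / discriminant τ)) ^ i := by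
    rw [mul_pow, jFun_def]
  rw [hv, ← hval]
  exact h1

/-- change of variable `q = (q^(1/N))^N` on expansions -/
theorem hasSum_qExpand {N : ℕ} [NeZero N] (B : LaurentSeries ℂ) (τ : ℍ) (v : ℂ)
    (h : HasSum (fun n : ℤ => B.coeff n * 𝕢 (1 : ℝ) (τ : ℂ) ^ n) v) :
    HasSum (fun m : ℤ => (qExpand ℂ N B).coeff m * 𝕢 (N : ℝ) (τ : ℂ) ^ m) v := by
  have hinj : Function.Injective (fun n : ℤ => (N : ℤ) * n) :=
    mul_right_injective₀ (by exact_mod_cast NeZero.ne N)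
  rw [← hinj.hasSum_iff]
  · have hq : ∀ n : ℤ, 𝕢 (N : ℝ) (τ : ℂ) ^ ((N : ℤ) * n) = 𝕢 (1 : ℝ) (τ : ℂ) ^ n := by
      intro n
      rw [zpow_mul, zpow_natCast, qParam_pow_N]
    simpa [Function.comp_def, qExpand_coeff_mul, hq] using h
  · intro x hx
    rw [qExpand_coeff_of_not_dvd, zero_mul]
    rintro ⟨m, rfl⟩
    exact hx ⟨m, rfl⟩

/-- the level-one expansion of a polynomial in `j` -/
theorem hasSum_aeval_jFun (P : Polynomial ℂ) (τ : ℍ) :
    HasSum (fun n : ℤ => (Polynomial.aeval (coeffEmb ℂ jq) P).coeff n * 𝕢 (1 : ℝ) (τ : ℂ) ^ n)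
      (P.eval (jFun τ)) := by
  rw [Polynomial.eval_eq_sum_range]
  have hfun : (fun n : ℤ =>
        (Polynomial.aeval (coeffEmb ℂ jq) P).coeff n * 𝕢 (1 : ℝ) (τ : ℂ) ^ n) =
      fun n : ℤ => ∑ i ∈ Finset.range (P.natDegree + 1),
        P.coeff i * (algebraMap ℚ ℂ ((jq ^ i).coeff n) * 𝕢 (1 : ℝ) (τ : ℂ) ^ n) := by
    funext n
    rw [PolyJFormal.coeff_aeval, Finset.sum_mul]
    exact Finset.sum_congr rfl fun i _ => by ring
  rw [hfun]
  exact hasSum_sum fun i _ => (hasSum_jFun_pow i τ).mul_left (P.coeff i)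

/-- the expansion in `𝕢 N` of a polynomial in `j` -/
theorem hasSum_qExpand_aeval_jFun (N : ℕ) [NeZero N] (P : Polynomial ℂ) (τ : ℍ) :
    HasSum (fun n : ℤ => (qExpand ℂ N (Polynomial.aeval (coeffEmb ℂ jq) P)).coeff n *
      𝕢 (N : ℝ) (τ : ℂ) ^ n) (P.eval (jFun τ)) :=
  hasSum_qExpand _ τ _ (hasSum_aeval_jFun P τ)

section Formal

variable {K M : Type*}

theorem coeffMap_qExpand [CommRing K] [CommRing M] (ι : K →+* M) (N : ℕ) [NeZero N]
    (X : LaurentSeries K) : coeffMap ι (qExpand K N X) = qExpand M N (coeffMap ι X) := by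
  ext k
  rw [coeffMap_coeff]
  by_cases hk : (N : ℤ) ∣ k
  · obtain ⟨m, rfl⟩ := hk
    rw [qExpand_coeff_mul, qExpand_coeff_mul, coeffMap_coeff]
  · rw [qExpand_coeff_of_not_dvd N _ hk, qExpand_coeff_of_not_dvd N _ hk, map_zero]

/-- formal descent in the variable `q^(1/N)` -/
theorem exists_polynomial_descent_qExpand [Field K] [Field M] [Algebra ℚ K] [Algebra ℚ M]
    (ι : K →+* M) (N : ℕ) [NeZero N] (A : LaurentSeries K) (P : Polynomial M)
    (h : coeffMap ι A = qExpand M N (Polynomial.aeval (coeffEmb M jq) P)) :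
    ∃ Q : Polynomial K, Q.map ι = P ∧
      A = qExpand K N (Polynomial.aeval (coeffEmb K jq) Q) := by
  have hmem : ∀ k, P.coeff k ∈ ι.range.toAddSubgroup := by
    refine PolyJFormal.coeff_mem_of_aeval_jq _ P fun n _ => ?_
    rw [← qExpand_coeff_mul N, ← h, coeffMap_coeff]
    exact ⟨_, rfl⟩
  have hP : P ∈ Polynomial.lifts ι := by
    rw [Polynomial.lifts_iff_coeff_lifts]
    intro n
    obtain ⟨x, hx⟩ := hmem n
    exact ⟨x, hx⟩
  obtain ⟨Q, hQ⟩ := (Polynomial.mem_lifts P).mp hP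
  refine ⟨Q, hQ, PolyJFormal.coeffMap_injective ι ?_⟩
  rw [h, coeffMap_qExpand, PolyJFormal.coeffMap_aeval_jq, hQ]

end Formal

/-- **PJ3**: a holomorphic `SL(2,ℤ)`-invariant function with a `K`-rational Laurent expansion in
`𝕢 N τ = exp(2πiτ/N)` is a `K`-polynomial in `j`; its expansion is the polynomial in the formal
`jq` (in the variable `q^(1/N)`). -/
theorem exists_polynomial_of_hasSum {K : Type*} [Field K] [Algebra ℚ K] (ι : K →+* ℂ)
    (N : ℕ) [NeZero N] (A : LaurentSeries K) {φ : ℍ → ℂ} (hhol : MDiff φ)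
    (hinv : ∀ (γ : SL(2, ℤ)) (τ : ℍ), φ (γ • τ) = φ τ)
    (hA : ∀ τ : ℍ, HasSum (fun n : ℤ => ι (A.coeff n) * 𝕢 (N : ℝ) (τ : ℂ) ^ n) (φ τ)) :
    ∃ Q : Polynomial K, (∀ τ, φ τ = (Q.map ι).eval (jFun τ)) ∧
      A = qExpand K N (Polynomial.aeval (coeffEmb K jq) Q) := by
  have hN : (0 : ℝ) < N := Nat.cast_pos.mpr (NeZero.pos N)
  obtain ⟨M, hM⟩ := exists_bound A
  have hb1 : IsBoundedAtImInfty (fun τ : ℍ => 𝕢 (N : ℝ) (τ : ℂ) ^ M * φ τ) := by
    refine isBoundedAtImInfty_of_hasSum_qExpansion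
      (c := fun k : ℕ => ι (A.coeff ((k : ℤ) - M))) hN fun τ => ?_
    have hs : 𝕢 (N : ℝ) (τ : ℂ) ≠ 0 := Periodic.qParam_ne_zero _
    exact (hasSum_int_iff_nat (a := fun n => ι (A.coeff n))
      (fun n hn => by rw [hM n hn, map_zero]) hs _).mp (hA τ)
  have hb2 : IsBoundedAtImInfty (fun τ : ℍ => 𝕢 (1 : ℝ) (τ : ℂ) ^ M * φ τ) := by
    have hfun : (fun τ : ℍ => 𝕢 (1 : ℝ) (τ : ℂ) ^ M * φ τ) =
        (fun τ : ℍ => 𝕢 (N : ℝ) (τ : ℂ) ^ ((N - 1) * M)) *
          (fun τ : ℍ => 𝕢 (N : ℝ) (τ : ℂ) ^ M * φ τ) := by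
      funext τ
      simp only [Pi.mul_apply]
      rw [← qParam_pow_N N, ← mul_assoc, ← pow_mul, ← pow_add]
      congr 2
      have := NeZero.pos N
      obtain ⟨n, rfl⟩ : ∃ n, N = n + 1 := ⟨N - 1, by omega⟩
      simp
      ring
    rw [hfun]
    refine BoundedAtFilter.mul ?_ hb1
    refine Asymptotics.isBigO_of_le _ fun τ => ?_
    rw [norm_pow]
    have h1 : ‖𝕢 (N : ℝ) (τ : ℂ)‖ ≤ 1 := (Periodic.norm_qParam_lt_one hN τ.im_pos).le
    simpa using pow_le_one₀ (norm_nonneg _) h1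
  obtain ⟨P, -, hP⟩ := PolyJ.exists_polynomial_eval_jFun M hhol hinv hb2
  have hexp : ∀ τ : ℍ, HasSum (fun n : ℤ =>
      (qExpand ℂ N (Polynomial.aeval (coeffEmb ℂ jq) P)).coeff n * 𝕢 (N : ℝ) (τ : ℂ) ^ n)
      (φ τ) := by
    intro τ
    rw [hP τ]
    exact hasSum_qExpand_aeval_jFun N P τ
  have hA' : ∀ τ : ℍ, HasSum (fun n : ℤ => (coeffMap ι A).coeff n * 𝕢 (N : ℝ) (τ : ℂ) ^ n)
      (φ τ) := hA
  have heq := laurent_unique hA' hexp
  obtain ⟨Q, hQ, hAQ⟩ := exists_polynomial_descent_qExpand ι N A P heq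
  exact ⟨Q, fun τ => by rw [hQ]; exact hP τ, hAQ⟩

end Fermat.Agent.S24.PolyJGlue
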