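import Mathlib
import Fermat.Agent.S24.PolyJGlue
import Fermat.Agent.S24.QB.QExpK

set_option autoImplicit false

/-!
# PolyJ for `HasQExpK`

Wrappers of `PolyJGlue` in terms of `QB.HasQExpK`.
-/

namespace Fermat.Agent.S24.PolyJQExpK

open UpperHalfPlane ModularForm Complex Filter Function ModularCurve
open Fermat.Agent.S24.JFun Fermat.Agent.S24.QB
open scoped MatrixGroups Topology Manifold

variable {K : Type*} [Field K] [Algebra ℚ K]

/-- **Q4**: an `SL(2,ℤ)`-invariant function with a `K`-rational `q^(1/N)`-expansion `A` is a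
`K`-polynomial in `j`, and `A` is that polynomial in the formal `jq` (variable `q^(1/N)`). -/
theorem exists_polynomial {ι : K →+* ℂ} {N : ℕ} [NeZero N] {A : LaurentSeries K} {φ : ℍ → ℂ}
    (h : HasQExpK ι N A φ) (hinv : ∀ (γ : SL(2, ℤ)) (τ : ℍ), φ (γ • τ) = φ τ) :
    ∃ Q : Polynomial K, (∀ τ, φ τ = (Q.map ι).eval (jFun τ)) ∧
      A = qExpand K N (Polynomial.aeval (coeffEmb K jq) Q) :=
  PolyJGlue.exists_polynomial_of_hasSum ι N A (h.mdiff (NeZero.ne N)) hinv
    ((hasQExpK_iff_qParam ι N A φ).mp h)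

/-- a `K`-polynomial in `j` has the expected `K`-rational expansion -/
theorem hasQExpK_aeval (ι : K →+* ℂ) (N : ℕ) [NeZero N] (Q : Polynomial K) :
    HasQExpK ι N (qExpand K N (Polynomial.aeval (coeffEmb K jq) Q))
      (fun τ => (Q.map ι).eval (jFun τ)) := by
  rw [hasQExpK_iff_qParam]
  intro τ
  have h := PolyJGlue.hasSum_qExpand_aeval_jFun N (Q.map ι) τ
  rw [← PolyJFormal.coeffMap_aeval_jq, ← PolyJGlue.coeffMap_qExpand] at h
  exact h

/-- the level-`N` expansion of `j` itself -/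
theorem hasQExpK_jFun (ι : K →+* ℂ) (N : ℕ) [NeZero N] :
    HasQExpK ι N (qExpand K N (coeffEmb K jq)) jFun := by
  have h := hasQExpK_aeval ι N (Polynomial.X : Polynomial K)
  simpa using h

end Fermat.Agent.S24.PolyJQExpK
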