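import Mathlib
import Fermat.Agent.S24.HolH

/-!
# Order at `i∞` of holomorphic, `N`-periodic functions on `ℍ` with moderate growth

The cusp `i∞` is treated like a point of the upper half plane, with local coordinate
`s = exp (2πiτ/N)`.  We define the algebra `MerInf N ⊆ HolH` of holomorphic `N`-periodic
functions that are meromorphic at `i∞`, and an order function `ordInf` on it satisfying the
valuation axioms, invariance under integer translations, and the "rotation lemma":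
a nonzero `φ ∈ MerInf N` with `φ (τ + w) = φ τ` has `N ∣ ordInf φ * w`.
-/

set_option autoImplicit false
set_option linter.unusedSectionVars false

open scoped Manifold MatrixGroups Topology Real
open UpperHalfPlane Filter Function

noncomputable section

namespace Fermat.Agent.S24.CuspOrd

open Fermat.Agent.S24.HolH

variable (N : ℕ) [NeZero N]

/-- The local parameter `s = exp (2πiτ/N)` at `i∞`. -/
def sPar (τ : ℍ) : ℂ := Function.Periodic.qParam (N : ℝ) (τ : ℂ)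

theorem natCast_pos_real : (0 : ℝ) < (N : ℝ) := by
  exact_mod_cast Nat.pos_of_ne_zero (NeZero.ne N)

theorem sPar_ne_zero (τ : ℍ) : sPar N τ ≠ 0 := Function.Periodic.qParam_ne_zero _

theorem tendsto_sPar : Tendsto (sPar N) atImInfty (𝓝 0) :=
  qParam_tendsto_atImInfty (natCast_pos_real N)

theorem norm_sPar_lt_one (τ : ℍ) : ‖sPar N τ‖ < 1 :=
  Function.Periodic.norm_qParam_lt_one (natCast_pos_real N) τ.im_pos

theorem tendsto_sPar_zpow {k : ℤ} (hk : 0 < k) :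
    Tendsto (fun τ => sPar N τ ^ k) atImInfty (𝓝 0) := by
  obtain ⟨n, rfl⟩ := Int.eq_ofNat_of_zero_le hk.le
  have hn : n ≠ 0 := by rintro rfl; simp at hk
  have h := (tendsto_sPar N).pow n
  simpa [zero_pow hn] using h

/-- The root of unity by which `sPar` is multiplied under `τ ↦ τ + w`. -/
def rootExp (w : ℤ) : ℂ := Complex.exp (2 * π * Complex.I * w / N)

theorem rootExp_ne_zero (w : ℤ) : rootExp N w ≠ 0 := Complex.exp_ne_zero _

theorem sPar_vadd (w : ℤ) (τ : ℍ) :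
    sPar N ((w : ℝ) +ᵥ τ) = rootExp N w * sPar N τ := by
  unfold sPar rootExp Function.Periodic.qParam
  rw [← Complex.exp_add, UpperHalfPlane.coe_vadd]
  congr 1
  push_cast
  ring

theorem sPar_vadd_natCast (τ : ℍ) : sPar N ((N : ℝ) +ᵥ τ) = sPar N τ := by
  have h := sPar_vadd N (N : ℤ) τ
  have h1 : rootExp N (N : ℤ) = 1 := by
    unfold rootExp
    have hN : (N : ℂ) ≠ 0 := Nat.cast_ne_zero.mpr (NeZero.ne N)
    have : 2 * (π : ℂ) * Complex.I * ((N : ℤ) : ℂ) / (N : ℂ) = 2 * π * Complex.I := by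
      push_cast
      field_simp
    rw [this, Complex.exp_two_pi_mul_I]
  rw [h1, one_mul] at h
  simpa using h

theorem rootExp_zpow_eq_one_iff (w k : ℤ) : rootExp N w ^ k = 1 ↔ (N : ℤ) ∣ k * w := by
  have hN : (N : ℂ) ≠ 0 := Nat.cast_ne_zero.mpr (NeZero.ne N)
  unfold rootExp
  rw [← Complex.exp_int_mul, Complex.exp_eq_one_iff]
  constructor
  · rintro ⟨n, hn⟩
    refine ⟨n, ?_⟩
    have h2 : (2 * (π : ℂ) * Complex.I) ≠ 0 := Complex.two_pi_I_ne_zero
    have h3 : ((k : ℂ) * (w : ℂ)) = (N : ℂ) * n := by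
      have h4 : (2 * (π : ℂ) * Complex.I) * ((k : ℂ) * w) = (2 * (π : ℂ) * Complex.I) * (N * n) := by
        have h5 : (k : ℂ) * (2 * (π : ℂ) * Complex.I * w / N) * N = n * (2 * π * Complex.I) * N := by
          rw [hn]
        rw [show (k : ℂ) * (2 * (π : ℂ) * Complex.I * w / N) * N
          = (2 * (π : ℂ) * Complex.I) * ((k : ℂ) * w) by field_simp] at h5
        rw [h5]; ring
      exact mul_left_cancel₀ h2 h4
    exact_mod_cast h3
  · rintro ⟨n, hn⟩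
    refine ⟨n, ?_⟩
    have h3 : ((k : ℂ) * (w : ℂ)) = (N : ℂ) * n := by exact_mod_cast hn
    rw [show (k : ℂ) * (2 * (π : ℂ) * Complex.I * w / N)
      = (2 * (π : ℂ) * Complex.I) * ((k : ℂ) * w) / N by ring, h3]
    field_simp

/-- `φ` has order `k` at `i∞` with leading coefficient `c` (only meaningful for `c ≠ 0`). -/
def HasOrd (φ : ℍ → ℂ) (k : ℤ) (c : ℂ) : Prop :=
  Tendsto (fun τ => φ τ * sPar N τ ^ (-k)) atImInfty (𝓝 c)

variable {N}

theorem HasOrd.of_lt {φ : ℍ → ℂ} {k : ℤ} {c : ℂ} (h : HasOrd N φ k c) {l : ℤ} (hl : l < k) :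
    HasOrd N φ l 0 := by
  have h1 : Tendsto (fun τ => (φ τ * sPar N τ ^ (-k)) * sPar N τ ^ (k - l)) atImInfty (𝓝 (c * 0)) :=
    h.mul (tendsto_sPar_zpow N (by omega))
  rw [mul_zero] at h1
  refine h1.congr fun τ => ?_
  rw [mul_assoc, ← zpow_add₀ (sPar_ne_zero N τ)]
  congr 2
  ring

theorem HasOrd.unique {φ : ℍ → ℂ} {k k' : ℤ} {c c' : ℂ} (h : HasOrd N φ k c) (hc : c ≠ 0)
    (h' : HasOrd N φ k' c') (hc' : c' ≠ 0) : k = k' := by
  rcases lt_trichotomy k k' with hlt | heq | hgt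
  · exact absurd (tendsto_nhds_unique h (h'.of_lt hlt)) hc
  · exact heq
  · exact absurd (tendsto_nhds_unique h' (h.of_lt hgt)) hc'

theorem HasOrd.mul {φ ψ : ℍ → ℂ} {k l : ℤ} {c d : ℂ} (h : HasOrd N φ k c) (h' : HasOrd N ψ l d) :
    HasOrd N (φ * ψ) (k + l) (c * d) := by
  refine (Tendsto.mul h h').congr fun τ => ?_
  rw [neg_add, zpow_add₀ (sPar_ne_zero N τ), Pi.mul_apply]
  ring

theorem HasOrd.add {φ ψ : ℍ → ℂ} {k : ℤ} {c d : ℂ} (h : HasOrd N φ k c) (h' : HasOrd N ψ k d) :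
    HasOrd N (φ + ψ) k (c + d) := by
  refine (Tendsto.add h h').congr fun τ => ?_
  rw [Pi.add_apply, add_mul]

theorem hasOrd_const (c : ℂ) : HasOrd N (fun _ => c) 0 c := by
  unfold HasOrd
  simp

theorem HasOrd.vadd {φ : ℍ → ℂ} {k : ℤ} {c : ℂ} (h : HasOrd N φ k c) (w : ℤ) :
    HasOrd N (fun τ => φ ((w : ℝ) +ᵥ τ)) k (c * rootExp N w ^ k) := by
  have htend : Tendsto (fun τ : ℍ => (w : ℝ) +ᵥ τ) atImInfty atImInfty := by
    simp only [atImInfty, tendsto_comap_iff, Function.comp_def, UpperHalfPlane.vadd_im]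
    exact tendsto_comap
  have h1 := (h.comp htend).mul_const (rootExp N w ^ k)
  refine h1.congr fun τ => ?_
  simp only [Function.comp_apply]
  rw [sPar_vadd, mul_zpow, mul_assoc, mul_assoc]
  congr 1
  rw [mul_comm (rootExp N w ^ (-k)), mul_assoc, ← zpow_add₀ (rootExp_ne_zero N w)]
  simp

/-- Rotation lemma, `HasOrd` form. -/
theorem HasOrd.dvd_of_periodic {φ : ℍ → ℂ} {k : ℤ} {c : ℂ} (h : HasOrd N φ k c) (hc : c ≠ 0)
    {w : ℤ} (hw : ∀ τ, φ ((w : ℝ) +ᵥ τ) = φ τ) : (N : ℤ) ∣ k * w := by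
  have h1 := h.vadd w
  have h2 : HasOrd N (fun τ => φ ((w : ℝ) +ᵥ τ)) k c := by
    have : (fun τ => φ ((w : ℝ) +ᵥ τ)) = φ := funext hw
    rw [this]; exact h
  have h3 : c * rootExp N w ^ k = c := tendsto_nhds_unique h1 h2
  have h4 : rootExp N w ^ k = 1 := by
    have : c * rootExp N w ^ k = c * 1 := by rw [h3, mul_one]
    exact mul_left_cancel₀ hc this
  exact (rootExp_zpow_eq_one_iff N w k).mp h4

variable (N)

/-- The order at `i∞` (w.r.t. the parameter `exp (2πiτ/N)`); junk value `0` if undefined. -/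
def ordInf (φ : ℍ → ℂ) : ℤ :=
  letI := Classical.propDecidable
  if h : ∃ (k : ℤ) (c : ℂ), c ≠ 0 ∧ HasOrd N φ k c then h.choose else 0

variable {N}

theorem HasOrd.ordInf_eq {φ : ℍ → ℂ} {k : ℤ} {c : ℂ} (h : HasOrd N φ k c) (hc : c ≠ 0) :
    ordInf N φ = k := by
  have hex : ∃ (k : ℤ) (c : ℂ), c ≠ 0 ∧ HasOrd N φ k c := ⟨k, c, hc, h⟩
  unfold ordInf
  rw [dif_pos hex]
  obtain ⟨c', hc', h'⟩ := hex.choose_spec
  exact h'.unique hc' h hc

theorem ordInf_vadd (φ : ℍ → ℂ) (w : ℤ) :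
    ordInf N (fun τ => φ ((w : ℝ) +ᵥ τ)) = ordInf N φ := by
  by_cases hex : ∃ (k : ℤ) (c : ℂ), c ≠ 0 ∧ HasOrd N φ k c
  · obtain ⟨k, c, hc, h⟩ := hex
    rw [h.ordInf_eq hc]
    exact (h.vadd w).ordInf_eq (mul_ne_zero hc (zpow_ne_zero _ (rootExp_ne_zero N w)))
  · have hex' : ¬ ∃ (k : ℤ) (c : ℂ), c ≠ 0 ∧ HasOrd N (fun τ => φ ((w : ℝ) +ᵥ τ)) k c := by
      rintro ⟨k, c, hc, h⟩
      apply hex
      refine ⟨k, c * rootExp N (-w) ^ k,
        mul_ne_zero hc (zpow_ne_zero _ (rootExp_ne_zero N (-w))), ?_⟩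
      have h1 := h.vadd (-w)
      have : (fun τ : ℍ => φ ((w : ℝ) +ᵥ (((-w : ℤ) : ℝ) +ᵥ τ))) = φ := by
        funext τ
        congr 1
        ext
        simp
      rwa [this] at h1
    unfold ordInf
    rw [dif_neg hex, dif_neg hex']

/-- Existence of the order: a nonzero holomorphic `N`-periodic function which is meromorphic
at `i∞` has a well-defined order and nonzero leading coefficient. -/
theorem exists_hasOrd {φ : ℍ → ℂ} (hφ : MDifferentiable 𝓘(ℂ) 𝓘(ℂ) φ)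
    (hper : ∀ τ, φ ((N : ℝ) +ᵥ τ) = φ τ) {m : ℕ}
    (hbd : IsBoundedAtImInfty (fun τ => φ τ * sPar N τ ^ m)) (hne : φ ≠ 0) :
    ∃ (k : ℤ) (c : ℂ), c ≠ 0 ∧ HasOrd N φ k c := by
  have hNpos := natCast_pos_real N
  set ψ : ℍ → ℂ := fun τ => φ τ * sPar N τ ^ m with hψ
  have hψhol : MDifferentiable 𝓘(ℂ) 𝓘(ℂ) ψ := by
    rw [UpperHalfPlane.mdifferentiable_iff] at hφ ⊢
    have h2 : DifferentiableOn ℂ (fun z : ℂ => (φ ∘ ofComplex) z *
        Function.Periodic.qParam (N : ℝ) z ^ m) {z | 0 < z.im} :=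
      hφ.mul ((Function.Periodic.differentiable_qParam (h := (N : ℝ))).pow m).differentiableOn
    refine h2.congr fun z hz => ?_
    simp only [Function.comp_apply, hψ, sPar]
    rw [ofComplex_apply_of_im_pos hz]
  have hψper : Function.Periodic (ψ ∘ ofComplex) (N : ℝ) := by
    intro w
    by_cases hw : 0 < w.im
    · have hw' : 0 < (w + (N : ℝ)).im := by simpa using hw
      simp only [Function.comp_apply, ofComplex_apply_of_im_pos hw', ofComplex_apply_of_im_pos hw]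
      have e : (⟨w + (N : ℝ), hw'⟩ : ℍ) = (N : ℝ) +ᵥ (⟨w, hw⟩ : ℍ) := by
        ext
        simp [UpperHalfPlane.coe_vadd, add_comm]
      rw [e, hψ]
      simp only
      rw [hper, sPar_vadd_natCast]
    · have hw0 : w.im ≤ 0 := not_lt.mp hw
      have hw' : (w + (N : ℝ)).im ≤ 0 := by simpa using hw0
      simp only [Function.comp_apply, ofComplex_apply_of_im_nonpos hw',
        ofComplex_apply_of_im_nonpos hw0]
  set G : ℂ → ℂ := UpperHalfPlane.cuspFunction (N : ℝ) ψ with hG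
  have hGan : AnalyticAt ℂ G 0 := analyticAt_cuspFunction_zero hNpos hψper hψhol hbd
  have hGeq : ∀ τ : ℍ, G (sPar N τ) = ψ τ := fun τ =>
    UpperHalfPlane.eq_cuspFunction τ hNpos.ne' hψper
  have hGtop : analyticOrderAt G 0 ≠ ⊤ := by
    intro htop
    rw [analyticOrderAt_eq_top] at htop
    have h1 : ∀ᶠ τ in atImInfty, ψ τ = 0 := by
      have := (tendsto_sPar N).eventually htop
      filter_upwards [this] with τ hτ
      rw [← hGeq τ, hτ]
    obtain ⟨A, hA⟩ := (atImInfty_mem _).mp h1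
    apply hne
    let τ0 : ℍ := ⟨⟨0, |A| + 1⟩, by simp; positivity⟩
    refine UpperHalfPlane.eq_zero_of_frequently hφ (τ := τ0) ?_
    apply Eventually.frequently
    have hopen : IsOpen {τ : ℍ | A < τ.im} := isOpen_lt continuous_const UpperHalfPlane.continuous_im
    have hmem : τ0 ∈ {τ : ℍ | A < τ.im} := by
      show A < τ0.im
      have : τ0.im = |A| + 1 := rfl
      rw [this]
      have := le_abs_self A
      linarith
    have h2 : ∀ᶠ τ in 𝓝 τ0, φ τ = 0 := by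
      filter_upwards [hopen.mem_nhds hmem] with τ hτ
      have h3 : ψ τ = 0 := hA τ (le_of_lt hτ)
      rcases mul_eq_zero.mp h3 with h4 | h4
      · exact h4
      · exact absurd (pow_eq_zero_iff (n := m) (M₀ := ℂ) (a := sPar N τ) (by
          rintro rfl
          simp at h4) |>.mp h4) (sPar_ne_zero N τ)
    exact h2.filter_mono nhdsWithin_le_nhds
  obtain ⟨g, hgan, hg0, hgeq⟩ := hGan.analyticOrderAt_ne_top.mp hGtop
  set a : ℕ := analyticOrderNatAt G 0 with ha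
  refine ⟨(a : ℤ) - m, g 0, hg0, ?_⟩
  have h1 : Tendsto (fun τ => g (sPar N τ)) atImInfty (𝓝 (g 0)) :=
    hgan.continuousAt.tendsto.comp (tendsto_sPar N)
  refine h1.congr' ?_
  have h2 := (tendsto_sPar N).eventually hgeq
  filter_upwards [h2] with τ hτ
  have hs := sPar_ne_zero N τ
  rw [hGeq τ] at hτ
  simp only [sub_zero, smul_eq_mul, hψ] at hτ
  have h3 : φ τ = sPar N τ ^ a * g (sPar N τ) * (sPar N τ ^ m)⁻¹ := by
    rw [← hτ]
    field_simp
  rw [h3, neg_sub, zpow_sub₀ hs]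
  simp only [zpow_natCast]
  field_simp

/-- The algebra of holomorphic, `N`-periodic functions on `ℍ` that are meromorphic at `i∞`. -/
def MerInf (N : ℕ) [NeZero N] : Subalgebra ℂ HolH where
  carrier := {f | (∀ τ, (f : ℍ → ℂ) ((N : ℝ) +ᵥ τ) = (f : ℍ → ℂ) τ) ∧
    ∃ m : ℕ, IsBoundedAtImInfty (fun τ => (f : ℍ → ℂ) τ * sPar N τ ^ m)}
  mul_mem' := by
    rintro f g ⟨hf, m, hm⟩ ⟨hg, n, hn⟩
    refine ⟨fun τ => ?_, m + n, ?_⟩
    · show (f : ℍ → ℂ) _ * (g : ℍ → ℂ) _ = (f : ℍ → ℂ) τ * (g : ℍ → ℂ) τ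
      rw [hf, hg]
    · have := BoundedAtFilter.mul hm hn
      refine this.congr' (Eventually.of_forall fun τ => ?_) (EventuallyEq.refl _ _)
      show (f : ℍ → ℂ) τ * sPar N τ ^ m * ((g : ℍ → ℂ) τ * sPar N τ ^ n) =
        (f : ℍ → ℂ) τ * (g : ℍ → ℂ) τ * sPar N τ ^ (m + n)
      ring
  add_mem' := by
    rintro f g ⟨hf, m, hm⟩ ⟨hg, n, hn⟩
    refine ⟨fun τ => ?_, m + n, ?_⟩
    · show (f : ℍ → ℂ) _ + (g : ℍ → ℂ) _ = (f : ℍ → ℂ) τ + (g : ℍ → ℂ) τ
      rw [hf, hg]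
    · have hb : ∀ j : ℕ, IsBoundedAtImInfty (fun τ => sPar N τ ^ j) := fun j => by
        rw [isBoundedAtImInfty_iff]
        refine ⟨1, 0, fun z _ => ?_⟩
        rw [norm_pow]
        exact pow_le_one₀ (norm_nonneg _) (norm_sPar_lt_one N z).le
      have h1 := BoundedAtFilter.mul hm (hb n)
      have h2 := BoundedAtFilter.mul hn (hb m)
      have := BoundedAtFilter.add h1 h2
      refine this.congr' (Eventually.of_forall fun τ => ?_) (EventuallyEq.refl _ _)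
      show (f : ℍ → ℂ) τ * sPar N τ ^ m * sPar N τ ^ n + (g : ℍ → ℂ) τ * sPar N τ ^ n * sPar N τ ^ m
        = ((f : ℍ → ℂ) τ + (g : ℍ → ℂ) τ) * sPar N τ ^ (m + n)
      ring
  algebraMap_mem' := by
    intro c
    refine ⟨fun τ => rfl, 0, ?_⟩
    rw [isBoundedAtImInfty_iff]
    refine ⟨‖c‖, 0, fun z _ => ?_⟩
    show ‖c * sPar N z ^ 0‖ ≤ ‖c‖
    simp

theorem mem_MerInf {f : HolH} : f ∈ MerInf N ↔
    (∀ τ, (f : ℍ → ℂ) ((N : ℝ) +ᵥ τ) = (f : ℍ → ℂ) τ) ∧
      ∃ m : ℕ, IsBoundedAtImInfty (fun τ => (f : ℍ → ℂ) τ * sPar N τ ^ m) := Iff.rfl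

/-- Membership criterion: a periodic holomorphic function with a known asymptotic at `i∞`. -/
theorem mem_MerInf_of_hasOrd {f : HolH} (hper : ∀ τ, (f : ℍ → ℂ) ((N : ℝ) +ᵥ τ) = (f : ℍ → ℂ) τ)
    {k : ℤ} {c : ℂ} (h : HasOrd N (f : ℍ → ℂ) k c) : f ∈ MerInf N := by
  refine ⟨hper, (-k).toNat, ?_⟩
  have hb : IsBoundedAtImInfty (fun τ => sPar N τ ^ ((-k).toNat + k).toNat) := by
    rw [isBoundedAtImInfty_iff]
    refine ⟨1, 0, fun z _ => ?_⟩
    rw [norm_pow]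
    exact pow_le_one₀ (norm_nonneg _) (norm_sPar_lt_one N z).le
  have h1 : IsBoundedAtImInfty (fun τ => (f : ℍ → ℂ) τ * sPar N τ ^ (-k)) :=
    h.isBigO_one ℝ
  have := BoundedAtFilter.mul h1 hb
  refine this.congr' (Eventually.of_forall fun τ => ?_) (EventuallyEq.refl _ _)
  show (f : ℍ → ℂ) τ * sPar N τ ^ (-k) * sPar N τ ^ ((-k).toNat + k).toNat =
    (f : ℍ → ℂ) τ * sPar N τ ^ (-k).toNat
  have hs := sPar_ne_zero N τ
  rw [mul_assoc, ← zpow_natCast (sPar N τ) ((-k).toNat + k).toNat, ← zpow_natCast (sPar N τ) (-k).toNat,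
    ← zpow_add₀ hs]
  congr 2
  omega

theorem exists_hasOrd_of_mem {f : HolH} (hf : f ∈ MerInf N) (hne : f ≠ 0) :
    ∃ (k : ℤ) (c : ℂ), c ≠ 0 ∧ HasOrd N (f : ℍ → ℂ) k c := by
  obtain ⟨hper, m, hm⟩ := hf
  refine exists_hasOrd f.2 hper hm fun h0 => hne (Subtype.ext h0)

/-- The order function on `MerInf N` (the `ordR` of the fibre-counting theorem). -/
def ordR (f : MerInf N) : ℤ := ordInf N ((f : HolH) : ℍ → ℂ)

theorem ordR_eq_of_hasOrd (f : MerInf N) {k : ℤ} {c : ℂ} (hc : c ≠ 0)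
    (h : HasOrd N ((f : HolH) : ℍ → ℂ) k c) : ordR f = k := h.ordInf_eq hc

theorem exists_hasOrd_ordR (f : MerInf N) (hne : f ≠ 0) :
    ∃ c : ℂ, c ≠ 0 ∧ HasOrd N ((f : HolH) : ℍ → ℂ) (ordR f) c := by
  obtain ⟨k, c, hc, h⟩ := exists_hasOrd_of_mem f.2 (fun h0 => hne (Subtype.ext h0))
  exact ⟨c, hc, by rw [ordR_eq_of_hasOrd f hc h]; exact h⟩

theorem ordR_mul (a b : MerInf N) (ha : a ≠ 0) (hb : b ≠ 0) :
    ordR (a * b) = ordR a + ordR b := by
  obtain ⟨c, hc, h⟩ := exists_hasOrd_ordR a ha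
  obtain ⟨d, hd, h'⟩ := exists_hasOrd_ordR b hb
  exact ordR_eq_of_hasOrd (a * b) (mul_ne_zero hc hd) (h.mul h')

theorem ordR_add (a b : MerInf N) (ha : a ≠ 0) (hb : b ≠ 0) (hab : a + b ≠ 0) :
    min (ordR a) (ordR b) ≤ ordR (a + b) := by
  obtain ⟨c, hc, h⟩ := exists_hasOrd_ordR a ha
  obtain ⟨d, hd, h'⟩ := exists_hasOrd_ordR b hb
  obtain ⟨e, he, h''⟩ := exists_hasOrd_ordR (a + b) hab
  by_contra hlt
  rw [not_le, lt_min_iff] at hlt
  have h1 : HasOrd N ((a : HolH) : ℍ → ℂ) (ordR (a + b)) 0 := h.of_lt hlt.1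
  have h2 : HasOrd N ((b : HolH) : ℍ → ℂ) (ordR (a + b)) 0 := h'.of_lt hlt.2
  have h3 := h1.add h2
  rw [add_zero] at h3
  exact he (tendsto_nhds_unique h'' h3)

theorem ordR_algebraMap {c : ℂ} (hc : c ≠ 0) : ordR (algebraMap ℂ (MerInf N) c) = 0 :=
  ordR_eq_of_hasOrd _ hc (hasOrd_const c)

/-- Translation by `w : ℤ` preserves `MerInf N`. -/
theorem compSL_T_zpow_mem (w : ℤ) {f : HolH} (hf : f ∈ MerInf N) :
    compSL (ModularGroup.T ^ w) f ∈ MerInf N := by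
  by_cases hne : f = 0
  · subst hne
    simp
  obtain ⟨k, c, hc, h⟩ := exists_hasOrd_of_mem hf hne
  refine mem_MerInf_of_hasOrd (k := k) (c := c * rootExp N w ^ k) (fun τ => ?_) ?_
  · simp only [compSL_apply, UpperHalfPlane.modular_T_zpow_smul]
    have : (w : ℝ) +ᵥ ((N : ℝ) +ᵥ τ) = (N : ℝ) +ᵥ ((w : ℝ) +ᵥ τ) := by
      ext
      simp [UpperHalfPlane.coe_vadd]
      ring
    rw [this, hf.1]
  · have := h.vadd w
    refine this.congr fun τ => ?_
    simp only [compSL_apply, UpperHalfPlane.modular_T_zpow_smul]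

theorem ordInf_compSL_T_zpow (w : ℤ) (f : HolH) :
    ordInf N ((compSL (ModularGroup.T ^ w) f : HolH) : ℍ → ℂ) = ordInf N (f : ℍ → ℂ) := by
  have : ((compSL (ModularGroup.T ^ w) f : HolH) : ℍ → ℂ) = fun τ => (f : ℍ → ℂ) ((w : ℝ) +ᵥ τ) := by
    funext τ
    simp only [compSL_apply, UpperHalfPlane.modular_T_zpow_smul]
  rw [this, ordInf_vadd]

/-- Rotation lemma at the cusp: a nonzero element of `MerInf N` invariant under `τ ↦ τ + w`
has order divisible by `N / gcd (N, w)`. -/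
theorem dvd_ordInf_mul_of_compSL_T_zpow_eq {f : HolH} (hf : f ∈ MerInf N) (hne : f ≠ 0) {w : ℤ}
    (h : compSL (ModularGroup.T ^ w) f = f) : (N : ℤ) ∣ ordInf N (f : ℍ → ℂ) * w := by
  obtain ⟨k, c, hc, hk⟩ := exists_hasOrd_of_mem hf hne
  rw [hk.ordInf_eq hc]
  refine hk.dvd_of_periodic hc fun τ => ?_
  have := congrArg (fun g : HolH => (g : ℍ → ℂ) τ) h
  simpa only [compSL_apply, UpperHalfPlane.modular_T_zpow_smul] using this

end Fermat.Agent.S24.CuspOrd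

end
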