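import Fermat.Agent.S24.Fibres.Package
import Fermat.Agent.S24.CuspOrd
import Fermat.Agent.S24.StabJ
import Fermat.Agent.S24.FF.Shift

/-!
# S24: the fibre over `j = ∞` (M7) from the same `ThetaPackage` as the finite fibres

The cusp is treated like an elliptic point: local coordinate `s = exp (2πiτ/N)`, rotation `T`.
The embeddings `ρ g f = compSL g⁻¹ (θ f)` take values in `MerInf N` (holomorphic, `N`-periodic,
meromorphic at `i∞`) because every element of `F_N` is algebraic over `ℚ̄(j)`: a root of a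
polynomial whose coefficients are polynomials in `j` has moderate growth at `i∞`
(Cauchy's root bound), and `N`-periodicity follows from `g T^N g⁻¹ ∈ Γ₀(N)`.
-/

set_option autoImplicit false
set_option linter.dupNamespace false
set_option linter.unusedSectionVars false

open AlgebraicCurve IntermediateField UpperHalfPlane ModularCurve CongruenceSubgroup Filter Topology
open scoped MatrixGroups Real Manifold
open ModularForm EisensteinSeries
open Fermat.Agent.S24.HolH Fermat.Agent.S24.Modular Fermat.Agent.S24.JFun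
open Fermat.Agent.S24.CuspOrd Fermat.Agent.S24.Fibres

noncomputable section

namespace Fermat.Agent.S24.CuspFibre

local notation "𝕢" => Function.Periodic.qParam

/-! ### Cauchy's bound for roots -/

theorem norm_le_of_sum_eq_zero {n : ℕ} (a : ℕ → ℂ) (x : ℂ) (han : a n ≠ 0)
    (h : ∑ k ∈ Finset.range (n + 1), a k * x ^ k = 0) :
    ‖x‖ ≤ max 1 ((∑ k ∈ Finset.range n, ‖a k‖) / ‖a n‖) := by
  by_cases hx : ‖x‖ ≤ 1
  · exact le_max_of_le_left hx
  · rw [not_le] at hx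
    apply le_max_of_le_right
    rw [Finset.sum_range_succ] at h
    have h1 : a n * x ^ n = - ∑ k ∈ Finset.range n, a k * x ^ k := eq_neg_of_add_eq_zero_right h
    have hn : n ≠ 0 := by
      rintro rfl
      simp at h1
      exact han h1
    obtain ⟨m, rfl⟩ := Nat.exists_eq_succ_of_ne_zero hn
    have h2 : ‖a (m + 1)‖ * ‖x‖ ^ (m + 1) ≤ (∑ k ∈ Finset.range (m + 1), ‖a k‖) * ‖x‖ ^ m := by
      calc ‖a (m + 1)‖ * ‖x‖ ^ (m + 1) = ‖a (m + 1) * x ^ (m + 1)‖ := by rw [norm_mul, norm_pow]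
        _ = ‖∑ k ∈ Finset.range (m + 1), a k * x ^ k‖ := by rw [h1, norm_neg]
        _ ≤ ∑ k ∈ Finset.range (m + 1), ‖a k * x ^ k‖ := norm_sum_le _ _
        _ ≤ ∑ k ∈ Finset.range (m + 1), ‖a k‖ * ‖x‖ ^ m := by
            apply Finset.sum_le_sum
            intro k hk
            rw [norm_mul, norm_pow]
            apply mul_le_mul_of_nonneg_left _ (norm_nonneg _)
            exact pow_le_pow_right₀ hx.le (Nat.lt_succ_iff.mp (Finset.mem_range.mp hk))
        _ = (∑ k ∈ Finset.range (m + 1), ‖a k‖) * ‖x‖ ^ m := by rw [Finset.sum_mul]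
    have hxm : 0 < ‖x‖ ^ m := pow_pos (by linarith) m
    have han' : 0 < ‖a (m + 1)‖ := norm_pos_iff.mpr han
    rw [le_div_iff₀ han']
    have h3 : ‖x‖ * ‖a (m + 1)‖ * ‖x‖ ^ m ≤ (∑ k ∈ Finset.range (m + 1), ‖a k‖) * ‖x‖ ^ m := by
      calc ‖x‖ * ‖a (m + 1)‖ * ‖x‖ ^ m = ‖a (m + 1)‖ * ‖x‖ ^ (m + 1) := by ring
        _ ≤ _ := h2
    exact le_of_mul_le_mul_right h3 hxm

/-! ### Algebraic relations over `K[j]` -/

open scoped IntermediateField.algebraAdjoinAdjoin in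
theorem exists_poly_rel {K F : Type*} [Field K] [Field F] [Algebra K F] (j f : F)
    (halg : Algebra.IsAlgebraic K⟮j⟯ F) :
    ∃ (n : ℕ) (p : ℕ → Polynomial K), p n ≠ 0 ∧
      ∑ k ∈ Finset.range (n + 1), Polynomial.aeval j (p k) * f ^ k = 0 := by
  have h1 : IsAlgebraic K⟮j⟯ f := halg.isAlgebraic f
  have h2 : IsAlgebraic (Algebra.adjoin K {j}) f :=
    (IsFractionRing.isAlgebraic_iff (Algebra.adjoin K {j}) K⟮j⟯ F).mpr h1
  obtain ⟨q, hq0, hq⟩ := h2
  have hc : ∀ k, ∃ pk : Polynomial K, Polynomial.aeval j pk = (q.coeff k : F) := by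
    intro k
    have h3 : (q.coeff k : F) ∈ (Polynomial.aeval (R := K) j).range := by
      rw [← Algebra.adjoin_singleton_eq_range_aeval]
      exact (q.coeff k).2
    exact h3
  choose p hp using hc
  refine ⟨q.natDegree, p, ?_, ?_⟩
  · intro h0
    have h3 := hp q.natDegree
    rw [h0, map_zero] at h3
    apply hq0
    apply Polynomial.leadingCoeff_eq_zero.mp
    exact Subtype.ext h3.symm
  · rw [Polynomial.aeval_eq_sum_range] at hq
    rw [← hq]
    refine Finset.sum_congr rfl fun k _ => ?_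
    rw [hp k]
    rfl

/-! ### Asymptotics of `j` at `i∞` -/

theorem tendsto_jFun_mul_qParam :
    Tendsto (fun τ : ℍ => jFun τ * 𝕢 1 τ) atImInfty (𝓝 1) := by
  have h1 : Tendsto (fun τ : ℍ => E₄ τ ^ 3) atImInfty (𝓝 1) := by
    have := tendsto_E4.pow 3
    simpa using this
  have h2 := tendsto_atImInfty_tprod_one_sub_eta_q_pow
  have h3 := h1.div h2 one_ne_zero
  rw [div_one] at h3
  refine h3.congr' ?_
  have hne : ∀ᶠ τ : ℍ in atImInfty, ∏' (n : ℕ), (1 - eta_q n τ) ^ 24 ≠ 0 :=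
    h2.eventually_ne one_ne_zero
  filter_upwards [hne] with τ hτ
  have hq0 : 𝕢 1 (τ : ℂ) ≠ 0 := Function.Periodic.qParam_ne_zero _
  simp only [Pi.div_apply]
  rw [jFun, discriminant_eq_q_prod]
  field_simp

theorem sPar_pow_natCast (N : ℕ) [NeZero N] (τ : ℍ) : sPar N τ ^ N = 𝕢 1 τ := by
  have hN : (N : ℂ) ≠ 0 := Nat.cast_ne_zero.mpr (NeZero.ne N)
  unfold sPar Function.Periodic.qParam
  rw [← Complex.exp_nat_mul]
  congr 1
  push_cast
  field_simp

theorem hasOrd_jFun (N : ℕ) [NeZero N] : HasOrd N jFun (-(N : ℤ)) 1 := by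
  unfold HasOrd
  refine tendsto_jFun_mul_qParam.congr fun τ => ?_
  rw [neg_neg, zpow_natCast, sPar_pow_natCast]

theorem tendsto_norm_jFun_atTop : Tendsto (fun τ : ℍ => ‖jFun τ‖) atImInfty atTop := by
  have h1 := Fermat.Agent.S24.StabJ.tendsto_norm_jFun_mul_exp
  have h2 : Tendsto (fun τ : ℍ => Real.exp (2 * π * τ.im)) atImInfty atTop := by
    apply Real.tendsto_exp_atTop.comp
    apply Tendsto.const_mul_atTop (by positivity)
    exact tendsto_comap
  have h3 := Tendsto.pos_mul_atTop one_pos h1 h2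
  refine h3.congr fun τ => ?_
  rw [mul_assoc, ← Real.exp_add]
  have : -2 * π * τ.im + 2 * π * τ.im = 0 := by ring
  rw [this, Real.exp_zero, mul_one]

theorem exists_lower_bound_eval_jFun {q : Polynomial ℂ} (hq : q ≠ 0) :
    ∃ c : ℝ, 0 < c ∧ ∀ᶠ τ : ℍ in atImInfty, c ≤ ‖q.eval (jFun τ)‖ := by
  by_cases hd : 0 < q.degree
  · refine ⟨1, one_pos, ?_⟩
    exact (q.tendsto_norm_atTop hd tendsto_norm_jFun_atTop).eventually_ge_atTop 1
  · have hq' : q = Polynomial.C (q.coeff 0) := Polynomial.eq_C_of_degree_le_zero (not_lt.mp hd)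
    have hc : q.coeff 0 ≠ 0 := by
      intro h0
      rw [h0, map_zero] at hq'
      exact hq hq'
    refine ⟨‖q.coeff 0‖, norm_pos_iff.mpr hc, Eventually.of_forall fun τ => ?_⟩
    rw [hq']
    simp

/-! ### Membership in `MerInf N` -/

/-- Evaluation at a point as a ring hom. -/
def evalHom (τ : ℍ) : HolH →+* ℂ :=
  (Pi.evalRingHom (fun _ : ℍ => ℂ) τ).comp (HolH.val : HolH →ₐ[ℂ] (ℍ → ℂ)).toRingHom

theorem evalHom_apply (τ : ℍ) (f : HolH) : evalHom τ f = (f : ℍ → ℂ) τ := rfl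

theorem evalHom_algebraMap (τ : ℍ) (c : ℂ) : evalHom τ (algebraMap ℂ HolH c) = c := rfl

/-- A holomorphic `N`-periodic function which is a root of a polynomial with coefficients in
`MerInf N` whose leading coefficient is bounded below near `i∞` lies in `MerInf N`. -/
theorem mem_MerInf_of_root {N : ℕ} [NeZero N] (φ : HolH)
    (hper : ∀ τ, (φ : ℍ → ℂ) ((N : ℝ) +ᵥ τ) = (φ : ℍ → ℂ) τ)
    (n : ℕ) (a : ℕ → HolH) (ha : ∀ k, a k ∈ MerInf N)
    (c : ℝ) (hc : 0 < c) (hlow : ∀ᶠ τ in atImInfty, c ≤ ‖(a n : ℍ → ℂ) τ‖)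
    (hrel : ∑ k ∈ Finset.range (n + 1), a k * φ ^ k = 0) : φ ∈ MerInf N := by
  have hm : ∀ k, ∃ m : ℕ, IsBoundedAtImInfty (fun τ => (a k : ℍ → ℂ) τ * sPar N τ ^ m) :=
    fun k => (ha k).2
  choose m hm using hm
  have hBA : ∀ k, ∃ B A : ℝ, ∀ z : ℍ, A ≤ im z → ‖(a k : ℍ → ℂ) z * sPar N z ^ m k‖ ≤ B :=
    fun k => isBoundedAtImInfty_iff.mp (hm k)
  choose B A hBA using hBA
  obtain ⟨A0, hA0⟩ := (atImInfty_mem _).mp hlow
  set M : ℕ := ∑ k ∈ Finset.range n, m k with hM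
  refine ⟨hper, M, ?_⟩
  rw [isBoundedAtImInfty_iff]
  refine ⟨max 1 ((∑ k ∈ Finset.range n, |B k|) / c), max A0 (∑ k ∈ Finset.range n, |A k|), ?_⟩
  intro z hz
  have hzA0 : A0 ≤ im z := le_trans (le_max_left _ _) hz
  have hzA : ∀ k ∈ Finset.range n, A k ≤ im z := fun k hk =>
    le_trans (le_trans (le_abs_self _)
      (Finset.single_le_sum (f := fun k => |A k|) (fun i _ => abs_nonneg _) hk))
      (le_trans (le_max_right _ _) hz)
  have hs1 : ‖sPar N z‖ ≤ 1 := (norm_sPar_lt_one N z).le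
  have hs0 : 0 ≤ ‖sPar N z‖ := norm_nonneg _
  set t : ℝ := ‖sPar N z‖ ^ M with ht
  have ht0 : 0 ≤ t := pow_nonneg hs0 M
  have ht1 : t ≤ 1 := pow_le_one₀ hs0 hs1
  have hlowz : c ≤ ‖(a n : ℍ → ℂ) z‖ := hA0 z hzA0
  have hanz : (a n : ℍ → ℂ) z ≠ 0 := by
    intro h0
    rw [h0, norm_zero] at hlowz
    linarith
  have hk : ∀ k ∈ Finset.range n, ‖(a k : ℍ → ℂ) z‖ * t ≤ |B k| := by
    intro k hk
    have h1 := hBA k z (hzA k hk)
    rw [norm_mul, norm_pow] at h1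
    have h2 : m k ≤ M := Finset.single_le_sum (f := m) (fun i _ => Nat.zero_le _) hk
    have h3 : t ≤ ‖sPar N z‖ ^ m k := pow_le_pow_of_le_one hs0 hs1 h2
    calc ‖(a k : ℍ → ℂ) z‖ * t ≤ ‖(a k : ℍ → ℂ) z‖ * ‖sPar N z‖ ^ m k :=
          mul_le_mul_of_nonneg_left h3 (norm_nonneg _)
      _ ≤ B k := h1
      _ ≤ |B k| := le_abs_self _
  have hrelz : ∑ k ∈ Finset.range (n + 1), (a k : ℍ → ℂ) z * (φ : ℍ → ℂ) z ^ k = 0 := by
    have := congrArg (evalHom z) hrel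
    rw [map_sum, map_zero] at this
    rw [← this]
    refine Finset.sum_congr rfl fun k _ => ?_
    rw [map_mul, map_pow]
    rfl
  have hcauchy := norm_le_of_sum_eq_zero (fun k => (a k : ℍ → ℂ) z) ((φ : ℍ → ℂ) z) hanz hrelz
  rw [norm_mul, norm_pow, ← ht]
  rcases le_max_iff.mp hcauchy with h1 | h1
  · calc ‖(φ : ℍ → ℂ) z‖ * t ≤ 1 * 1 := mul_le_mul h1 ht1 ht0 zero_le_one
      _ = 1 := one_mul 1
      _ ≤ _ := le_max_left _ _
  · have hpos : 0 < ‖(a n : ℍ → ℂ) z‖ := lt_of_lt_of_le hc hlowz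
    have hsum : (∑ k ∈ Finset.range n, ‖(a k : ℍ → ℂ) z‖) * t ≤ ∑ k ∈ Finset.range n, |B k| := by
      rw [Finset.sum_mul]
      exact Finset.sum_le_sum hk
    have hsum0 : 0 ≤ ∑ k ∈ Finset.range n, |B k| := Finset.sum_nonneg fun i _ => abs_nonneg _
    calc ‖(φ : ℍ → ℂ) z‖ * t
        ≤ (∑ k ∈ Finset.range n, ‖(a k : ℍ → ℂ) z‖) / ‖(a n : ℍ → ℂ) z‖ * t :=
          mul_le_mul_of_nonneg_right h1 ht0
      _ = (∑ k ∈ Finset.range n, ‖(a k : ℍ → ℂ) z‖) * t / ‖(a n : ℍ → ℂ) z‖ := by ring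
      _ ≤ (∑ k ∈ Finset.range n, |B k|) / ‖(a n : ℍ → ℂ) z‖ :=
          div_le_div_of_nonneg_right hsum hpos.le
      _ ≤ (∑ k ∈ Finset.range n, |B k|) / c := div_le_div_of_nonneg_left hsum0 hc hlowz
      _ ≤ _ := le_max_right _ _

theorem conj_T_zpow_mem_Gamma0 (N : ℕ) (g : SL(2, ℤ)) :
    g * ModularGroup.T ^ (N : ℤ) * g⁻¹ ∈ Gamma0 N := by
  rw [Gamma0_mem]
  have h : (g * ModularGroup.T ^ (N : ℤ) * g⁻¹) 1 0 = -(N : ℤ) * (g 1 0) ^ 2 := by
    show (g * ModularGroup.T ^ (N : ℤ) * g⁻¹).1 1 0 = _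
    rw [Matrix.SpecialLinearGroup.coe_mul, Matrix.SpecialLinearGroup.coe_mul,
      ModularGroup.coe_T_zpow, Matrix.SpecialLinearGroup.coe_inv, Matrix.adjugate_fin_two]
    simp [Matrix.mul_apply, Fin.sum_univ_two]
    ring
  rw [h]
  simp

variable {N : ℕ} [NeZero N]

/-- `θ j₀` as an element of `MerInf N`. -/
theorem theta_j₀_mem (P : ThetaPackage N) : P.θ P.j₀ ∈ MerInf N := by
  have hcoe : ((P.θ P.j₀ : HolH) : ℍ → ℂ) = jFun := funext P.θ_j₀
  refine mem_MerInf_of_hasOrd (k := -(N : ℤ)) (c := 1) (fun τ => ?_) ?_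
  · rw [hcoe]
    have : ((N : ℝ) +ᵥ τ) = ModularGroup.T ^ (N : ℤ) • τ := by
      rw [UpperHalfPlane.modular_T_zpow_smul]
      simp
    rw [this, jFun_smul]
  · rw [hcoe]
    exact hasOrd_jFun N

/-- the coefficient functions `p(j)` -/
theorem eval₂_theta_mem (P : ThetaPackage N) (p : Polynomial Kbar) :
    p.eval₂ ((algebraMap ℂ HolH).comp P.ι) (P.θ P.j₀) ∈ MerInf N := by
  rw [Polynomial.eval₂_eq_sum_range]
  refine Subalgebra.sum_mem _ fun i _ => ?_
  exact Subalgebra.mul_mem _ (Subalgebra.algebraMap_mem _ _)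
    (Subalgebra.pow_mem _ (theta_j₀_mem P) i)

theorem eval₂_theta_apply (P : ThetaPackage N) (p : Polynomial Kbar) (τ : ℍ) :
    ((p.eval₂ ((algebraMap ℂ HolH).comp P.ι) (P.θ P.j₀) : HolH) : ℍ → ℂ) τ
      = (p.map P.ι).eval (jFun τ) := by
  rw [← evalHom_apply, Polynomial.hom_eval₂, Polynomial.eval_map, evalHom_apply, P.θ_j₀]
  congr 1

/-- Every conjugate `compSL g (θ f)` is meromorphic at `i∞`. -/
theorem compSL_theta_mem (P : ThetaPackage N) (halg : Algebra.IsAlgebraic Kbar⟮jF N⟯ (FN N))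
    (g : SL(2, ℤ)) (f : P.F₀) : compSL g (P.θ f) ∈ MerInf N := by
  obtain ⟨n, p, hpn, hrel⟩ := exists_poly_rel (jF N) (f : FN N) halg
  -- the relation inside `F₀`
  have hrel₀ : ∑ k ∈ Finset.range (n + 1), Polynomial.aeval P.j₀ (p k) * f ^ k = 0 := by
    apply Subtype.ext
    show P.F₀.val (∑ k ∈ Finset.range (n + 1), Polynomial.aeval P.j₀ (p k) * f ^ k) = (0 : FN N)
    rw [map_sum, ← hrel]
    refine Finset.sum_congr rfl fun k _ => ?_
    rw [map_mul, map_pow, ← Polynomial.aeval_algHom_apply, Subalgebra.val_apply, P.coe_j₀]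
    rfl
  let Ψ : P.F₀ →+* HolH := ((compSL g : HolH →ₐ[ℂ] HolH) : HolH →+* HolH).comp P.θ
  have hΨ : ∀ x, Ψ x = compSL g (P.θ x) := fun x => rfl
  have hΨj : Ψ P.j₀ = P.θ P.j₀ := P.θ_j₀_inv g
  have hΨc : Ψ.comp (algebraMap Kbar P.F₀) = (algebraMap ℂ HolH).comp P.ι := by
    refine RingHom.ext fun c => ?_
    show compSL g (P.θ (algebraMap Kbar P.F₀ c)) = algebraMap ℂ HolH (P.ι c)
    rw [P.θ_const, AlgHom.commutes]
  have hΨa : ∀ q : Polynomial Kbar, Ψ (Polynomial.aeval P.j₀ q)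
      = q.eval₂ ((algebraMap ℂ HolH).comp P.ι) (P.θ P.j₀) := by
    intro q
    rw [Polynomial.aeval_def, Polynomial.hom_eval₂, hΨc, hΨj]
  have hrelH : ∑ k ∈ Finset.range (n + 1),
      (p k).eval₂ ((algebraMap ℂ HolH).comp P.ι) (P.θ P.j₀) * compSL g (P.θ f) ^ k = 0 := by
    have := congrArg Ψ hrel₀
    rw [map_sum, map_zero] at this
    rw [← this]
    refine Finset.sum_congr rfl fun k _ => ?_
    rw [map_mul, map_pow, hΨa, hΨ]
  have hq : (p n).map P.ι ≠ 0 := by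
    intro h0
    exact hpn ((Polynomial.map_eq_zero_iff P.ι.injective).mp h0)
  obtain ⟨c, hc, hlow⟩ := exists_lower_bound_eval_jFun hq
  refine mem_MerInf_of_root (compSL g (P.θ f)) (fun τ => ?_) n
    (fun k => (p k).eval₂ ((algebraMap ℂ HolH).comp P.ι) (P.θ P.j₀))
    (fun k => eval₂_theta_mem P (p k)) c hc ?_ hrelH
  · -- periodicity
    have h1 : compSL (ModularGroup.T ^ (N : ℤ)) (compSL g (P.θ f)) = compSL g (P.θ f) := by
      rw [← compSL_mul]
      have h2 : g * ModularGroup.T ^ (N : ℤ) = (g * ModularGroup.T ^ (N : ℤ) * g⁻¹) * g := by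
        group
      rw [h2, compSL_mul, P.θ_Γ _ (conj_T_zpow_mem_Gamma0 N g)]
    have h3 := congrArg (fun F : HolH => (F : ℍ → ℂ) τ) h1
    simp only [compSL_apply] at h3
    rw [UpperHalfPlane.modular_T_zpow_smul] at h3
    simpa using h3
  · filter_upwards [hlow] with τ hτ
    rw [eval₂_theta_apply]
    exact hτ

/-- **M7 from a `ThetaPackage`**: the number of poles of `j` on `F_N` is `cuspCount N`. -/
theorem card_fibre_infty (P : ThetaPackage N) :
    Nat.card {v : Place Kbar (FN N) // v.ord (jF N) < 0} = cuspCount N := by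
  classical
  have := ThetaPackage.finite_quotient N
  let _ : Fintype (SL(2, ℤ) ⧸ Gamma0 N) := Fintype.ofFinite _
  have htr := trdeg_FN N
  have hx : Transcendental Kbar (jF N) := transcendental_jF N
  have hfin : FiniteDimensional Kbar⟮jF N⟯ (FN N) :=
    Fermat.Agent.S24.FF.finite_adjoin_simple htr hx
  have hx' : Transcendental Kbar (jF N)⁻¹ := Fermat.Agent.S24.FF.transcendental_inv hx
  have hfin' : FiniteDimensional Kbar⟮(jF N)⁻¹⟯ (FN N) :=
    Fermat.Agent.S24.FF.finiteDimensional_adjoin_inv _ hfin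
  have hj0 : jF N ≠ 0 := fun h => hx (h ▸ isAlgebraic_zero)
  have halg : Algebra.IsAlgebraic Kbar⟮jF N⟯ (FN N) :=
    Fermat.Agent.S24.FF.isAlgebraic_adjoin_simple htr hx
  have hmem : ∀ (g : SL(2, ℤ)) (f : P.F₀), compSL g (P.θ f) ∈ MerInf N :=
    compSL_theta_mem P halg
  let ρ : SL(2, ℤ) → P.F₀ →+* MerInf N := fun g =>
    RingHom.codRestrict (((compSL g⁻¹ : HolH →ₐ[ℂ] HolH) : HolH →+* HolH).comp P.θ) (MerInf N)
      (fun f => hmem g⁻¹ f)
  have hρ : ∀ g f, ((ρ g f : MerInf N) : HolH) = compSL g⁻¹ (P.θ f) := fun g f => rfl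
  have hordρ : ∀ g f, ordR (ρ g f) = ordInf N ((compSL g⁻¹ (P.θ f) : HolH) : ℍ → ℂ) :=
    fun g f => rfl
  have hcoe : ((P.θ P.j₀ : HolH) : ℍ → ℂ) = jFun := funext P.θ_j₀
  have hNpos : 0 < N := Nat.pos_of_ne_zero (NeZero.ne N)
  rw [Fermat.Agent.S24.FF.card_poles_eq_card_zeros_inv, ← Fermat.Agent.S24.Comb.card_orbits_T N]
  refine card_fibre_of_family htr (Gamma0 N) (jF N)⁻¹ hx' hfin' P.F₀ P.frac 1 P.j₀ ?_ ?_
    (ordR (N := N)) ordR_mul ordR_add ρ ?_ ?_ ?_ ?_ ?_ ?_ ?_ ?_ N hNpos ?_ ModularGroup.T ?_ ?_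
  · -- den ≠ 0
    intro h
    apply hj0
    rw [← P.coe_j₀, h]
    rfl
  · -- x * den = num
    rw [P.coe_j₀, inv_mul_cancel₀ hj0]
    rfl
  · -- injective
    intro g a b hab
    have h1 : compSL g⁻¹ (P.θ a) = compSL g⁻¹ (P.θ b) := by
      rw [← hρ, ← hρ, hab]
    exact P.θ_inj (compSL_injective g⁻¹ h1)
  · -- right invariance
    intro g γ hγ
    refine RingHom.ext fun f => Subtype.ext ?_
    rw [hρ, hρ, mul_inv_rev, compSL_mul, P.θ_Γ γ⁻¹ ((Gamma0 N).inv_mem hγ)]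
  · -- separation
    intro g h hgh
    refine P.θ_sep _ fun f => ?_
    have h1 : compSL g⁻¹ (P.θ f) = compSL h⁻¹ (P.θ f) := by
      rw [← hρ, ← hρ, hgh]
    rw [compSL_mul, h1, compSL_compSL_inv]
  · -- hcard
    rw [Fermat.Agent.S24.FF.finrank_adjoin_inv, finrank_jF N,
      ← Fermat.Agent.S24.Comb.card_quotient_Gamma0 N, Nat.card_eq_fintype_card]
  · -- hK
    intro g h c
    apply Subtype.ext
    rw [hρ, hρ, P.θ_const, AlgHom.commutes, AlgHom.commutes]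
  · -- hnum
    intro g h
    rw [map_one, map_one]
  · -- hden'
    intro g h
    apply Subtype.ext
    rw [hρ, hρ, P.θ_j₀_inv, P.θ_j₀_inv]
  · -- hconst
    intro g c hc
    have h1 : ρ g (algebraMap Kbar P.F₀ c) = algebraMap ℂ (MerInf N) (P.ι c) := by
      apply Subtype.ext
      rw [hρ, P.θ_const, AlgHom.commutes]
      rfl
    rw [h1]
    exact ordR_algebraMap ((map_ne_zero P.ι).mpr hc)
  · -- hxs
    intro g
    have h1 : ordR (ρ g 1) = 0 := by
      rw [map_one]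
      have := ordR_algebraMap (N := N) (c := 1) one_ne_zero
      rwa [map_one] at this
    have h2 : ordR (ρ g P.j₀) = -(N : ℤ) := by
      rw [hordρ, P.θ_j₀_inv, hcoe]
      exact (hasOrd_jFun N).ordInf_eq one_ne_zero
    rw [h1, h2]
    simp
  · -- hσ
    intro g f
    rw [hordρ, hordρ, mul_inv_rev, compSL_mul]
    have : (ModularGroup.T : SL(2, ℤ))⁻¹ = ModularGroup.T ^ (-1 : ℤ) := (zpow_neg_one _).symm
    rw [this, ordInf_compSL_T_zpow]
  · -- hdiv
    intro g f w hf hw hper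
    have hφ0 : compSL g⁻¹ (P.θ f) ≠ 0 := by
      intro h0
      have h1 : compSL g⁻¹ (P.θ f) = compSL g⁻¹ (P.θ 0) := by
        rw [h0, map_zero, map_zero]
      exact hf (P.θ_inj (compSL_injective g⁻¹ h1))
    have h1 : compSL (ModularGroup.T ^ (-(w : ℤ))) (compSL g⁻¹ (P.θ f)) = compSL g⁻¹ (P.θ f) := by
      have h2 : ((ρ (ModularGroup.T ^ w * g) f : MerInf N) : HolH) = ((ρ g f : MerInf N) : HolH) := by
        rw [hper]
      rw [hρ, hρ, mul_inv_rev, compSL_mul] at h2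
      rw [zpow_neg, zpow_natCast]
      exact h2
    have h3 := dvd_ordInf_mul_of_compSL_T_zpow_eq (hmem g⁻¹ f) hφ0 h1
    rw [hordρ]
    rw [mul_neg, dvd_neg] at h3
    exact h3

end Fermat.Agent.S24.CuspFibre

end
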