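import Mathlib

set_option autoImplicit false

/-!
# Order at `i∞` for holomorphic `N`-periodic functions on the upper half plane

`MerInf N` is the `ℂ`-algebra of functions `f : ℍ → ℂ` which are holomorphic, `N`-periodic and
meromorphic at `i∞` in the local parameter `q_N = exp (2πiτ/N)`; `ordInf N f` is the order of
`f` at `i∞` in that parameter.  This is an analytic substitute for the field of Puiseux series
in `q^(1/N)`: it is a domain carrying an additive order function, which is all the generic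
fibre-counting theorem needs at the cusp.
-/

open scoped Manifold MatrixGroups Topology
open UpperHalfPlane hiding I
open Filter Complex

noncomputable section

namespace Fermat.Agent.S24.CuspMer

local notation "𝕢" => Function.Periodic.qParam

/-- Periodicity on `ℍ` gives periodicity of `f ∘ ofComplex` on `ℂ`. -/
theorem periodic_comp_ofComplex {f : ℍ → ℂ} {h : ℝ} (hf : ∀ τ : ℍ, f (h +ᵥ τ) = f τ) :
    Function.Periodic (f ∘ ofComplex) (h : ℂ) := by
  intro w
  by_cases hw : 0 < im w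
  · have hw' : 0 < im (w + h) := by simp [hw]
    simp only [Function.comp_apply, ofComplex_apply_of_im_pos hw', ofComplex_apply_of_im_pos hw]
    rw [← hf ⟨w, hw⟩]
    congr 1
    ext
    simp [add_comm]
  · have hw0 : im w ≤ 0 := not_lt.mp hw
    have hw' : im (w + h) ≤ 0 := by simpa using hw0
    simp [ofComplex_apply_of_im_nonpos hw', ofComplex_apply_of_im_nonpos hw0]

/-- The cusp function away from `0`. -/
theorem cuspFunction_apply_of_ne_zero (h : ℝ) (f : ℍ → ℂ) {q : ℂ} (hq : q ≠ 0) :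
    cuspFunction h f q = f (ofComplex (Function.Periodic.invQParam h q)) :=
  Function.Periodic.cuspFunction_eq_of_nonzero h _ hq

theorem cuspFunction_mul_eventuallyEq (h : ℝ) (f g : ℍ → ℂ) :
    cuspFunction h (f * g) =ᶠ[𝓝[≠] 0] cuspFunction h f * cuspFunction h g := by
  filter_upwards [self_mem_nhdsWithin] with q hq
  simp [cuspFunction_apply_of_ne_zero h _ hq]

theorem cuspFunction_add_eventuallyEq (h : ℝ) (f g : ℍ → ℂ) :
    cuspFunction h (f + g) =ᶠ[𝓝[≠] 0] cuspFunction h f + cuspFunction h g := by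
  filter_upwards [self_mem_nhdsWithin] with q hq
  simp [cuspFunction_apply_of_ne_zero h _ hq]

theorem cuspFunction_const_eventuallyEq (h : ℝ) (c : ℂ) :
    cuspFunction h (fun _ : ℍ => c) =ᶠ[𝓝[≠] 0] fun _ => c := by
  filter_upwards [self_mem_nhdsWithin] with q hq
  simp [cuspFunction_apply_of_ne_zero h _ hq]

/-- `f` is holomorphic on `ℍ`, `N`-periodic and meromorphic at `i∞` in `q_N`. -/
structure IsMerInf (N : ℕ) (f : ℍ → ℂ) : Prop where
  mdiff : MDifferentiable 𝓘(ℂ) 𝓘(ℂ) f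
  periodic : ∀ τ : ℍ, f ((N : ℝ) +ᵥ τ) = f τ
  mer : MeromorphicAt (cuspFunction (N : ℝ) f) 0

/-- The order of `f` at `i∞` in the local parameter `q_N = exp (2πiτ/N)`. -/
def ordInf (N : ℕ) (f : ℍ → ℂ) : ℤ :=
  (meromorphicOrderAt (cuspFunction (N : ℝ) f) 0).untop₀

theorem IsMerInf.const (N : ℕ) (c : ℂ) : IsMerInf N (fun _ : ℍ => c) where
  mdiff := mdifferentiable_const
  periodic _ := rfl
  mer := (MeromorphicAt.const c 0).congr (cuspFunction_const_eventuallyEq _ c).symm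

theorem IsMerInf.mul {N : ℕ} {f g : ℍ → ℂ} (hf : IsMerInf N f) (hg : IsMerInf N g) :
    IsMerInf N (f * g) where
  mdiff := hf.mdiff.mul hg.mdiff
  periodic τ := by simp [hf.periodic τ, hg.periodic τ]
  mer := (hf.mer.mul hg.mer).congr (cuspFunction_mul_eventuallyEq _ f g).symm

theorem IsMerInf.add {N : ℕ} {f g : ℍ → ℂ} (hf : IsMerInf N f) (hg : IsMerInf N g) :
    IsMerInf N (f + g) where
  mdiff := hf.mdiff.add hg.mdiff
  periodic τ := by simp [hf.periodic τ, hg.periodic τ]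
  mer := (hf.mer.add hg.mer).congr (cuspFunction_add_eventuallyEq _ f g).symm

/-- The algebra of holomorphic, `N`-periodic functions on `ℍ` which are meromorphic at `i∞`. -/
def MerInf (N : ℕ) : Subalgebra ℂ (ℍ → ℂ) where
  carrier := {f | IsMerInf N f}
  mul_mem' hf hg := IsMerInf.mul hf hg
  add_mem' hf hg := IsMerInf.add hf hg
  algebraMap_mem' c := IsMerInf.const N c

theorem mem_MerInf {N : ℕ} {f : ℍ → ℂ} : f ∈ MerInf N ↔ IsMerInf N f := Iff.rfl

/-- `q_N(τ) → 0` within the punctured neighbourhoods as `Im τ → ∞`. -/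
theorem tendsto_qParam_nhdsNE {h : ℝ} (hh : 0 < h) :
    Tendsto (fun τ : ℍ => 𝕢 h τ) atImInfty (𝓝[≠] 0) :=
  (Function.Periodic.qParam_tendsto hh).comp tendsto_coe_atImInfty

/-- A function vanishing for large imaginary part vanishes identically. -/
theorem eq_zero_of_eventually_atImInfty {f : ℍ → ℂ} (hf : MDifferentiable 𝓘(ℂ) 𝓘(ℂ) f)
    (h : ∀ᶠ τ in atImInfty, f τ = 0) : f = 0 := by
  obtain ⟨A, hA⟩ := (atImInfty_mem _).mp h
  have him : (((max A 0 + 1 : ℝ) : ℂ) * Complex.I).im = max A 0 + 1 := by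
    simp
  let τ0 : ℍ := ⟨((max A 0 + 1 : ℝ) : ℂ) * Complex.I, by
    rw [him]
    positivity⟩
  have hτ0 : A < τ0.im := by
    show A < (((max A 0 + 1 : ℝ) : ℂ) * Complex.I).im
    rw [him]
    linarith [le_max_left A 0]
  have hopen : IsOpen {τ : ℍ | A < τ.im} := isOpen_lt continuous_const UpperHalfPlane.continuous_im
  have hev : ∀ᶠ z in 𝓝 τ0, f z = 0 := by
    filter_upwards [hopen.mem_nhds hτ0] with z hz using hA z (le_of_lt hz)
  exact eq_zero_of_frequently hf (τ := τ0) (hev.filter_mono nhdsWithin_le_nhds).frequently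

theorem IsMerInf.order_ne_top {N : ℕ} [NeZero N] {f : ℍ → ℂ} (hf : IsMerInf N f) (hf0 : f ≠ 0) :
    meromorphicOrderAt (cuspFunction (N : ℝ) f) 0 ≠ ⊤ := by
  intro htop
  rw [meromorphicOrderAt_eq_top_iff] at htop
  have hN : (0 : ℝ) < N := by exact_mod_cast Nat.pos_of_ne_zero (NeZero.ne N)
  have h1 := (tendsto_qParam_nhdsNE hN).eventually htop
  apply hf0
  apply eq_zero_of_eventually_atImInfty hf.mdiff
  filter_upwards [h1] with τ hτ
  rwa [eq_cuspFunction τ hN.ne' (periodic_comp_ofComplex hf.periodic)] at hτ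

theorem IsMerInf.coe_ordInf {N : ℕ} [NeZero N] {f : ℍ → ℂ} (hf : IsMerInf N f) (hf0 : f ≠ 0) :
    ((ordInf N f : ℤ) : WithTop ℤ) = meromorphicOrderAt (cuspFunction (N : ℝ) f) 0 :=
  WithTop.coe_untop₀_of_ne_top (hf.order_ne_top hf0)

theorem ordInf_mul {N : ℕ} [NeZero N] {f g : ℍ → ℂ} (hf : IsMerInf N f) (hg : IsMerInf N g)
    (hf0 : f ≠ 0) (hg0 : g ≠ 0) : ordInf N (f * g) = ordInf N f + ordInf N g := by
  unfold ordInf
  rw [meromorphicOrderAt_congr (cuspFunction_mul_eventuallyEq _ f g),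
    meromorphicOrderAt_mul hf.mer hg.mer,
    WithTop.untop₀_add (hf.order_ne_top hf0) (hg.order_ne_top hg0)]

theorem ordInf_add {N : ℕ} [NeZero N] {f g : ℍ → ℂ} (hf : IsMerInf N f) (hg : IsMerInf N g)
    (hf0 : f ≠ 0) (hg0 : g ≠ 0) (hfg : f + g ≠ 0) :
    min (ordInf N f) (ordInf N g) ≤ ordInf N (f + g) := by
  have h := meromorphicOrderAt_add hf.mer hg.mer
  rw [← meromorphicOrderAt_congr (cuspFunction_add_eventuallyEq _ f g),
    ← hf.coe_ordInf hf0, ← hg.coe_ordInf hg0, ← (hf.add hg).coe_ordInf hfg] at h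
  exact_mod_cast h

theorem ordInf_const (N : ℕ) {c : ℂ} (hc : c ≠ 0) : ordInf N (fun _ : ℍ => c) = 0 := by
  unfold ordInf
  rw [meromorphicOrderAt_congr (cuspFunction_const_eventuallyEq _ c)]
  classical
  rw [meromorphicOrderAt_const, if_neg hc]
  rfl


instance (N : ℕ) : Nontrivial (MerInf N) := ⟨⟨0, 1, fun h => by
  have h1 := congrArg (fun f : MerInf N => (f : ℍ → ℂ) UpperHalfPlane.I) h
  simp at h1⟩⟩

instance (N : ℕ) : NoZeroDivisors (MerInf N) where
  eq_zero_or_eq_zero_of_mul_eq_zero := by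
    intro f g h
    have h' : (f : ℍ → ℂ) * (g : ℍ → ℂ) = 0 := congrArg Subtype.val h
    rcases (UpperHalfPlane.mul_eq_zero_iff f.2.mdiff g.2.mdiff).mp h' with h0 | h0
    · exact Or.inl (Subtype.ext h0)
    · exact Or.inr (Subtype.ext h0)

instance (N : ℕ) : IsDomain (MerInf N) := NoZeroDivisors.to_isDomain _

/-! ### Translations -/

theorem qParam_add (h : ℝ) (z w : ℂ) : 𝕢 h (z + w) = 𝕢 h z * 𝕢 h w := by
  simp only [Function.Periodic.qParam]
  rw [← Complex.exp_add]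
  congr 1
  ring

/-- The cusp function of a translate is the cusp function precomposed with a rotation. -/
theorem cuspFunction_vadd_eventuallyEq {N : ℕ} [NeZero N] {f : ℍ → ℂ}
    (hper : ∀ τ : ℍ, f ((N : ℝ) +ᵥ τ) = f τ) (t : ℝ) :
    cuspFunction (N : ℝ) (fun τ : ℍ => f (t +ᵥ τ)) =ᶠ[𝓝[≠] 0]
      cuspFunction (N : ℝ) f ∘ fun q => 𝕢 (N : ℝ) t * q := by
  have hN : (0 : ℝ) < N := by exact_mod_cast Nat.pos_of_ne_zero (NeZero.ne N)
  have hball : ∀ᶠ q : ℂ in 𝓝[≠] 0, ‖q‖ < 1 := by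
    filter_upwards [nhdsWithin_le_nhds (Metric.ball_mem_nhds (0 : ℂ) one_pos)] with q hq
    simpa using hq
  filter_upwards [self_mem_nhdsWithin, hball] with q hq hq1
  have hq0 : q ≠ 0 := hq
  have him := Function.Periodic.im_invQParam_pos_of_norm_lt_one hN hq1 hq0
  rw [cuspFunction_apply_of_ne_zero _ _ hq0, Function.comp_apply]
  have h1 : 𝕢 (N : ℝ) t * q = 𝕢 (N : ℝ) ((t : ℂ) + Function.Periodic.invQParam (N : ℝ) q) := by
    rw [qParam_add, Function.Periodic.qParam_right_inv hN.ne' hq0]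
  rw [h1]
  have h2 := Function.Periodic.eq_cuspFunction hN.ne' (periodic_comp_ofComplex hper)
    ((t : ℂ) + Function.Periodic.invQParam (N : ℝ) q)
  have h3 : cuspFunction (N : ℝ) f = Function.Periodic.cuspFunction (N : ℝ) (f ∘ ofComplex) := rfl
  rw [h3, h2, Function.comp_apply]
  congr 1
  rw [ofComplex_apply_of_im_pos him]
  have him' : 0 < ((t : ℂ) + Function.Periodic.invQParam (N : ℝ) q).im := by simpa using him
  rw [ofComplex_apply_of_im_pos him']
  ext
  simp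

theorem qParam_ne_zero' (h : ℝ) (z : ℂ) : 𝕢 h z ≠ 0 := Complex.exp_ne_zero _

theorem IsMerInf.vadd {N : ℕ} [NeZero N] {f : ℍ → ℂ} (hf : IsMerInf N f) (t : ℝ) :
    IsMerInf N (fun τ : ℍ => f (t +ᵥ τ)) where
  mdiff := by
    rw [UpperHalfPlane.mdifferentiable_iff]
    have h := UpperHalfPlane.mdifferentiable_iff.mp hf.mdiff
    have h1 : DifferentiableOn ℂ ((f ∘ ofComplex) ∘ fun z : ℂ => (t : ℂ) + z) {z | 0 < z.im} := by
      apply h.comp (by fun_prop)
      intro z hz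
      simpa using hz
    refine h1.congr ?_
    intro z hz
    have hz' : 0 < ((t : ℂ) + z).im := by simpa using hz
    simp only [Function.comp_apply, ofComplex_apply_of_im_pos hz, ofComplex_apply_of_im_pos hz']
    congr 1
  periodic τ := by
    have : (N : ℝ) +ᵥ (t +ᵥ τ) = t +ᵥ ((N : ℝ) +ᵥ τ) := by
      ext
      simp only [coe_vadd]
      ring
    show f (t +ᵥ ((N : ℝ) +ᵥ τ)) = f (t +ᵥ τ)
    rw [← this, hf.periodic]
  mer := by
    have h1 : MeromorphicAt (cuspFunction (N : ℝ) f ∘ fun q => 𝕢 (N : ℝ) t * q) 0 := by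
      apply MeromorphicAt.comp_analyticAt
      · simpa using hf.mer
      · fun_prop
    exact h1.congr (cuspFunction_vadd_eventuallyEq hf.periodic t).symm

theorem ordInf_vadd {N : ℕ} [NeZero N] {f : ℍ → ℂ} (hf : IsMerInf N f) (t : ℝ) :
    ordInf N (fun τ : ℍ => f (t +ᵥ τ)) = ordInf N f := by
  unfold ordInf
  rw [meromorphicOrderAt_congr (cuspFunction_vadd_eventuallyEq hf.periodic t)]
  have hg : AnalyticAt ℂ (fun q : ℂ => 𝕢 (N : ℝ) t * q) 0 := by fun_prop
  have hg' : deriv (fun q : ℂ => 𝕢 (N : ℝ) t * q) 0 ≠ 0 := by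
    have : deriv (fun q : ℂ => 𝕢 (N : ℝ) t * q) 0 = 𝕢 (N : ℝ) t := by
      simp
    rw [this]
    exact qParam_ne_zero' _ _
  rw [meromorphicOrderAt_comp_of_deriv_ne_zero hg hg']
  simp

/-- Translation by an integer power of `T`. -/
theorem IsMerInf.comp_T_zpow {N : ℕ} [NeZero N] {f : ℍ → ℂ} (hf : IsMerInf N f) (k : ℤ) :
    IsMerInf N (fun τ : ℍ => f (ModularGroup.T ^ k • τ)) := by
  have : (fun τ : ℍ => f (ModularGroup.T ^ k • τ)) = fun τ : ℍ => f (((k : ℤ) : ℝ) +ᵥ τ) := by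
    funext τ
    rw [modular_T_zpow_smul]
  rw [this]
  exact hf.vadd _

theorem ordInf_comp_T_zpow {N : ℕ} [NeZero N] {f : ℍ → ℂ} (hf : IsMerInf N f) (k : ℤ) :
    ordInf N (fun τ : ℍ => f (ModularGroup.T ^ k • τ)) = ordInf N f := by
  have : (fun τ : ℍ => f (ModularGroup.T ^ k • τ)) = fun τ : ℍ => f (((k : ℤ) : ℝ) +ᵥ τ) := by
    funext τ
    rw [modular_T_zpow_smul]
  rw [this]
  exact ordInf_vadd hf _

/-! ### The rotation lemma at `i∞` -/

/-- If a function meromorphic at `0` of order `n` is invariant under the rotation `q ↦ c q`,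
then `c ^ n = 1`. -/
theorem zpow_eq_one_of_rotation_invariant {F : ℂ → ℂ} {c : ℂ} (hc : c ≠ 0) {n : ℤ}
    (hF : MeromorphicAt F 0) (hn : meromorphicOrderAt F 0 = n)
    (hinv : ∀ᶠ q in 𝓝[≠] 0, F (c * q) = F q) : c ^ n = 1 := by
  obtain ⟨G, hGan, hG0, hGev⟩ := (meromorphicOrderAt_eq_int_iff hF).mp hn
  have hcq : Tendsto (fun q : ℂ => c * q) (𝓝[≠] 0) (𝓝[≠] 0) := by
    apply tendsto_nhdsWithin_of_tendsto_nhds_of_eventually_within
    · have : Tendsto (fun q : ℂ => c * q) (𝓝 0) (𝓝 (c * 0)) :=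
        (continuous_const.mul continuous_id).tendsto 0
      simpa using this.mono_left nhdsWithin_le_nhds
    · filter_upwards [self_mem_nhdsWithin] with q hq
      exact mul_ne_zero hc hq
  have h1 := hcq.eventually hGev
  have h2 : ∀ᶠ q in 𝓝[≠] 0, c ^ n * G (c * q) = G q := by
    filter_upwards [h1, hGev, hinv, self_mem_nhdsWithin] with q h1q h2q h3q hq
    have hq0 : q ≠ 0 := hq
    rw [h1q, h2q] at h3q
    simp only [sub_zero, smul_eq_mul] at h3q
    rw [mul_zpow] at h3q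
    have hqn : q ^ n ≠ 0 := zpow_ne_zero n hq0
    have : q ^ n * (c ^ n * G (c * q)) = q ^ n * G q := by rw [← h3q]; ring
    exact mul_left_cancel₀ hqn this
  have hlim1 : Tendsto (fun q => c ^ n * G (c * q)) (𝓝[≠] 0) (𝓝 (c ^ n * G 0)) := by
    have hGc : Tendsto (fun q : ℂ => G (c * q)) (𝓝[≠] 0) (𝓝 (G 0)) := by
      have h0 : Tendsto (fun q : ℂ => c * q) (𝓝[≠] 0) (𝓝 0) := hcq.mono_right nhdsWithin_le_nhds
      exact hGan.continuousAt.tendsto.comp h0
    exact hGc.const_mul _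
  have hlim2 : Tendsto G (𝓝[≠] 0) (𝓝 (G 0)) :=
    hGan.continuousAt.tendsto.mono_left nhdsWithin_le_nhds
  have heq := tendsto_nhds_unique (hlim1.congr' h2) hlim2
  have : (c ^ n - 1) * G 0 = 0 := by rw [sub_mul, heq]; ring
  rcases mul_eq_zero.mp this with h | h
  · exact sub_eq_zero.mp h
  · exact absurd h hG0

/-- **Rotation lemma at the cusp.** If `f ∈ MerInf N` is nonzero and `w`-periodic, then
`N ∣ ordInf N f * w`. -/
theorem dvd_ordInf_mul_of_periodic {N : ℕ} [NeZero N] {f : ℍ → ℂ} (hf : IsMerInf N f)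
    (hf0 : f ≠ 0) (w : ℕ) (hper : ∀ τ : ℍ, f ((w : ℝ) +ᵥ τ) = f τ) :
    (N : ℤ) ∣ ordInf N f * w := by
  have hn := (hf.coe_ordInf hf0).symm
  have hinv : ∀ᶠ q in 𝓝[≠] 0,
      cuspFunction (N : ℝ) f (𝕢 (N : ℝ) ((w : ℝ) : ℂ) * q) = cuspFunction (N : ℝ) f q := by
    have h := cuspFunction_vadd_eventuallyEq hf.periodic (w : ℝ)
    have hfw : (fun τ : ℍ => f ((w : ℝ) +ᵥ τ)) = f := funext hper
    rw [hfw] at h
    filter_upwards [h] with q hq
    exact hq.symm
  have hc := zpow_eq_one_of_rotation_invariant (qParam_ne_zero' _ _) hf.mer hn hinv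
  rw [Function.Periodic.qParam, ← Complex.exp_int_mul, Complex.exp_eq_one_iff] at hc
  obtain ⟨m, hm⟩ := hc
  have hN : ((N : ℝ) : ℂ) ≠ 0 := by
    have : (N : ℝ) ≠ 0 := by exact_mod_cast NeZero.ne N
    exact_mod_cast this
  have hpi : (2 * (Real.pi : ℂ) * Complex.I) ≠ 0 := Complex.two_pi_I_ne_zero
  have h3 : ((ordInf N f : ℤ) : ℂ) * ((w : ℝ) : ℂ) = (m : ℂ) * ((N : ℝ) : ℂ) := by
    field_simp at hm
    linear_combination hm
  have h5 : (ordInf N f : ℤ) * (w : ℤ) = m * (N : ℤ) := by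
    have : (((ordInf N f * (w : ℤ) : ℤ)) : ℂ) = ((m * (N : ℤ) : ℤ) : ℂ) := by
      push_cast
      push_cast at h3
      exact h3
    exact_mod_cast this
  exact ⟨m, by rw [h5]; ring⟩

/-! ### The order function on the subtype -/

/-- The order at `i∞` as a function on the ring `MerInf N`. -/
def ordM (N : ℕ) (f : MerInf N) : ℤ := ordInf N (f : ℍ → ℂ)

theorem coe_ne_zero {N : ℕ} {f : MerInf N} (hf : f ≠ 0) : (f : ℍ → ℂ) ≠ 0 :=
  fun h => hf (Subtype.ext h)

theorem ordM_mul {N : ℕ} [NeZero N] (a b : MerInf N) (ha : a ≠ 0) (hb : b ≠ 0) :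
    ordM N (a * b) = ordM N a + ordM N b :=
  ordInf_mul a.2 b.2 (coe_ne_zero ha) (coe_ne_zero hb)

theorem ordM_add {N : ℕ} [NeZero N] (a b : MerInf N) (ha : a ≠ 0) (hb : b ≠ 0)
    (hab : a + b ≠ 0) : min (ordM N a) (ordM N b) ≤ ordM N (a + b) :=
  ordInf_add a.2 b.2 (coe_ne_zero ha) (coe_ne_zero hb) (coe_ne_zero hab)

theorem ordM_algebraMap (N : ℕ) {c : ℂ} (hc : c ≠ 0) : ordM N (algebraMap ℂ (MerInf N) c) = 0 :=
  ordInf_const N hc

end Fermat.Agent.S24.CuspMer
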