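import Mathlib
import Fermat.Agent.S24.CuspMer
import Fermat.Agent.S24.JFun

set_option autoImplicit false

/-!
# The `j`-function at the cusp: translates `τ ↦ j((aτ+b)/d)` lie in `MerInf N`

For `a, d ≥ 1`, `d ∣ N`, `b : ℤ`, the function `τ ↦ j((aτ+b)/d)` is holomorphic, `N`-periodic and
meromorphic at `i∞` of order `-(a * (N / d))` in the parameter `q_N`.
-/

open scoped Manifold MatrixGroups Topology
open UpperHalfPlane hiding I
open Filter Complex ModularForm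

noncomputable section

namespace Fermat.Agent.S24.CuspMer

open Fermat.Agent.S24.JFun

local notation "Δ" => ModularForm.discriminant
local notation "𝕢" => Function.Periodic.qParam

/-- `jFun` is invariant under integer translations. -/
theorem jFun_vadd_int (k : ℤ) (τ : ℍ) : jFun ((k : ℝ) +ᵥ τ) = jFun τ := by
  rw [← modular_T_zpow_smul, jFun_smul]

/-- The unit part of `j` at the cusp: `j = q⁻¹ * jUnit q`. -/
def jUnit (x : ℂ) : ℂ := cuspFunction 1 E₄ x ^ 3 / ∏' i : ℕ, (1 - x ^ (i + 1)) ^ 24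

theorem analyticAt_cuspFunction_E4 : AnalyticAt ℂ (cuspFunction 1 E₄) 0 :=
  ModularFormClass.analyticAt_cuspFunction_zero E₄ one_pos one_mem_strictPeriods_SL

theorem cuspFunction_E4_zero : cuspFunction 1 E₄ 0 = 1 := by
  have hper := SlashInvariantFormClass.periodic_comp_ofComplex E₄ one_mem_strictPeriods_SL
  rw [UpperHalfPlane.cuspFunction_apply_zero one_pos analyticAt_cuspFunction_E4 hper]
  exact tendsto_E4.limUnder_eq

theorem analyticAt_tprod : AnalyticAt ℂ (fun x : ℂ => ∏' i : ℕ, (1 - x ^ (i + 1)) ^ 24) 0 :=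
  (ModularForm.differentiableOn_tprod_one_sub_pow_pow 24).analyticAt
    (Metric.ball_mem_nhds 0 one_pos)

theorem tprod_zero : (∏' i : ℕ, (1 - (0 : ℂ) ^ (i + 1)) ^ 24) = 1 := by
  simp

theorem analyticAt_jUnit : AnalyticAt ℂ jUnit 0 := by
  unfold jUnit
  exact (analyticAt_cuspFunction_E4.pow 3).div analyticAt_tprod (by rw [tprod_zero]; exact one_ne_zero)

theorem jUnit_zero : jUnit 0 = 1 := by
  unfold jUnit
  rw [cuspFunction_E4_zero, tprod_zero]
  norm_num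

/-- `j(w) = q⁻¹ * jUnit q` with `q = exp (2πi w)`. -/
theorem jFun_eq_jUnit (w : ℍ) : jFun w = (𝕢 1 w)⁻¹ * jUnit (𝕢 1 w) := by
  have hper := SlashInvariantFormClass.periodic_comp_ofComplex E₄ one_mem_strictPeriods_SL
  have hE : cuspFunction 1 E₄ (𝕢 1 w) = E₄ w := eq_cuspFunction w one_ne_zero hper
  have hΔ : Δ w = 𝕢 1 w * ∏' i : ℕ, (1 - (𝕢 1 w) ^ (i + 1)) ^ 24 := discriminant_eq_q_prod w
  rw [jFun_def, jUnit, hE, hΔ, mul_comm (𝕢 1 (w : ℂ)), ← div_div, div_eq_mul_inv _ (𝕢 1 (w : ℂ)),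
    mul_comm]

/-- The translates `τ ↦ j((aτ+b)/d)`, `d ∣ N`, lie in `MerInf N`, with order `-(a * (N/d))`. -/
theorem isMerInf_jFun_affine {N : ℕ} [NeZero N] (a d : ℕ) (b : ℤ) (ha : 0 < a) (hd : 0 < d)
    (hdN : d ∣ N) (φ : ℍ → ℂ) (σ : ℍ → ℍ)
    (hσ : ∀ τ : ℍ, (σ τ : ℂ) = ((a : ℂ) * τ + b) / d) (hφ : ∀ τ, φ τ = jFun (σ τ)) :
    IsMerInf N φ ∧ ordInf N φ = -((a * (N / d) : ℕ) : ℤ) := by
  obtain ⟨e, rfl⟩ := hdN
  have he : 0 < e := by
    rcases Nat.eq_zero_or_pos e with h | h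
    · exact absurd (by simp [h]) (NeZero.ne (d * e))
    · exact h
  have hNd : d * e / d = e := Nat.mul_div_cancel_left e hd
  rw [hNd]
  have hN : (0 : ℝ) < ((d * e : ℕ) : ℝ) := by exact_mod_cast Nat.mul_pos hd he
  have hdC : (d : ℂ) ≠ 0 := by exact_mod_cast hd.ne'
  have heC : (e : ℂ) ≠ 0 := by exact_mod_cast he.ne'
  have hσ' : ∀ (z : ℂ) (hz : 0 < z.im), σ ⟨z, hz⟩ = ofComplex (((a : ℂ) * z + b) / d) := by
    intro z hz
    rw [← hσ ⟨z, hz⟩, ofComplex_apply]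
  have him : ∀ z : ℂ, 0 < z.im → 0 < (((a : ℂ) * z + b) / d).im := by
    intro z hz
    have := (σ ⟨z, hz⟩).im_pos
    rwa [UpperHalfPlane.im, hσ ⟨z, hz⟩] at this
  -- holomorphy
  have hmd : MDifferentiable 𝓘(ℂ) 𝓘(ℂ) φ := by
    rw [UpperHalfPlane.mdifferentiable_iff]
    have h := UpperHalfPlane.mdifferentiable_iff.mp jFun_mdiff
    have h1 : DifferentiableOn ℂ ((jFun ∘ ofComplex) ∘ fun z : ℂ => ((a : ℂ) * z + b) / d)
        {z | 0 < z.im} := by
      apply h.comp (by fun_prop)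
      intro z hz
      exact him z hz
    refine h1.congr ?_
    intro z hz
    simp only [Function.comp_apply, ofComplex_apply_of_im_pos hz, hφ, hσ' z hz]
  -- periodicity
  have hper : ∀ τ : ℍ, φ (((d * e : ℕ) : ℝ) +ᵥ τ) = φ τ := by
    intro τ
    rw [hφ, hφ]
    have : σ (((d * e : ℕ) : ℝ) +ᵥ τ) = (((a * e : ℕ) : ℤ) : ℝ) +ᵥ σ τ := by
      ext
      rw [coe_vadd, hσ, hσ, coe_vadd]
      push_cast
      field_simp
      ring
    rw [this, jFun_vadd_int]
  -- the cusp function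
  set ζ : ℂ := Complex.exp (2 * Real.pi * Complex.I * b / d) with hζ
  have hζ0 : ζ ≠ 0 := Complex.exp_ne_zero _
  set G : ℂ → ℂ := fun q => ζ⁻¹ * jUnit (ζ * q ^ (a * e)) with hG
  have hGan : AnalyticAt ℂ G 0 := by
    have hae : a * e ≠ 0 := (Nat.mul_pos ha he).ne'
    have h0 : ζ * (0 : ℂ) ^ (a * e) = 0 := by simp [hae]
    have h1 : AnalyticAt ℂ jUnit (ζ * (0 : ℂ) ^ (a * e)) := by rw [h0]; exact analyticAt_jUnit
    have h2 : AnalyticAt ℂ (fun q : ℂ => ζ * q ^ (a * e)) 0 := by fun_prop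
    have h3 : AnalyticAt ℂ (fun q : ℂ => jUnit (ζ * q ^ (a * e))) 0 :=
      AnalyticAt.fun_comp h1 h2
    exact analyticAt_const.mul h3
  have hG0 : G 0 ≠ 0 := by
    have hae : a * e ≠ 0 := (Nat.mul_pos ha he).ne'
    simp only [hG, zero_pow hae, mul_zero, jUnit_zero, mul_one]
    exact inv_ne_zero hζ0
  have hball : ∀ᶠ q : ℂ in 𝓝[≠] 0, ‖q‖ < 1 := by
    filter_upwards [nhdsWithin_le_nhds (Metric.ball_mem_nhds (0 : ℂ) one_pos)] with q hq
    simpa using hq
  have hev : ∀ᶠ q : ℂ in 𝓝[≠] 0,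
      cuspFunction ((d * e : ℕ) : ℝ) φ q = (q - 0) ^ (-((a * e : ℕ) : ℤ)) • G q := by
    filter_upwards [self_mem_nhdsWithin, hball] with q hq hq1
    have hq0 : q ≠ 0 := hq
    have hz := Function.Periodic.im_invQParam_pos_of_norm_lt_one hN hq1 hq0
    set z := Function.Periodic.invQParam ((d * e : ℕ) : ℝ) q with hzdef
    have hqz : 𝕢 ((d * e : ℕ) : ℝ) z = q := Function.Periodic.qParam_right_inv hN.ne' hq0
    rw [cuspFunction_apply_of_ne_zero _ _ hq0, ofComplex_apply_of_im_pos hz, hφ, jFun_eq_jUnit,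
      hσ]
    have hkey : 𝕢 1 (((a : ℂ) * z + b) / d) = ζ * q ^ (a * e) := by
      rw [← hqz, hζ]
      simp only [Function.Periodic.qParam]
      rw [← Complex.exp_nat_mul, ← Complex.exp_add]
      congr 1
      push_cast
      field_simp
      ring
    show (𝕢 1 (((a : ℂ) * z + b) / d))⁻¹ * jUnit (𝕢 1 (((a : ℂ) * z + b) / d)) = _
    rw [hkey, sub_zero, smul_eq_mul, zpow_neg, zpow_natCast, hG, mul_inv]
    ring
  have hmer : MeromorphicAt (cuspFunction ((d * e : ℕ) : ℝ) φ) 0 := by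
    have hGm : MeromorphicAt G 0 := hGan.meromorphicAt
    have h1 : MeromorphicAt (fun q : ℂ => (q - 0) ^ (-((a * e : ℕ) : ℤ)) • G q) 0 := by
      fun_prop
    exact h1.congr (by filter_upwards [hev] with q hq using hq.symm)
  refine ⟨⟨hmd, hper, hmer⟩, ?_⟩
  unfold ordInf
  have := (meromorphicOrderAt_eq_int_iff hmer).mpr ⟨G, hGan, hG0, hev⟩
  rw [this]
  rfl

/-- `jFun` itself lies in `MerInf N`, with order `-N`. -/
theorem isMerInf_jFun (N : ℕ) [NeZero N] : IsMerInf N jFun ∧ ordInf N jFun = -(N : ℤ) := by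
  have h := isMerInf_jFun_affine (N := N) 1 1 0 one_pos one_pos (one_dvd N) jFun id
    (fun τ => by simp) (fun τ => rfl)
  simpa using h

end Fermat.Agent.S24.CuspMer
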