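import Mathlib

set_option autoImplicit false
set_option linter.unusedSectionVars false
set_option linter.unusedVariables false

namespace Fermat.Agent.S24.Degree

open Polynomial IntermediateField

section Core

variable {K F H : Type*} [Field K] [Field F] [Algebra K F] [CommRing H] [IsDomain H] [Algebra K H]
variable {I : Type*} [Fintype I]
variable (A0 : Subalgebra K F) (t : A0) (θ : I → (A0 →ₐ[K] H))

/-- The "characteristic polynomial" of `f` with respect to the family of embeddings `θ`. -/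
noncomputable def charPoly (f : A0) : H[X] := ∏ x, (X - C (θ x f))

theorem charPoly_monic (f : A0) : (charPoly A0 θ f).Monic :=
  monic_prod_of_monic _ _ fun x _ => monic_X_sub_C _

theorem charPoly_natDegree (f : A0) : (charPoly A0 θ f).natDegree = Fintype.card I := by
  rw [charPoly, natDegree_finsetProd_X_sub_C_eq_card]
  rfl

theorem charPoly_eval (f : A0) (x : I) : (charPoly A0 θ f).eval (θ x f) = 0 := by
  rw [charPoly, eval_prod]
  exact Finset.prod_eq_zero (Finset.mem_univ x) (by simp)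

theorem charPoly_coeff_zero (f : A0) :
    (charPoly A0 θ f).coeff 0 = ∏ x, (-(θ x f)) := by
  rw [coeff_zero_eq_eval_zero, charPoly, eval_prod]
  simp

/-- The ring hom `K[T] → H`, `T ↦ θ x0 t`. -/
noncomputable def baseHom (x0 : I) : K[X] →+* H :=
  (θ x0 : A0 →+* H).comp (aeval t : K[X] →ₐ[K] A0).toRingHom

theorem exists_lift_charPoly (x0 : I)
    (hsym : ∀ (f : A0) (k : ℕ), ∃ p : K[X], (charPoly A0 θ f).coeff k = θ x0 (aeval t p))
    (f : A0) :
    ∃ Q : (K[X])[X], Q.Monic ∧ Q.natDegree = Fintype.card I ∧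
      Q.map (baseHom A0 t θ x0) = charPoly A0 θ f := by
  classical
  set n := Fintype.card I with hn
  choose p hp using hsym f
  set R : (K[X])[X] := ∑ k ∈ Finset.range n, C (p k) * X ^ k with hR
  have hRcoeff : ∀ k, R.coeff k = if k < n then p k else 0 := by
    intro k
    rw [hR, finsetSum_coeff]
    simp only [coeff_C_mul_X_pow]
    by_cases hk : k < n
    · rw [if_pos hk, Finset.sum_eq_single k]
      · simp
      · intro b _ hb
        rw [if_neg (Ne.symm hb)]
      · intro hk'
        exact absurd (Finset.mem_range.mpr hk) hk'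
    · rw [if_neg hk]
      refine Finset.sum_eq_zero fun b hb => ?_
      rw [if_neg]
      rintro rfl
      exact hk (Finset.mem_range.mp hb)
  have hRdeg : R.degree < (n : WithBot ℕ) := by
    rw [degree_lt_iff_coeff_zero]
    intro m hm
    rw [hRcoeff, if_neg (not_lt.mpr hm)]
  have hnat : (X ^ n + R : (K[X])[X]).natDegree = n := by
    apply natDegree_eq_of_degree_eq_some
    rw [degree_add_eq_left_of_degree_lt (by rwa [degree_X_pow]), degree_X_pow]
  refine ⟨X ^ n + R, monic_X_pow_add hRdeg, hnat, ?_⟩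
  ext k
  rw [coeff_map, coeff_add, coeff_X_pow, hRcoeff]
  rcases lt_trichotomy k n with hk | hk | hk
  · rw [if_neg hk.ne, if_pos hk, zero_add, hp k]
    rfl
  · subst hk
    rw [if_pos rfl, if_neg (lt_irrefl _), add_zero, map_one]
    have h1 := (charPoly_monic A0 θ f).coeff_natDegree
    rw [charPoly_natDegree] at h1
    exact h1.symm
  · rw [if_neg hk.ne', if_neg (not_lt.mpr hk.le), add_zero, map_zero]
    symm
    apply coeff_eq_zero_of_natDegree_lt
    rw [charPoly_natDegree]
    exact hk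

theorem eval₂_lift_eq_zero (x0 : I) (hinj : Function.Injective (θ x0)) (f : A0) {Q : (K[X])[X]}
    (hQ : Q.map (baseHom A0 t θ x0) = charPoly A0 θ f) :
    Q.eval₂ (aeval t : K[X] →ₐ[K] A0).toRingHom f = 0 := by
  apply hinj
  rw [map_zero]
  have h := charPoly_eval A0 θ f x0
  rw [← hQ, eval_map] at h
  rw [← h]
  exact Polynomial.hom_eval₂ Q _ (θ x0 : A0 →+* H) f

theorem exists_mul_eq_aeval (x0 : I) (hinj : ∀ x, Function.Injective (θ x))
    (hsym : ∀ (f : A0) (k : ℕ), ∃ p : K[X], (charPoly A0 θ f).coeff k = θ x0 (aeval t p))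
    (b : A0) (hb : b ≠ 0) :
    ∃ (c : K[X]) (a : A0), aeval t c ≠ 0 ∧ b * a = aeval t c := by
  obtain ⟨Q, -, -, hQ⟩ := exists_lift_charPoly A0 t θ x0 hsym b
  have h0 := eval₂_lift_eq_zero A0 t θ x0 (hinj x0) b hQ
  refine ⟨Q.coeff 0, -(Q.divX.eval₂ (aeval t : K[X] →ₐ[K] A0).toRingHom b), ?_, ?_⟩
  · intro hc
    have h1 : (Q.map (baseHom A0 t θ x0)).coeff 0 = 0 := by
      rw [coeff_map]
      show θ x0 (aeval t (Q.coeff 0)) = 0
      rw [hc, map_zero]
    rw [hQ, charPoly_coeff_zero, Finset.prod_eq_zero_iff] at h1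
    obtain ⟨x, -, hx⟩ := h1
    rw [neg_eq_zero] at hx
    exact hb ((map_eq_zero_iff (θ x) (hinj x)).mp hx)
  · have h1 : Q.divX * X + C (Q.coeff 0) = Q := divX_mul_X_add Q
    rw [← h1, eval₂_add, eval₂_mul, eval₂_X, eval₂_C] at h0
    have h2 : (aeval t : K[X] →ₐ[K] A0).toRingHom (Q.coeff 0) = aeval t (Q.coeff 0) := rfl
    rw [h2] at h0
    linear_combination (-1 : A0) * h0

theorem exists_mul_aeval_mem [IsFractionRing A0 F] (x0 : I) (hinj : ∀ x, Function.Injective (θ x))
    (hsym : ∀ (f : A0) (k : ℕ), ∃ p : K[X], (charPoly A0 θ f).coeff k = θ x0 (aeval t p))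
    (f : F) :
    ∃ (c : K[X]) (a : A0), aeval (t : F) c ≠ 0 ∧ f * aeval (t : F) c = a := by
  obtain ⟨a, b, hb, rfl⟩ := IsFractionRing.div_surjective (A := A0) f
  have hb0 : b ≠ 0 := nonZeroDivisors.ne_zero hb
  obtain ⟨c, a', hc, hba⟩ := exists_mul_eq_aeval A0 t θ x0 hinj hsym b hb0
  have hcoe : (aeval (t : F) c : F) = ((aeval t c : A0) : F) := (aeval_subalgebra_coe c A0 t).symm
  refine ⟨c, a * a', ?_, ?_⟩
  · rw [hcoe]
    exact fun h => hc (Subtype.ext h)
  · have hbF : (algebraMap A0 F b) ≠ 0 := by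
      intro h
      exact hb0 ((map_eq_zero_iff _ (IsFractionRing.injective A0 F)).mp h)
    have h1 : (algebraMap A0 F b) * (algebraMap A0 F a') = aeval (t : F) c := by
      rw [hcoe, ← map_mul, hba]
      rfl
    have h2 : ((a * a' : A0) : F) = algebraMap A0 F a * algebraMap A0 F a' := rfl
    rw [h2, ← h1]
    field_simp

theorem exists_monic_adjoin [IsFractionRing A0 F] (x0 : I)
    (hinj : ∀ x, Function.Injective (θ x))
    (hsym : ∀ (f : A0) (k : ℕ), ∃ p : K[X], (charPoly A0 θ f).coeff k = θ x0 (aeval t p))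
    (f : F) :
    ∃ Q : K⟮(t : F)⟯[X], Q.Monic ∧ Q.natDegree = Fintype.card I ∧ aeval f Q = 0 := by
  obtain ⟨c, a, hc, hfa⟩ := exists_mul_aeval_mem A0 t θ x0 hinj hsym f
  obtain ⟨Q, hQm, hQn, hQ⟩ := exists_lift_charPoly A0 t θ x0 hsym a
  have h0 := eval₂_lift_eq_zero A0 t θ x0 (hinj x0) a hQ
  set ψ : K[X] →+* K⟮(t : F)⟯ :=
    (aeval (AdjoinSimple.gen K (t : F)) : K[X] →ₐ[K] K⟮(t : F)⟯).toRingHom with hψ
  have hψF : ∀ p : K[X], algebraMap K⟮(t : F)⟯ F (ψ p) = aeval (t : F) p := by
    intro p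
    have h1 : algebraMap K⟮(t : F)⟯ F (ψ p) = (K⟮(t : F)⟯.val) (aeval (AdjoinSimple.gen K (t : F)) p) := rfl
    rw [h1, ← aeval_algHom_apply]
    rfl
  have hcomp : (algebraMap K⟮(t : F)⟯ F).comp ψ =
      (A0.val : A0 →+* F).comp (aeval t : K[X] →ₐ[K] A0).toRingHom := by
    ext p
    · simp [hψ]
    · simp [hψ]
  have hQ' : aeval (a : F) (Q.map ψ) = 0 := by
    rw [aeval_def, eval₂_map, hcomp]
    have h1 := Polynomial.hom_eval₂ Q (aeval t : K[X] →ₐ[K] A0).toRingHom (A0.val : A0 →+* F) a
    rw [h0, map_zero] at h1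
    exact h1.symm
  set s : K⟮(t : F)⟯ := (ψ c)⁻¹ with hs
  refine ⟨scaleRoots (Q.map ψ) s, ?_, ?_, ?_⟩
  · exact (monic_scaleRoots_iff s).mpr (hQm.map ψ)
  · rw [natDegree_scaleRoots, hQm.natDegree_map ψ, hQn]
  · have h1 := scaleRoots_aeval_eq_zero (r := s) hQ'
    have h2 : f = algebraMap K⟮(t : F)⟯ F s * (a : F) := by
      rw [hs, map_inv₀, hψF, ← hfa]
      field_simp
    rw [h2]
    exact h1

end Core

section Bound

variable {k L : Type*} [Field k] [Field L] [Algebra k L]

theorem finite_and_finrank_le [CharZero k] (n : ℕ)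
    (h : ∀ f : L, ∃ Q : k[X], Q.Monic ∧ Q.natDegree = n ∧ aeval f Q = 0) :
    FiniteDimensional k L ∧ Module.finrank k L ≤ n := by
  have hint : Algebra.IsIntegral k L := ⟨fun f => by
    obtain ⟨Q, hQ, -, hQ0⟩ := h f
    exact ⟨Q, hQ, hQ0⟩⟩
  have hdeg : ∀ f : L, (minpoly k f).natDegree ≤ n := by
    intro f
    obtain ⟨Q, hQ, hQn, hQ0⟩ := h f
    rw [← hQn]
    exact natDegree_le_of_dvd (minpoly.dvd k f hQ0) hQ.ne_zero
  have hfin : FiniteDimensional k L := by
    by_contra hnfd
    obtain ⟨L', hfin, hlt⟩ := IntermediateField.exists_lt_finrank_of_infinite_dimensional hnfd n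
    obtain ⟨α, hα⟩ := Field.exists_primitive_element k L'
    have h1 := (Field.primitive_element_iff_minpoly_natDegree_eq k α).mp hα
    have h2 : minpoly k α = minpoly k (α : L) := IntermediateField.minpoly_eq α
    rw [← h1, h2] at hlt
    exact absurd (hdeg _) (not_le.mpr hlt)
  refine ⟨hfin, ?_⟩
  obtain ⟨α, hα⟩ := Field.exists_primitive_element k L
  rw [← (Field.primitive_element_iff_minpoly_natDegree_eq k α).mp hα]
  exact hdeg α

end Bound

section Main

variable {K F H : Type*} [Field K] [Field F] [Algebra K F] [CommRing H] [IsDomain H] [Algebra K H]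
variable {I : Type*} [Fintype I]
variable (A0 : Subalgebra K F) (t : A0) (θ : I → (A0 →ₐ[K] H)) [IsFractionRing A0 F]

/-- Extension of an injective `φ : A0 → H` to `F = Frac A0`, with values in a field `E`
receiving `H` injectively. -/
noncomputable def extend {E : Type*} [Field E] (j : H →+* E) (hj : Function.Injective j)
    (φ : A0 →ₐ[K] H) (hφ : Function.Injective φ) : F →+* E :=
  IsFractionRing.lift (A := A0) (K := F) (g := j.comp (φ : A0 →+* H)) (hj.comp hφ)

theorem extend_coe {E : Type*} [Field E] (j : H →+* E) (hj : Function.Injective j)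
    (φ : A0 →ₐ[K] H) (hφ : Function.Injective φ) (a : A0) :
    extend A0 j hj φ hφ (a : F) = j (φ a) :=
  IsFractionRing.lift_algebraMap (A := A0) (K := F) (g := j.comp (φ : A0 →+* H)) (hj.comp hφ) a

theorem extend_algebraMap {E : Type*} [Field E] (j : H →+* E) (hj : Function.Injective j)
    (φ : A0 →ₐ[K] H) (hφ : Function.Injective φ) (c : K) :
    extend A0 j hj φ hφ (algebraMap K F c) = j (algebraMap K H c) := by
  have h : algebraMap K F c = ((algebraMap K A0 c : A0) : F) := rfl
  rw [h, extend_coe, AlgHom.commutes]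

/-- Two extensions agree on `K⟮t⟯` as soon as they agree at `t`. -/
theorem extend_eq_on_adjoin {E : Type*} [Field E] (j : H →+* E) (hj : Function.Injective j)
    (φ φ' : A0 →ₐ[K] H) (hφ : Function.Injective φ) (hφ' : Function.Injective φ')
    (ht : φ t = φ' t) (r : F) (hr : r ∈ K⟮(t : F)⟯) :
    extend A0 j hj φ hφ r = extend A0 j hj φ' hφ' r := by
  induction hr using IntermediateField.adjoin_induction with
  | mem y hy =>
    rw [Set.mem_singleton_iff] at hy
    subst hy
    rw [extend_coe, extend_coe, ht]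
  | algebraMap c => rw [extend_algebraMap, extend_algebraMap]
  | add y z _ _ hy hz => rw [map_add, map_add, hy, hz]
  | inv y _ hy => rw [map_inv₀, map_inv₀, hy]
  | mul y z _ _ hy hz => rw [map_mul, map_mul, hy, hz]

theorem extend_injective_family {E : Type*} [Field E] (j : H →+* E) (hj : Function.Injective j)
    (hinj : ∀ x, Function.Injective (θ x)) (hdist : Function.Injective θ) :
    Function.Injective fun x => extend (F := F) A0 j hj (θ x) (hinj x) := by
  intro x y hxy
  apply hdist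
  ext a
  apply hj
  have h := congrArg (fun g : F →+* E => g (a : F)) hxy
  simpa only [extend_coe] using h

theorem card_le_finrank [FiniteDimensional K⟮(t : F)⟯ F] (x0 : I)
    (hinj : ∀ x, Function.Injective (θ x)) (hdist : Function.Injective θ)
    (ht : ∀ x, θ x t = θ x0 t) :
    Fintype.card I ≤ Module.finrank K⟮(t : F)⟯ F := by
  classical
  let E := FractionRing H
  let jH : H →+* E := algebraMap H E
  have hj : Function.Injective jH := IsFractionRing.injective H E
  let ι : I → (F →+* E) := fun x => extend A0 jH hj (θ x) (hinj x)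
  let _ : Algebra K⟮(t : F)⟯ E := ((ι x0).comp (algebraMap K⟮(t : F)⟯ F)).toAlgebra
  let ι' : I → (F →ₐ[K⟮(t : F)⟯] E) := fun x =>
    { ι x with
      commutes' := fun r =>
        extend_eq_on_adjoin A0 t jH hj (θ x) (θ x0) (hinj x) (hinj x0) (ht x) r r.2 }
  have hι'inj : Function.Injective ι' := by
    intro x y hxy
    apply extend_injective_family (F := F) A0 θ jH hj hinj hdist
    exact congrArg (fun g : F →ₐ[K⟮(t : F)⟯] E => (g : F →+* E)) hxy
  have hli := (linearIndependent_toLinearMap K⟮(t : F)⟯ F E).comp ι' hι'inj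
  have h1 := hli.fintype_card_le_finrank
  rwa [Module.finrank_linearMap_self] at h1

/-- **Abstract degree theorem.** -/
theorem finrank_eq_card [CharZero K] (x0 : I)
    (hinj : ∀ x, Function.Injective (θ x)) (hdist : Function.Injective θ)
    (ht : ∀ x, θ x t = θ x0 t)
    (hsym : ∀ (f : A0) (k : ℕ), ∃ p : K[X], (charPoly A0 θ f).coeff k = θ x0 (aeval t p)) :
    FiniteDimensional K⟮(t : F)⟯ F ∧ Module.finrank K⟮(t : F)⟯ F = Fintype.card I := by
  have : CharZero K⟮(t : F)⟯ :=
    charZero_of_injective_algebraMap (algebraMap K K⟮(t : F)⟯).injective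
  obtain ⟨hfin, hle⟩ := finite_and_finrank_le (k := K⟮(t : F)⟯) (L := F) (Fintype.card I)
    (exists_monic_adjoin A0 t θ x0 hinj hsym)
  exact ⟨hfin, le_antisymm hle (card_le_finrank A0 t θ x0 hinj hdist ht)⟩

end Main

end Fermat.Agent.S24.Degree
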