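import Mathlib
import Fermat.Agent.S24.FF.Ord

set_option autoImplicit false

namespace Fermat.Agent.S24.FibreCount

open AlgebraicCurve IntermediateField

/-- An integer-valued "order function" on a field (a discrete valuation written additively,
with an arbitrary junk value at `0`). -/
def IsOrd {L : Type*} [Field L] (u : L → ℤ) : Prop :=
  (∀ a b : L, a ≠ 0 → b ≠ 0 → u (a * b) = u a + u b) ∧
  (∀ a b : L, a ≠ 0 → b ≠ 0 → a + b ≠ 0 → min (u a) (u b) ≤ u (a + b))

namespace IsOrd

variable {L : Type*} [Field L] {u : L → ℤ} (hu : IsOrd u)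
include hu

theorem map_mul {a b : L} (ha : a ≠ 0) (hb : b ≠ 0) : u (a * b) = u a + u b := hu.1 a b ha hb

theorem map_add {a b : L} (ha : a ≠ 0) (hb : b ≠ 0) (hab : a + b ≠ 0) :
    min (u a) (u b) ≤ u (a + b) := hu.2 a b ha hb hab

theorem map_one : u 1 = 0 := by
  have h := hu.map_mul (one_ne_zero (α := L)) one_ne_zero
  rw [mul_one] at h
  omega

theorem map_inv {a : L} (ha : a ≠ 0) : u a⁻¹ = -u a := by
  have h := hu.map_mul ha (inv_ne_zero ha)
  rw [mul_inv_cancel₀ ha, hu.map_one] at h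
  omega

theorem map_div {a b : L} (ha : a ≠ 0) (hb : b ≠ 0) : u (a / b) = u a - u b := by
  rw [div_eq_mul_inv, hu.map_mul ha (inv_ne_zero hb), hu.map_inv hb]
  ring

theorem map_neg_one : u (-1) = 0 := by
  have h := hu.map_mul (neg_ne_zero.mpr (one_ne_zero (α := L))) (neg_ne_zero.mpr one_ne_zero)
  rw [neg_mul_neg, mul_one, hu.map_one] at h
  omega

theorem map_neg (a : L) : u (-a) = u a := by
  rcases eq_or_ne a 0 with rfl | ha
  · simp
  · have h := hu.map_mul (neg_ne_zero.mpr (one_ne_zero (α := L))) ha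
    rw [neg_one_mul, hu.map_neg_one] at h
    omega

theorem map_pow {a : L} (ha : a ≠ 0) (n : ℕ) : u (a ^ n) = n * u a := by
  induction n with
  | zero => simp [hu.map_one]
  | succ n ih =>
    rw [pow_succ, hu.map_mul (pow_ne_zero n ha) ha, ih]
    push_cast
    ring

theorem map_sub {a b : L} (ha : a ≠ 0) (hb : b ≠ 0) (hab : a - b ≠ 0) :
    min (u a) (u b) ≤ u (a - b) := by
  have h := hu.map_add ha (neg_ne_zero.mpr hb) (by rwa [← sub_eq_add_neg])
  rwa [hu.map_neg, ← sub_eq_add_neg] at h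

theorem map_add_eq_of_lt {a b : L} (ha : a ≠ 0) (hb : b ≠ 0) (h : u a < u b) :
    a + b ≠ 0 ∧ u (a + b) = u a := by
  have hab : a + b ≠ 0 := by
    intro h0
    have : b = -a := by linear_combination h0
    rw [this, hu.map_neg] at h
    exact lt_irrefl _ h
  refine ⟨hab, ?_⟩
  have h1 := hu.map_add ha hb hab
  have h2 := hu.map_sub hab hb (by simpa using ha)
  rw [add_sub_cancel_right] at h2
  rw [min_eq_left h.le] at h1
  rcases le_total (u (a + b)) (u b) with h3 | h3
  · rw [min_eq_left h3] at h2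
    omega
  · rw [min_eq_right h3] at h2
    omega

/-- Composition with an injective ring homomorphism. -/
theorem comp {M : Type*} [Field M] (φ : M →+* L) : IsOrd (fun a => u (φ a)) := by
  have hinj := φ.injective
  refine ⟨fun a b ha hb => ?_, fun a b ha hb hab => ?_⟩
  · simp only [_root_.map_mul]
    exact hu.map_mul ((map_ne_zero_iff φ hinj).mpr ha) ((map_ne_zero_iff φ hinj).mpr hb)
  · simp only [_root_.map_add]
    exact hu.map_add ((map_ne_zero_iff φ hinj).mpr ha) ((map_ne_zero_iff φ hinj).mpr hb)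
      (by rw [← _root_.map_add]; exact (map_ne_zero_iff φ hinj).mpr hab)

end IsOrd

/-- The order function of a place. -/
theorem isOrd_place {K F : Type*} [Field K] [Field F] [Algebra K F] (v : Place K F) :
    IsOrd v.ord :=
  ⟨fun _ _ ha hb => v.ord_mul ha hb, fun _ _ _ _ hab => FF.ord_add_ge v hab⟩


section PlaceOfOrd

variable {K F : Type*} [Field K] [Field F] [Algebra K F]

/-- The valuation subring of an order function. -/
def valSubring (u : F → ℤ) (hu : IsOrd u) : ValuationSubring F where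
  carrier := {f | f = 0 ∨ 0 ≤ u f}
  mul_mem' := by
    rintro a b (rfl | ha) (rfl | hb)
    · left; simp
    · left; simp
    · left; simp
    · rcases eq_or_ne a 0 with rfl | ha0
      · left; simp
      rcases eq_or_ne b 0 with rfl | hb0
      · left; simp
      right
      rw [hu.map_mul ha0 hb0]
      omega
  one_mem' := Or.inr (by rw [hu.map_one])
  add_mem' := by
    rintro a b (rfl | ha) (rfl | hb)
    · left; simp
    · right; simpa using hb
    · right; simpa using ha
    · rcases eq_or_ne a 0 with rfl | ha0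
      · right; simpa using hb
      rcases eq_or_ne b 0 with rfl | hb0
      · right; simpa using ha
      rcases eq_or_ne (a + b) 0 with h0 | h0
      · left; exact h0
      right
      have := hu.map_add ha0 hb0 h0
      exact le_trans (le_min ha hb) this
  zero_mem' := Or.inl rfl
  neg_mem' := by
    rintro a (rfl | ha)
    · left; simp
    · right; rwa [hu.map_neg]
  mem_or_inv_mem' := by
    intro a
    rcases eq_or_ne a 0 with rfl | ha0
    · left; left; rfl
    rcases le_or_gt 0 (u a) with h | h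
    · left; right; exact h
    · right; right
      rw [hu.map_inv ha0]
      omega

theorem mem_valSubring {u : F → ℤ} (hu : IsOrd u) {f : F} :
    f ∈ valSubring u hu ↔ f = 0 ∨ 0 ≤ u f := Iff.rfl

theorem mem_valSubring_of_ne {u : F → ℤ} (hu : IsOrd u) {f : F} (hf : f ≠ 0) :
    f ∈ valSubring u hu ↔ 0 ≤ u f := by
  rw [mem_valSubring]
  exact ⟨fun h => h.resolve_left hf, Or.inr⟩

theorem isPrincipalIdealRing_valSubring (u : F → ℤ) (hu : IsOrd u) :
    IsPrincipalIdealRing (valSubring u hu) := by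
  refine ⟨fun I => ?_⟩
  by_cases hI : I = ⊥
  · rw [hI]; exact bot_isPrincipal
  -- pick a nonzero element of minimal order
  have hne : ∃ n : ℕ, ∃ a : valSubring u hu, a ∈ I ∧ a ≠ 0 ∧ u (a : F) = n := by
    obtain ⟨a, haI, ha0⟩ := Submodule.exists_mem_ne_zero_of_ne_bot hI
    have ha0' : (a : F) ≠ 0 := fun h => ha0 (Subtype.ext h)
    have hpos : 0 ≤ u (a : F) := (mem_valSubring_of_ne hu ha0').mp a.2
    exact ⟨(u (a : F)).toNat, a, haI, ha0, (Int.toNat_of_nonneg hpos).symm⟩
  classical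
  obtain ⟨a, haI, ha0, han⟩ := Nat.find_spec hne
  have hmin : ∀ b : valSubring u hu, b ∈ I → b ≠ 0 → u (a : F) ≤ u (b : F) := by
    intro b hbI hb0
    have hb0' : (b : F) ≠ 0 := fun h => hb0 (Subtype.ext h)
    have hpos : 0 ≤ u (b : F) := (mem_valSubring_of_ne hu hb0').mp b.2
    have := Nat.find_min' hne ⟨b, hbI, hb0, (Int.toNat_of_nonneg hpos).symm⟩
    rw [han]
    omega
  have ha0' : (a : F) ≠ 0 := fun h => ha0 (Subtype.ext h)
  refine ⟨⟨a, ?_⟩⟩
  apply le_antisymm
  · intro b hbI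
    rcases eq_or_ne b 0 with rfl | hb0
    · exact zero_mem _
    have hb0' : (b : F) ≠ 0 := fun h => hb0 (Subtype.ext h)
    have hmem : (b : F) / (a : F) ∈ valSubring u hu := by
      rw [mem_valSubring_of_ne hu (div_ne_zero hb0' ha0'), hu.map_div hb0' ha0']
      have := hmin b hbI hb0
      omega
    rw [Submodule.mem_span_singleton]
    refine ⟨⟨_, hmem⟩, ?_⟩
    apply Subtype.ext
    simp only [smul_eq_mul, MulMemClass.coe_mul]
    field_simp
  · rw [Submodule.span_le]
    intro b hb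
    rw [Set.mem_singleton_iff] at hb
    rw [hb]
    exact haI

/-- The place attached to a nontrivial order function on `F` which is trivial on `K`. -/
def placeOfOrd (u : F → ℤ) (hu : IsOrd u)
    (hK : ∀ c : K, c ≠ 0 → u (algebraMap K F c) = 0) (hnt : ∃ f : F, f ≠ 0 ∧ u f < 0) :
    Place K F where
  toValuationSubring := valSubring u hu
  algebraMap_mem' := by
    intro c
    rcases eq_or_ne c 0 with rfl | hc
    · left; simp
    · right; rw [hK c hc]
  ne_top' := by
    intro htop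
    obtain ⟨f, hf0, hf⟩ := hnt
    have : f ∈ valSubring u hu := by rw [htop]; exact ValuationSubring.mem_top f
    rw [mem_valSubring_of_ne hu hf0] at this
    omega
  isPrincipalIdealRing' := isPrincipalIdealRing_valSubring u hu

theorem placeOfOrd_toValuationSubring (u : F → ℤ) (hu : IsOrd u)
    (hK : ∀ c : K, c ≠ 0 → u (algebraMap K F c) = 0) (hnt : ∃ f : F, f ≠ 0 ∧ u f < 0) :
    (placeOfOrd u hu hK hnt).toValuationSubring = valSubring u hu := rfl

theorem placeOfOrd_ord_nonneg_iff (u : F → ℤ) (hu : IsOrd u)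
    (hK : ∀ c : K, c ≠ 0 → u (algebraMap K F c) = 0) (hnt : ∃ f : F, f ≠ 0 ∧ u f < 0)
    {f : F} (hf : f ≠ 0) : 0 ≤ (placeOfOrd u hu hK hnt).ord f ↔ 0 ≤ u f := by
  rw [FF.ord_nonneg_iff _ hf, placeOfOrd_toValuationSubring, mem_valSubring_of_ne hu hf]

theorem IsOrd.map_zpow {L : Type*} [Field L] {u : L → ℤ} (hu : IsOrd u) {a : L} (ha : a ≠ 0)
    (n : ℤ) : u (a ^ n) = n * u a := by
  rcases Int.eq_nat_or_neg n with ⟨m, rfl | rfl⟩
  · rw [zpow_natCast, hu.map_pow ha]
  · rw [zpow_neg, zpow_natCast, hu.map_inv (pow_ne_zero m ha), hu.map_pow ha]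
    ring

/-- The order function of `placeOfOrd u` is `u` divided by a positive integer. -/
theorem exists_placeOfOrd_ord (u : F → ℤ) (hu : IsOrd u)
    (hK : ∀ c : K, c ≠ 0 → u (algebraMap K F c) = 0) (hnt : ∃ f : F, f ≠ 0 ∧ u f < 0) :
    ∃ κ : ℤ, 0 < κ ∧ (∃ π : F, π ≠ 0 ∧ u π = κ) ∧
      ∀ f : F, f ≠ 0 → u f = κ * (placeOfOrd u hu hK hnt).ord f := by
  set P := placeOfOrd u hu hK hnt with hP
  obtain ⟨π, hπ⟩ := IsDiscreteValuationRing.exists_irreducible P.toValuationSubring
  have hπ0 : (π : F) ≠ 0 := by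
    intro h
    exact hπ.ne_zero (Subtype.ext h)
  have hunit : ∀ ε : P.toValuationSubringˣ, u ((ε : P.toValuationSubring) : F) = 0 := by
    intro ε
    have h1 : ((ε : P.toValuationSubring) : F) ≠ 0 := by
      intro h
      exact ε.ne_zero (Subtype.ext h)
    have h2 : (((ε⁻¹ : P.toValuationSubringˣ) : P.toValuationSubring) : F) ≠ 0 := by
      intro h
      exact (ε⁻¹).ne_zero (Subtype.ext h)
    have h3 : 0 ≤ u ((ε : P.toValuationSubring) : F) :=
      (mem_valSubring_of_ne hu h1).mp (ε : P.toValuationSubring).2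
    have h4 : 0 ≤ u (((ε⁻¹ : P.toValuationSubringˣ) : P.toValuationSubring) : F) :=
      (mem_valSubring_of_ne hu h2).mp ((ε⁻¹ : P.toValuationSubringˣ) : P.toValuationSubring).2
    have h5 : ((ε : P.toValuationSubring) : F) *
        (((ε⁻¹ : P.toValuationSubringˣ) : P.toValuationSubring) : F) = 1 := by
      exact congrArg (Subtype.val) (ε.mul_inv)
    have h6 := hu.map_mul h1 h2
    rw [h5, hu.map_one] at h6
    omega
  have hπpos : 0 < u (π : F) := by
    have h1 : 0 ≤ u (π : F) := (mem_valSubring_of_ne hu hπ0).mp π.2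
    rcases h1.lt_or_eq with h | h
    · exact h
    exfalso
    apply hπ.not_isUnit
    have hmem : (π : F)⁻¹ ∈ valSubring u hu := by
      rw [mem_valSubring_of_ne hu (inv_ne_zero hπ0), hu.map_inv hπ0]
      omega
    refine isUnit_iff_exists_inv.mpr ⟨⟨_, hmem⟩, ?_⟩
    apply Subtype.ext
    simp only [MulMemClass.coe_mul, OneMemClass.coe_one]
    exact mul_inv_cancel₀ hπ0
  refine ⟨u (π : F), hπpos, ⟨π, hπ0, rfl⟩, fun f hf => ?_⟩
  obtain ⟨ε, hε⟩ := P.exists_unit_mul_zpow hf hπ
  have h1 : ((ε : P.toValuationSubring) : F) ≠ 0 := by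
    intro h
    exact ε.ne_zero (Subtype.ext h)
  conv_lhs => rw [hε]
  rw [hu.map_mul h1 (zpow_ne_zero _ hπ0), hunit ε, hu.map_zpow hπ0]
  ring

end PlaceOfOrd


section Compare

variable {K F : Type*} [Field K] [Field F] [Algebra K F]

theorem aeval_mem_valSubring {u : F → ℤ} (hu : IsOrd u)
    (hK : ∀ c : K, c ≠ 0 → u (algebraMap K F c) = 0) {t : F} (ht : 0 < u t)
    (p : Polynomial K) : Polynomial.aeval t p ∈ valSubring u hu := by
  induction p using Polynomial.induction_on' with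
  | add p q hp hq => rw [map_add]; exact add_mem hp hq
  | monomial n a =>
    rw [Polynomial.aeval_monomial]
    refine mul_mem ?_ (pow_mem (Or.inr ht.le) n)
    rcases eq_or_ne a 0 with rfl | ha
    · left; simp
    · right; rw [hK a ha]

/-- The order of a polynomial in `t` is its multiplicity at `0` times the order of `t`,
for every order function trivial on constants and positive at `t`. -/
theorem exists_mult_aeval {t : F} (ht0 : t ≠ 0) (p : Polynomial K)
    (hp : Polynomial.aeval t p ≠ 0) :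
    ∃ a : ℕ, ∀ (u : F → ℤ), IsOrd u → (∀ c : K, c ≠ 0 → u (algebraMap K F c) = 0) → 0 < u t →
      u (Polynomial.aeval t p) = a * u t := by
  have hp0 : p ≠ 0 := by rintro rfl; simp at hp
  obtain ⟨q, hq, hnd⟩ := p.exists_eq_pow_rootMultiplicity_mul_and_not_dvd hp0 0
  refine ⟨p.rootMultiplicity 0, fun u hu hK ht => ?_⟩
  rw [map_zero, sub_zero] at hq hnd
  rw [Polynomial.X_dvd_iff] at hnd
  have hq' : Polynomial.aeval t p = t ^ (p.rootMultiplicity 0) * Polynomial.aeval t q := by
    conv_lhs => rw [hq]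
    simp
  have hqt : Polynomial.aeval t q ≠ 0 := by
    intro h
    rw [hq', h, mul_zero] at hp
    exact hp rfl
  have key : u (Polynomial.aeval t q) = 0 := by
    have hdec : Polynomial.aeval t q =
        algebraMap K F (q.coeff 0) + Polynomial.aeval t q.divX * t := by
      conv_lhs => rw [← Polynomial.divX_mul_X_add q]
      simp [add_comm]
    have hc0 : algebraMap K F (q.coeff 0) ≠ 0 := by simpa using hnd
    have huc0 : u (algebraMap K F (q.coeff 0)) = 0 := hK _ hnd
    rcases eq_or_ne (Polynomial.aeval t q.divX) 0 with hr | hr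
    · rw [hdec, hr, zero_mul, add_zero, huc0]
    · have hr' : 0 ≤ u (Polynomial.aeval t q.divX) :=
        (mem_valSubring_of_ne hu hr).mp (aeval_mem_valSubring hu hK ht _)
      have hlt : u (algebraMap K F (q.coeff 0)) < u (Polynomial.aeval t q.divX * t) := by
        rw [huc0, hu.map_mul hr ht0]
        omega
      rw [hdec, (hu.map_add_eq_of_lt hc0 (mul_ne_zero hr ht0) hlt).2, huc0]
  rw [hq', hu.map_mul (pow_ne_zero _ ht0) hqt, hu.map_pow ht0, key, add_zero]

/-- Two order functions trivial on constants and positive at `t` have the same sign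
on `K⟮t⟯`. -/
theorem nonneg_of_nonneg_of_mem_adjoin {u₁ u₂ : F → ℤ} (h₁ : IsOrd u₁) (h₂ : IsOrd u₂)
    (hK₁ : ∀ c : K, c ≠ 0 → u₁ (algebraMap K F c) = 0)
    (hK₂ : ∀ c : K, c ≠ 0 → u₂ (algebraMap K F c) = 0) {t : F} (ht0 : t ≠ 0)
    (ht₁ : 0 < u₁ t) (ht₂ : 0 < u₂ t) {c : F} (hc : c ∈ K⟮t⟯) (hc0 : c ≠ 0)
    (h : 0 ≤ u₁ c) : 0 ≤ u₂ c := by
  obtain ⟨p, q, rfl⟩ := (mem_adjoin_simple_iff K c).mp hc
  have hp : Polynomial.aeval t p ≠ 0 := fun h0 => hc0 (by rw [h0, zero_div])
  have hq : Polynomial.aeval t q ≠ 0 := fun h0 => hc0 (by rw [h0, div_zero])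
  obtain ⟨a, ha⟩ := exists_mult_aeval ht0 p hp
  obtain ⟨b, hb⟩ := exists_mult_aeval ht0 q hq
  rw [h₁.map_div hp hq, ha u₁ h₁ hK₁ ht₁, hb u₁ h₁ hK₁ ht₁] at h
  rw [h₂.map_div hp hq, ha u₂ h₂ hK₂ ht₂, hb u₂ h₂ hK₂ ht₂]
  have hab : (b : ℤ) ≤ a := by
    by_contra hlt
    rw [not_le] at hlt
    have : (a : ℤ) * u₁ t < b * u₁ t := mul_lt_mul_of_pos_right hlt ht₁
    omega
  have : (b : ℤ) * u₂ t ≤ a * u₂ t := mul_le_mul_of_nonneg_right hab ht₂.le
  omega

end Compare


section Integrality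

variable {K F : Type*} [Field K] [Field F] [Algebra K F]
variable {E : Type*} [Field E]
variable {X : Type*} (ι : X → F →+* E) {t : F}

theorem agree_on_adjoin (hK : ∀ x y (c : K), ι x (algebraMap K F c) = ι y (algebraMap K F c))
    (ht : ∀ x y, ι x t = ι y t) (x y : X) {a : F} (ha : a ∈ K⟮t⟯) : ι x a = ι y a := by
  induction ha using IntermediateField.adjoin_induction with
  | mem a ha => rw [Set.mem_singleton_iff] at ha; rw [ha]; exact ht x y
  | algebraMap c => exact hK x y c
  | add a b _ _ ha hb => rw [map_add, map_add, ha, hb]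
  | inv a _ ha => rw [map_inv₀, map_inv₀, ha]
  | mul a b _ _ ha hb => rw [map_mul, map_mul, ha, hb]

/-- A function which is regular under all the embeddings `ι x` lies in the valuation ring
of every place over `t = 0`. -/
theorem mem_of_forall_nonneg [CharZero K] [Fintype X] [Module.Finite K⟮t⟯ F]
    {w : E → ℤ} (hw : IsOrd w)
    (hι : Function.Injective ι) (hcard : Fintype.card X = Module.finrank K⟮t⟯ F)
    (hK : ∀ x y (c : K), ι x (algebraMap K F c) = ι y (algebraMap K F c))
    (hK0 : ∀ x (c : K), c ≠ 0 → w (ι x (algebraMap K F c)) = 0)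
    (ht : ∀ x y, ι x t = ι y t) (ht0 : t ≠ 0) (htpos : ∀ x, 0 < w (ι x t))
    (v : Place K F) (hv : 0 < v.ord t)
    (g : F) (hg : ∀ x, 0 ≤ w (ι x g)) : g ∈ v.toValuationSubring := by
  classical
  have hpos : 0 < Fintype.card X := by rw [hcard]; exact Module.finrank_pos
  obtain ⟨x0⟩ := Fintype.card_pos_iff.mp hpos
  let algkE : Algebra K⟮t⟯ E := ((ι x0).comp (algebraMap K⟮t⟯ F)).toAlgebra
  let φ : X → F →ₐ[K⟮t⟯] E := fun x =>
    { (ι x) with commutes' := fun a => agree_on_adjoin ι hK ht x x0 a.2 }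
  let ψ : X → F →ₐ[K⟮t⟯] AlgebraicClosure E := fun x =>
    (IsScalarTower.toAlgHom K⟮t⟯ E (AlgebraicClosure E)).comp (φ x)
  have hψ : ∀ x (f : F), ψ x f = algebraMap E (AlgebraicClosure E) (ι x f) := fun x f => rfl
  have hψinj : Function.Injective ψ := by
    intro x y hxy
    apply hι
    ext f
    have := congrArg (fun σ : F →ₐ[K⟮t⟯] AlgebraicClosure E => σ f) hxy
    simp only [hψ] at this
    exact (algebraMap E (AlgebraicClosure E)).injective this
  have : CharZero F := charZero_of_injective_algebraMap (algebraMap K F).injective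
  have : CharZero K⟮t⟯ := charZero_of_injective_algebraMap (algebraMap K K⟮t⟯).injective
  have hcardΩ : Fintype.card (F →ₐ[K⟮t⟯] AlgebraicClosure E) = Module.finrank K⟮t⟯ F :=
    AlgHom.card K⟮t⟯ F (AlgebraicClosure E)
  have hψbij : Function.Bijective ψ :=
    (Fintype.bijective_iff_injective_and_card ψ).mpr ⟨hψinj, by rw [hcard, hcardΩ]⟩
  have hroots : ∀ ρ ∈ (minpoly K⟮t⟯ g).rootSet (AlgebraicClosure E),
      ∃ x, ρ = algebraMap E (AlgebraicClosure E) (ι x g) := by
    intro ρ hρ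
    rw [← Algebra.IsAlgebraic.range_eval_eq_rootSet_minpoly (AlgebraicClosure E) g] at hρ
    obtain ⟨σ, rfl⟩ := hρ
    obtain ⟨x, rfl⟩ := hψbij.2 σ
    exact ⟨x, rfl⟩
  have hint : IsIntegral K⟮t⟯ g := Algebra.IsIntegral.isIntegral g
  have hmonic := minpoly.monic hint
  -- coefficients of the minimal polynomial are regular
  let S : Subring E := (valSubring w hw).toSubring
  let θ : S →+* AlgebraicClosure E := (algebraMap E (AlgebraicClosure E)).comp S.subtype
  have hlift : (minpoly K⟮t⟯ g).map (algebraMap K⟮t⟯ (AlgebraicClosure E)) ∈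
      Polynomial.liftsRing θ := by
    have hsplit := (IsAlgClosed.splits
      ((minpoly K⟮t⟯ g).map (algebraMap K⟮t⟯ (AlgebraicClosure E)))).eq_prod_roots
    rw [hsplit]
    refine Subring.mul_mem _ ?_ (Subring.multiset_prod_mem _ _ ?_)
    · rw [Polynomial.leadingCoeff_map, hmonic.leadingCoeff, map_one, Polynomial.C_1]
      exact Subring.one_mem _
    · intro p hp
      obtain ⟨ρ, hρ, rfl⟩ := Multiset.mem_map.mp hp
      have hρ' : ρ ∈ (minpoly K⟮t⟯ g).rootSet (AlgebraicClosure E) := by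
        rw [Polynomial.rootSet_def, Finset.mem_coe, Multiset.mem_toFinset]
        exact hρ
      obtain ⟨x, rfl⟩ := hroots ρ hρ'
      refine Subring.sub_mem _ ?_ ?_
      · rw [← Polynomial.lifts_iff_liftsRing]
        exact Polynomial.X_mem_lifts θ
      · rw [← Polynomial.lifts_iff_liftsRing]
        have hmem : ι x g ∈ S := Or.inr (hg x)
        exact Polynomial.C_mem_lifts θ ⟨ι x g, hmem⟩
  rw [← Polynomial.lifts_iff_liftsRing, Polynomial.lifts_iff_coeff_lifts] at hlift
  have hcoeff : ∀ n : ℕ, (((minpoly K⟮t⟯ g).coeff n : K⟮t⟯) : F) ∈ v.toValuationSubring := by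
    intro n
    obtain ⟨e, he⟩ := hlift n
    rw [Polynomial.coeff_map] at he
    have he' : (e : E) = ι x0 (((minpoly K⟮t⟯ g).coeff n : K⟮t⟯) : F) := by
      apply (algebraMap E (AlgebraicClosure E)).injective
      rw [show algebraMap E (AlgebraicClosure E) (e : E) = θ e from rfl, he,
        IsScalarTower.algebraMap_apply K⟮t⟯ E (AlgebraicClosure E)]
      rfl
    set c : F := (((minpoly K⟮t⟯ g).coeff n : K⟮t⟯) : F) with hc
    rcases eq_or_ne c 0 with h0 | h0
    · rw [h0]; exact zero_mem _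
    have hmem : ι x0 c ∈ valSubring w hw := he' ▸ e.2
    have hne : ι x0 c ≠ 0 := (map_ne_zero_iff _ (ι x0).injective).mpr h0
    have h1 : 0 ≤ w (ι x0 c) := (mem_valSubring_of_ne hw hne).mp hmem
    have h2 : 0 ≤ v.ord c :=
      nonneg_of_nonneg_of_mem_adjoin (u₁ := fun f => w (ι x0 f)) (hw.comp (ι x0))
        (isOrd_place v) (hK0 x0) (fun c _ => FF.ord_algebraMap v c) ht0 (htpos x0) hv
        ((minpoly K⟮t⟯ g).coeff n).2 h0 h1
    exact (FF.ord_nonneg_iff v h0).mp h2
  -- hence `g` is integral over the valuation ring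
  have hlift' : (minpoly K⟮t⟯ g).map (algebraMap K⟮t⟯ F) ∈
      Polynomial.lifts (algebraMap v.toValuationSubring F) := by
    rw [Polynomial.lifts_iff_coeff_lifts]
    intro n
    rw [Polynomial.coeff_map]
    exact ⟨⟨_, hcoeff n⟩, rfl⟩
  obtain ⟨q, hqmap, -, hqmonic⟩ :=
    Polynomial.lifts_and_natDegree_eq_and_monic hlift' (hmonic.map _)
  have hintO : IsIntegral v.toValuationSubring g := by
    refine ⟨q, hqmonic, ?_⟩
    rw [Polynomial.eval₂_eq_eval_map, hqmap, Polynomial.eval_map, ← Polynomial.aeval_def,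
      minpoly.aeval]
  obtain ⟨y, hy⟩ := IsIntegrallyClosed.isIntegral_iff.mp hintO
  rw [← hy]
  exact y.2

end Integrality


section Separation

variable {L : Type*} [Field L]

/-- If the valuation ring of `p` is not contained in that of `r`, then conversely. -/
theorem exists_sep_symm {p r : L → ℤ} (hp : IsOrd p) (hr : IsOrd r)
    (hnt : ∃ t : L, t ≠ 0 ∧ 0 < p t)
    (h : ∃ a : L, a ≠ 0 ∧ 0 ≤ p a ∧ r a < 0) : ∃ b : L, b ≠ 0 ∧ 0 ≤ r b ∧ p b < 0 := by
  obtain ⟨t, ht0, ht⟩ := hnt
  obtain ⟨a, ha0, hpa, hra⟩ := h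
  by_contra hcon
  have H : ∀ b : L, b ≠ 0 → 0 ≤ r b → 0 ≤ p b := by
    intro b hb0 hrb
    by_contra hpb
    exact hcon ⟨b, hb0, hrb, by omega⟩
  set k : ℕ := (r t).toNat with hk
  have hb0 : t⁻¹ * (a ^ k)⁻¹ ≠ 0 := mul_ne_zero (inv_ne_zero ht0) (inv_ne_zero (pow_ne_zero k ha0))
  have hrb : 0 ≤ r (t⁻¹ * (a ^ k)⁻¹) := by
    rw [hr.map_mul (inv_ne_zero ht0) (inv_ne_zero (pow_ne_zero k ha0)), hr.map_inv ht0,
      hr.map_inv (pow_ne_zero k ha0), hr.map_pow ha0]
    have h1 : (k : ℤ) * r a ≤ (k : ℤ) * (-1) :=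
      mul_le_mul_of_nonneg_left (by omega) (Int.natCast_nonneg k)
    have h2 : r t ≤ k := by rw [hk]; exact Int.self_le_toNat (r t)
    omega
  have hpb := H _ hb0 hrb
  rw [hp.map_mul (inv_ne_zero ht0) (inv_ne_zero (pow_ne_zero k ha0)), hp.map_inv ht0,
    hp.map_inv (pow_ne_zero k ha0), hp.map_pow ha0] at hpb
  have h3 : 0 ≤ (k : ℤ) * p a := mul_nonneg (Int.natCast_nonneg k) hpa
  omega

/-- Two order functions with different valuation rings can be separated. -/
theorem exists_sep {p r : L → ℤ} (hp : IsOrd p) (hr : IsOrd r)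
    (hnt : ∃ t : L, t ≠ 0 ∧ 0 < p t ∧ 0 < r t)
    (h : ¬ ∀ f : L, f ≠ 0 → (0 ≤ p f ↔ 0 ≤ r f)) : ∃ c : L, c ≠ 0 ∧ 0 < p c ∧ r c < 0 := by
  obtain ⟨t, ht0, htp, htr⟩ := hnt
  have h1 : (∃ a : L, a ≠ 0 ∧ 0 ≤ p a ∧ r a < 0) ∧ (∃ b : L, b ≠ 0 ∧ 0 ≤ r b ∧ p b < 0) := by
    push Not at h
    obtain ⟨f, hf0, hf⟩ := h
    rcases hf with ⟨h1, h2⟩ | ⟨h1, h2⟩
    · have ha : ∃ a : L, a ≠ 0 ∧ 0 ≤ p a ∧ r a < 0 := ⟨f, hf0, h1, by omega⟩
      exact ⟨ha, exists_sep_symm hp hr ⟨t, ht0, htp⟩ ha⟩
    · have hb : ∃ b : L, b ≠ 0 ∧ 0 ≤ r b ∧ p b < 0 := ⟨f, hf0, h2, by omega⟩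
      exact ⟨exists_sep_symm hr hp ⟨t, ht0, htr⟩ hb, hb⟩
  obtain ⟨⟨a, ha0, hpa, hra⟩, ⟨b, hb0, hrb, hpb⟩⟩ := h1
  refine ⟨a / b, div_ne_zero ha0 hb0, ?_, ?_⟩
  · rw [hp.map_div ha0 hb0]; omega
  · rw [hr.map_div ha0 hb0]; omega

theorem IsOrd.map_prod {u : L → ℤ} (hu : IsOrd u) {ι : Type*} (s : Finset ι) (f : ι → L)
    (hf : ∀ i ∈ s, f i ≠ 0) : u (∏ i ∈ s, f i) = ∑ i ∈ s, u (f i) := by
  classical
  induction s using Finset.induction_on with
  | empty => simp [hu.map_one]
  | insert a s ha ih =>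
    rw [Finset.prod_insert ha, Finset.sum_insert ha,
      hu.map_mul (hf a (Finset.mem_insert_self a s))
        (Finset.prod_ne_zero_iff.mpr fun i hi => hf i (Finset.mem_insert_of_mem hi)),
      ih fun i hi => hf i (Finset.mem_insert_of_mem hi)]

end Separation


section Surjectivity

variable {K F : Type*} [Field K] [Field F] [Algebra K F] [CharZero K]
variable {E : Type*} [Field E] {w : E → ℤ}
variable {X : Type*} [Fintype X] (ι : X → F →+* E) {t : F}

/-- A "bump" function: regular at all `ι y`, vanishing at `ι x`, congruent to `1` at `v`. -/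
theorem exists_bump (hw : IsOrd w)
    (hK0 : ∀ x (c : K), c ≠ 0 → w (ι x (algebraMap K F c)) = 0)
    (v : Place K F) (x : X) (c : F) (hc0 : c ≠ 0) (hvc : 0 < v.ord c) (hxc : w (ι x c) < 0) :
    ∃ d : F, d ≠ 0 ∧ (∀ y, 0 ≤ w (ι y d)) ∧ 0 < w (ι x d) ∧ 1 - d ≠ 0 ∧ 0 < v.ord (1 - d) := by
  classical
  have hu : ∀ y, IsOrd (fun f => w (ι y f)) := fun y => hw.comp (ι y)
  -- the finitely many bad constants
  let B₁ : Set K := {a | c + algebraMap K F a = 0}
  let B : X → Set K := fun y => {a | c + algebraMap K F a ≠ 0 ∧ w (ι y c) = 0 ∧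
    0 < w (ι y (c + algebraMap K F a))}
  have hB₁ : B₁.Subsingleton := by
    intro a ha a' ha'
    have h1 : c + algebraMap K F a = 0 := ha
    have h2 : c + algebraMap K F a' = 0 := ha'
    have : algebraMap K F a = algebraMap K F a' := by linear_combination h1 - h2
    exact (algebraMap K F).injective this
  have hB : ∀ y, (B y).Subsingleton := by
    intro y a ha a' ha'
    obtain ⟨h1, -, h2⟩ := ha
    obtain ⟨h1', -, h2'⟩ := ha'
    by_contra hne
    have hsub : (c + algebraMap K F a) - (c + algebraMap K F a') = algebraMap K F (a - a') := by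
      rw [map_sub]; ring
    have hne' : a - a' ≠ 0 := sub_ne_zero.mpr hne
    have hne'' : (c + algebraMap K F a) - (c + algebraMap K F a') ≠ 0 := by
      rw [hsub]; exact (map_ne_zero_iff _ (algebraMap K F).injective).mpr hne'
    have := (hu y).map_sub h1 h1' hne''
    have h0 := hK0 y (a - a') hne'
    rw [hsub, h0] at this
    have := le_min h2.le h2'.le
    omega
  have hfin : ({0} ∪ B₁ ∪ ⋃ y, B y : Set K).Finite :=
    ((Set.finite_singleton 0).union hB₁.finite).union (Set.finite_iUnion fun y => (hB y).finite)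
  have hinf : Infinite K := CharZero.infinite K
  obtain ⟨a, ha⟩ := hfin.exists_notMem
  simp only [Set.mem_union, Set.mem_singleton_iff, Set.mem_iUnion, not_or, not_exists] at ha
  obtain ⟨⟨ha0, ha1⟩, ha2⟩ := ha
  have hA0 : algebraMap K F a ≠ 0 := by simpa using ha0
  have hcA : c + algebraMap K F a ≠ 0 := ha1
  have hval : ∀ y, w (ι y (algebraMap K F a / (c + algebraMap K F a))) =
      - w (ι y (c + algebraMap K F a)) := by
    intro y
    have := (hu y).map_div hA0 hcA
    rw [this, hK0 y a ha0]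
    ring
  have hcase : ∀ y, (w (ι y c) < 0 ∧ w (ι y (c + algebraMap K F a)) = w (ι y c)) ∨
      w (ι y (c + algebraMap K F a)) = 0 := by
    intro y
    rcases lt_trichotomy (w (ι y c)) 0 with h | h | h
    · left
      refine ⟨h, ?_⟩
      have := ((hu y).map_add_eq_of_lt hc0 hA0 (by rw [hK0 y a ha0]; exact h)).2
      exact this
    · right
      have h1 := (hu y).map_add hc0 hA0 hcA
      rw [h, hK0 y a ha0] at h1
      have h2 : ¬ 0 < w (ι y (c + algebraMap K F a)) := fun h3 => ha2 y ⟨hcA, h, h3⟩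
      simp only [min_self] at h1
      omega
    · right
      have := ((hu y).map_add_eq_of_lt hA0 hc0 (by rw [hK0 y a ha0]; exact h)).2
      rw [add_comm, this, hK0 y a ha0]
  refine ⟨algebraMap K F a / (c + algebraMap K F a), div_ne_zero hA0 hcA, fun y => ?_, ?_, ?_, ?_⟩
  · rw [hval y]
    rcases hcase y with ⟨h1, h2⟩ | h
    · omega
    · omega
  · rw [hval x]
    rcases hcase x with ⟨h1, h2⟩ | h
    · omega
    · exfalso
      have := ((hu x).map_add_eq_of_lt hc0 hA0 (by rw [hK0 x a ha0]; exact hxc)).2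
      omega
  · have h1 : 1 - algebraMap K F a / (c + algebraMap K F a) = c / (c + algebraMap K F a) := by
      field_simp
      ring
    rw [h1]
    exact div_ne_zero hc0 hcA
  · have h1 : 1 - algebraMap K F a / (c + algebraMap K F a) = c / (c + algebraMap K F a) := by
      field_simp
      ring
    have hv := isOrd_place v
    have h2 : v.ord (algebraMap K F a + c) = v.ord (algebraMap K F a) :=
      (hv.map_add_eq_of_lt hA0 hc0 (by rw [FF.ord_algebraMap]; exact hvc)).2
    rw [h1, hv.map_div hc0 hcA, add_comm, h2, FF.ord_algebraMap]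
    omega

/-- Every place over `t = 0` is induced by one of the embeddings. -/
theorem exists_nonneg_iff [Module.Finite K⟮t⟯ F] (hw : IsOrd w)
    (hι : Function.Injective ι) (hcard : Fintype.card X = Module.finrank K⟮t⟯ F)
    (hK : ∀ x y (c : K), ι x (algebraMap K F c) = ι y (algebraMap K F c))
    (hK0 : ∀ x (c : K), c ≠ 0 → w (ι x (algebraMap K F c)) = 0)
    (ht : ∀ x y, ι x t = ι y t) (ht0 : t ≠ 0) (htpos : ∀ x, 0 < w (ι x t))
    (v : Place K F) (hv : 0 < v.ord t) :
    ∃ x, ∀ f : F, f ≠ 0 → (0 ≤ v.ord f ↔ 0 ≤ w (ι x f)) := by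
  classical
  by_contra hcon
  push Not at hcon
  have hsep : ∀ x, ∃ c : F, c ≠ 0 ∧ 0 < v.ord c ∧ w (ι x c) < 0 := by
    intro x
    obtain ⟨f, hf0, hf⟩ := hcon x
    refine exists_sep (p := v.ord) (r := fun f => w (ι x f)) (isOrd_place v) (hw.comp (ι x))
      ⟨t, ht0, hv, htpos x⟩ ?_
    intro h
    have := h f hf0
    rcases hf with ⟨h1, h2⟩ | ⟨h1, h2⟩
    · have := this.mp h1; omega
    · have := this.mpr h2; omega
  choose c hc0 hvc hxc using hsep
  have hbump := fun x => exists_bump ι hw hK0 v x (c x) (hc0 x) (hvc x) (hxc x)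
  choose d hd0 hdy hdx hd1 hdv using hbump
  have hpos : 0 < Fintype.card X := by rw [hcard]; exact Module.finrank_pos
  obtain ⟨x0⟩ := Fintype.card_pos_iff.mp hpos
  have hD0 : ∏ x, d x ≠ 0 := Finset.prod_ne_zero_iff.mpr fun x _ => hd0 x
  have hDpos : ∀ y, 0 < w (ι y (∏ x, d x)) := by
    intro y
    have h1 := (hw.comp (ι y)).map_prod Finset.univ d (fun i _ => hd0 i)
    rw [h1]
    exact Finset.sum_pos' (fun i _ => hdy i y) ⟨y, Finset.mem_univ y, hdx y⟩
  have hf0 : ∀ y, 1 + -(∏ x, d x) ≠ 0 ∧ w (ι y (1 + -(∏ x, d x))) = 0 := by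
    intro y
    have hu := hw.comp (ι y)
    have h1 := hu.map_add_eq_of_lt (one_ne_zero (α := F)) (neg_ne_zero.mpr hD0)
      (by rw [hu.map_neg, hu.map_one]; exact hDpos y)
    refine ⟨h1.1, ?_⟩
    have h2 := h1.2
    rw [h2, hu.map_one]
  have hfne : 1 + -(∏ x, d x) ≠ 0 := (hf0 x0).1
  -- `1 - ∏ d x` lies in the maximal ideal at `v`
  have hmem : ∀ s : Finset X, ∃ h : 1 + -(∏ x ∈ s, d x) ∈ v.toValuationSubring,
      (⟨_, h⟩ : v.toValuationSubring) ∈ IsLocalRing.maximalIdeal v.toValuationSubring := by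
    intro s
    induction s using Finset.induction_on with
    | empty =>
      refine ⟨by simp, ?_⟩
      have : (⟨1 + -(∏ x ∈ (∅ : Finset X), d x), by simp⟩ : v.toValuationSubring) = 0 := by
        apply Subtype.ext; simp
      rw [this]
      exact zero_mem _
    | insert a s ha ih =>
      obtain ⟨h1, h2⟩ := ih
      have h3 := FF.mem_maximalIdeal_of_ord_pos v (hdv a)
      have hP : ∏ x ∈ s, d x ∈ v.toValuationSubring := by
        have : ∏ x ∈ s, d x = 1 - (1 + -(∏ x ∈ s, d x)) := by ring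
        rw [this]
        exact sub_mem (one_mem _) h1
      have heq : 1 + -(∏ x ∈ insert a s, d x) =
          (1 + -(∏ x ∈ s, d x)) + (1 - d a) * ∏ x ∈ s, d x := by
        rw [Finset.prod_insert ha]; ring
      have hmem' : 1 + -(∏ x ∈ insert a s, d x) ∈ v.toValuationSubring := by
        rw [heq]
        exact add_mem h1 (mul_mem (FF.mem_of_ord_pos v (hdv a)) hP)
      refine ⟨hmem', ?_⟩
      have : (⟨_, hmem'⟩ : v.toValuationSubring) =
          ⟨_, h1⟩ + ⟨_, FF.mem_of_ord_pos v (hdv a)⟩ * ⟨_, hP⟩ := by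
        apply Subtype.ext
        exact heq
      rw [this]
      exact Ideal.add_mem _ h2 (Ideal.mul_mem_right _ _ h3)
  obtain ⟨h1, h2⟩ := hmem Finset.univ
  have hvpos : 0 < v.ord (1 + -(∏ x, d x)) :=
    (FF.mem_maximalIdeal_iff_ord_pos v ⟨_, h1⟩ hfne).mp h2
  -- the inverse is regular at all embeddings, hence at `v`
  have hg : ∀ y, 0 ≤ w (ι y (1 + -(∏ x, d x))⁻¹) := by
    intro y
    have hu := hw.comp (ι y)
    have h3 := hu.map_inv hfne
    rw [h3, (hf0 y).2]
    simp
  have hgmem := mem_of_forall_nonneg ι hw hι hcard hK hK0 ht ht0 htpos v hv _ hg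
  have := FF.ord_nonneg_of_mem v hgmem
  rw [v.ord_inv] at this
  omega

end Surjectivity

section Combinatorics

/-- A surjection `φ : Q → V` between finite types with weights `a` on `V`, positive weights `b`
on `Q`, `a (φ q) ≤ b q` and `∑ b ≤ ∑ a` is injective. -/
theorem injective_of_sum_le {Q V : Type*} [Fintype Q] [Fintype V] [DecidableEq V]
    [DecidableEq Q] (φ : Q → V) (hφ : Function.Surjective φ) (a : V → ℕ) (b : Q → ℕ)
    (hb : ∀ q, 0 < b q) (hab : ∀ q, a (φ q) ≤ b q) (hsum : ∑ q, b q ≤ ∑ v, a v) :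
    Function.Injective φ := by
  intro q1 q2 h
  by_contra hne
  have key : ∑ v, a v < ∑ q, b q := by
    rw [← Finset.sum_fiberwise (s := Finset.univ) (g := φ) (f := b)]
    apply Finset.sum_lt_sum
    · intro v _
      obtain ⟨q, rfl⟩ := hφ v
      calc a (φ q) ≤ b q := hab q
        _ ≤ ∑ i ∈ Finset.univ.filter (fun i => φ i = φ q), b i :=
          Finset.single_le_sum (f := b) (fun _ _ => Nat.zero_le _) (by simp)
    · refine ⟨φ q1, Finset.mem_univ _, ?_⟩
      calc a (φ q1) ≤ b q1 := hab q1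
        _ < b q1 + b q2 := by have := hb q2; omega
        _ = ∑ i ∈ ({q1, q2} : Finset Q), b i := (Finset.sum_pair hne).symm
        _ ≤ ∑ i ∈ Finset.univ.filter (fun i => φ i = φ q1), b i := by
          apply Finset.sum_le_sum_of_subset
          intro i hi
          simp only [Finset.mem_insert, Finset.mem_singleton] at hi
          simp only [Finset.mem_filter, Finset.mem_univ, true_and]
          rcases hi with rfl | rfl
          · rfl
          · exact h.symm
  omega

end Combinatorics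

section Counting

variable {K F : Type*} [Field K] [Field F] [Algebra K F]
variable {E : Type*} [Field E] {w : E → ℤ}
variable {X : Type*} (ι : X → F →+* E) {t : F}

/-- The place induced by the `x`-th embedding. -/
def placeOfEmb (hw : IsOrd w)
    (hK0 : ∀ x (c : K), c ≠ 0 → w (ι x (algebraMap K F c)) = 0)
    (ht0 : t ≠ 0) (htpos : ∀ x, 0 < w (ι x t)) (x : X) : Place K F :=
  placeOfOrd (fun f => w (ι x f)) (hw.comp (ι x)) (hK0 x)
    ⟨t⁻¹, inv_ne_zero ht0, by
      have h : w (ι x t⁻¹) = -w (ι x t) := (hw.comp (ι x)).map_inv ht0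
      have h2 := htpos x
      show w (ι x t⁻¹) < 0
      omega⟩

variable (hw : IsOrd w) (hK0 : ∀ x (c : K), c ≠ 0 → w (ι x (algebraMap K F c)) = 0)
  (ht0 : t ≠ 0) (htpos : ∀ x, 0 < w (ι x t))

theorem placeOfEmb_ord_nonneg_iff (x : X) {f : F} (hf : f ≠ 0) :
    0 ≤ (placeOfEmb ι hw hK0 ht0 htpos x).ord f ↔ 0 ≤ w (ι x f) :=
  placeOfOrd_ord_nonneg_iff _ _ _ _ hf

theorem placeOfEmb_eq_of_forall (x y : X) (h : ∀ f : F, w (ι x f) = w (ι y f)) :
    placeOfEmb ι hw hK0 ht0 htpos x = placeOfEmb ι hw hK0 ht0 htpos y := by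
  apply Place.ext
  apply SetLike.ext
  intro f
  show f ∈ valSubring (fun f => w (ι x f)) (hw.comp (ι x)) ↔
    f ∈ valSubring (fun f => w (ι y f)) (hw.comp (ι y))
  rw [mem_valSubring, mem_valSubring, h f]

theorem eq_placeOfEmb_of_forall (v : Place K F) (x : X)
    (h : ∀ f : F, f ≠ 0 → (0 ≤ v.ord f ↔ 0 ≤ w (ι x f))) :
    v = placeOfEmb ι hw hK0 ht0 htpos x := by
  apply Place.ext
  apply SetLike.ext
  intro f
  show f ∈ v.toValuationSubring ↔ f ∈ valSubring (fun f => w (ι x f)) (hw.comp (ι x))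
  rcases eq_or_ne f 0 with rfl | hf
  · simp
  · rw [← FF.ord_nonneg_iff v hf, mem_valSubring_of_ne _ hf]
    exact h f hf

theorem exists_kappa (x : X) :
    ∃ κ : ℤ, 0 < κ ∧ (∃ π : F, π ≠ 0 ∧ w (ι x π) = κ) ∧
      ∀ f : F, f ≠ 0 → w (ι x f) = κ * (placeOfEmb ι hw hK0 ht0 htpos x).ord f :=
  exists_placeOfOrd_ord _ _ _ _

theorem placeOfEmb_ord_pos (x : X) : 0 < (placeOfEmb ι hw hK0 ht0 htpos x).ord t := by
  obtain ⟨κ, hκ, -, h⟩ := exists_kappa ι hw hK0 ht0 htpos x
  have h1 := h t ht0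
  have h2 := htpos x
  rw [h1] at h2
  exact (mul_pos_iff_of_pos_left hκ).mp h2

variable {G : Type*} [Group G] [MulAction G X] (g : G)

omit hw hK0 ht0 htpos in
theorem ord_zpowers_smul (hg : ∀ x (f : F), w (ι (g • x) f) = w (ι x f)) (h : G)
    (hh : h ∈ Subgroup.zpowers g) (x : X) (f : F) : w (ι (h • x) f) = w (ι x f) := by
  let S : Subgroup G :=
    { carrier := {h | ∀ x f, w (ι (h • x) f) = w (ι x f)}
      mul_mem' := by
        intro a b ha hb x f
        rw [mul_smul, ha, hb]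
      one_mem' := by
        intro x f
        rw [one_smul]
      inv_mem' := by
        intro a ha x f
        have := ha (a⁻¹ • x) f
        rw [smul_inv_smul] at this
        exact this.symm }
  have hle : Subgroup.zpowers g ≤ S := (Subgroup.zpowers_le).mpr hg
  exact hle hh x f

theorem placeOfEmb_ord_le (x : X) (m : ℕ) (s : ℕ) (hts : w (ι x t) = s)
    (hbound : ∃ κ : ℕ, (∀ f : F, f ≠ 0 → (κ : ℤ) ∣ w (ι x f)) ∧ s ≤ κ * m) :
    (placeOfEmb ι hw hK0 ht0 htpos x).ord t ≤ m := by
  obtain ⟨κ, hκ, ⟨π, hπ0, hπ⟩, h⟩ := exists_kappa ι hw hK0 ht0 htpos x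
  obtain ⟨κ', hdvd, hle⟩ := hbound
  have h1 : (κ' : ℤ) ∣ κ := hπ ▸ hdvd π hπ0
  have h2 : (κ' : ℤ) ≤ κ := Int.le_of_dvd hκ h1
  have h3 := h t ht0
  rw [hts] at h3
  have h4 : (s : ℤ) ≤ (κ' : ℤ) * m := by exact_mod_cast hle
  have h5 : κ * (placeOfEmb ι hw hK0 ht0 htpos x).ord t ≤ κ * m := by
    rw [← h3]
    exact h4.trans (mul_le_mul_of_nonneg_right h2 (Int.natCast_nonneg m))
  exact le_of_mul_le_mul_left h5 hκ

end Counting

section Main

variable {K F : Type*} [Field K] [Field F] [Algebra K F]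
variable {E : Type*} [Field E]
variable {X : Type*} {G : Type*} [Group G] [MulAction G X]

/-- **Fibre count** (general form). Places of `F` over `t = 0` are in bijection with the
`⟨g⟩`-orbits on a full system `ι` of embeddings of `F` (over `K(t)`) into a field `E` with an
order function `w`. -/
theorem card_places_eq_card_orbits_aux [CharZero K] [Fintype X] (t : F) [Module.Finite K⟮t⟯ F]
    (hfin : {v : Place K F | 0 < v.ord t}.Finite)
    (hsum : ∑ v ∈ hfin.toFinset, v.ord t = Module.finrank K⟮t⟯ F)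
    (w : E → ℤ)
    (hw_mul : ∀ a b : E, a ≠ 0 → b ≠ 0 → w (a * b) = w a + w b)
    (hw_add : ∀ a b : E, a ≠ 0 → b ≠ 0 → a + b ≠ 0 → min (w a) (w b) ≤ w (a + b))
    (g : G) (ι : X → F →+* E)
    (hι : Function.Injective ι) (hcard : Fintype.card X = Module.finrank K⟮t⟯ F)
    (hK : ∀ x y (c : K), ι x (algebraMap K F c) = ι y (algebraMap K F c))
    (hK0 : ∀ x (c : K), c ≠ 0 → w (ι x (algebraMap K F c)) = 0)
    (ht : ∀ x y, ι x t = ι y t) (s : ℕ) (hs : 0 < s) (hts : ∀ x, w (ι x t) = s)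
    (hg : ∀ x (f : F), w (ι (g • x) f) = w (ι x f))
    (hbound : ∀ x, ∃ κ : ℕ, (∀ f : F, f ≠ 0 → (κ : ℤ) ∣ w (ι x f)) ∧
      s ≤ κ * Nat.card (MulAction.orbit (Subgroup.zpowers g) x)) :
    Nat.card {v : Place K F // 0 < v.ord t} =
      Nat.card (MulAction.orbitRel.Quotient (Subgroup.zpowers g) X) := by
  classical
  have hw : IsOrd w := ⟨hw_mul, hw_add⟩
  have hn : 0 < Module.finrank K⟮t⟯ F := Module.finrank_pos
  have ht0 : t ≠ 0 := by
    rintro rfl
    have : hfin.toFinset = ∅ := by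
      ext v
      simp
    rw [this, Finset.sum_empty] at hsum
    omega
  have htpos : ∀ x, 0 < w (ι x t) := fun x => by rw [hts x]; exact_mod_cast hs
  have hPpos : ∀ x, 0 < (placeOfEmb ι hw hK0 ht0 htpos x).ord t :=
    placeOfEmb_ord_pos ι hw hK0 ht0 htpos
  -- the map from orbits to places
  let φ : MulAction.orbitRel.Quotient (Subgroup.zpowers g) X → {v : Place K F // 0 < v.ord t} :=
    Quotient.lift (fun x => ⟨placeOfEmb ι hw hK0 ht0 htpos x, hPpos x⟩) (by
      intro x y hxy
      obtain ⟨⟨h, hh⟩, rfl⟩ := (MulAction.orbitRel_apply.mp hxy)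
      apply Subtype.ext
      exact placeOfEmb_eq_of_forall ι hw hK0 ht0 htpos _ _
        (fun f => ord_zpowers_smul ι g hg h hh y f))
  have hφsurj : Function.Surjective φ := by
    rintro ⟨v, hv⟩
    obtain ⟨x, hx⟩ := exists_nonneg_iff ι hw hι hcard hK hK0 ht ht0 htpos v hv
    refine ⟨Quotient.mk _ x, Subtype.ext ?_⟩
    exact (eq_placeOfEmb_of_forall ι hw hK0 ht0 htpos v x hx).symm
  have : Fintype {v : Place K F // 0 < v.ord t} := hfin.fintype
  have h1 : ∑ q : MulAction.orbitRel.Quotient (Subgroup.zpowers g) X, Nat.card q.orbit =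
      Fintype.card X := by
    rw [← Nat.card_eq_fintype_card,
      Nat.card_congr (MulAction.selfEquivSigmaOrbits' (Subgroup.zpowers g) X), Nat.card_sigma]
  have h2 : ((∑ v : {v : Place K F // 0 < v.ord t}, (v.1.ord t).toNat : ℕ) : ℤ) =
      Module.finrank K⟮t⟯ F := by
    rw [← hsum, Nat.cast_sum,
      Finset.sum_subtype hfin.toFinset (p := fun v => 0 < v.ord t) (fun v => by simp)
        (fun v => v.ord t)]
    apply Finset.sum_congr rfl
    intro v _
    exact Int.toNat_of_nonneg v.2.le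
  have hφinj : Function.Injective φ := by
    apply injective_of_sum_le φ hφsurj (fun v => (v.1.ord t).toNat) (fun q => Nat.card q.orbit)
    · intro q
      have : Nonempty q.orbit := (MulAction.orbitRel.Quotient.nonempty_orbit q).to_subtype
      exact Nat.card_pos
    · intro q
      induction q using Quotient.inductionOn with
      | _ x =>
        have hb := placeOfEmb_ord_le ι hw hK0 ht0 htpos x
          (Nat.card (MulAction.orbit (Subgroup.zpowers g) x)) s (hts x) (hbound x)
        have he : MulAction.orbitRel.Quotient.orbit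
            (Quotient.mk (MulAction.orbitRel (Subgroup.zpowers g) X) x) =
            MulAction.orbit (Subgroup.zpowers g) x := MulAction.orbitRel.Quotient.orbit_mk x
        show ((placeOfEmb ι hw hK0 ht0 htpos x).ord t).toNat ≤ _
        rw [he]
        omega
    · rw [h1, hcard]
      exact_mod_cast h2.ge
  exact Nat.card_congr (Equiv.ofBijective φ ⟨hφinj, hφsurj⟩).symm

end Main

section Interface

variable {K F : Type*} [Field K] [Field F] [Algebra K F]

/-- **Fibre count** (interface form). `K` algebraically closed of characteristic zero, `F/K` a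
field, `t : F` with `[F : K(t)] = n < ∞`, `hsum : ∑_{v ∣ t} ord_v t = n`. Given `n` pairwise
distinct embeddings `ι x : F →+* E` agreeing on `K` and on `t`, an order function `w` on `E`
trivial on `K` with `w (ι x t) = s > 0`, a group element `g` acting on the index set and preserving
`w ∘ ι x`, and the bound `hbound` on the ramification, the places of `F` over `t = 0` are counted
by the `⟨g⟩`-orbits on the index set. -/
theorem card_places_eq_card_orbits [IsAlgClosed K] [CharZero K] (t : F)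
    (htr : Transcendental K t) [Module.Finite K⟮t⟯ F]
    (hfin : {v : Place K F | 0 < v.ord t}.Finite)
    (hsum : ∑ v ∈ hfin.toFinset, v.ord t = Module.finrank K⟮t⟯ F)
    {E : Type*} [Field E] (w : E → ℤ)
    (hw_mul : ∀ a b : E, a ≠ 0 → b ≠ 0 → w (a * b) = w a + w b)
    (hw_add : ∀ a b : E, a ≠ 0 → b ≠ 0 → a + b ≠ 0 → min (w a) (w b) ≤ w (a + b))
    {X : Type*} [Fintype X] {G : Type*} [Group G] [MulAction G X] (g : G)
    (ι : X → F →+* E) (hι : Function.Injective ι)
    (hcard : Fintype.card X = Module.finrank K⟮t⟯ F)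
    (hK : ∀ x y (c : K), ι x (algebraMap K F c) = ι y (algebraMap K F c))
    (hK0 : ∀ x (c : K), c ≠ 0 → w (ι x (algebraMap K F c)) = 0)
    (ht : ∀ x y, ι x t = ι y t) (s : ℕ) (hs : 0 < s) (hts : ∀ x, w (ι x t) = s)
    (hg : ∀ x (f : F), w (ι (g • x) f) = w (ι x f))
    (hbound : ∀ x, ∃ κ : ℕ, (∀ f : F, f ≠ 0 → (κ : ℤ) ∣ w (ι x f)) ∧
      s ≤ κ * Nat.card (MulAction.orbit (Subgroup.zpowers g) x)) :
    Nat.card {v : Place K F // 0 < v.ord t} =
      Nat.card (MulAction.orbitRel.Quotient (Subgroup.zpowers g) X) := by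
  have _ := htr
  exact card_places_eq_card_orbits_aux t hfin hsum w hw_mul hw_add g ι hι hcard hK hK0 ht s hs hts
    hg hbound

end Interface

end Fermat.Agent.S24.FibreCount
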