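import Fermat.Agent.S24.HolHOrd

set_option autoImplicit false
set_option linter.dupNamespace false

open scoped Manifold MatrixGroups Topology
open UpperHalfPlane Filter

noncomputable section

namespace Fermat.Agent.S24.HolH

/-- Local rotation lemma: if `F ∘ G = F` near a fixed point `z0` of `G`, then the multiplier
`G'(z0)` raised to the vanishing order of `F` at `z0` is `1`. -/
theorem deriv_pow_order_eq_one {F G : ℂ → ℂ} {z0 : ℂ} (hF : AnalyticAt ℂ F z0)
    (hG : AnalyticAt ℂ G z0) (hG0 : G z0 = z0) (hFG : F ∘ G =ᶠ[𝓝 z0] F)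
    (hn : analyticOrderAt F z0 ≠ ⊤) :
    deriv G z0 ^ (analyticOrderAt F z0).toNat = 1 := by
  obtain ⟨h, hh, hh0, hFh⟩ := hF.analyticOrderAt_ne_top.mp hn
  set n := analyticOrderNatAt F z0 with hn_def
  have hn' : (analyticOrderAt F z0).toNat = n := rfl
  rw [hn']
  set k := dslope G z0 with hk
  have hkc : ContinuousAt k z0 := continuousAt_dslope_same.mpr hG.differentiableAt
  have hk0 : k z0 = deriv G z0 := dslope_same G z0
  have hkz : ∀ z, G z - z0 = (z - z0) * k z := by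
    intro z
    have := sub_smul_dslope G z0 z
    rw [hG0] at this
    rw [← this, smul_eq_mul]
  have hGt : Tendsto G (𝓝 z0) (𝓝 z0) := by
    have := hG.continuousAt
    rw [ContinuousAt, hG0] at this
    exact this
  have h1 : ∀ᶠ z in 𝓝 z0, F (G z) = (G z - z0) ^ n • h (G z) := hFh.comp_tendsto hGt
  have h2 : ∀ᶠ z in 𝓝 z0, (z - z0) ^ n * h z = (z - z0) ^ n * (k z ^ n * h (G z)) := by
    filter_upwards [h1, hFh, hFG] with z hz1 hz2 hz3
    have e1 : F z = (z - z0) ^ n * h z := by simpa [smul_eq_mul] using hz2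
    have e2 : F (G z) = ((z - z0) * k z) ^ n * h (G z) := by
      rw [hz1, hkz z, smul_eq_mul]
    have e3 : F (G z) = F z := hz3
    rw [← e1, ← e3, e2, mul_pow]
    ring
  have h3 : ∀ᶠ z in 𝓝[≠] z0, h z = k z ^ n * h (G z) := by
    have h2' : ∀ᶠ z in 𝓝[≠] z0, (z - z0) ^ n * h z = (z - z0) ^ n * (k z ^ n * h (G z)) :=
      h2.filter_mono nhdsWithin_le_nhds
    filter_upwards [h2', self_mem_nhdsWithin] with z hz hzne
    have hzne' : z - z0 ≠ 0 := sub_ne_zero.mpr hzne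
    exact mul_left_cancel₀ (pow_ne_zero n hzne') hz
  have hlim1 : Tendsto h (𝓝[≠] z0) (𝓝 (h z0)) :=
    hh.continuousAt.tendsto.mono_left nhdsWithin_le_nhds
  have hlim2 : Tendsto (fun z => k z ^ n * h (G z)) (𝓝[≠] z0) (𝓝 (k z0 ^ n * h z0)) := by
    have hc : ContinuousAt (fun z => k z ^ n * h (G z)) z0 := by
      refine (hkc.pow n).mul ?_
      have hh' : ContinuousAt h (G z0) := by rw [hG0]; exact hh.continuousAt
      exact ContinuousAt.comp (f := G) (g := h) hh' hG.continuousAt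
    have := hc.tendsto
    simp only [hG0] at this
    exact this.mono_left nhdsWithin_le_nhds
  have heq : h z0 = k z0 ^ n * h z0 := tendsto_nhds_unique_of_eventuallyEq hlim1 hlim2 h3
  rw [hk0] at heq
  have : (deriv G z0 ^ n - 1) * h z0 = 0 := by rw [sub_mul, one_mul, ← heq, sub_self]
  rcases mul_eq_zero.mp this with h' | h'
  · exact sub_eq_zero.mp h'
  · exact absurd h' hh0

/-- The Möbius map of `g` read on `ℂ`. -/
def moebC (g : SL(2, ℤ)) : ℂ → ℂ := fun z => (((g : GL (Fin 2) ℝ) • ofComplex z : ℍ) : ℂ)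

theorem moebC_apply (g : SL(2, ℤ)) (τ : ℍ) : moebC g (τ : ℂ) = ((g • τ : ℍ) : ℂ) := by
  simp only [moebC, ofComplex_apply]
  rfl

theorem deriv_moebC (g : SL(2, ℤ)) (τ : ℍ) :
    deriv (moebC g) (τ : ℂ) = 1 / denom (g : GL (Fin 2) ℝ) τ ^ 2 := by
  have hg' : (0 : ℝ) < ((g : GL (Fin 2) ℝ)).det.val := by simp
  have hg : (0 : ℝ) < ((g : GL (Fin 2) ℝ)).val.det := hg'
  have hdet : ((g : GL (Fin 2) ℝ)).val.det = 1 := by
    have : ((g : GL (Fin 2) ℝ)).det.val = 1 := by simp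
    exact this
  have h := τ.deriv_smul hg
  rw [hdet] at h
  show deriv (fun z : ℂ => (((g : GL (Fin 2) ℝ) • ofComplex z : ℍ) : ℂ)) τ = _
  rw [h]
  simp

/-- Rotation lemma on the upper half plane: a nonzero holomorphic `f` invariant under `g`, at a
fixed point `τ0` of `g`, has order `n` with `(1 / (c τ0 + d)^2) ^ n = 1`. -/
theorem multiplier_pow_ordAt_eq_one (g : SL(2, ℤ)) (τ0 : ℍ) (hfix : g • τ0 = τ0) (f : HolH)
    (hf : f ≠ 0) (hinv : compSL g f = f) :
    (1 / denom (g : GL (Fin 2) ℝ) τ0 ^ 2) ^ (ordAt τ0 f).toNat = 1 := by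
  have hg' : (0 : ℝ) < ((g : GL (Fin 2) ℝ)).det.val := by simp
  have hg : (0 : ℝ) < ((g : GL (Fin 2) ℝ)).val.det := hg'
  have hG : AnalyticAt ℂ (moebC g) (τ0 : ℂ) := τ0.analyticAt_smul hg
  have hG0 : moebC g (τ0 : ℂ) = (τ0 : ℂ) := by rw [moebC_apply, hfix]
  have hFG : toC f ∘ moebC g =ᶠ[𝓝 (τ0 : ℂ)] toC f := by
    have hcomp : toC (compSL g f) = toC f ∘ moebC g := by
      funext z
      simp only [toC, Function.comp_apply, compSL_apply, ofComplex_apply, moebC]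
      rfl
    rw [← hcomp, hinv]
  have := deriv_pow_order_eq_one (toC_analyticAt f τ0) hG hG0 hFG (ordAt_ne_top hf)
  rw [deriv_moebC] at this
  exact this



theorem sq_eq_neg_one_of_S_fixed {τ0 : ℍ} (hfix : ModularGroup.S • τ0 = τ0) :
    (τ0 : ℂ) ^ 2 = -1 := by
  have h := congrArg (fun z : ℍ => (z : ℂ)) hfix
  simp only [modular_S_smul] at h
  have h2 : (-(τ0 : ℂ))⁻¹ = τ0 := h
  have hne : (τ0 : ℂ) ≠ 0 := τ0.ne_zero
  field_simp at h2
  linear_combination -h2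

theorem denom_S_eq (τ0 : ℍ) : denom ((ModularGroup.S : SL(2, ℤ)) : GL (Fin 2) ℝ) τ0 = τ0 := by
  simp

theorem even_ordAt_of_S_fixed {τ0 : ℍ} (hfix : ModularGroup.S • τ0 = τ0) {f : HolH} (hf : f ≠ 0)
    (hinv : compSL ModularGroup.S f = f) : Even (ordAt τ0 f).toNat := by
  have h := multiplier_pow_ordAt_eq_one ModularGroup.S τ0 hfix f hf hinv
  rw [denom_S_eq, sq_eq_neg_one_of_S_fixed hfix] at h
  have h' : (-1 : ℂ) ^ (ordAt τ0 f).toNat = 1 := by
    simpa using h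
  exact (neg_one_pow_eq_one_iff_even (by norm_num)).mp h'



theorem denom_ST_eq (τ0 : ℍ) :
    denom ((ModularGroup.S * ModularGroup.T : SL(2, ℤ)) : GL (Fin 2) ℝ) τ0 = τ0 + 1 := by
  simp [denom, ModularGroup.coe_S, ModularGroup.coe_T, Matrix.SpecialLinearGroup.toGL, Matrix.mul_apply, Fin.sum_univ_two]

theorem sq_add_self_add_one_of_ST_fixed {τ0 : ℍ}
    (hfix : (ModularGroup.S * ModularGroup.T) • τ0 = τ0) : (τ0 : ℂ) ^ 2 + τ0 + 1 = 0 := by
  rw [mul_smul] at hfix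
  have h := congrArg (fun z : ℍ => (z : ℂ)) hfix
  simp only [modular_S_smul, modular_T_smul] at h
  have h2 : (-((1 : ℝ) + (τ0 : ℂ)))⁻¹ = τ0 := by simpa using h
  have hne : (1 : ℂ) + (τ0 : ℂ) ≠ 0 := by
    intro h0
    have := congrArg Complex.im h0
    simp at this
    exact τ0.im_pos.ne' this
  have h3 : -(1 : ℂ) = τ0 * (1 + τ0) := by
    have : (-(1 + (τ0 : ℂ)))⁻¹ = τ0 := by simpa using h2
    field_simp at this
    linear_combination this
  linear_combination -h3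

theorem three_dvd_ordAt_of_ST_fixed {τ0 : ℍ}
    (hfix : (ModularGroup.S * ModularGroup.T) • τ0 = τ0) {f : HolH} (hf : f ≠ 0)
    (hinv : compSL (ModularGroup.S * ModularGroup.T) f = f) : 3 ∣ (ordAt τ0 f).toNat := by
  have h := multiplier_pow_ordAt_eq_one _ τ0 hfix f hf hinv
  have hq := sq_add_self_add_one_of_ST_fixed hfix
  rw [denom_ST_eq] at h
  set n := (ordAt τ0 f).toNat with hn
  have hτ : (τ0 : ℂ) ≠ 0 := τ0.ne_zero
  have hsq : ((τ0 : ℂ) + 1) ^ 2 = τ0 := by linear_combination hq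
  rw [hsq, one_div, inv_pow, inv_eq_one] at h
  -- τ0 ^ n = 1, τ0 ^ 3 = 1, τ0 ≠ 1, τ0 ^ 2 ≠ 1
  have h3 : (τ0 : ℂ) ^ 3 = 1 := by linear_combination ((τ0 : ℂ) - 1) * hq
  have h1 : (τ0 : ℂ) ≠ 1 := by
    intro h1
    have := congrArg Complex.im h1
    simp at this
    exact τ0.im_pos.ne' this
  have h2 : (τ0 : ℂ) ^ 2 ≠ 1 := by
    intro h2
    have h4 : (τ0 : ℂ) = -2 := by linear_combination hq - h2
    have := congrArg Complex.im h4
    simp at this
    exact τ0.im_pos.ne' this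
  have hmod : (τ0 : ℂ) ^ (n % 3) = 1 := by
    have : (τ0 : ℂ) ^ n = (τ0 : ℂ) ^ (n % 3) * ((τ0 : ℂ) ^ 3) ^ (n / 3) := by
      rw [← pow_mul, ← pow_add, Nat.mod_add_div]
    rw [this, h3, one_pow, mul_one] at h
    exact h
  have hlt : n % 3 < 3 := Nat.mod_lt _ (by norm_num)
  have : n % 3 = 0 := by
    interval_cases hr : n % 3
    · rfl
    · exact absurd (by simpa using hmod) h1
    · exact absurd hmod h2
  exact Nat.dvd_of_mod_eq_zero this


theorem compSL_eq_self_of_inv {g : SL(2, ℤ)} {f : HolH} (h : compSL g⁻¹ f = f) : compSL g f = f := by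
  have := compSL_compSL_inv g f
  rw [h] at this
  exact this

theorem two_dvd_ordZ_of_S_fixed {τ0 : ℍ} (hfix : ModularGroup.S • τ0 = τ0) {f : HolH} (hf : f ≠ 0)
    (hinv : compSL ModularGroup.S f = f) : (2 : ℤ) ∣ ordZ τ0 f := by
  have h := (even_ordAt_of_S_fixed hfix hf hinv).two_dvd
  have h' : ((2 : ℕ) : ℤ) ∣ (((ordAt τ0 f).toNat : ℕ) : ℤ) := Int.natCast_dvd_natCast.mpr h
  exact h'

theorem three_dvd_ordZ_of_ST_fixed {τ0 : ℍ}
    (hfix : (ModularGroup.S * ModularGroup.T) • τ0 = τ0) {f : HolH} (hf : f ≠ 0)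
    (hinv : compSL (ModularGroup.S * ModularGroup.T) f = f) : (3 : ℤ) ∣ ordZ τ0 f := by
  have h := three_dvd_ordAt_of_ST_fixed hfix hf hinv
  have h' : ((3 : ℕ) : ℤ) ∣ (((ordAt τ0 f).toNat : ℕ) : ℤ) := Int.natCast_dvd_natCast.mpr h
  exact h'

end Fermat.Agent.S24.HolH

end
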