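import Mathlib
import Fermat.Prelude.Def_ModularCurve_GenusNumerics

namespace Fermat.Agent.S24.GenusInt

open Equiv

section PermOrbits

variable {X : Type*} [Fintype X] [DecidableEq X]

/-- Complete invariant of the `SameCycle` classes of a permutation. -/
def classMap (σ : Perm X) (x : X) : Perm X ⊕ X :=
  if σ x = x then Sum.inr x else Sum.inl (σ.cycleOf x)

theorem classMap_eq_iff (σ : Perm X) (x y : X) :
    classMap σ x = classMap σ y ↔ σ.SameCycle x y := by
  unfold classMap
  constructor
  · intro h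
    by_cases hx : σ x = x <;> by_cases hy : σ y = y
    · rw [if_pos hx, if_pos hy] at h
      rw [Sum.inr.injEq] at h
      subst h
      exact Perm.SameCycle.refl σ x
    · rw [if_pos hx, if_neg hy] at h
      exact absurd h (by simp)
    · rw [if_neg hx, if_pos hy] at h
      exact absurd h (by simp)
    · rw [if_neg hx, if_neg hy] at h
      rw [Sum.inl.injEq] at h
      exact (Perm.sameCycle_iff_cycleOf_eq_of_mem_support (Perm.mem_support.mpr hx)
        (Perm.mem_support.mpr hy)).mpr h
  · intro h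
    by_cases hx : σ x = x
    · have hxy : x = y := h.eq_of_left hx
      subst hxy
      rfl
    · have hy : ¬ σ y = y := fun hy => hx (h.apply_eq_self_iff.mpr hy)
      rw [if_neg hx, if_neg hy, h.cycleOf_eq]

theorem range_classMap (σ : Perm X) :
    Set.range (classMap σ) =
      Sum.inl '' (σ.cycleFactorsFinset : Set (Perm X)) ∪ Sum.inr '' (Function.fixedPoints σ) := by
  ext z
  constructor
  · rintro ⟨x, rfl⟩
    unfold classMap
    by_cases hx : σ x = x
    · rw [if_pos hx]
      exact Or.inr ⟨x, hx, rfl⟩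
    · rw [if_neg hx]
      exact Or.inl ⟨_, Finset.mem_coe.mpr
        (Perm.cycleOf_mem_cycleFactorsFinset_iff.mpr (Perm.mem_support.mpr hx)), rfl⟩
  · rintro (⟨c, hc, rfl⟩ | ⟨x, hx, rfl⟩)
    · have hc' := Finset.mem_coe.mp hc
      obtain ⟨hcyc, hcσ⟩ := Perm.mem_cycleFactorsFinset_iff.mp hc'
      obtain ⟨a, ha⟩ := hcyc.nonempty_support
      have hσa : σ a ≠ a := by
        rw [← hcσ a ha]
        exact Perm.mem_support.mp ha
      refine ⟨a, ?_⟩
      unfold classMap
      rw [if_neg hσa, ← Perm.cycle_is_cycleOf ha hc']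
    · refine ⟨x, ?_⟩
      unfold classMap
      rw [if_pos (show σ x = x from hx)]

theorem card_quotient_sameCycle (σ : Perm X) :
    Nat.card (Quotient (Perm.SameCycle.setoid σ)) =
      Multiset.card σ.cycleType + Fintype.card (Function.fixedPoints σ) := by
  classical
  have hker : Perm.SameCycle.setoid σ = Setoid.ker (classMap σ) := by
    ext x y
    exact (classMap_eq_iff σ x y).symm
  rw [hker, Nat.card_congr (Setoid.quotientKerEquivRange (classMap σ)), range_classMap,
    Nat.card_coe_set_eq, Set.ncard_union_eq, Set.ncard_image_of_injective _ Sum.inl_injective,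
    Set.ncard_image_of_injective _ Sum.inr_injective, Set.ncard_coe_finset,
    Perm.cycleType_def, Multiset.card_map, Finset.card_val, ← Nat.card_coe_set_eq,
    Nat.card_eq_fintype_card]
  · rw [Set.disjoint_left]
    rintro z ⟨c, -, rfl⟩ ⟨x, -, h⟩
    exact absurd h (by simp)

end PermOrbits


section Action

variable {G : Type*} [Group G] (X : Type*) [Fintype X] [DecidableEq X] [MulAction G X]

/-- Number of orbits on `X` of the cyclic group generated by `g`. -/
noncomputable def orb (g : G) : ℕ :=
  Nat.card (MulAction.orbitRel.Quotient (Subgroup.zpowers g) X)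

omit [Fintype X] [DecidableEq X] in
theorem orbitRel_zpowers_iff (g : G) (x y : X) :
    (MulAction.orbitRel (Subgroup.zpowers g) X).r x y ↔
      (MulAction.toPerm g : Perm X).SameCycle x y := by
  rw [Perm.sameCycle_comm]
  change x ∈ MulAction.orbit (Subgroup.zpowers g) y ↔ _
  rw [MulAction.mem_orbit_iff]
  constructor
  · rintro ⟨⟨h, hh⟩, rfl⟩
    obtain ⟨i, rfl⟩ := Subgroup.mem_zpowers_iff.mp hh
    refine ⟨i, ?_⟩
    rw [← MulAction.toPermHom_apply, ← map_zpow]
    rfl
  · rintro ⟨i, rfl⟩
    refine ⟨⟨g ^ i, Subgroup.zpow_mem_zpowers g i⟩, ?_⟩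
    rw [← MulAction.toPermHom_apply, ← map_zpow]
    rfl

theorem orb_eq (g : G) :
    orb X g = Multiset.card (MulAction.toPerm g : Perm X).cycleType +
      Fintype.card (Function.fixedPoints (MulAction.toPerm g : Perm X)) := by
  rw [← card_quotient_sameCycle]
  exact Nat.card_congr (Quotient.congr (Equiv.refl X) (fun x y => orbitRel_zpowers_iff X g x y))

theorem card_fixedBy_eq (g : G) :
    Nat.card (MulAction.fixedBy X g) =
      Fintype.card (Function.fixedPoints (MulAction.toPerm g : Perm X)) := by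
  rw [← Nat.card_eq_fintype_card]
  rfl

theorem sign_toPerm (g : G) :
    Perm.sign (MulAction.toPerm g : Perm X) = (-1 : ℤˣ) ^ (Fintype.card X + orb X g) := by
  rw [Perm.sign_of_cycleType, orb_eq, Perm.card_fixedPoints]
  have hle := Perm.sum_cycleType_le (MulAction.toPerm g : Perm X)
  set n := Fintype.card X
  set m := (MulAction.toPerm g : Perm X).cycleType.sum
  set c := Multiset.card (MulAction.toPerm g : Perm X).cycleType
  have h : n + (c + (n - m)) = (m + c) + 2 * (n - m) := by omega
  rw [h, pow_add (-1 : ℤˣ) (m + c) (2 * (n - m)), pow_mul]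
  simp

theorem two_mul_orb (g : G) (hg : ∀ x : X, g • g • x = x) :
    2 * orb X g = Fintype.card X + Nat.card (MulAction.fixedBy X g) := by
  have hp : (MulAction.toPerm g : Perm X) ^ 2 = 1 := by
    ext x
    simp only [pow_two, Perm.mul_apply, MulAction.toPerm_apply, Perm.one_apply]
    exact hg x
  have : Fact (Nat.Prime 2) := ⟨Nat.prime_two⟩
  have hct := Perm.cycleType_of_pow_prime_eq_one hp
  have hle := Perm.sum_cycleType_le (MulAction.toPerm g : Perm X)
  rw [card_fixedBy_eq, orb_eq, Perm.card_fixedPoints]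
  have hsum : (MulAction.toPerm g : Perm X).cycleType.sum =
      Multiset.card (MulAction.toPerm g : Perm X).cycleType * 2 := by
    conv_lhs => rw [hct]
    rw [Multiset.sum_replicate, smul_eq_mul]
  omega

theorem three_mul_orb (g : G) (hg : ∀ x : X, g • g • g • x = x) :
    3 * orb X g = Fintype.card X + 2 * Nat.card (MulAction.fixedBy X g) := by
  have hp : (MulAction.toPerm g : Perm X) ^ 3 = 1 := by
    ext x
    simp only [pow_succ, pow_zero, one_mul, Perm.mul_apply, MulAction.toPerm_apply,
      Perm.one_apply]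
    exact hg x
  have : Fact (Nat.Prime 3) := ⟨Nat.prime_three⟩
  have hct := Perm.cycleType_of_pow_prime_eq_one hp
  have hle := Perm.sum_cycleType_le (MulAction.toPerm g : Perm X)
  rw [card_fixedBy_eq, orb_eq, Perm.card_fixedPoints]
  have hsum : (MulAction.toPerm g : Perm X).cycleType.sum =
      Multiset.card (MulAction.toPerm g : Perm X).cycleType * 3 := by
    conv_lhs => rw [hct]
    rw [Multiset.sum_replicate, smul_eq_mul]
  omega

/-- Parity: `|X| + o(a) + o(b) + o(ab)` is even. -/
theorem even_card_add_orb (a b : G) :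
    Even (Fintype.card X + orb X a + orb X b + orb X (a * b)) := by
  have h1 : Perm.sign (MulAction.toPerm (a * b) : Perm X) =
      Perm.sign (MulAction.toPerm a : Perm X) * Perm.sign (MulAction.toPerm b : Perm X) := by
    rw [← Perm.sign_mul]
    congr 1
    ext x
    simp [mul_smul]
  rw [sign_toPerm, sign_toPerm, sign_toPerm, ← pow_add] at h1
  by_contra hodd
  rw [Nat.not_even_iff_odd] at hodd
  have h2 : (-1 : ℤˣ) ^ (Fintype.card X + orb X (a * b) +
      (Fintype.card X + orb X a + (Fintype.card X + orb X b))) = 1 := by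
    rw [pow_add, h1, ← pow_add, ← two_mul, pow_mul]
    simp
  have h3 : Odd (Fintype.card X + orb X (a * b) +
      (Fintype.card X + orb X a + (Fintype.card X + orb X b))) := by
    obtain ⟨k, hk⟩ := hodd
    exact ⟨k + Fintype.card X, by omega⟩
  rw [h3.neg_one_pow] at h2
  exact absurd h2 (by decide)

end Action

section Scott

variable {G : Type*} [Group G] (X : Type*) [Fintype X] [DecidableEq X] [MulAction G X]

/-- The operator `f ↦ f ∘ (g • ·)` on functions `X → ℚ`. -/
noncomputable def opA (g : G) : (X → ℚ) →ₗ[ℚ] (X → ℚ) :=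
  LinearMap.funLeft ℚ ℚ (fun x => g • x)

omit [Fintype X] [DecidableEq X] in
@[simp] theorem opA_apply (g : G) (f : X → ℚ) (x : X) : opA X g f x = f (g • x) := rfl

/-- The subgroup of elements leaving a function invariant. -/
def invSubgroup (f : X → ℚ) : Subgroup G where
  carrier := {h | ∀ x, f (h • x) = f x}
  mul_mem' := by
    intro a b ha hb x
    rw [mul_smul, ha, hb]
  one_mem' := by
    intro x
    rw [one_smul]
  inv_mem' := by
    intro a ha x
    have := ha (a⁻¹ • x)
    rw [smul_inv_smul] at this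
    exact this.symm

omit [Fintype X] [DecidableEq X] in
theorem mem_invSubgroup (f : X → ℚ) (h : G) : h ∈ invSubgroup X f ↔ ∀ x, f (h • x) = f x :=
  Iff.rfl

omit [Fintype X] [DecidableEq X] in
theorem mem_ker_iff (g : G) (f : X → ℚ) :
    f ∈ LinearMap.ker (LinearMap.id - opA X g) ↔ ∀ x, f (g • x) = f x := by
  rw [LinearMap.mem_ker, LinearMap.sub_apply, LinearMap.id_apply, sub_eq_zero]
  constructor
  · intro h x
    have := congrFun h x
    rw [opA_apply] at this
    exact this.symm
  · intro h
    funext x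
    rw [opA_apply, h]

omit [DecidableEq X] in
theorem finrank_ker (g : G) :
    Module.finrank ℚ (LinearMap.ker (LinearMap.id - opA X g)) = orb X g := by
  classical
  set Ω := MulAction.orbitRel.Quotient (Subgroup.zpowers g) X
  have : Fintype Ω := Fintype.ofFinite Ω
  set Φ : (Ω → ℚ) →ₗ[ℚ] (X → ℚ) := LinearMap.funLeft ℚ ℚ (Quotient.mk'' : X → Ω) with hΦ
  have hinj : Function.Injective Φ :=
    LinearMap.funLeft_injective_of_surjective ℚ ℚ _ Quotient.mk''_surjective
  have hrange : LinearMap.range Φ = LinearMap.ker (LinearMap.id - opA X g) := by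
    ext f
    rw [mem_ker_iff]
    constructor
    · rintro ⟨h, rfl⟩ x
      change h (Quotient.mk'' (g • x)) = h (Quotient.mk'' x)
      congr 1
      apply Quotient.sound'
      exact ⟨⟨g, Subgroup.mem_zpowers g⟩, rfl⟩
    · intro hf
      have hle : Subgroup.zpowers g ≤ invSubgroup X f := by
        rw [Subgroup.zpowers_le]
        exact hf
      refine ⟨Quotient.lift f ?_, ?_⟩
      · rintro x y ⟨⟨h, hh⟩, rfl⟩
        exact hle hh y
      · funext x
        rfl
  rw [← hrange, LinearMap.finrank_range_of_inj hinj, Module.finrank_fintype_fun_eq_card, orb,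
    Nat.card_eq_fintype_card]

omit [DecidableEq X] in
theorem finrank_range_add_orb (g : G) :
    Module.finrank ℚ (LinearMap.range (LinearMap.id - opA X g)) + orb X g = Fintype.card X := by
  have h := LinearMap.finrank_range_add_finrank_ker (LinearMap.id - opA X g)
  rw [finrank_ker, Module.finrank_fintype_fun_eq_card] at h
  exact h

/-- The sum functional. -/
noncomputable def sumL : (X → ℚ) →ₗ[ℚ] ℚ where
  toFun f := ∑ x, f x
  map_add' f g := by simp [Finset.sum_add_distrib]
  map_smul' c f := by simp [Finset.mul_sum]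

theorem finrank_ker_sumL [Nonempty X] :
    Module.finrank ℚ (LinearMap.ker (sumL X)) + 1 = Fintype.card X := by
  have h := LinearMap.finrank_range_add_finrank_ker (sumL X)
  have hsurj : LinearMap.range (sumL X) = ⊤ := by
    rw [LinearMap.range_eq_top]
    intro c
    obtain ⟨x0⟩ := ‹Nonempty X›
    refine ⟨Pi.single x0 c, ?_⟩
    change ∑ x, (Pi.single x0 c : X → ℚ) x = c
    rw [Finset.sum_pi_single']
    simp
  rw [hsurj, finrank_top, Module.finrank_self, Module.finrank_fintype_fun_eq_card] at h
  omega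

/-- Scott's lemma for permutation modules: if `a, b` generate a transitive group on `X`,
then `o(a) + o(b) + o(ab) ≤ |X| + 2`. -/
theorem orb_add_orb_add_orb_le [Nonempty X] (a b : G)
    (htrans : ∀ x y : X, ∃ g ∈ Subgroup.closure ({a, b} : Set G), g • x = y) :
    orb X a + orb X b + orb X (a * b) ≤ Fintype.card X + 2 := by
  classical
  set Ta := LinearMap.id - opA X a with hTa
  set Tb := LinearMap.id - opA X b with hTb
  set Tc := LinearMap.id - opA X (a * b) with hTc
  set Da := LinearMap.range Ta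
  set Db := LinearMap.range Tb
  set Dc := LinearMap.range Tc
  have hDa : Module.finrank ℚ Da + orb X a = Fintype.card X := finrank_range_add_orb X a
  have hDb : Module.finrank ℚ Db + orb X b = Fintype.card X := finrank_range_add_orb X b
  have hDc : Module.finrank ℚ Dc + orb X (a * b) = Fintype.card X :=
    finrank_range_add_orb X (a * b)
  -- the two maps
  set β : (X → ℚ) →ₗ[ℚ] (Da × Db × Dc) :=
    Ta.rangeRestrict.prod (Tb.rangeRestrict.prod Tc.rangeRestrict) with hβ
  set δ : (Da × Db × Dc) →ₗ[ℚ] (X → ℚ) :=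
    (opA X b ∘ₗ Da.subtype) ∘ₗ LinearMap.fst ℚ Da (Db × Dc) +
      (Db.subtype ∘ₗ LinearMap.fst ℚ Db Dc - Dc.subtype ∘ₗ LinearMap.snd ℚ Db Dc) ∘ₗ
        LinearMap.snd ℚ Da (Db × Dc) with hδ
  have hδ_apply : ∀ p : Da × Db × Dc,
      δ p = opA X b (p.1 : X → ℚ) + ((p.2.1 : X → ℚ) - (p.2.2 : X → ℚ)) := fun p => rfl
  have hβ_apply : ∀ f : X → ℚ, β f =
      (⟨Ta f, LinearMap.mem_range_self Ta f⟩, ⟨Tb f, LinearMap.mem_range_self Tb f⟩,
        ⟨Tc f, LinearMap.mem_range_self Tc f⟩) := fun f => rfl
  have hδβ : δ ∘ₗ β = 0 := by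
    apply LinearMap.ext
    intro f
    rw [LinearMap.comp_apply, hβ_apply, hδ_apply]
    funext x
    simp only [hTa, hTb, hTc, LinearMap.sub_apply, LinearMap.id_apply, opA_apply, Pi.add_apply,
      Pi.sub_apply, LinearMap.zero_apply, Pi.zero_apply, mul_smul]
    ring
  have hle1 : LinearMap.range β ≤ LinearMap.ker δ := LinearMap.range_le_ker_iff.mpr hδβ
  -- kernel of β consists of constants
  have hkerβ : Module.finrank ℚ (LinearMap.ker β) ≤ 1 := by
    obtain ⟨x0⟩ := ‹Nonempty X›
    have hone : (fun _ : X => (1 : ℚ)) ≠ 0 := by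
      intro h
      have := congrFun h x0
      simp at this
    have hsub : LinearMap.ker β ≤ Submodule.span ℚ {(fun _ : X => (1 : ℚ))} := by
      intro f hf
      rw [LinearMap.mem_ker] at hf
      have h1 : Ta f = 0 := by
        have := congrArg (fun p : Da × Db × Dc => (p.1 : X → ℚ)) hf
        simpa [hβ] using this
      have h2 : Tb f = 0 := by
        have := congrArg (fun p : Da × Db × Dc => (p.2.1 : X → ℚ)) hf
        simpa [hβ] using this
      have ha : a ∈ invSubgroup X f := (mem_ker_iff X a f).mp (LinearMap.mem_ker.mpr h1)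
      have hb : b ∈ invSubgroup X f := (mem_ker_iff X b f).mp (LinearMap.mem_ker.mpr h2)
      have hcl : Subgroup.closure ({a, b} : Set G) ≤ invSubgroup X f := by
        rw [Subgroup.closure_le]
        rintro g (rfl | rfl)
        · exact ha
        · exact hb
      rw [Submodule.mem_span_singleton]
      refine ⟨f x0, ?_⟩
      funext y
      obtain ⟨g, hg, rfl⟩ := htrans x0 y
      simp only [Pi.smul_apply, smul_eq_mul, mul_one]
      exact (hcl hg x0).symm
    calc Module.finrank ℚ (LinearMap.ker β)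
        ≤ Module.finrank ℚ (Submodule.span ℚ {(fun _ : X => (1 : ℚ))}) :=
          Submodule.finrank_mono hsub
      _ = 1 := finrank_span_singleton hone
  have hβrk := LinearMap.finrank_range_add_finrank_ker β
  rw [Module.finrank_fintype_fun_eq_card] at hβrk
  -- range of δ contains the augmentation kernel
  have hR1 : ∀ v : X → ℚ, Tb v ∈ LinearMap.range δ := by
    intro v
    refine ⟨(0, ⟨Tb v, LinearMap.mem_range_self Tb v⟩, 0), ?_⟩
    simp [hδ]
  have hR2 : ∀ v : X → ℚ, Ta v ∈ LinearMap.range δ := by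
    intro v
    have h1 : opA X b (Ta v) ∈ LinearMap.range δ := by
      refine ⟨(⟨Ta v, LinearMap.mem_range_self Ta v⟩, 0, 0), ?_⟩
      simp [hδ]
    have h2 := hR1 (Ta v)
    have h3 : Ta v = opA X b (Ta v) + Tb (Ta v) := by
      simp [hTb]
    rw [h3]
    exact Submodule.add_mem _ h1 h2
  have hsingle : ∀ (g : G) (x : X), opA X g (Pi.single (g • x) (1 : ℚ)) = Pi.single x (1 : ℚ) := by
    intro g x
    funext y
    rw [opA_apply]
    by_cases hy : y = x
    · subst hy
      simp
    · rw [Pi.single_eq_of_ne hy, Pi.single_eq_of_ne]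
      intro h
      exact hy (MulAction.injective g h)
  -- subgroup of elements moving basis vectors within the range
  let H : Subgroup G :=
    { carrier := {g | ∀ x : X, (Pi.single (g • x) (1 : ℚ) - Pi.single x (1 : ℚ) : X → ℚ) ∈
        LinearMap.range δ}
      mul_mem' := by
        intro g h hg hh x
        have e : (Pi.single ((g * h) • x) (1 : ℚ) - Pi.single x (1 : ℚ) : X → ℚ) =
            (Pi.single (g • (h • x)) (1 : ℚ) - Pi.single (h • x) (1 : ℚ)) +
              (Pi.single (h • x) (1 : ℚ) - Pi.single x (1 : ℚ)) := by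
          rw [mul_smul]; abel
        rw [e]
        exact Submodule.add_mem _ (hg (h • x)) (hh x)
      one_mem' := by
        intro x
        rw [one_smul, sub_self]
        exact Submodule.zero_mem _
      inv_mem' := by
        intro g hg x
        have e : (Pi.single (g⁻¹ • x) (1 : ℚ) - Pi.single x (1 : ℚ) : X → ℚ) =
            -(Pi.single (g • (g⁻¹ • x)) (1 : ℚ) - Pi.single (g⁻¹ • x) (1 : ℚ)) := by
          rw [smul_inv_smul]; abel
        rw [e]
        exact Submodule.neg_mem _ (hg (g⁻¹ • x)) }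
  have haH : a ∈ H := by
    intro x
    have := hR2 (Pi.single (a • x) (1 : ℚ))
    rwa [hTa, LinearMap.sub_apply, LinearMap.id_apply, hsingle] at this
  have hbH : b ∈ H := by
    intro x
    have := hR1 (Pi.single (b • x) (1 : ℚ))
    rwa [hTb, LinearMap.sub_apply, LinearMap.id_apply, hsingle] at this
  have hclH : Subgroup.closure ({a, b} : Set G) ≤ H := by
    rw [Subgroup.closure_le]
    rintro g (rfl | rfl)
    · exact haH
    · exact hbH
  have hdiff : ∀ x y : X, (Pi.single y (1 : ℚ) - Pi.single x (1 : ℚ) : X → ℚ) ∈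
      LinearMap.range δ := by
    intro x y
    obtain ⟨g, hg, rfl⟩ := htrans x y
    exact hclH hg x
  have hle2 : LinearMap.ker (sumL X) ≤ LinearMap.range δ := by
    intro f hf
    obtain ⟨x0⟩ := ‹Nonempty X›
    have hsum : ∑ x, f x = 0 := hf
    have hf' : f = ∑ x, f x • (Pi.single x (1 : ℚ) - Pi.single x0 (1 : ℚ) : X → ℚ) := by
      have e1 : ∑ x, f x • (Pi.single x (1 : ℚ) : X → ℚ) = f := by
        funext y
        simp only [Finset.sum_apply, Pi.smul_apply, smul_eq_mul, Pi.single_apply, mul_ite,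
          mul_one, mul_zero, Finset.sum_ite_eq, Finset.mem_univ, if_true]
      have e2 : ∑ x, f x • (Pi.single x0 (1 : ℚ) : X → ℚ) = 0 := by
        rw [← Finset.sum_smul, hsum, zero_smul]
      simp only [smul_sub, Finset.sum_sub_distrib, e1, e2, sub_zero]
    rw [hf']
    exact Submodule.sum_mem _ fun x _ => Submodule.smul_mem _ _ (hdiff x0 x)
  have hδrk := LinearMap.finrank_range_add_finrank_ker δ
  rw [Module.finrank_prod, Module.finrank_prod] at hδrk
  have h1 := Submodule.finrank_mono hle1
  have h2 := Submodule.finrank_mono hle2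
  have h3 := finrank_ker_sumL X
  omega

end Scott

section Main

variable {G : Type*} [Group G] (X : Type*) [Fintype X] [DecidableEq X] [MulAction G X]

/-- Abstract genus numerics: for a transitive action of `⟨s, t⟩` with `s² = 1` and `(st)³ = 1`
on `X`, the number `12 + |X| - 3·#Fix(s) - 4·#Fix(st) - 6·#orbits(t)` is a nonnegative multiple
of `12`. -/
theorem exists_twelve_mul_eq [Nonempty X] (s t : G)
    (hs : ∀ x : X, s • s • x = x)
    (hu : ∀ x : X, (s * t) • (s * t) • (s * t) • x = x)
    (htrans : ∀ x y : X, ∃ g ∈ Subgroup.closure ({s, t} : Set G), g • x = y) :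
    ∃ k : ℕ, (12 * (k : ℤ)) = 12 + (Fintype.card X : ℤ) - 3 * (Nat.card (MulAction.fixedBy X s) : ℤ)
      - 4 * (Nat.card (MulAction.fixedBy X (s * t)) : ℤ) - 6 * (orb X t : ℤ) := by
  have h2 := two_mul_orb X s hs
  have h3 := three_mul_orb X (s * t) hu
  have hsc := orb_add_orb_add_orb_le X s t htrans
  obtain ⟨m, hm⟩ := even_card_add_orb X s t
  refine ⟨(Fintype.card X + 2 - (orb X s + orb X t + orb X (s * t))) / 2, ?_⟩
  omega

end Main

section Gamma0

open scoped MatrixGroups
open CongruenceSubgroup ModularGroup Matrix.SpecialLinearGroup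

variable (N : ℕ) [NeZero N]

omit [NeZero N] in
theorem neg_one_mem_Gamma0 : (-1 : SL(2, ℤ)) ∈ Gamma0 N := by
  rw [Gamma0_mem]
  simp

omit [NeZero N] in
theorem neg_one_smul_quot (x : SL(2, ℤ) ⧸ Gamma0 N) : (-1 : SL(2, ℤ)) • x = x := by
  induction x using QuotientGroup.induction_on with
  | H g =>
    change ((((-1 : SL(2, ℤ)) * g : SL(2, ℤ)) : SL(2, ℤ) ⧸ Gamma0 N)) =
      (g : SL(2, ℤ) ⧸ Gamma0 N)
    rw [QuotientGroup.eq]
    have h : ((-1 : SL(2, ℤ)) * g)⁻¹ * g = -1 := by
      rw [inv_mul_eq_iff_eq_mul]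
      ext i j
      simp
    rw [h]
    exact neg_one_mem_Gamma0 N

theorem S_mul_S : (S * S : SL(2, ℤ)) = -1 := by
  apply Subtype.ext
  rw [Matrix.SpecialLinearGroup.coe_mul, Matrix.SpecialLinearGroup.coe_neg,
    Matrix.SpecialLinearGroup.coe_one]
  exact S_mul_S_eq

theorem ST_pow_three : ((S * T) * (S * T) * (S * T) : SL(2, ℤ)) = -1 := by
  apply Subtype.ext
  simp only [Matrix.SpecialLinearGroup.coe_mul, Matrix.SpecialLinearGroup.coe_neg,
    Matrix.SpecialLinearGroup.coe_one, coe_S, coe_T, Matrix.mul_fin_two, Matrix.one_fin_two]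
  ext i j
  fin_cases i <;> fin_cases j <;> simp

/-- `genusFormula N` is a natural number, given the four counting identities on
`SL(2,ℤ) ⧸ Γ₀(N)`. -/
theorem exists_nat_eq_genusFormula
    (hindex : Nat.card (SL(2, ℤ) ⧸ Gamma0 N) = ModularCurve.dedekindPsi N)
    (hS : Nat.card (MulAction.fixedBy (SL(2, ℤ) ⧸ Gamma0 N) S) = ModularCurve.nuTwo N)
    (hST : Nat.card (MulAction.fixedBy (SL(2, ℤ) ⧸ Gamma0 N) (S * T)) = ModularCurve.nuThree N)
    (hT : Nat.card (MulAction.orbitRel.Quotient (Subgroup.zpowers T) (SL(2, ℤ) ⧸ Gamma0 N)) =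
      ModularCurve.cuspCount N) :
    ∃ g : ℕ, ModularCurve.genusFormula N = (g : ℚ) := by
  classical
  have : Fintype (SL(2, ℤ) ⧸ Gamma0 N) := Fintype.ofFinite _
  have hs : ∀ x : SL(2, ℤ) ⧸ Gamma0 N, S • S • x = x := by
    intro x
    rw [← mul_smul, S_mul_S, neg_one_smul_quot]
  have hu : ∀ x : SL(2, ℤ) ⧸ Gamma0 N, (S * T) • (S * T) • (S * T) • x = x := by
    intro x
    rw [← mul_smul, ← mul_smul, ST_pow_three, neg_one_smul_quot]
  have htrans : ∀ x y : SL(2, ℤ) ⧸ Gamma0 N,
      ∃ g ∈ Subgroup.closure ({S, T} : Set SL(2, ℤ)), g • x = y := by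
    intro x y
    obtain ⟨g, hg⟩ := MulAction.exists_smul_eq SL(2, ℤ) x y
    exact ⟨g, by rw [SpecialLinearGroup.SL2Z_generators]; exact Subgroup.mem_top g, hg⟩
  obtain ⟨k, hk⟩ := exists_twelve_mul_eq (SL(2, ℤ) ⧸ Gamma0 N) S T hs hu htrans
  rw [hS, hST] at hk
  have hT' : orb (SL(2, ℤ) ⧸ Gamma0 N) T = ModularCurve.cuspCount N := hT
  rw [hT', ← Nat.card_eq_fintype_card, hindex] at hk
  refine ⟨k, ?_⟩
  have hk' : (12 : ℚ) * k = 12 + (ModularCurve.dedekindPsi N : ℚ) - 3 * (ModularCurve.nuTwo N : ℚ)
      - 4 * (ModularCurve.nuThree N : ℚ) - 6 * (ModularCurve.cuspCount N : ℚ) := by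
    exact_mod_cast hk
  unfold ModularCurve.genusFormula
  linarith

omit [NeZero N] in
/-- Final wiring for the definition of `AlgebraicCurve.genus`: if the degree of the canonical
divisor is `2 * genusFormula N - 2`, then `(deg + 2).toNat / 2` is `genusFormula N`. -/
theorem toNat_div_two_eq_genusFormula (hnat : ∃ g : ℕ, ModularCurve.genusFormula N = (g : ℚ))
    (deg : ℤ) (hdeg : (deg : ℚ) = 2 * ModularCurve.genusFormula N - 2) :
    (((deg + 2).toNat / 2 : ℕ) : ℚ) = ModularCurve.genusFormula N := by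
  obtain ⟨g, hg⟩ := hnat
  rw [hg] at hdeg ⊢
  have h : deg + 2 = ((2 * g : ℕ) : ℤ) := by
    have : ((deg + 2 : ℤ) : ℚ) = (((2 * g : ℕ) : ℤ) : ℚ) := by
      push_cast
      linarith
    exact_mod_cast this
  rw [h, Int.toNat_natCast, Nat.mul_div_cancel_left g (by norm_num)]

end Gamma0

end Fermat.Agent.S24.GenusInt
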