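import Mathlib
import Fermat.Prelude.Def_ModularCurve_GenusNumerics

set_option autoImplicit false

namespace Fermat.Agent.S24.GenusNat

open Equiv Equiv.Perm

section PermOrbits

variable {X : Type*} [Fintype X] [DecidableEq X]

set_option linter.unusedSectionVars false

/-- Number of cycles of `π` (orbits of the cyclic group generated by `π`), fixed points included. -/
noncomputable def orb (π : Perm X) : ℕ :=
  Nat.card (MulAction.orbitRel.Quotient (Subgroup.zpowers π) X)

theorem orbitRel_zpowers_iff (π : Perm X) (x y : X) :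
    MulAction.orbitRel (Subgroup.zpowers π) X x y ↔ π.SameCycle y x := by
  rw [MulAction.orbitRel_apply, MulAction.mem_orbit_iff]
  constructor
  · rintro ⟨⟨g, hg⟩, rfl⟩
    obtain ⟨i, rfl⟩ := Subgroup.mem_zpowers_iff.mp hg
    exact ⟨i, rfl⟩
  · rintro ⟨i, rfl⟩
    exact ⟨⟨π ^ i, Subgroup.zpow_mem_zpowers π i⟩, rfl⟩

/-- The cycle (or fixed point) through a point. -/
noncomputable def cyc (π : Perm X) (x : X) :
    (π.cycleFactorsFinset ⊕ Function.fixedPoints π) :=
  if h : π x = x then Sum.inr ⟨x, h⟩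
  else Sum.inl ⟨π.cycleOf x, cycleOf_mem_cycleFactorsFinset_iff.mpr (mem_support.mpr h)⟩

theorem sameCycle_fixed {π : Perm X} {x y : X} (h : π.SameCycle x y) (hx : π x = x) : x = y := by
  obtain ⟨i, rfl⟩ := h
  have : ∀ i : ℤ, (π ^ i) x = x := by
    intro i
    exact (zpow_apply_eq_self_of_apply_eq_self hx i)
  exact (this i).symm

theorem cyc_eq_iff (π : Perm X) (x y : X) : cyc π x = cyc π y ↔ π.SameCycle x y := by
  unfold cyc
  by_cases hx : π x = x <;> by_cases hy : π y = y
  · rw [dif_pos hx, dif_pos hy]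
    constructor
    · intro h
      have h' : x = y := congrArg Subtype.val (Sum.inr.inj h)
      subst h'
      exact SameCycle.refl _ _
    · intro h
      have h' := sameCycle_fixed h hx
      subst h'
      rfl
  · rw [dif_pos hx, dif_neg hy]
    constructor
    · intro h; exact absurd h (by simp)
    · intro h
      exact absurd ((sameCycle_fixed h hx) ▸ hx) hy
  · rw [dif_neg hx, dif_pos hy]
    constructor
    · intro h; exact absurd h (by simp)
    · intro h
      exact absurd ((sameCycle_fixed h.symm hy) ▸ hy) hx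
  · rw [dif_neg hx, dif_neg hy]
    constructor
    · intro h
      have h2 : π.cycleOf x = π.cycleOf y := congrArg Subtype.val (Sum.inl.inj h)
      have h1 : π.cycleOf x x ≠ x := by
        rw [cycleOf_apply_self]; exact hx
      rw [h2, cycleOf_apply] at h1
      by_contra hsc
      rw [if_neg (fun h' => hsc h'.symm)] at h1
      exact h1 rfl
    · intro h
      congr 1
      exact Subtype.ext h.cycleOf_eq

theorem cyc_surjective (π : Perm X) : Function.Surjective (cyc π) := by
  rintro (⟨c, hc⟩ | ⟨x, hx⟩)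
  · obtain ⟨hcyc, hca⟩ := mem_cycleFactorsFinset_iff.mp hc
    obtain ⟨a, ha, -⟩ := hcyc
    have ha' : a ∈ c.support := mem_support.mpr ha
    have hπa : π a ≠ a := by rw [← hca a ha']; exact ha
    refine ⟨a, ?_⟩
    unfold cyc
    rw [dif_neg hπa]
    congr 1
    exact Subtype.ext (cycle_is_cycleOf ha' hc).symm
  · refine ⟨x, ?_⟩
    unfold cyc
    have hx' : π x = x := hx
    rw [dif_pos hx']

/-- Orbits of `⟨π⟩` correspond to nontrivial cycles plus fixed points. -/
noncomputable def orbEquiv (π : Perm X) :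
    MulAction.orbitRel.Quotient (Subgroup.zpowers π) X ≃
      (π.cycleFactorsFinset ⊕ Function.fixedPoints π) :=
  Equiv.ofBijective
    (Quotient.lift (cyc π) (fun a b hab => by
      have h : MulAction.orbitRel (Subgroup.zpowers π) X a b := hab
      exact (cyc_eq_iff π a b).mpr ((orbitRel_zpowers_iff π a b).mp h).symm))
    ⟨by
      intro q1 q2
      induction q1 using Quotient.inductionOn with | _ a => ?_
      induction q2 using Quotient.inductionOn with | _ b => ?_
      intro h
      apply Quotient.sound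
      show MulAction.orbitRel (Subgroup.zpowers π) X a b
      exact (orbitRel_zpowers_iff π a b).mpr ((cyc_eq_iff π a b).mp h).symm,
     by
      intro s
      obtain ⟨x, hx⟩ := cyc_surjective π s
      exact ⟨Quotient.mk _ x, hx⟩⟩

theorem orb_eq (π : Perm X) :
    orb π = Multiset.card π.cycleType + (Fintype.card X - π.cycleType.sum) := by
  classical
  unfold orb
  rw [Nat.card_congr (orbEquiv π), Nat.card_eq_fintype_card, Fintype.card_sum,
    card_fixedPoints, Fintype.card_coe, cycleType_def]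
  simp

theorem sign_eq (π : Perm X) : Perm.sign π = (-1 : ℤˣ) ^ (Fintype.card X + orb π) := by
  rw [sign_of_cycleType, orb_eq]
  have h := π.sum_cycleType_le
  have e : Fintype.card X + (Multiset.card π.cycleType + (Fintype.card X - π.cycleType.sum))
      = (π.cycleType.sum + Multiset.card π.cycleType)
        + 2 * (Fintype.card X - π.cycleType.sum) := by omega
  rw [e, pow_add _ (π.cycleType.sum + Multiset.card π.cycleType), pow_mul]
  simp

theorem even_sum_orb (σ τ : Perm X) :
    Even (Fintype.card X + orb σ + orb τ + orb (σ * τ)) := by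
  have h := Perm.sign_mul σ τ
  rw [sign_eq, sign_eq, sign_eq, ← pow_add] at h
  have h2 : (-1 : ℤˣ) ^ ((Fintype.card X + orb (σ * τ))
      + (Fintype.card X + orb σ + (Fintype.card X + orb τ))) = 1 := by
    rw [pow_add, h, ← pow_add, ← two_mul, pow_mul]
    simp
  have h3 := (neg_one_pow_eq_one_iff_even (R := ℤˣ) (by decide)).mp h2
  obtain ⟨k, hk⟩ := h3
  refine ⟨k - Fintype.card X, ?_⟩
  omega

theorem invariant_closure {s : Set (Perm X)} {f : X → ℚ}
    (h : ∀ g ∈ s, ∀ x, f (g x) = f x) :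
    ∀ g ∈ Subgroup.closure s, ∀ x, f (g x) = f x := by
  intro g hg
  induction hg using Subgroup.closure_induction with
  | mem g hg => exact h g hg
  | one => intro x; rfl
  | mul a b _ _ ha hb => intro x; rw [Perm.mul_apply, ha, hb]
  | inv a _ ha =>
    intro x
    have := ha (a⁻¹ x)
    rw [show a (a⁻¹ x) = x from a.apply_symm_apply x] at this
    exact this.symm

/-- `f ↦ f ∘ π - f`. -/
noncomputable def dOp (π : Perm X) : (X → ℚ) →ₗ[ℚ] (X → ℚ) :=
  LinearMap.funLeft ℚ ℚ π - LinearMap.id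

theorem dOp_apply (π : Perm X) (f : X → ℚ) (x : X) : dOp π f x = f (π x) - f x := rfl

theorem mem_ker_dOp (π : Perm X) (f : X → ℚ) :
    f ∈ LinearMap.ker (dOp π) ↔ ∀ x, f (π x) = f x := by
  rw [LinearMap.mem_ker]
  constructor
  · intro h x
    have := congrFun h x
    rw [dOp_apply] at this
    exact sub_eq_zero.mp this
  · intro h
    funext x
    rw [dOp_apply, h x]
    simp

theorem finrank_ker_dOp (π : Perm X) :
    Module.finrank ℚ (LinearMap.ker (dOp π)) = orb π := by
  classical
  let _ : Fintype (MulAction.orbitRel.Quotient (Subgroup.zpowers π) X) := Fintype.ofFinite _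
  let mk : X → MulAction.orbitRel.Quotient (Subgroup.zpowers π) X := Quotient.mk''
  have hmk : Function.Surjective mk := Quotient.mk''_surjective
  let Ψ : (MulAction.orbitRel.Quotient (Subgroup.zpowers π) X → ℚ) →ₗ[ℚ] (X → ℚ) :=
    LinearMap.funLeft ℚ ℚ mk
  have hinj : Function.Injective Ψ := LinearMap.funLeft_injective_of_surjective ℚ ℚ mk hmk
  have hrange : LinearMap.range Ψ = LinearMap.ker (dOp π) := by
    ext f
    rw [mem_ker_dOp]
    constructor
    · rintro ⟨g, rfl⟩ x
      show g (mk (π x)) = g (mk x)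
      congr 1
      apply Quotient.sound
      show MulAction.orbitRel (Subgroup.zpowers π) X (π x) x
      rw [MulAction.orbitRel_apply, MulAction.mem_orbit_iff]
      exact ⟨⟨π, Subgroup.mem_zpowers π⟩, rfl⟩
    · intro hf
      have hf' : ∀ g ∈ Subgroup.zpowers π, ∀ x, f (g x) = f x := by
        rw [Subgroup.zpowers_eq_closure]
        apply invariant_closure
        intro g hg x
        rw [Set.mem_singleton_iff.mp hg]
        exact hf x
      refine ⟨Quotient.lift f (fun a b hab => ?_), ?_⟩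
      · have hab' : MulAction.orbitRel (Subgroup.zpowers π) X a b := hab
        rw [MulAction.orbitRel_apply, MulAction.mem_orbit_iff] at hab'
        obtain ⟨⟨g, hg⟩, rfl⟩ := hab'
        exact hf' g hg b
      · funext x
        rfl
  rw [← hrange, LinearMap.finrank_range_of_inj hinj, Module.finrank_fintype_fun_eq_card, orb,
    Nat.card_eq_fintype_card]

theorem single_sub_mem_range (π : Perm X) (y : X) :
    (Pi.single (π y) (1 : ℚ) - Pi.single y 1 : X → ℚ) ∈ LinearMap.range (dOp π) := by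
  refine ⟨-Pi.single (π y) 1, ?_⟩
  funext x
  rw [map_neg]
  simp only [Pi.neg_apply, dOp_apply, Pi.sub_apply, Pi.single_apply, π.injective.eq_iff]
  ring

theorem single_sub_mem_sup (σ τ : Perm X) :
    ∀ g ∈ Subgroup.closure ({σ, τ} : Set (Perm X)), ∀ y : X,
      (Pi.single (g y) (1 : ℚ) - Pi.single y 1 : X → ℚ) ∈
        LinearMap.range (dOp σ) ⊔ LinearMap.range (dOp τ) := by
  intro g hg
  induction hg using Subgroup.closure_induction with
  | mem g hg =>
    intro y
    rcases hg with rfl | hg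
    · exact Submodule.mem_sup_left (single_sub_mem_range g y)
    · rw [Set.mem_singleton_iff.mp hg]
      exact Submodule.mem_sup_right (single_sub_mem_range τ y)
  | one => intro y; simp
  | mul a b _ _ ha hb =>
    intro y
    have := Submodule.add_mem _ (ha (b y)) (hb y)
    convert this using 1
    rw [Perm.mul_apply]
    abel
  | inv a _ ha =>
    intro y
    have := Submodule.neg_mem _ (ha (a⁻¹ y))
    convert this using 1
    rw [show a (a⁻¹ y) = y from a.apply_symm_apply y]
    abel

theorem card_le_finrank_sup_add_one [Nonempty X] (σ τ : Perm X)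
    (htrans : ∀ x y : X, ∃ g ∈ Subgroup.closure ({σ, τ} : Set (Perm X)), g x = y) :
    Fintype.card X ≤
      Module.finrank ℚ ↥(LinearMap.range (dOp σ) ⊔ LinearMap.range (dOp τ)) + 1 := by
  obtain ⟨x0⟩ := ‹Nonempty X›
  have htop : (⊤ : Submodule ℚ (X → ℚ)) ≤
      (LinearMap.range (dOp σ) ⊔ LinearMap.range (dOp τ)) ⊔
        Submodule.span ℚ {(Pi.single x0 1 : X → ℚ)} := by
    intro f _
    have hf : f = ∑ x, f x • (Pi.single x (1 : ℚ) : X → ℚ) := by
      funext y
      simp [Finset.sum_apply, Pi.single_apply]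
    rw [hf]
    refine Submodule.sum_mem _ (fun x _ => Submodule.smul_mem _ _ ?_)
    obtain ⟨g, hg, rfl⟩ := htrans x0 x
    have h1 := single_sub_mem_sup σ τ g hg x0
    have h2 : (Pi.single x0 (1 : ℚ) : X → ℚ) ∈
        Submodule.span ℚ {(Pi.single x0 1 : X → ℚ)} := Submodule.subset_span rfl
    have := Submodule.add_mem _ (Submodule.mem_sup_left h1) (Submodule.mem_sup_right h2)
    convert this using 1
    abel
  have h1 : Module.finrank ℚ (X → ℚ) ≤
      Module.finrank ℚ ↥((LinearMap.range (dOp σ) ⊔ LinearMap.range (dOp τ)) ⊔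
        Submodule.span ℚ {(Pi.single x0 1 : X → ℚ)}) := by
    rw [← finrank_top ℚ (X → ℚ)]
    exact Submodule.finrank_mono htop
  have h2 := Submodule.finrank_add_le_finrank_add_finrank
    (LinearMap.range (dOp σ) ⊔ LinearMap.range (dOp τ))
    (Submodule.span ℚ {(Pi.single x0 1 : X → ℚ)})
  have h3 : Module.finrank ℚ ↥(Submodule.span ℚ {(Pi.single x0 1 : X → ℚ)}) ≤ 1 := by
    have := finrank_span_le_card (R := ℚ) ({(Pi.single x0 1 : X → ℚ)} : Set (X → ℚ))
    simpa using this
  rw [Module.finrank_fintype_fun_eq_card] at h1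
  omega

theorem finrank_ker_mul_le [Nonempty X] (σ τ : Perm X)
    (htrans : ∀ x y : X, ∃ g ∈ Subgroup.closure ({σ, τ} : Set (Perm X)), g x = y) :
    Module.finrank ℚ (LinearMap.ker (dOp (σ * τ))) ≤
      Module.finrank ℚ ↥(LinearMap.range (dOp σ) ⊓ LinearMap.range (dOp τ)) + 1 := by
  obtain ⟨x0⟩ := ‹Nonempty X›
  let B : LinearMap.ker (dOp (σ * τ)) →ₗ[ℚ] (X → ℚ) :=
    (dOp σ).domRestrict (LinearMap.ker (dOp (σ * τ)))
  have hrange : LinearMap.range B ≤ LinearMap.range (dOp σ) ⊓ LinearMap.range (dOp τ) := by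
    rintro _ ⟨⟨f, hf⟩, rfl⟩
    refine ⟨⟨f, rfl⟩, ⟨-(LinearMap.funLeft ℚ ℚ σ f), ?_⟩⟩
    rw [mem_ker_dOp] at hf
    funext x
    have h := hf x
    rw [Perm.mul_apply] at h
    show dOp τ (-(LinearMap.funLeft ℚ ℚ σ f)) x = dOp σ f x
    rw [map_neg]
    simp only [Pi.neg_apply, dOp_apply, LinearMap.funLeft_apply]
    rw [h]
    ring
  have hconst : ∀ w : LinearMap.ker B, ∀ x, (w : LinearMap.ker (dOp (σ * τ))).1 x
      = (w : LinearMap.ker (dOp (σ * τ))).1 x0 := by
    rintro ⟨⟨f, hf⟩, hw⟩ x
    rw [mem_ker_dOp] at hf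
    have hσ : ∀ y, f (σ y) = f y := by
      rw [← mem_ker_dOp]
      exact hw
    have hτ : ∀ y, f (τ y) = f y := by
      intro y
      have := hf y
      rw [Perm.mul_apply, hσ] at this
      exact this
    obtain ⟨g, hg, rfl⟩ := htrans x0 x
    refine invariant_closure (s := {σ, τ}) (f := f) ?_ g hg x0
    rintro g (rfl | hg) y
    · exact hσ y
    · rw [Set.mem_singleton_iff.mp hg]
      exact hτ y
  have hker : Module.finrank ℚ (LinearMap.ker B) ≤ 1 := by
    let ev : LinearMap.ker B →ₗ[ℚ] ℚ :=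
      (LinearMap.proj x0).comp ((Submodule.subtype _).comp (Submodule.subtype _))
    have hev : Function.Injective ev := by
      intro w1 w2 h
      apply Subtype.ext
      apply Subtype.ext
      funext x
      rw [hconst w1 x, hconst w2 x]
      exact h
    have := LinearMap.finrank_le_finrank_of_injective hev
    rwa [Module.finrank_self] at this
  have hrn := LinearMap.finrank_range_add_finrank_ker B
  have hmono := Submodule.finrank_mono hrange
  omega

theorem hurwitz_le [Nonempty X] (σ τ : Perm X)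
    (htrans : ∀ x y : X, ∃ g ∈ Subgroup.closure ({σ, τ} : Set (Perm X)), g x = y) :
    orb σ + orb τ + orb (σ * τ) ≤ Fintype.card X + 2 := by
  have h1 := LinearMap.finrank_range_add_finrank_ker (dOp σ)
  have h2 := LinearMap.finrank_range_add_finrank_ker (dOp τ)
  have h3 := Submodule.finrank_sup_add_finrank_inf_eq
    (LinearMap.range (dOp σ)) (LinearMap.range (dOp τ))
  have h4 := card_le_finrank_sup_add_one σ τ htrans
  have h5 := finrank_ker_mul_le σ τ htrans
  rw [finrank_ker_dOp] at h1 h2 h5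
  rw [Module.finrank_fintype_fun_eq_card] at h1 h2
  omega

/-- **Hurwitz genus of a transitive permutation pair is a natural number.** -/
theorem hurwitz_perm (σ τ : Perm X)
    (htrans : ∀ x y : X, ∃ g ∈ Subgroup.closure ({σ, τ} : Set (Perm X)), g x = y) :
    ∃ g : ℕ, Fintype.card X + 2 = orb σ + orb τ + orb (σ * τ) + 2 * g := by
  rcases isEmpty_or_nonempty X with hX | hX
  · refine ⟨1, ?_⟩
    have h0 : ∀ π : Perm X, orb π = 0 := by
      intro π
      unfold orb
      rw [Nat.card_eq_zero]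
      left
      exact Quotient.instIsEmpty
    rw [h0, h0, h0, Fintype.card_eq_zero]
  · have hle := hurwitz_le σ τ htrans
    obtain ⟨k, hk⟩ := even_sum_orb σ τ
    refine ⟨Fintype.card X + 1 - k, ?_⟩
    omega

end PermOrbits

section Action

variable {G : Type*} [Group G] {X : Type*} [MulAction G X]

theorem toPerm_zpow (a : G) (i : ℤ) :
    (MulAction.toPerm a : Perm X) ^ i = MulAction.toPerm (a ^ i) :=
  (map_zpow (MulAction.toPermHom G X) a i).symm

theorem card_orbits_zpowers_eq_orb [Fintype X] [DecidableEq X] (a : G) :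
    Nat.card (MulAction.orbitRel.Quotient (Subgroup.zpowers a) X)
      = orb (MulAction.toPerm a : Perm X) := by
  unfold orb
  apply Nat.card_congr
  refine Quotient.congr (Equiv.refl X) ?_
  intro x y
  show MulAction.orbitRel (Subgroup.zpowers a) X x y ↔
    MulAction.orbitRel (Subgroup.zpowers (MulAction.toPerm a : Perm X)) X x y
  simp only [MulAction.orbitRel_apply, MulAction.mem_orbit_iff]
  constructor
  · rintro ⟨⟨g, hg⟩, rfl⟩
    obtain ⟨i, rfl⟩ := Subgroup.mem_zpowers_iff.mp hg
    refine ⟨⟨(MulAction.toPerm a : Perm X) ^ i, Subgroup.zpow_mem_zpowers _ i⟩, ?_⟩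
    show ((MulAction.toPerm a : Perm X) ^ i) y = (a ^ i) • y
    rw [toPerm_zpow]
    rfl
  · rintro ⟨⟨g, hg⟩, rfl⟩
    obtain ⟨i, rfl⟩ := Subgroup.mem_zpowers_iff.mp hg
    refine ⟨⟨a ^ i, Subgroup.zpow_mem_zpowers _ i⟩, ?_⟩
    show (a ^ i) • y = ((MulAction.toPerm a : Perm X) ^ i) y
    rw [toPerm_zpow]
    rfl

/-- Hurwitz for a group acting transitively on a finite set, generated by `s` and `t`. -/
theorem hurwitz_action [Finite X] [MulAction.IsPretransitive G X] (s t : G)
    (hst : Subgroup.closure ({s, t} : Set G) = ⊤) :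
    ∃ g : ℕ, Nat.card X + 2 =
      Nat.card (MulAction.orbitRel.Quotient (Subgroup.zpowers s) X)
      + Nat.card (MulAction.orbitRel.Quotient (Subgroup.zpowers t) X)
      + Nat.card (MulAction.orbitRel.Quotient (Subgroup.zpowers (s * t)) X) + 2 * g := by
  classical
  let _ : Fintype X := Fintype.ofFinite X
  have htrans : ∀ x y : X, ∃ g ∈ Subgroup.closure
      ({(MulAction.toPerm s : Perm X), MulAction.toPerm t} : Set (Perm X)), g x = y := by
    intro x y
    obtain ⟨g0, hg0⟩ := MulAction.exists_smul_eq G x y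
    refine ⟨MulAction.toPerm g0, ?_, hg0⟩
    have h1 : g0 ∈ Subgroup.closure ({s, t} : Set G) := by rw [hst]; exact Subgroup.mem_top _
    have h2 : MulAction.toPermHom G X g0 ∈
        (Subgroup.closure ({s, t} : Set G)).map (MulAction.toPermHom G X) :=
      Subgroup.mem_map_of_mem _ h1
    rw [MonoidHom.map_closure, Set.image_pair] at h2
    exact h2
  obtain ⟨g, hg⟩ := hurwitz_perm (MulAction.toPerm s : Perm X) (MulAction.toPerm t) htrans
  refine ⟨g, ?_⟩
  rw [card_orbits_zpowers_eq_orb, card_orbits_zpowers_eq_orb, card_orbits_zpowers_eq_orb,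
    Nat.card_eq_fintype_card, hg]
  have hmul : (MulAction.toPerm s : Perm X) * MulAction.toPerm t = MulAction.toPerm (s * t) :=
    (map_mul (MulAction.toPermHom G X) s t).symm
  rw [hmul]

/-- Orbit count of an element whose `p`-th power acts trivially (`p` prime). -/
theorem card_orbits_of_pow_prime [Finite X] (a : G) (p : ℕ) [hp : Fact p.Prime]
    (ha : ∀ x : X, (a ^ p) • x = x) :
    p * Nat.card (MulAction.orbitRel.Quotient (Subgroup.zpowers a) X)
      = Nat.card X + (p - 1) * Nat.card (MulAction.fixedBy X a) := by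
  classical
  let _ : Fintype X := Fintype.ofFinite X
  have hπ : (MulAction.toPerm a : Perm X) ^ p = 1 := by
    ext x
    have := toPerm_zpow (X := X) a p
    rw [zpow_natCast, zpow_natCast] at this
    rw [this]
    exact ha x
  have hct := cycleType_of_pow_prime_eq_one hπ
  have hsum : (MulAction.toPerm a : Perm X).cycleType.sum
      = Multiset.card (MulAction.toPerm a : Perm X).cycleType * p := by
    conv_lhs => rw [hct]
    rw [Multiset.sum_replicate, smul_eq_mul]
  have hle := (MulAction.toPerm a : Perm X).sum_cycleType_le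
  have hfix : Nat.card (MulAction.fixedBy X a)
      = Fintype.card X - (MulAction.toPerm a : Perm X).cycleType.sum := by
    rw [← card_fixedPoints, ← Nat.card_eq_fintype_card]
    rfl
  rw [card_orbits_zpowers_eq_orb, orb_eq, hfix, Nat.card_eq_fintype_card, hsum]
  rw [hsum] at hle
  have hp1 : 1 ≤ p := hp.out.one_lt.le
  obtain ⟨q, rfl⟩ : ∃ q, p = q + 1 := ⟨p - 1, by omega⟩
  simp only [Nat.add_sub_cancel]
  generalize Multiset.card (MulAction.toPerm a : Perm X).cycleType = k at hle ⊢
  generalize Fintype.card X = n at hle ⊢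
  obtain ⟨m, rfl⟩ : ∃ m, n = k * (q + 1) + m := ⟨n - k * (q + 1), by omega⟩
  simp only [Nat.add_sub_cancel_left]
  ring

end Action

section SL2Z

open Matrix Matrix.SpecialLinearGroup ModularGroup CongruenceSubgroup MulAction

local notation "SL(" n ", " R ")" => Matrix.SpecialLinearGroup (Fin n) R

theorem S_sq : (S : SL(2, ℤ)) ^ 2 = -1 := by
  apply Subtype.ext
  rw [pow_two]
  show (S : Matrix (Fin 2) (Fin 2) ℤ) * S = _
  rw [S_mul_S_eq]
  rfl

theorem ST_cube : ((S * T : SL(2, ℤ))) ^ 3 = -1 := by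
  ext i j
  simp only [pow_succ, pow_zero, one_mul, Matrix.SpecialLinearGroup.coe_mul,
    Matrix.SpecialLinearGroup.coe_neg, Matrix.SpecialLinearGroup.coe_one, coe_S, coe_T]
  fin_cases i <;> fin_cases j <;> simp [Matrix.mul_apply, Fin.sum_univ_two]

variable {X : Type*} [MulAction SL(2, ℤ) X]

/-- Hurwitz for a finite transitive `SL(2,ℤ)`-set. -/
theorem hurwitz_SL2Z [Finite X] [IsPretransitive SL(2, ℤ) X] :
    ∃ g : ℕ, Nat.card X + 2 =
      Nat.card (orbitRel.Quotient (Subgroup.zpowers S) X)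
      + Nat.card (orbitRel.Quotient (Subgroup.zpowers T) X)
      + Nat.card (orbitRel.Quotient (Subgroup.zpowers (S * T)) X) + 2 * g :=
  hurwitz_action S T SpecialLinearGroup.SL2Z_generators

theorem two_mul_card_orbits_S [Finite X] (hneg : ∀ x : X, (-1 : SL(2, ℤ)) • x = x) :
    2 * Nat.card (orbitRel.Quotient (Subgroup.zpowers S) X)
      = Nat.card X + Nat.card (fixedBy X S) := by
  have : Fact (Nat.Prime 2) := ⟨Nat.prime_two⟩
  have h := card_orbits_of_pow_prime (X := X) (S : SL(2, ℤ)) 2 (fun x => by rw [S_sq]; exact hneg x)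
  simpa using h

theorem three_mul_card_orbits_ST [Finite X] (hneg : ∀ x : X, (-1 : SL(2, ℤ)) • x = x) :
    3 * Nat.card (orbitRel.Quotient (Subgroup.zpowers (S * T)) X)
      = Nat.card X + 2 * Nat.card (fixedBy X (S * T)) := by
  have : Fact (Nat.Prime 3) := ⟨Nat.prime_three⟩
  have h := card_orbits_of_pow_prime (X := X) (S * T : SL(2, ℤ)) 3
    (fun x => by rw [ST_cube]; exact hneg x)
  simpa using h

/-- The genus attached to a finite transitive `SL(2,ℤ)`-set on which `-1` acts trivially is a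
natural number. -/
theorem exists_genus_nat [Finite X] [IsPretransitive SL(2, ℤ) X]
    (hneg : ∀ x : X, (-1 : SL(2, ℤ)) • x = x) :
    ∃ g : ℕ,
      Nat.card X + 2 =
        Nat.card (orbitRel.Quotient (Subgroup.zpowers S) X)
        + Nat.card (orbitRel.Quotient (Subgroup.zpowers T) X)
        + Nat.card (orbitRel.Quotient (Subgroup.zpowers (S * T)) X) + 2 * g ∧
      (g : ℚ) = 1 + (Nat.card X : ℚ) / 12 - (Nat.card (fixedBy X S) : ℚ) / 4
        - (Nat.card (fixedBy X (S * T)) : ℚ) / 3
        - (Nat.card (orbitRel.Quotient (Subgroup.zpowers T) X) : ℚ) / 2 := by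
  obtain ⟨g, hg⟩ := hurwitz_SL2Z (X := X)
  refine ⟨g, hg, ?_⟩
  have h2 := two_mul_card_orbits_S (X := X) hneg
  have h3 := three_mul_card_orbits_ST (X := X) hneg
  have hgQ := congrArg (Nat.cast : ℕ → ℚ) hg
  have h2Q := congrArg (Nat.cast : ℕ → ℚ) h2
  have h3Q := congrArg (Nat.cast : ℕ → ℚ) h3
  push_cast at hgQ h2Q h3Q
  linarith

theorem neg_one_smul_quotient (N : ℕ) (x : SL(2, ℤ) ⧸ Gamma0 N) :
    (-1 : SL(2, ℤ)) • x = x := by
  induction x using QuotientGroup.induction_on with
  | H g =>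
    rw [MulAction.Quotient.smul_mk]
    apply QuotientGroup.eq.mpr
    show ((-1 : SL(2, ℤ)) * g)⁻¹ * g ∈ Gamma0 N
    have hc : (-1 : SL(2, ℤ)) * g = g * -1 := by
      ext i j
      simp
    have hinv : ((-1 : SL(2, ℤ)))⁻¹ = -1 := by
      rw [inv_eq_iff_eq_inv, eq_comm, inv_eq_iff_mul_eq_one]
      ext i j
      simp
    rw [hc, _root_.mul_inv_rev, mul_assoc, inv_mul_cancel, mul_one, hinv, Gamma0_mem]
    simp

/-- `genusFormula N` is a natural number, given the four counting facts on `SL(2,ℤ) ⧸ Γ₀(N)`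
(left cosets), in the shape provided by the counting library. -/
theorem exists_genusFormula_nat (N : ℕ) [NeZero N]
    (hidx : Nat.card (SL(2, ℤ) ⧸ Gamma0 N) = ModularCurve.dedekindPsi N)
    (hS : Nat.card (fixedBy (SL(2, ℤ) ⧸ Gamma0 N) S) = ModularCurve.nuTwo N)
    (hST : Nat.card (fixedBy (SL(2, ℤ) ⧸ Gamma0 N) (S * T)) = ModularCurve.nuThree N)
    (hT : Nat.card (orbitRel.Quotient (Subgroup.zpowers T) (SL(2, ℤ) ⧸ Gamma0 N))
      = ModularCurve.cuspCount N) :
    ∃ g : ℕ, (g : ℚ) = ModularCurve.genusFormula N ∧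
      2 * Nat.card (orbitRel.Quotient (Subgroup.zpowers S) (SL(2, ℤ) ⧸ Gamma0 N))
        = ModularCurve.dedekindPsi N + ModularCurve.nuTwo N ∧
      3 * Nat.card (orbitRel.Quotient (Subgroup.zpowers (S * T)) (SL(2, ℤ) ⧸ Gamma0 N))
        = ModularCurve.dedekindPsi N + 2 * ModularCurve.nuThree N ∧
      ModularCurve.dedekindPsi N + 2 =
        Nat.card (orbitRel.Quotient (Subgroup.zpowers S) (SL(2, ℤ) ⧸ Gamma0 N))
        + Nat.card (orbitRel.Quotient (Subgroup.zpowers (S * T)) (SL(2, ℤ) ⧸ Gamma0 N))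
        + ModularCurve.cuspCount N + 2 * g := by
  have : Finite (SL(2, ℤ) ⧸ Gamma0 N) := Subgroup.finite_quotient_of_finiteIndex
  obtain ⟨g, hg, hgQ⟩ := exists_genus_nat (X := SL(2, ℤ) ⧸ Gamma0 N) (neg_one_smul_quotient N)
  have h2 := two_mul_card_orbits_S (X := SL(2, ℤ) ⧸ Gamma0 N) (neg_one_smul_quotient N)
  have h3 := three_mul_card_orbits_ST (X := SL(2, ℤ) ⧸ Gamma0 N) (neg_one_smul_quotient N)
  -- restate with the instances found in this concrete context (defeq, not syntactically equal)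
  have hg' : Nat.card (SL(2, ℤ) ⧸ Gamma0 N) + 2 =
      Nat.card (orbitRel.Quotient (Subgroup.zpowers S) (SL(2, ℤ) ⧸ Gamma0 N))
      + Nat.card (orbitRel.Quotient (Subgroup.zpowers T) (SL(2, ℤ) ⧸ Gamma0 N))
      + Nat.card (orbitRel.Quotient (Subgroup.zpowers (S * T)) (SL(2, ℤ) ⧸ Gamma0 N))
      + 2 * g := hg
  have hgQ' : (g : ℚ) = 1 + (Nat.card (SL(2, ℤ) ⧸ Gamma0 N) : ℚ) / 12
      - (Nat.card (fixedBy (SL(2, ℤ) ⧸ Gamma0 N) S) : ℚ) / 4
      - (Nat.card (fixedBy (SL(2, ℤ) ⧸ Gamma0 N) (S * T)) : ℚ) / 3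
      - (Nat.card (orbitRel.Quotient (Subgroup.zpowers T) (SL(2, ℤ) ⧸ Gamma0 N)) : ℚ) / 2 := hgQ
  have h2' : 2 * Nat.card (orbitRel.Quotient (Subgroup.zpowers S) (SL(2, ℤ) ⧸ Gamma0 N))
      = Nat.card (SL(2, ℤ) ⧸ Gamma0 N) + Nat.card (fixedBy (SL(2, ℤ) ⧸ Gamma0 N) S) := h2
  have h3' : 3 * Nat.card (orbitRel.Quotient (Subgroup.zpowers (S * T)) (SL(2, ℤ) ⧸ Gamma0 N))
      = Nat.card (SL(2, ℤ) ⧸ Gamma0 N)
        + 2 * Nat.card (fixedBy (SL(2, ℤ) ⧸ Gamma0 N) (S * T)) := h3
  rw [hidx, hS] at h2'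
  rw [hidx, hST] at h3'
  rw [hidx, hT] at hg'
  rw [hidx, hS, hST, hT] at hgQ'
  refine ⟨g, ?_, h2', h3', ?_⟩
  · rw [hgQ', ModularCurve.genusFormula]
  · omega

/-- The `toNat / 2` bookkeeping used by `AlgebraicCurve.genus`. -/
theorem toNat_add_two_div_two {n a b c g : ℕ} (h : n + 2 = a + b + c + 2 * g) {d : ℤ}
    (hd : d = (n : ℤ) - a - b - c) : (d + 2).toNat / 2 = g := by
  have h' : d + 2 = ((2 * g : ℕ) : ℤ) := by
    rw [hd]
    push_cast
    omega
  rw [h', Int.toNat_natCast]
  omega

end SL2Z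

end Fermat.Agent.S24.GenusNat
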