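import Mathlib

set_option autoImplicit false

namespace Fermat.Agent.S24.Germ

open Filter Topology

noncomputable section

/-! ### Taylor series of a function `ℂ → ℂ` at a point, as a formal power series -/

/-- Taylor series of `f` at `z₀`. -/
def tay (f : ℂ → ℂ) (z₀ : ℂ) : PowerSeries ℂ :=
  PowerSeries.mk fun n => iteratedDeriv n f z₀ / (n.factorial : ℂ)

variable {f g : ℂ → ℂ} {z₀ : ℂ}

@[simp]
lemma coeff_tay (f : ℂ → ℂ) (z₀ : ℂ) (n : ℕ) :
    PowerSeries.coeff n (tay f z₀) = iteratedDeriv n f z₀ / (n.factorial : ℂ) :=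
  PowerSeries.coeff_mk _ _

lemma constantCoeff_tay (f : ℂ → ℂ) (z₀ : ℂ) : PowerSeries.constantCoeff (tay f z₀) = f z₀ := by
  rw [← PowerSeries.coeff_zero_eq_constantCoeff_apply, coeff_tay]
  simp

lemma coeff_one_tay (f : ℂ → ℂ) (z₀ : ℂ) : PowerSeries.coeff 1 (tay f z₀) = deriv f z₀ := by
  rw [coeff_tay]
  simp

lemma tay_congr (h : f =ᶠ[𝓝 z₀] g) : tay f z₀ = tay g z₀ := by
  ext n
  rw [coeff_tay, coeff_tay, h.iteratedDeriv_eq n]

lemma tay_add (hf : AnalyticAt ℂ f z₀) (hg : AnalyticAt ℂ g z₀) :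
    tay (f + g) z₀ = tay f z₀ + tay g z₀ := by
  ext n
  simp only [coeff_tay, map_add]
  rw [iteratedDeriv_add hf.contDiffAt hg.contDiffAt, add_div]

lemma tay_mul (hf : AnalyticAt ℂ f z₀) (hg : AnalyticAt ℂ g z₀) :
    tay (f * g) z₀ = tay f z₀ * tay g z₀ := by
  ext n
  simp only [coeff_tay, iteratedDeriv_mul hf.contDiffAt hg.contDiffAt, PowerSeries.coeff_mul,
    Finset.Nat.sum_antidiagonal_eq_sum_range_succ_mk, Nat.succ_eq_add_one, Finset.sum_div]
  refine Finset.sum_congr rfl fun i hi ↦ ?_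
  rw [Nat.cast_choose ℂ (by simpa [Nat.lt_succ_iff] using hi : i ≤ n)]
  field_simp [Nat.factorial_ne_zero]

lemma tay_const (c : ℂ) (z₀ : ℂ) : tay (fun _ => c) z₀ = PowerSeries.C c := by
  ext n
  rw [coeff_tay, PowerSeries.coeff_C]
  rcases n with _ | n
  · simp
  · simp [iteratedDeriv_const]

lemma tay_one (z₀ : ℂ) : tay (1 : ℂ → ℂ) z₀ = 1 := by
  have h := tay_const 1 z₀
  rwa [map_one] at h

lemma tay_zero (z₀ : ℂ) : tay (0 : ℂ → ℂ) z₀ = 0 := by
  have h := tay_const 0 z₀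
  rwa [map_zero] at h

lemma natCast_le_order_tay_iff (f : ℂ → ℂ) (z₀ : ℂ) (n : ℕ) :
    (n : ℕ∞) ≤ (tay f z₀).order ↔ ∀ i < n, iteratedDeriv i f z₀ = 0 := by
  constructor
  · intro h i hi
    have h0 := PowerSeries.coeff_of_lt_order (φ := tay f z₀) i
      (lt_of_lt_of_le (by exact_mod_cast hi) h)
    rw [coeff_tay, div_eq_zero_iff] at h0
    rcases h0 with h0 | h0
    · exact h0
    · exact absurd h0 (by exact_mod_cast Nat.factorial_ne_zero i)
  · intro h
    refine PowerSeries.nat_le_order _ _ fun i hi => ?_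
    rw [coeff_tay, h i hi, zero_div]

lemma order_tay (hf : AnalyticAt ℂ f z₀) : (tay f z₀).order = analyticOrderAt f z₀ :=
  ENat.eq_of_forall_natCast_le_iff fun n => by
    rw [natCast_le_order_tay_iff, natCast_le_analyticOrderAt_iff_iteratedDeriv_eq_zero hf]

lemma tay_eq_zero_iff (hf : AnalyticAt ℂ f z₀) : tay f z₀ = 0 ↔ ∀ᶠ z in 𝓝 z₀, f z = 0 := by
  rw [← PowerSeries.order_eq_top, order_tay hf, analyticOrderAt_eq_top]

/-! ### Holomorphic functions on the upper half plane -/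

open UpperHalfPlane
open scoped Manifold MatrixGroups

/-- The ring of holomorphic functions on `ℍ`. -/
def HolH : Subring (ℍ → ℂ) where
  carrier := {f | MDiff f}
  mul_mem' hf hg := hf.mul hg
  one_mem' := mdifferentiable_const
  add_mem' hf hg := hf.add hg
  zero_mem' := mdifferentiable_const
  neg_mem' hf := hf.neg

lemma mem_HolH {f : ℍ → ℂ} : f ∈ HolH ↔ MDiff f := Iff.rfl

lemma analyticAt_comp_ofComplex {f : ℍ → ℂ} (hf : MDiff f) (τ : ℍ) :
    AnalyticAt ℂ (f ∘ ofComplex) τ := by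
  rw [mdifferentiable_iff] at hf
  exact hf.analyticAt (isOpen_upperHalfPlaneSet.mem_nhds τ.im_pos)

/-- Taylor series at `τ` of a function on `ℍ`. -/
def taylorH (τ : ℍ) (f : ℍ → ℂ) : PowerSeries ℂ := tay (f ∘ ofComplex) τ

lemma taylorH_add {f g : ℍ → ℂ} (hf : MDiff f) (hg : MDiff g) (τ : ℍ) :
    taylorH τ (f + g) = taylorH τ f + taylorH τ g :=
  tay_add (analyticAt_comp_ofComplex hf τ) (analyticAt_comp_ofComplex hg τ)

lemma taylorH_mul {f g : ℍ → ℂ} (hf : MDiff f) (hg : MDiff g) (τ : ℍ) :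
    taylorH τ (f * g) = taylorH τ f * taylorH τ g :=
  tay_mul (analyticAt_comp_ofComplex hf τ) (analyticAt_comp_ofComplex hg τ)

lemma taylorH_const (c : ℂ) (τ : ℍ) : taylorH τ (fun _ => c) = PowerSeries.C c :=
  tay_const c τ

lemma taylorH_one (τ : ℍ) : taylorH τ 1 = 1 := tay_one τ

lemma taylorH_zero (τ : ℍ) : taylorH τ 0 = 0 := tay_zero τ

lemma constantCoeff_taylorH (τ : ℍ) (f : ℍ → ℂ) :
    PowerSeries.constantCoeff (taylorH τ f) = f τ := by
  rw [taylorH, constantCoeff_tay, Function.comp_apply, ofComplex_apply]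

lemma order_taylorH {f : ℍ → ℂ} (hf : MDiff f) (τ : ℍ) :
    (taylorH τ f).order = analyticOrderAt (f ∘ ofComplex) τ :=
  order_tay (analyticAt_comp_ofComplex hf τ)

lemma taylorH_eq_zero_iff {f : ℍ → ℂ} (hf : MDiff f) (τ : ℍ) : taylorH τ f = 0 ↔ f = 0 := by
  constructor
  · intro h
    rw [taylorH, tay_eq_zero_iff (analyticAt_comp_ofComplex hf τ)] at h
    refine UpperHalfPlane.eq_zero_of_frequently hf (τ := τ) (Eventually.frequently ?_)
    rw [← isOpenEmbedding_coe.map_nhds_eq, eventually_map] at h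
    refine Eventually.filter_mono nhdsWithin_le_nhds ?_
    filter_upwards [h] with z hz
    simpa using hz
  · rintro rfl
    exact taylorH_zero τ

/-- Taylor expansion at `τ` as a ring homomorphism. -/
def taylor (τ : ℍ) : HolH →+* PowerSeries ℂ where
  toFun f := taylorH τ f.1
  map_one' := taylorH_one τ
  map_mul' f g := taylorH_mul f.2 g.2 τ
  map_zero' := taylorH_zero τ
  map_add' f g := taylorH_add f.2 g.2 τ

lemma taylor_apply (τ : ℍ) (f : HolH) : taylor τ f = taylorH τ f.1 := rfl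

lemma taylor_injective (τ : ℍ) : Function.Injective (taylor τ) := by
  rw [injective_iff_map_eq_zero]
  intro f hf
  exact Subtype.ext ((taylorH_eq_zero_iff f.2 τ).mp hf)

instance : IsDomain HolH :=
  (taylor_injective UpperHalfPlane.I).isDomain _

/-! ### Möbius transport of orders -/

lemma mdiff_comp_smul {f : ℍ → ℂ} (hf : MDiff f) {g : GL (Fin 2) ℝ} (hg : 0 < g.det.val) :
    MDiff (fun τ : ℍ => f (g • τ)) :=
  hf.comp (mdifferentiable_smul hg)

lemma comp_smul_comp_ofComplex (f : ℍ → ℂ) (g : GL (Fin 2) ℝ) :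
    (fun τ : ℍ => f (g • τ)) ∘ ofComplex
      = (f ∘ ofComplex) ∘ (fun z : ℂ => ((g • ofComplex z : ℍ) : ℂ)) := by
  funext z
  simp [Function.comp_def, ofComplex_apply]

lemma analyticOrderAt_comp_smul {f : ℍ → ℂ} {g : GL (Fin 2) ℝ} (hg : 0 < g.det.val) (τ : ℍ) :
    analyticOrderAt ((fun z : ℍ => f (g • z)) ∘ ofComplex) τ
      = analyticOrderAt (f ∘ ofComplex) ((g • τ : ℍ) : ℂ) := by
  rw [comp_smul_comp_ofComplex,
    analyticOrderAt_comp_of_deriv_ne_zero (analyticAt_smul hg τ) (deriv_smul_ne_zero hg τ)]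
  simp [ofComplex_apply]

lemma order_taylorH_comp_smul {f : ℍ → ℂ} (hf : MDiff f) {g : GL (Fin 2) ℝ}
    (hg : 0 < g.det.val) (τ : ℍ) :
    (taylorH τ (fun z : ℍ => f (g • z))).order = (taylorH (g • τ) f).order := by
  rw [order_taylorH (mdiff_comp_smul hf hg), order_taylorH hf, analyticOrderAt_comp_smul hg]

/-! ### The rotation lemma -/

lemma analyticOrderAt_ne_top_of_ne_zero {f : ℍ → ℂ} (hf : MDiff f) (hf0 : f ≠ 0) (τ : ℍ) :
    analyticOrderAt (f ∘ ofComplex) τ ≠ ⊤ := by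
  rw [← order_taylorH hf, Ne, PowerSeries.order_eq_top, taylorH_eq_zero_iff hf]
  exact hf0

/-- Rotation lemma: if `σ` fixes `τ` and `f ∘ σ = f` with `f ≠ 0` holomorphic, then the multiplier
of `σ` at `τ` raised to the order of `f` at `τ` is `1`. -/
theorem rotation_pow_eq_one {f : ℍ → ℂ} (hf : MDiff f) (hf0 : f ≠ 0) {σ : GL (Fin 2) ℝ}
    (hσ : 0 < σ.det.val) {τ : ℍ} (hfix : σ • τ = τ) (hinv : ∀ z : ℍ, f (σ • z) = f z) :
    ((σ.val.det : ℂ) / denom σ τ ^ 2) ^ (analyticOrderNatAt (f ∘ ofComplex) τ) = 1 := by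
  set F0 : ℂ → ℂ := f ∘ ofComplex with hF0def
  have hF0 : AnalyticAt ℂ F0 τ := analyticAt_comp_ofComplex hf τ
  have htop : analyticOrderAt F0 τ ≠ ⊤ := analyticOrderAt_ne_top_of_ne_zero hf hf0 τ
  set m := analyticOrderNatAt F0 τ with hm
  have hmm : analyticOrderAt F0 τ = m := (ENat.natCast_toNat htop).symm
  obtain ⟨F, hFan, hFne, hFeq⟩ := (hF0.analyticOrderAt_eq_natCast).mp hmm
  set G : ℂ → ℂ := fun z => ((σ • ofComplex z : ℍ) : ℂ) with hG
  set ε : ℂ := (σ.val.det : ℂ) / denom σ τ ^ 2 with hε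
  have hGd : HasStrictDerivAt G ε τ := hasStrictDerivAt_smul hσ τ
  have hGτ : G τ = τ := by simp [hG, ofComplex_apply, hfix]
  have hGcont : ContinuousAt G τ := hGd.hasDerivAt.continuousAt
  have hcomp : ∀ z, F0 (G z) = F0 z := by
    intro z
    simp [hF0def, hG, Function.comp_def, ofComplex_apply, hinv]
  have hFeqG : ∀ᶠ z in 𝓝 (τ : ℂ), F0 (G z) = (G z - τ) ^ m • F (G z) := by
    have : Tendsto G (𝓝 (τ : ℂ)) (𝓝 (τ : ℂ)) := by
      have := hGcont.tendsto
      rwa [hGτ] at this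
    exact this.eventually hFeq
  have hkey : ∀ᶠ z in 𝓝[≠] (τ : ℂ), F z = (dslope G τ z) ^ m * F (G z) := by
    filter_upwards [hFeq.filter_mono nhdsWithin_le_nhds, hFeqG.filter_mono nhdsWithin_le_nhds,
      self_mem_nhdsWithin] with z h1 h2 hz
    have hz' : z - (τ : ℂ) ≠ 0 := sub_ne_zero.mpr hz
    have h3 : G z - τ = (z - τ) * dslope G τ z := by
      have := sub_smul_dslope G (τ : ℂ) z
      rw [hGτ] at this
      rw [← this, smul_eq_mul]
    rw [hcomp z, h1, h3, smul_eq_mul, smul_eq_mul, mul_pow, mul_assoc] at h2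
    exact mul_left_cancel₀ (pow_ne_zero m hz') h2
  have hlim1 : Tendsto F (𝓝[≠] (τ : ℂ)) (𝓝 (F τ)) :=
    hFan.continuousAt.tendsto.mono_left nhdsWithin_le_nhds
  have hds : ContinuousAt (dslope G τ) τ :=
    continuousAt_dslope_same.mpr hGd.hasDerivAt.differentiableAt
  have hlim2 : Tendsto (fun z => (dslope G τ z) ^ m * F (G z)) (𝓝[≠] (τ : ℂ))
      (𝓝 (ε ^ m * F τ)) := by
    have h1 : Tendsto (dslope G τ) (𝓝 (τ : ℂ)) (𝓝 ε) := by
      have := hds.tendsto
      rwa [dslope_same, hGd.hasDerivAt.deriv] at this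
    have h2 : Tendsto (fun z => F (G z)) (𝓝 (τ : ℂ)) (𝓝 (F τ)) := by
      have hFc : ContinuousAt F (G τ) := by rw [hGτ]; exact hFan.continuousAt
      have := (hFc.comp hGcont).tendsto
      simpa [Function.comp_def, hGτ] using this
    exact ((h1.pow m).mul h2).mono_left nhdsWithin_le_nhds
  have huniq : F τ = ε ^ m * F τ :=
    tendsto_nhds_unique (hlim1.congr' hkey) hlim2
  have : (ε ^ m - 1) * F τ = 0 := by rw [sub_mul, one_mul, ← huniq, sub_self]
  rcases mul_eq_zero.mp this with h | h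
  · exact sub_eq_zero.mp h
  · exact absurd h hFne

/-! ### `SL(2, ℤ)` versions -/

lemma det_pos_SL (γ : SL(2, ℤ)) : 0 < (γ : GL (Fin 2) ℝ).det.val := by simp

lemma mdiff_comp_SL {f : ℍ → ℂ} (hf : MDiff f) (γ : SL(2, ℤ)) :
    MDiff (fun τ : ℍ => f (γ • τ)) :=
  mdiff_comp_smul hf (det_pos_SL γ)

lemma order_taylorH_comp_SL {f : ℍ → ℂ} (hf : MDiff f) (γ : SL(2, ℤ)) (τ : ℍ) :
    (taylorH τ (fun z : ℍ => f (γ • z))).order = (taylorH (γ • τ) f).order :=
  order_taylorH_comp_smul hf (det_pos_SL γ) τ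

/-- Rotation lemma for `SL(2, ℤ)`. -/
theorem rotation_SL {f : ℍ → ℂ} (hf : MDiff f) (hf0 : f ≠ 0) (σ : SL(2, ℤ)) {τ : ℍ}
    (hfix : σ • τ = τ) (hinv : ∀ z : ℍ, f (σ • z) = f z) :
    (denom σ τ ^ 2) ^ (analyticOrderNatAt (f ∘ ofComplex) τ) = 1 := by
  have h := rotation_pow_eq_one hf hf0 (det_pos_SL σ) hfix hinv
  have hdet0 : ((σ : GL (Fin 2) ℝ).val.det : ℝ) = 1 :=
    (Matrix.SpecialLinearGroup.map (Int.castRingHom ℝ) σ).det_coe
  have hdet : (((σ : GL (Fin 2) ℝ).val.det : ℝ) : ℂ) = 1 := by rw [hdet0]; simp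
  rw [hdet, one_div, inv_pow] at h
  exact inv_eq_one.mp h

/-- If the multiplier is a primitive `s`-th root of unity, the order is divisible by `s`. -/
theorem rotation_dvd {f : ℍ → ℂ} (hf : MDiff f) (hf0 : f ≠ 0) (σ : SL(2, ℤ)) {τ : ℍ}
    (hfix : σ • τ = τ) (hinv : ∀ z : ℍ, f (σ • z) = f z) {s : ℕ}
    (hs : IsPrimitiveRoot (denom σ τ ^ 2) s) :
    s ∣ analyticOrderNatAt (f ∘ ofComplex) τ :=
  hs.dvd_of_pow_eq_one _ (rotation_SL hf hf0 σ hfix hinv)

lemma order_taylorH_eq_natCast {f : ℍ → ℂ} (hf : MDiff f) (hf0 : f ≠ 0) (τ : ℍ) :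
    (taylorH τ f).order = (analyticOrderNatAt (f ∘ ofComplex) τ : ℕ∞) := by
  rw [order_taylorH hf]
  exact (ENat.natCast_toNat (analyticOrderAt_ne_top_of_ne_zero hf hf0 τ)).symm

/-! ### Laurent expansion of fractions -/

lemma order_ofPowerSeries {p : PowerSeries ℂ} (hp : p ≠ 0) :
    (HahnSeries.ofPowerSeries ℤ ℂ p).order = (p.order.toNat : ℤ) := by
  have hne : HahnSeries.ofPowerSeries ℤ ℂ p ≠ 0 := by
    rw [Ne, map_eq_zero_iff _ HahnSeries.ofPowerSeries_injective]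
    exact hp
  refine le_antisymm ?_ ?_
  · refine HahnSeries.order_le_of_coeff_ne_zero ?_
    rw [HahnSeries.ofPowerSeries_apply_coeff]
    exact PowerSeries.coeff_order hp
  · rw [HahnSeries.le_order_iff_forall hne]
    intro j hj
    rw [PowerSeries.coeff_coe]
    split_ifs with h
    · rfl
    · refine PowerSeries.coeff_of_lt_order _ ?_
      rw [← PowerSeries.coe_toNat_order hp]
      have : j.natAbs < p.order.toNat := by omega
      exact_mod_cast this

section germHom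

variable {A F : Type*} [CommRing A] [Field F] [Algebra A F] [IsFractionRing A F]

/-- Laurent expansion at `τ` of elements of the fraction field `F` of a domain `A` mapping
injectively to holomorphic functions on `ℍ`. -/
def germHom (φ : A →+* HolH) (hφ : Function.Injective φ) (τ : ℍ) : F →+* LaurentSeries ℂ :=
  IsFractionRing.lift (A := A) (K := F)
    (g := (HahnSeries.ofPowerSeries ℤ ℂ).comp ((taylor τ).comp φ))
    (HahnSeries.ofPowerSeries_injective.comp ((taylor_injective τ).comp hφ))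

lemma germHom_algebraMap (φ : A →+* HolH) (hφ : Function.Injective φ) (τ : ℍ) (a : A) :
    germHom (F := F) φ hφ τ (algebraMap A F a) = HahnSeries.ofPowerSeries ℤ ℂ (taylor τ (φ a)) :=
  IsFractionRing.lift_algebraMap _ a

lemma order_germHom_algebraMap (φ : A →+* HolH) (hφ : Function.Injective φ) (τ : ℍ) {a : A}
    (ha : a ≠ 0) :
    (germHom (F := F) φ hφ τ (algebraMap A F a)).order
      = (analyticOrderNatAt ((φ a : ℍ → ℂ) ∘ ofComplex) τ : ℤ) := by
  have hφa : (φ a : ℍ → ℂ) ≠ 0 := by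
    intro h
    exact ha (hφ (by rw [map_zero]; exact Subtype.ext h))
  have hne : taylor τ (φ a) ≠ 0 := by
    rw [taylor_apply, Ne, taylorH_eq_zero_iff (φ a).2]
    exact hφa
  rw [germHom_algebraMap, order_ofPowerSeries hne, taylor_apply,
    order_taylorH_eq_natCast (φ a).2 hφa]
  simp

lemma germHom_algebraMap_ne_zero (φ : A →+* HolH) (hφ : Function.Injective φ) (τ : ℍ) {a : A}
    (ha : a ≠ 0) : germHom (F := F) φ hφ τ (algebraMap A F a) ≠ 0 := by
  rw [germHom_algebraMap, Ne, map_eq_zero_iff _ HahnSeries.ofPowerSeries_injective,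
    map_eq_zero_iff _ (taylor_injective τ), map_eq_zero_iff _ hφ]
  exact ha

/-- Order of the Laurent expansion of a fraction `a / b`. -/
lemma order_germHom_div (φ : A →+* HolH) (hφ : Function.Injective φ) (τ : ℍ) {a b : A}
    (ha : a ≠ 0) (hb : b ≠ 0) :
    (germHom (F := F) φ hφ τ (algebraMap A F a / algebraMap A F b)).order
      = (analyticOrderNatAt ((φ a : ℍ → ℂ) ∘ ofComplex) τ : ℤ)
        - (analyticOrderNatAt ((φ b : ℍ → ℂ) ∘ ofComplex) τ : ℤ) := by
  have hA := germHom_algebraMap_ne_zero (F := F) φ hφ τ ha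
  have hB := germHom_algebraMap_ne_zero (F := F) φ hφ τ hb
  have hq : germHom (F := F) φ hφ τ (algebraMap A F a / algebraMap A F b) ≠ 0 := by
    rw [map_div₀]
    exact div_ne_zero hA hB
  have hmul : germHom (F := F) φ hφ τ (algebraMap A F a / algebraMap A F b)
      * germHom (F := F) φ hφ τ (algebraMap A F b) = germHom (F := F) φ hφ τ (algebraMap A F a) := by
    rw [map_div₀, div_mul_cancel₀ _ hB]
  have h := HahnSeries.order_mul hq hB
  rw [hmul, order_germHom_algebraMap φ hφ τ ha, order_germHom_algebraMap φ hφ τ hb] at h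
  omega

end germHom

/-! ### The two elliptic points -/

open ModularGroup in
lemma S_smul_of_sq {τ : ℍ} (hτ : (τ : ℂ) ^ 2 = -1) : S • τ = τ := by
  apply UpperHalfPlane.ext
  rw [modular_S_smul]
  have h0 : (τ : ℂ) ≠ 0 := ne_zero τ
  show (-(τ : ℂ))⁻¹ = τ
  field_simp
  linear_combination -hτ

open ModularGroup in
lemma isPrimitiveRoot_denom_S {τ : ℍ} (hτ : (τ : ℂ) ^ 2 = -1) :
    IsPrimitiveRoot (denom S τ ^ 2) 2 := by
  rw [denom_S, hτ]
  exact IsPrimitiveRoot.neg_one 0 (by norm_num)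

/-- At a point `τ` with `τ² = -1` (i.e. `τ = i`), an `S`-invariant holomorphic function has
even order. -/
theorem two_dvd_order_of_S_invariant {f : ℍ → ℂ} (hf : MDiff f) (hf0 : f ≠ 0) {τ : ℍ}
    (hτ : (τ : ℂ) ^ 2 = -1) (hinv : ∀ z : ℍ, f (ModularGroup.S • z) = f z) :
    2 ∣ analyticOrderNatAt (f ∘ ofComplex) τ :=
  rotation_dvd hf hf0 ModularGroup.S (S_smul_of_sq hτ) hinv (isPrimitiveRoot_denom_S hτ)

open ModularGroup in
lemma denom_ST (τ : ℍ) : denom ((S * T : SL(2, ℤ)) : GL (Fin 2) ℝ) τ = (τ : ℂ) + 1 := by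
  rw [ModularGroup.denom_apply]
  simp [ModularGroup.coe_S, ModularGroup.coe_T, Matrix.mul_apply, Fin.sum_univ_two]

open ModularGroup in
lemma ST_smul_of_root {τ : ℍ} (hτ : (τ : ℂ) ^ 2 + τ + 1 = 0) : (S * T : SL(2, ℤ)) • τ = τ := by
  apply UpperHalfPlane.ext
  rw [mul_smul, modular_T_smul, modular_S_smul]
  show (-((1 : ℝ) +ᵥ τ : ℍ) : ℂ)⁻¹ = τ
  rw [coe_vadd]
  apply inv_eq_of_mul_eq_one_right
  push_cast
  linear_combination -hτ

open ModularGroup in
lemma isPrimitiveRoot_denom_ST {τ : ℍ} (hτ : (τ : ℂ) ^ 2 + τ + 1 = 0) :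
    IsPrimitiveRoot (denom ((S * T : SL(2, ℤ)) : GL (Fin 2) ℝ) τ ^ 2) 3 := by
  have h2 : denom ((S * T : SL(2, ℤ)) : GL (Fin 2) ℝ) τ ^ 2 = (τ : ℂ) := by
    rw [denom_ST]; linear_combination hτ
  rw [h2]
  have h3 : (τ : ℂ) ^ 3 = 1 := by linear_combination ((τ : ℂ) - 1) * hτ
  have h1 : (τ : ℂ) ≠ 1 := by
    intro h
    rw [h] at hτ
    norm_num at hτ
  rw [IsPrimitiveRoot.iff_orderOf]
  exact orderOf_eq_prime h3 h1

/-- At a point `τ` with `τ² + τ + 1 = 0` (i.e. `τ = ρ`), an `S * T`-invariant holomorphic function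
has order divisible by `3`. -/
theorem three_dvd_order_of_ST_invariant {f : ℍ → ℂ} (hf : MDiff f) (hf0 : f ≠ 0) {τ : ℍ}
    (hτ : (τ : ℂ) ^ 2 + τ + 1 = 0)
    (hinv : ∀ z : ℍ, f ((ModularGroup.S * ModularGroup.T : SL(2, ℤ)) • z) = f z) :
    3 ∣ analyticOrderNatAt (f ∘ ofComplex) τ :=
  rotation_dvd hf hf0 (ModularGroup.S * ModularGroup.T) (ST_smul_of_root hτ) hinv
    (isPrimitiveRoot_denom_ST hτ)

end

end Fermat.Agent.S24.Germ
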