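import Fermat.Agent.S24.JFun
import Fermat.Agent.S24.HolHOrd

set_option autoImplicit false
set_option linter.dupNamespace false

/-!
# The analytic `j` as an element of `HolH`, and its exact local orders `ordAt` / `ordZ`

Transport of `Fermat.Agent.S24.JFun` (local orders of `j`) to the carrier
`Fermat.Agent.S24.HolH.HolH` with its order functions `ordAt`, `ordZ`
(`Fermat.Agent.S24.HolHOrd`).  These are the `hxs` inputs of the fibre count `Generic/G3`.
-/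

open scoped Manifold MatrixGroups Topology
open UpperHalfPlane hiding I
open Filter Complex
open Fermat.Agent.S24.HolH Fermat.Agent.S24.JFun

noncomputable section

namespace Fermat.Agent.S24.JHol

/-- The analytic `j`-function as an element of `HolH`. -/
def jHol : HolH := ⟨jFun, jFun_mdiff⟩

@[simp]
theorem jHol_apply (τ : ℍ) : (jHol : ℍ → ℂ) τ = jFun τ := rfl

theorem coe_jHol : (jHol : ℍ → ℂ) = jFun := rfl

/-- `j` is `SL(2, ℤ)`-invariant. -/
@[simp]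
theorem compSL_jHol (g : SL(2, ℤ)) : compSL g jHol = jHol := by
  apply Subtype.ext
  funext τ
  exact jFun_smul g τ

theorem compSL_jHol_sub (g : SL(2, ℤ)) (c : ℂ) :
    compSL g (jHol - algebraMap ℂ HolH c) = jHol - algebraMap ℂ HolH c := by
  rw [map_sub, compSL_jHol, AlgHom.commutes]

theorem jHol_sub_apply (c : ℂ) (τ : ℍ) :
    ((jHol - algebraMap ℂ HolH c : HolH) : ℍ → ℂ) τ = jFun τ - c := rfl

/-- `j` is not constant. -/
theorem jHol_sub_ne_zero (c : ℂ) : jHol - algebraMap ℂ HolH c ≠ 0 := by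
  intro h
  obtain ⟨τ, hτ⟩ := jFun_surjective (c + 1)
  have h1 := congrArg (fun f : HolH => (f : ℍ → ℂ) τ) h
  simp only [jHol_sub_apply, hτ] at h1
  have h2 : (c + 1 - c : ℂ) = 0 := h1
  simp at h2

theorem jHol_ne_zero : jHol ≠ 0 := by
  have h := jHol_sub_ne_zero 0
  simpa using h

theorem toC_jHol_sub (c : ℂ) :
    toC (jHol - algebraMap ℂ HolH c) = (fun w : ℍ => jFun w - c) ∘ ofComplex := rfl

theorem toC_jHol : toC jHol = jFun ∘ ofComplex := rfl

/-- Generic points: `j - j(τ0)` has a simple zero at `τ0` when `j(τ0) ∉ {0, 1728}`. -/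
theorem ordAt_jHol_sub_self (τ0 : ℍ) (h0 : jFun τ0 ≠ 0) (h1 : jFun τ0 ≠ 1728) :
    ordAt τ0 (jHol - algebraMap ℂ HolH (jFun τ0)) = 1 := by
  rw [ordAt, toC_jHol_sub]
  exact analyticOrderAt_jFun_sub_self τ0 h0 h1

theorem ordAt_jHol_sub_of_eq {τ0 : ℍ} {c : ℂ} (hc : jFun τ0 = c) (h0 : c ≠ 0) (h1 : c ≠ 1728) :
    ordAt τ0 (jHol - algebraMap ℂ HolH c) = 1 := by
  subst hc
  exact ordAt_jHol_sub_self τ0 h0 h1

theorem ordZ_jHol_sub_self (τ0 : ℍ) (h0 : jFun τ0 ≠ 0) (h1 : jFun τ0 ≠ 1728) :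
    ordZ τ0 (jHol - algebraMap ℂ HolH (jFun τ0)) = 1 := by
  rw [ordZ, ordAt_jHol_sub_self τ0 h0 h1]
  rfl

theorem ordZ_jHol_sub_of_eq {τ0 : ℍ} {c : ℂ} (hc : jFun τ0 = c) (h0 : c ≠ 0) (h1 : c ≠ 1728) :
    ordZ τ0 (jHol - algebraMap ℂ HolH c) = 1 := by
  subst hc
  exact ordZ_jHol_sub_self τ0 h0 h1

/-- For every `c ∉ {0, 1728}` there is a point `τ0` with `j(τ0) = c` at which `j - c` has
order exactly `1`. -/
theorem exists_ordZ_jHol_sub_eq_one {c : ℂ} (h0 : c ≠ 0) (h1 : c ≠ 1728) :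
    ∃ τ0 : ℍ, jFun τ0 = c ∧ ordZ τ0 (jHol - algebraMap ℂ HolH c) = 1 := by
  obtain ⟨τ0, hτ0⟩ := jFun_surjective c
  exact ⟨τ0, hτ0, ordZ_jHol_sub_of_eq hτ0 h0 h1⟩

/-- At `i`: `j - 1728` vanishes to order exactly `2`. -/
theorem ordAt_jHol_sub_I : ordAt UpperHalfPlane.I (jHol - algebraMap ℂ HolH 1728) = 2 := by
  rw [ordAt, toC_jHol_sub]
  exact analyticOrderAt_jFun_sub_I

theorem ordZ_jHol_sub_I : ordZ UpperHalfPlane.I (jHol - algebraMap ℂ HolH 1728) = 2 := by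
  rw [ordZ, ordAt_jHol_sub_I]
  rfl

/-- At `ρ`: `j` vanishes to order exactly `3`. -/
theorem ordAt_jHol_rho : ordAt rho jHol = 3 := by
  rw [ordAt, toC_jHol]
  exact analyticOrderAt_jFun_rho

theorem ordZ_jHol_rho : ordZ rho jHol = 3 := by
  rw [ordZ, ordAt_jHol_rho]
  rfl

theorem ordAt_jHol_sub_zero_rho : ordAt rho (jHol - algebraMap ℂ HolH 0) = 3 := by
  rw [map_zero, sub_zero]
  exact ordAt_jHol_rho

theorem ordZ_jHol_sub_zero_rho : ordZ rho (jHol - algebraMap ℂ HolH 0) = 3 := by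
  rw [map_zero, sub_zero]
  exact ordZ_jHol_rho

end Fermat.Agent.S24.JHol

end
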