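import Mathlib

/-!
# Local orders of the analytic `j`-function (S24, block JOrd)

`W := 2 E₄ D E₆ - 3 E₆ D E₄` is a weight 12 cusp form of level one, hence `W = c Δ`,
and `c ≠ 0`.  Consequences: `D j = 0` only where `j ∈ {0, 1728}`, `j - 1728` has order
exactly `2` at `i`, and `j` has order exactly `3` at the fixed point of `S * T`.
-/

open UpperHalfPlane hiding I
open Real Complex ModularForm EisensteinSeries Derivative Filter Function
open scoped Manifold MatrixGroups ModularForm Topology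

namespace Fermat.Agent.S24.JOrd

noncomputable section

local notation "𝕢" => Periodic.qParam
local notation "Δ" => ModularForm.discriminant

/-- The Rankin-Cohen type combination `2 E₄ D E₆ - 3 E₆ D E₄`. -/
def W (z : ℍ) : ℂ := 2 * E₄ z * D E₆ z - 3 * E₆ z * D E₄ z

/-- The analytic `j`-function on the upper half plane. -/
def jH (z : ℍ) : ℂ := E₄ z ^ 3 / Δ z

lemma E₄_mdiff : MDiff (E₄ : ℍ → ℂ) := ModularFormClass.holo E₄
lemma E₆_mdiff : MDiff (E₆ : ℍ → ℂ) := ModularFormClass.holo E₆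
lemma disc_mdiff : MDiff (Δ : ℍ → ℂ) := ModularFormClass.holo CuspForm.discriminant

lemma W_eq_serre (z : ℍ) :
    W z = 2 * E₄ z * serreDerivative (6 : ℤ) (E₆ : ℍ → ℂ) z
      - 3 * E₆ z * serreDerivative (4 : ℤ) (E₄ : ℍ → ℂ) z := by
  simp only [W, serreDerivative_apply]
  push_cast
  ring

lemma E₄_slash (γ : SL(2, ℤ)) : (E₄ : ℍ → ℂ) ∣[(4 : ℤ)] γ = E₄ :=
  SlashInvariantFormClass.slash_action_eq E₄ _ ⟨γ, rfl⟩

lemma E₆_slash (γ : SL(2, ℤ)) : (E₆ : ℍ → ℂ) ∣[(6 : ℤ)] γ = E₆ :=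
  SlashInvariantFormClass.slash_action_eq E₆ _ ⟨γ, rfl⟩

lemma disc_slash (γ : SL(2, ℤ)) : (Δ : ℍ → ℂ) ∣[(12 : ℤ)] γ = Δ :=
  SlashInvariantFormClass.slash_action_eq CuspForm.discriminant _ ⟨γ, rfl⟩

lemma W_slash (γ : SL(2, ℤ)) : W ∣[(12 : ℤ)] γ = W := by
  ext τ
  have h4 := congrFun (serreDerivative_slash_invariant (k := 4) E₄_mdiff (E₄_slash γ)) τ
  have h6 := congrFun (serreDerivative_slash_invariant (k := 6) E₆_mdiff (E₆_slash γ)) τ
  have e4 := congrFun (E₄_slash γ) τ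
  have e6 := congrFun (E₆_slash γ) τ
  rw [SL_slash_apply] at h4 h6 e4 e6 ⊢
  rw [W_eq_serre, W_eq_serre, ← h4, ← h6, ← e4, ← e6]
  have hd : denom γ τ ≠ 0 := denom_ne_zero γ τ
  have h12 : denom γ τ ^ (-(12 : ℤ)) = denom γ τ ^ (-(4 : ℤ)) * denom γ τ ^ (-((6 : ℤ) + 2)) := by
    rw [← zpow_add₀ hd]; norm_num
  have h12' : denom γ τ ^ (-(12 : ℤ)) = denom γ τ ^ (-(6 : ℤ)) * denom γ τ ^ (-((4 : ℤ) + 2)) := by
    rw [← zpow_add₀ hd]; norm_num
  generalize (E₄ (γ • τ) : ℂ) = A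
  generalize (E₆ (γ • τ) : ℂ) = B
  generalize serreDerivative (6 : ℤ) (E₆ : ℍ → ℂ) (γ • τ) = C
  generalize serreDerivative (4 : ℤ) (E₄ : ℍ → ℂ) (γ • τ) = E'
  calc (2 * A * C - 3 * B * E') * denom γ τ ^ (-(12 : ℤ))
      = 2 * A * C * denom γ τ ^ (-(12 : ℤ)) - 3 * B * E' * denom γ τ ^ (-(12 : ℤ)) := by ring
    _ = 2 * A * C * (denom γ τ ^ (-(4 : ℤ)) * denom γ τ ^ (-((6 : ℤ) + 2)))
        - 3 * B * E' * (denom γ τ ^ (-(6 : ℤ)) * denom γ τ ^ (-((4 : ℤ) + 2))) := by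
          rw [← h12, ← h12']
    _ = _ := by ring

lemma hasDerivAt_qParam_one (z : ℂ) :
    HasDerivAt (𝕢 1) (2 * π * I * 𝕢 1 z) z := by
  have h1 : HasDerivAt (fun w : ℂ => 2 * π * I * w / (1 : ℝ)) (2 * π * I) z := by
    have := (hasDerivAt_id z).const_mul (2 * π * I)
    simpa using this
  have h2 := h1.cexp
  unfold Periodic.qParam
  exact h2.congr_deriv (by ring)

/-- `D f = q * G'(q)` where `G` is the cusp function. -/
lemma D_eq_qParam_mul_deriv_cuspFunction {k : ℤ} (f : ModularForm 𝒮ℒ k) (τ : ℍ) :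
    D f τ = 𝕢 1 τ * deriv (cuspFunction 1 f) (𝕢 1 τ) := by
  have hq : ‖𝕢 1 (τ : ℂ)‖ < 1 := Periodic.norm_qParam_lt_one one_pos τ.im_pos
  have hG : DifferentiableAt ℂ (cuspFunction 1 f) (𝕢 1 τ) :=
    ModularFormClass.differentiableAt_cuspFunction f one_pos one_mem_strictPeriods_SL hq
  have hcomp : ((f : ℍ → ℂ) ∘ ofComplex) =ᶠ[𝓝 (τ : ℂ)] (cuspFunction 1 f) ∘ (𝕢 1) := by
    filter_upwards [isOpen_upperHalfPlaneSet.mem_nhds τ.im_pos] with w hw
    have := SlashInvariantFormClass.eq_cuspFunction f ⟨w, hw⟩ one_mem_strictPeriods_SL one_ne_zero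
    simp only [Function.comp_apply, ofComplex_apply_of_im_pos hw]
    exact this.symm
  have hd : HasDerivAt ((cuspFunction 1 f) ∘ (𝕢 1))
      (deriv (cuspFunction 1 f) (𝕢 1 τ) * (2 * π * I * 𝕢 1 τ)) (τ : ℂ) :=
    hG.hasDerivAt.comp (τ : ℂ) (hasDerivAt_qParam_one τ)
  have hd' := (hd.congr_of_eventuallyEq hcomp).deriv
  simp only [normalizedDerivOfComplex, hd']
  have : (2 * (π : ℂ) * I) ≠ 0 := Complex.two_pi_I_ne_zero
  field_simp

lemma D_tendsto_zero {k : ℤ} (f : ModularForm 𝒮ℒ k) :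
    Tendsto (D (f : ℍ → ℂ)) atImInfty (𝓝 0) := by
  have hG : AnalyticAt ℂ (cuspFunction 1 f) 0 :=
    ModularFormClass.analyticAt_cuspFunction_zero f one_pos one_mem_strictPeriods_SL
  have hG' : ContinuousAt (deriv (cuspFunction 1 f)) 0 := hG.deriv.continuousAt
  have hq : Tendsto (fun τ : ℍ => 𝕢 1 (τ : ℂ)) atImInfty (𝓝 0) := qParam_tendsto_atImInfty one_pos
  have h2 : Tendsto (fun τ : ℍ => deriv (cuspFunction 1 f) (𝕢 1 τ)) atImInfty
      (𝓝 (deriv (cuspFunction 1 f) 0)) := hG'.tendsto.comp hq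
  have h3 := hq.mul h2
  rw [zero_mul] at h3
  refine h3.congr (fun τ => ?_)
  exact (D_eq_qParam_mul_deriv_cuspFunction f τ).symm

/-- A level one modular form tends to the constant coefficient of its `q`-expansion. -/
lemma tendsto_coeff_zero {k : ℤ} (f : ModularForm 𝒮ℒ k) :
    Tendsto (f : ℍ → ℂ) atImInfty (𝓝 ((qExpansion 1 f).coeff 0)) := by
  have hG : AnalyticAt ℂ (cuspFunction 1 f) 0 :=
    ModularFormClass.analyticAt_cuspFunction_zero f one_pos one_mem_strictPeriods_SL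
  have hq : Tendsto (fun τ : ℍ => 𝕢 1 (τ : ℂ)) atImInfty (𝓝 0) := qParam_tendsto_atImInfty one_pos
  have h2 := hG.continuousAt.tendsto.comp hq
  have h0 : (qExpansion 1 f).coeff 0 = cuspFunction 1 f 0 := by
    simp [qExpansion_coeff]
  rw [h0]
  refine h2.congr (fun τ => ?_)
  exact SlashInvariantFormClass.eq_cuspFunction f τ one_mem_strictPeriods_SL one_ne_zero

lemma E₄_tendsto_one : Tendsto (E₄ : ℍ → ℂ) atImInfty (𝓝 1) := by
  have := tendsto_coeff_zero E₄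
  rwa [E_qExpansion_coeff_zero _ ⟨2, rfl⟩] at this

lemma W_isZeroAtImInfty : IsZeroAtImInfty W := by
  have h4 : IsBoundedAtImInfty (E₄ : ℍ → ℂ) := ModularFormClass.bdd_at_infty E₄
  have h6 : IsBoundedAtImInfty (E₆ : ℍ → ℂ) := ModularFormClass.bdd_at_infty E₆
  have d4 : IsZeroAtImInfty (D (E₄ : ℍ → ℂ)) := D_tendsto_zero E₄
  have d6 : IsZeroAtImInfty (D (E₆ : ℍ → ℂ)) := D_tendsto_zero E₆
  have a := h4.mul_zeroAtFilter d6
  have b := h6.mul_zeroAtFilter d4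
  have hW : W = (2 : ℂ) • ((E₄ : ℍ → ℂ) * D (E₆ : ℍ → ℂ))
      + (-(3 : ℂ)) • ((E₆ : ℍ → ℂ) * D (E₄ : ℍ → ℂ)) := by
    ext z; simp [W]; ring
  rw [hW]
  exact (a.smul 2).add (b.smul (-3))

lemma W_mdiff : MDiff W := by
  have d4 := normalizedDerivOfComplex_mdifferentiable E₄_mdiff
  have d6 := normalizedDerivOfComplex_mdifferentiable E₆_mdiff
  have hW : W = (fun _ => (2 : ℂ)) * ((E₄ : ℍ → ℂ) * D (E₆ : ℍ → ℂ))
      - (fun _ => (3 : ℂ)) * ((E₆ : ℍ → ℂ) * D (E₄ : ℍ → ℂ)) := by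
    ext z; simp [W]; ring
  rw [hW]
  exact (mdifferentiable_const.mul (E₄_mdiff.mul d6)).sub
    (mdifferentiable_const.mul (E₆_mdiff.mul d4))

/-- `W` as a cusp form of weight 12 and level one. -/
def WCusp : CuspForm 𝒮ℒ 12 where
  toFun := W
  slash_action_eq' A hA := by
    obtain ⟨γ, rfl⟩ := hA
    exact W_slash γ
  holo' := W_mdiff
  zero_at_cusps' hc := by
    rw [Subgroup.IsArithmetic.isCusp_iff_isCusp_SL2Z] at hc
    rw [OnePoint.isZeroAt_iff_forall_SL2Z hc]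
    intro γ _
    rw [W_slash]
    exact W_isZeroAtImInfty

lemma exists_W_eq : ∃ c : ℂ, ∀ z : ℍ, W z = c * Δ z := by
  obtain ⟨c, hc⟩ := CuspForm.exists_smul_discriminant_of_weight_eq_twelve WCusp
  refine ⟨c, fun z => ?_⟩
  have := congrArg (fun f : CuspForm 𝒮ℒ 12 => f z) hc
  exact this.symm

/-! ### The derivative of `j` -/

lemma jH_mul_disc (z : ℍ) : jH z * Δ z = E₄ z ^ 3 := by
  unfold jH
  exact div_mul_cancel₀ _ (discriminant_ne_zero z)

lemma jH_mdiff : MDiff jH := by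
  rw [UpperHalfPlane.mdifferentiable_iff]
  have h4 := UpperHalfPlane.mdifferentiable_iff.mp E₄_mdiff
  have hΔ := UpperHalfPlane.mdifferentiable_iff.mp disc_mdiff
  have h : DifferentiableOn ℂ
      (fun z => ((E₄ : ℍ → ℂ) ∘ ofComplex) z ^ 3 / ((Δ : ℍ → ℂ) ∘ ofComplex) z) {z | 0 < z.im} :=
    (h4.pow 3).div hΔ (fun z _ => discriminant_ne_zero _)
  exact h

lemma disc_eq (z : ℍ) : 1728 * Δ z = E₄ z ^ 3 - E₆ z ^ 2 := by
  rw [ModularForm.discriminant_eq_E₄_cube_sub_E₆_sq z]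
  ring

lemma D_disc (z : ℍ) : 1728 * D Δ z = 3 * E₄ z ^ 2 * D E₄ z - 2 * E₆ z * D E₆ z := by
  have hfun : (1728 : ℂ) • (Δ : ℍ → ℂ) = (E₄ : ℍ → ℂ) ^ 3 - (E₆ : ℍ → ℂ) ^ 2 := by
    ext z
    simp [disc_eq]
  have h : D ((1728 : ℂ) • (Δ : ℍ → ℂ)) z = D ((E₄ : ℍ → ℂ) ^ 3 - (E₆ : ℍ → ℂ) ^ 2) z := by
    rw [hfun]
  rw [normalizedDerivOfComplex_smul _ _ disc_mdiff,
    normalizedDerivOfComplex_sub _ _ (E₄_mdiff.pow 3) (E₆_mdiff.pow 2),
    normalizedDerivOfComplex_pow _ _ E₄_mdiff, normalizedDerivOfComplex_pow _ _ E₆_mdiff] at h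
  simp only [Pi.smul_apply, Pi.sub_apply, Pi.mul_apply, Pi.pow_apply, smul_eq_mul] at h
  norm_num at h
  linear_combination h

lemma D_jH_mul (z : ℍ) : D jH z * Δ z + jH z * D Δ z = 3 * E₄ z ^ 2 * D E₄ z := by
  have hfun : jH * (Δ : ℍ → ℂ) = (E₄ : ℍ → ℂ) ^ 3 := by
    ext z
    exact jH_mul_disc z
  have h : D (jH * (Δ : ℍ → ℂ)) z = D ((E₄ : ℍ → ℂ) ^ 3) z := by
    rw [hfun]
  rw [normalizedDerivOfComplex_mul _ _ jH_mdiff disc_mdiff,
    normalizedDerivOfComplex_pow _ _ E₄_mdiff] at h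
  simp only [Pi.add_apply, Pi.mul_apply, Pi.pow_apply] at h
  norm_num at h
  linear_combination h

/-- The key identity `1728 Δ² D j = E₄² E₆ W`. -/
theorem D_jH_identity (z : ℍ) : 1728 * Δ z ^ 2 * D jH z = E₄ z ^ 2 * E₆ z * W z := by
  have h1 := D_jH_mul z
  have h2 := D_disc z
  have h3 := jH_mul_disc z
  have h4 := disc_eq z
  unfold W
  linear_combination (1728 * Δ z) * h1 - (jH z * Δ z) * h2
    - (3 * E₄ z ^ 2 * D E₄ z - 2 * E₆ z * D E₆ z) * h3 + (3 * E₄ z ^ 2 * D E₄ z) * h4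

theorem exists_W_eq_ne : ∃ c : ℂ, c ≠ 0 ∧ ∀ z : ℍ, W z = c * Δ z := by
  obtain ⟨c, hc⟩ := exists_W_eq
  refine ⟨c, ?_, hc⟩
  rintro rfl
  have hW : ∀ z, W z = 0 := fun z => by simp [hc z]
  have hD : ∀ z : ℍ, D jH z = 0 := by
    intro z
    have h := D_jH_identity z
    rw [hW z, mul_zero] at h
    have hΔ := discriminant_ne_zero z
    simpa [hΔ] using h
  have hderiv : Set.EqOn (deriv (jH ∘ ofComplex)) 0 {z : ℂ | 0 < z.im} := by
    intro z hz
    have h := hD ⟨z, hz⟩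
    simp only [normalizedDerivOfComplex] at h
    have h2 : (2 * (π : ℂ) * I)⁻¹ ≠ 0 := inv_ne_zero Complex.two_pi_I_ne_zero
    simpa [h2] using h
  have hconst : ∀ z : ℍ, jH z = jH UpperHalfPlane.I := by
    intro z
    have h := IsOpen.is_const_of_deriv_eq_zero isOpen_upperHalfPlaneSet
      (convex_halfSpace_im_gt 0).isPreconnected (UpperHalfPlane.mdifferentiable_iff.mp jH_mdiff)
      hderiv z.im_pos UpperHalfPlane.I.im_pos
    rw [Function.comp_apply, Function.comp_apply, ofComplex_apply, ofComplex_apply] at h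
    exact h
  have hlim1 : Tendsto (fun z : ℍ => (E₄ z : ℂ) ^ 3) atImInfty (𝓝 1) := by
    simpa using E₄_tendsto_one.pow 3
  have hΔ0 : Tendsto (Δ : ℍ → ℂ) atImInfty (𝓝 0) := discriminant_isZeroAtImInfty
  have hlim2 : Tendsto (fun z : ℍ => jH UpperHalfPlane.I * Δ z) atImInfty (𝓝 0) := by
    simpa using hΔ0.const_mul (jH UpperHalfPlane.I)
  have heq : (fun z : ℍ => (E₄ z : ℂ) ^ 3) = (fun z : ℍ => jH UpperHalfPlane.I * Δ z) := by
    ext z
    rw [← hconst z, jH_mul_disc]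
  rw [heq] at hlim1
  exact one_ne_zero (tendsto_nhds_unique hlim1 hlim2)

theorem W_ne_zero (z : ℍ) : W z ≠ 0 := by
  obtain ⟨c, hc, h⟩ := exists_W_eq_ne
  rw [h z]
  exact mul_ne_zero hc (discriminant_ne_zero z)

lemma jH_eq_zero_iff (z : ℍ) : jH z = 0 ↔ E₄ z = 0 := by
  simp [jH, discriminant_ne_zero z]

lemma jH_sub_1728 (z : ℍ) : jH z - 1728 = E₆ z ^ 2 / Δ z := by
  have h := disc_eq z
  have hΔ := discriminant_ne_zero z
  unfold jH
  field_simp
  linear_combination -h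

lemma jH_eq_1728_iff (z : ℍ) : jH z = 1728 ↔ E₆ z = 0 := by
  rw [← sub_eq_zero, jH_sub_1728]
  simp [discriminant_ne_zero z]

/-- `D j` vanishes only where `j ∈ {0, 1728}`. -/
theorem D_jH_ne_zero (z : ℍ) (h0 : jH z ≠ 0) (h1 : jH z ≠ 1728) : D jH z ≠ 0 := by
  intro hD
  have h := D_jH_identity z
  rw [hD, mul_zero] at h
  have h4 : E₄ z ≠ 0 := fun h => h0 ((jH_eq_zero_iff z).mpr h)
  have h6 : E₆ z ≠ 0 := fun h => h1 ((jH_eq_1728_iff z).mpr h)
  exact (mul_ne_zero (mul_ne_zero (pow_ne_zero 2 h4) h6) (W_ne_zero z)) h.symm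

theorem D_E₆_ne_zero (z : ℍ) (h : E₆ z = 0) : D E₆ z ≠ 0 := by
  intro hD
  have hW := W_ne_zero z
  simp [W, h, hD] at hW

theorem D_E₄_ne_zero (z : ℍ) (h : E₄ z = 0) : D E₄ z ≠ 0 := by
  intro hD
  have hW := W_ne_zero z
  simp [W, h, hD] at hW

/-! ### Analytic orders -/

lemma analyticAt_comp_ofComplex {f : ℍ → ℂ} (hf : MDiff f) (τ : ℍ) :
    AnalyticAt ℂ (f ∘ ofComplex) (τ : ℂ) :=
  (UpperHalfPlane.mdifferentiable_iff.mp hf).analyticAt
    (isOpen_upperHalfPlaneSet.mem_nhds τ.im_pos)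

lemma deriv_comp_ofComplex (f : ℍ → ℂ) (τ : ℍ) :
    deriv (f ∘ ofComplex) (τ : ℂ) = 2 * π * I * D f τ := by
  have : (2 * (π : ℂ) * I) ≠ 0 := Complex.two_pi_I_ne_zero
  simp only [normalizedDerivOfComplex]
  field_simp

lemma deriv_comp_ofComplex_ne_zero {f : ℍ → ℂ} {τ : ℍ} (h : D f τ ≠ 0) :
    deriv (f ∘ ofComplex) (τ : ℂ) ≠ 0 := by
  rw [deriv_comp_ofComplex]
  exact mul_ne_zero Complex.two_pi_I_ne_zero h

/-- Away from `j ∈ {0, 1728}` the function `j - j(τ)` has a simple zero at `τ`. -/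
theorem analyticOrderAt_jH_sub (τ : ℍ) (h0 : jH τ ≠ 0) (h1 : jH τ ≠ 1728) :
    analyticOrderAt (fun z : ℂ => (jH ∘ ofComplex) z - jH τ) (τ : ℂ) = 1 := by
  have han := analyticAt_comp_ofComplex jH_mdiff τ
  have hd := deriv_comp_ofComplex_ne_zero (D_jH_ne_zero τ h0 h1)
  have h := han.analyticOrderAt_sub_eq_one_of_deriv_ne_zero hd
  simpa using h

lemma analyticOrderAt_E₆ (τ : ℍ) (h : E₆ τ = 0) :
    analyticOrderAt ((E₆ : ℍ → ℂ) ∘ ofComplex) (τ : ℂ) = 1 :=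
  (analyticAt_comp_ofComplex E₆_mdiff τ).analyticOrderAt_eq_one_of_zero_deriv_ne_zero
    (by simpa using h) (deriv_comp_ofComplex_ne_zero (D_E₆_ne_zero τ h))

lemma analyticOrderAt_E₄ (τ : ℍ) (h : E₄ τ = 0) :
    analyticOrderAt ((E₄ : ℍ → ℂ) ∘ ofComplex) (τ : ℂ) = 1 :=
  (analyticAt_comp_ofComplex E₄_mdiff τ).analyticOrderAt_eq_one_of_zero_deriv_ne_zero
    (by simpa using h) (deriv_comp_ofComplex_ne_zero (D_E₄_ne_zero τ h))

lemma analyticAt_disc_inv (τ : ℍ) :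
    AnalyticAt ℂ (fun z : ℂ => (((Δ : ℍ → ℂ) ∘ ofComplex) z)⁻¹) (τ : ℂ) :=
  (analyticAt_comp_ofComplex disc_mdiff τ).inv (by simpa using discriminant_ne_zero τ)

lemma analyticOrderAt_disc_inv (τ : ℍ) :
    analyticOrderAt (fun z : ℂ => (((Δ : ℍ → ℂ) ∘ ofComplex) z)⁻¹) (τ : ℂ) = 0 :=
  (analyticAt_disc_inv τ).analyticOrderAt_eq_zero.mpr
    (by simpa using discriminant_ne_zero τ)

/-- Where `j = 1728` the function `j - 1728` has a zero of order exactly `2`. -/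
theorem analyticOrderAt_jH_sub_1728 (τ : ℍ) (h : jH τ = 1728) :
    analyticOrderAt (fun z : ℂ => (jH ∘ ofComplex) z - 1728) (τ : ℂ) = 2 := by
  have h6 : E₆ τ = 0 := (jH_eq_1728_iff τ).mp h
  have hcongr : (fun z : ℂ => (jH ∘ ofComplex) z - 1728) =ᶠ[𝓝 (τ : ℂ)]
      ((E₆ : ℍ → ℂ) ∘ ofComplex) ^ 2 * (fun z : ℂ => (((Δ : ℍ → ℂ) ∘ ofComplex) z)⁻¹) := by
    filter_upwards with z
    simp only [Function.comp_apply, Pi.mul_apply, Pi.pow_apply]
    rw [jH_sub_1728, div_eq_mul_inv]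
  rw [analyticOrderAt_congr hcongr,
    analyticOrderAt_mul ((analyticAt_comp_ofComplex E₆_mdiff τ).pow 2) (analyticAt_disc_inv τ),
    analyticOrderAt_pow (analyticAt_comp_ofComplex E₆_mdiff τ), analyticOrderAt_E₆ τ h6,
    analyticOrderAt_disc_inv]
  simp

/-- Where `j = 0` the function `j` has a zero of order exactly `3`. -/
theorem analyticOrderAt_jH_of_eq_zero (τ : ℍ) (h : jH τ = 0) :
    analyticOrderAt (jH ∘ ofComplex) (τ : ℂ) = 3 := by
  have h4 : E₄ τ = 0 := (jH_eq_zero_iff τ).mp h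
  have hcongr : (jH ∘ ofComplex) =ᶠ[𝓝 (τ : ℂ)]
      ((E₄ : ℍ → ℂ) ∘ ofComplex) ^ 3 * (fun z : ℂ => (((Δ : ℍ → ℂ) ∘ ofComplex) z)⁻¹) := by
    filter_upwards with z
    simp only [Function.comp_apply, Pi.mul_apply, Pi.pow_apply, jH, div_eq_mul_inv]
  rw [analyticOrderAt_congr hcongr,
    analyticOrderAt_mul ((analyticAt_comp_ofComplex E₄_mdiff τ).pow 3) (analyticAt_disc_inv τ),
    analyticOrderAt_pow (analyticAt_comp_ofComplex E₄_mdiff τ), analyticOrderAt_E₄ τ h4,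
    analyticOrderAt_disc_inv]
  simp

/-! ### Invariance, special points, surjectivity -/

lemma E₄_smul (γ : SL(2, ℤ)) (τ : ℍ) : E₄ (γ • τ) = denom γ τ ^ (4 : ℕ) * E₄ τ := by
  have e4 := congrFun (E₄_slash γ) τ
  rw [SL_slash_apply] at e4
  have hd := denom_ne_zero γ τ
  rw [← e4, zpow_neg, zpow_ofNat]
  field_simp

lemma E₆_smul (γ : SL(2, ℤ)) (τ : ℍ) : E₆ (γ • τ) = denom γ τ ^ (6 : ℕ) * E₆ τ := by
  have e6 := congrFun (E₆_slash γ) τ
  rw [SL_slash_apply] at e6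
  have hd := denom_ne_zero γ τ
  rw [← e6, zpow_neg, zpow_ofNat]
  field_simp

lemma disc_smul (γ : SL(2, ℤ)) (τ : ℍ) : Δ (γ • τ) = denom γ τ ^ (12 : ℕ) * Δ τ := by
  have e := congrFun (disc_slash γ) τ
  rw [SL_slash_apply] at e
  have hd := denom_ne_zero γ τ
  rw [← e, zpow_neg, zpow_ofNat]
  field_simp

/-- `SL(2, ℤ)`-invariance of `j`. -/
theorem jH_smul (γ : SL(2, ℤ)) (τ : ℍ) : jH (γ • τ) = jH τ := by
  have hd := denom_ne_zero γ τ
  have hΔ := discriminant_ne_zero τ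
  unfold jH
  rw [E₄_smul, disc_smul]
  field_simp

lemma S_smul_I : ModularGroup.S • UpperHalfPlane.I = UpperHalfPlane.I := by
  rw [modular_S_smul]
  apply UpperHalfPlane.ext
  simp [Complex.inv_I]

lemma E₆_I : E₆ UpperHalfPlane.I = 0 := by
  have h := E₆_smul ModularGroup.S UpperHalfPlane.I
  rw [S_smul_I, ModularGroup.denom_S] at h
  have hI : ((UpperHalfPlane.I : ℍ) : ℂ) ^ 6 = -1 := by
    have : ((UpperHalfPlane.I : ℍ) : ℂ) = Complex.I := rfl
    rw [this, show (6 : ℕ) = 2 * 3 from rfl, pow_mul, Complex.I_sq]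
    norm_num
  rw [hI] at h
  linear_combination h / 2

theorem jH_I : jH UpperHalfPlane.I = 1728 := (jH_eq_1728_iff _).mpr E₆_I

/-- The point `ρ = -1/2 + (√3/2) i`, fixed by `S * T`. -/
def rho : ℍ := ⟨-1 / 2 + (Real.sqrt 3 / 2 : ℝ) * Complex.I, by simp⟩

lemma coe_rho : (rho : ℂ) = -1 / 2 + (Real.sqrt 3 / 2 : ℝ) * Complex.I := rfl

lemma rho_sq_add : (rho : ℂ) ^ 2 + rho + 1 = 0 := by
  have h3 : ((Real.sqrt 3 : ℝ) : ℂ) ^ 2 = 3 := by
    rw [← Complex.ofReal_pow, Real.sq_sqrt (by norm_num : (0 : ℝ) ≤ 3)]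
    norm_num
  rw [coe_rho]
  push_cast
  linear_combination (-1 / 4 : ℂ) * h3 + ((Real.sqrt 3 : ℝ) : ℂ) ^ 2 / 4 * Complex.I_sq

lemma ST_smul_rho : (ModularGroup.S * ModularGroup.T) • rho = rho := by
  apply UpperHalfPlane.ext
  rw [coe_specialLinearGroup_apply]
  have hST : ((ModularGroup.S * ModularGroup.T : SL(2, ℤ)) : Matrix (Fin 2) (Fin 2) ℤ)
      = !![0, -1; 1, 1] := by
    rw [Matrix.SpecialLinearGroup.coe_mul, ModularGroup.coe_S, ModularGroup.coe_T]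
    ext i j
    fin_cases i <;> fin_cases j <;> simp [Matrix.mul_apply, Fin.sum_univ_two]
  simp only [hST]
  have h := rho_sq_add
  have hne : (rho : ℂ) + 1 ≠ 0 := by
    intro h0
    have him := congrArg Complex.im h0
    rw [coe_rho] at him
    simp at him
  simp
  rw [div_eq_iff hne]
  linear_combination -h

lemma denom_ST_rho : denom (ModularGroup.S * ModularGroup.T : SL(2, ℤ)) rho = (rho : ℂ) + 1 := by
  rw [ModularGroup.denom_apply]
  have hST : ((ModularGroup.S * ModularGroup.T : SL(2, ℤ)) : Matrix (Fin 2) (Fin 2) ℤ)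
      = !![0, -1; 1, 1] := by
    rw [Matrix.SpecialLinearGroup.coe_mul, ModularGroup.coe_S, ModularGroup.coe_T]
    ext i j
    fin_cases i <;> fin_cases j <;> simp [Matrix.mul_apply, Fin.sum_univ_two]
  simp [hST]

lemma E₄_rho : E₄ rho = 0 := by
  have h := E₄_smul (ModularGroup.S * ModularGroup.T) rho
  rw [ST_smul_rho, denom_ST_rho] at h
  have hr := rho_sq_add
  have h4 : ((rho : ℂ) + 1) ^ 4 = -(rho : ℂ) - 1 := by
    linear_combination ((rho : ℂ) ^ 2 + (rho : ℂ) + 1 + 2 * (rho : ℂ) + 1) * hr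
  rw [h4] at h
  have hne : (rho : ℂ) + 2 ≠ 0 := by
    intro h0
    have him := congrArg Complex.im h0
    rw [coe_rho] at him
    simp at him
  have : ((rho : ℂ) + 2) * E₄ rho = 0 := by linear_combination h
  exact (mul_eq_zero.mp this).resolve_left hne

theorem jH_rho : jH rho = 0 := (jH_eq_zero_iff _).mpr E₄_rho

/-- `j` takes every complex value on the upper half plane. -/
theorem jH_surjective : Function.Surjective jH := by
  intro a
  by_contra hcon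
  push Not at hcon
  set g : ℍ → ℂ := fun τ => E₄ τ ^ 3 - a * Δ τ with hg
  have hg_ne : ∀ τ, g τ ≠ 0 := by
    intro τ h0
    apply hcon τ
    have hΔ := discriminant_ne_zero τ
    unfold jH
    rw [div_eq_iff hΔ]
    simp only [hg] at h0
    linear_combination h0
  have hg_smul : ∀ (γ : SL(2, ℤ)) (τ : ℍ), g (γ • τ) = denom γ τ ^ (12 : ℕ) * g τ := by
    intro γ τ
    simp only [hg]
    rw [E₄_smul, disc_smul]
    ring
  have hg_mdiff : MDiff g := by
    have : g = (E₄ : ℍ → ℂ) ^ 3 - (fun _ => a) * (Δ : ℍ → ℂ) := by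
      ext τ; simp [hg]
    rw [this]
    exact (E₄_mdiff.pow 3).sub (mdifferentiable_const.mul disc_mdiff)
  have hg_lim : Tendsto g atImInfty (𝓝 1) := by
    have h1 : Tendsto (fun z : ℍ => (E₄ z : ℂ) ^ 3) atImInfty (𝓝 1) := by
      simpa using E₄_tendsto_one.pow 3
    have hΔ0 : Tendsto (Δ : ℍ → ℂ) atImInfty (𝓝 0) := discriminant_isZeroAtImInfty
    have h2 := h1.sub (hΔ0.const_mul a)
    simpa using h2
  have hinv_lim : Tendsto (fun τ => (g τ)⁻¹) atImInfty (𝓝 1) := by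
    simpa using hg_lim.inv₀ one_ne_zero
  let h : ModularForm 𝒮ℒ (-12) :=
    { toFun := fun τ => (g τ)⁻¹
      slash_action_eq' := by
        rintro A ⟨γ, rfl⟩
        ext τ
        have := SL_slash_apply (f := fun τ => (g τ)⁻¹) (k := -12) γ τ
        rw [show ((fun τ => (g τ)⁻¹) ∣[(-12 : ℤ)] (Matrix.SpecialLinearGroup.mapGL ℝ γ)) τ
          = ((fun τ => (g τ)⁻¹) ∣[(-12 : ℤ)] γ) τ from rfl, this, hg_smul]
        have hd := denom_ne_zero γ τ
        have := hg_ne τ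
        rw [neg_neg, zpow_ofNat]
        field_simp
      holo' := by
        rw [UpperHalfPlane.mdifferentiable_iff]
        have hg' := UpperHalfPlane.mdifferentiable_iff.mp hg_mdiff
        have : DifferentiableOn ℂ (fun z => ((g ∘ ofComplex) z)⁻¹) {z | 0 < z.im} :=
          hg'.inv (fun z _ => hg_ne _)
        exact this
      bdd_at_cusps' := by
        intro c hc
        rw [OnePoint.isBoundedAt_iff_forall_SL2Z hc]
        intro γ _
        have hinv : ((fun τ => (g τ)⁻¹) ∣[(-12 : ℤ)] γ) = fun τ => (g τ)⁻¹ := by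
          ext τ
          rw [SL_slash_apply, hg_smul]
          have hd := denom_ne_zero γ τ
          have := hg_ne τ
          rw [neg_neg, zpow_ofNat]
          field_simp
        rw [hinv]
        have hz : IsZeroAtImInfty (fun τ : ℍ => (g τ)⁻¹ - 1) := by
          have := hinv_lim.sub_const 1
          simpa [IsZeroAtImInfty, ZeroAtFilter] using this
        have hb := hz.boundedAtFilter.add (const_boundedAtFilter atImInfty (1 : ℂ))
        have heq : ((fun τ : ℍ => (g τ)⁻¹ - 1) + Function.const ℍ (1 : ℂ))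
            = fun τ => (g τ)⁻¹ := by
          ext τ; simp
        rw [heq] at hb
        exact hb }
  have h0 : (h : ℍ → ℂ) = 0 := ModularFormClass.levelOne_neg_weight_eq_zero (by norm_num) h
  have h1 := congrFun h0 UpperHalfPlane.I
  have h2 : (g UpperHalfPlane.I)⁻¹ = 0 := h1
  exact hg_ne _ (inv_eq_zero.mp h2)

end

end Fermat.Agent.S24.JOrd
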