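import Fermat.Agent.S24.LocalVal.Hol
import Fermat.Agent.S24.LocalVal.Ord
import Fermat.Agent.S24.LocalVal.Rotation
import Fermat.Agent.S24.LocalVal.Embed
import Fermat.Agent.S24.LocalVal.Elliptic
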