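import Mathlib
import Fermat.Prelude.Def_ModularCurve_X0ModL

set_option autoImplicit false

/-!
# PJ2: formal rationality descent for polynomials in `j`

If `P` is a polynomial over a ring `L` and the principal part + constant term of the formal
`q`-expansion `P(jq)` lie in a subring `S ⊆ L`, then all coefficients of `P` lie in `S`.
Consequently a polynomial in `j` over `L` whose `q`-expansion has coefficients in the image
of `ι : K →+* L` is the image of a polynomial over `K`.
-/

namespace Fermat.Agent.S24.PolyJDescent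

open ModularCurve Polynomial

section Descent

variable {L : Type*} [CommRing L]

/-- coefficients of powers of `jqModC L` are (casts of) integers -/
theorem coeff_jqModC_pow_eq_intCast (d : ℕ) (n : ℤ) :
    ((jqModC L) ^ d).coeff n = (((jqModC ℤ ^ d).coeff n : ℤ) : L) := by
  have h : coeffMap (Int.castRingHom L) (jqModC ℤ ^ d) = jqModC L ^ d := by
    rw [map_pow, coeffMap_jqModC]
  rw [← h]
  rfl

/-- the (default, via power series) `L`-algebra structure on `LaurentSeries L`:
`algebraMap c = single 0 c` -/
theorem algebraMap_eq_single (c : L) :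
    algebraMap L (LaurentSeries L) c = HahnSeries.single 0 c := by
  have h1 : algebraMap L (PowerSeries L) c = PowerSeries.C c := by simp
  rw [HahnSeries.algebraMap_apply', h1, HahnSeries.ofPowerSeries_C]
  rfl

theorem coeff_algebraMap_mul (c : L) (x : LaurentSeries L) (n : ℤ) :
    (algebraMap L (LaurentSeries L) c * x).coeff n = c * x.coeff n := by
  rw [algebraMap_eq_single]
  simp

theorem coeff_smul_laurent (c : L) (x : LaurentSeries L) (n : ℤ) :
    (@HSMul.hSMul L (LaurentSeries L) (LaurentSeries L) (@instHSMul _ _ Algebra.toSMul) c x).coeff n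
      = c * x.coeff n := by
  rw [Algebra.smul_def, coeff_algebraMap_mul]

/-- a polynomial of degree `< d` in `jq` has no coefficient in degrees `≤ -d` -/
theorem coeff_aeval_eq_zero (P : Polynomial L) (d : ℕ) (hP : ∀ m, d ≤ m → P.coeff m = 0)
    (n : ℤ) (hn : n ≤ -(d : ℤ)) : (aeval (jqModC L) P).coeff n = 0 := by
  rw [aeval_eq_sum_range, HahnSeries.coeff_sum]
  refine Finset.sum_eq_zero fun i _ => ?_
  rw [coeff_smul_laurent]
  by_cases hi : d ≤ i
  · rw [hP i hi, zero_mul]
  · rw [coeff_jqModC_pow_of_lt L (by omega), mul_zero]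

/-- the coefficient of `q^(-d)` in `P(jq)` for `deg P ≤ d` is the `d`-th coefficient of `P` -/
theorem coeff_aeval_neg (P : Polynomial L) (d : ℕ) (hP : ∀ m, d < m → P.coeff m = 0) :
    (aeval (jqModC L) P).coeff (-(d : ℤ)) = P.coeff d := by
  rw [aeval_eq_sum_range, HahnSeries.coeff_sum]
  by_cases hd : d ∈ Finset.range (P.natDegree + 1)
  · rw [Finset.sum_eq_single_of_mem d hd]
    · rw [coeff_smul_laurent, coeff_jqModC_pow_self, mul_one]
    · intro i _ hi
      rw [coeff_smul_laurent]
      rcases lt_or_gt_of_ne hi with hlt | hgt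
      · rw [coeff_jqModC_pow_of_lt L (by omega), mul_zero]
      · rw [hP i hgt, zero_mul]
  · have h0 : P.coeff d = 0 :=
      coeff_eq_zero_of_natDegree_lt (by simpa using hd)
    rw [h0]
    refine Finset.sum_eq_zero fun i hi => ?_
    rw [coeff_smul_laurent]
    have hid : i < d := by
      have h1 := Finset.mem_range.mp hi
      have h2 : P.natDegree < d := by simpa using hd
      omega
    rw [coeff_jqModC_pow_of_lt L (by omega), mul_zero]

/-- **PJ2 (D1)**: if the coefficients of `q^n`, `n ≤ 0`, of `P(jq)` lie in a subring `S`,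
then so do all coefficients of `P`. -/
theorem coeff_mem_of_coeff_aeval_mem (S : Subring L) (P : Polynomial L)
    (h : ∀ n : ℤ, n ≤ 0 → (aeval (jqModC L) P).coeff n ∈ S) : ∀ k, P.coeff k ∈ S := by
  suffices H : ∀ (d : ℕ) (P : Polynomial L), (∀ m, d ≤ m → P.coeff m = 0) →
      (∀ n : ℤ, n ≤ 0 → (aeval (jqModC L) P).coeff n ∈ S) → ∀ k, P.coeff k ∈ S from
    H (P.natDegree + 1) P (fun m hm => coeff_eq_zero_of_natDegree_lt (by omega)) h
  intro d
  induction d with
  | zero =>
    intro P hP _ k
    rw [hP k (Nat.zero_le k)]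
    exact S.zero_mem
  | succ d ih =>
    intro P hP h k
    have hcS : P.coeff d ∈ S := by
      have h1 := h (-(d : ℤ)) (by omega)
      rwa [coeff_aeval_neg P d (fun m hm => hP m (by omega))] at h1
    have hP'coeff : ∀ m, (P - C (P.coeff d) * X ^ d).coeff m
        = P.coeff m - (if m = d then P.coeff d else 0) := by
      intro m
      rw [coeff_sub, coeff_C_mul, coeff_X_pow]
      split_ifs <;> simp
    have hP'0 : ∀ m, d ≤ m → (P - C (P.coeff d) * X ^ d).coeff m = 0 := by
      intro m hm
      rw [hP'coeff]
      rcases hm.eq_or_lt with rfl | hlt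
      · simp
      · rw [if_neg (by omega), hP m (by omega)]; simp
    have haev : aeval (jqModC L) (P - C (P.coeff d) * X ^ d)
        = aeval (jqModC L) P - algebraMap L (LaurentSeries L) (P.coeff d) * jqModC L ^ d := by
      rw [map_sub, map_mul, aeval_C, map_pow, aeval_X]
    have hP'S : ∀ k, (P - C (P.coeff d) * X ^ d).coeff k ∈ S := by
      refine ih _ hP'0 fun n hn => ?_
      rw [haev, HahnSeries.coeff_sub, coeff_algebraMap_mul, coeff_jqModC_pow_eq_intCast]
      exact S.sub_mem (h n hn) (S.mul_mem hcS (intCast_mem S _))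
    have h1 := hP'S k
    rw [hP'coeff] at h1
    have h2 : P.coeff k = (P.coeff k - (if k = d then P.coeff d else 0))
        + (if k = d then P.coeff d else 0) := by ring
    rw [h2]
    refine S.add_mem h1 ?_
    split_ifs
    · exact hcS
    · exact S.zero_mem

end Descent

section Map

variable {K L : Type*} [CommRing K] [CommRing L]

theorem coeffMap_comp_algebraMap (ι : K →+* L) :
    (coeffMap ι).comp (algebraMap K (LaurentSeries K))
      = (algebraMap L (LaurentSeries L)).comp ι := by
  ext c : 1
  simp only [RingHom.comp_apply, algebraMap_eq_single, coeffMap_single]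

/-- **(D3)** `coeffMap` commutes with polynomial evaluation -/
theorem coeffMap_aeval (ι : K →+* L) (x : LaurentSeries K) (Q : Polynomial K) :
    coeffMap ι (aeval x Q) = aeval (coeffMap ι x) (Q.map ι) := by
  rw [aeval_def, aeval_def, hom_eval₂, eval₂_map, coeffMap_comp_algebraMap]

theorem coeffMap_aeval_jqModC (ι : K →+* L) (Q : Polynomial K) :
    coeffMap ι (aeval (jqModC K) Q) = aeval (jqModC L) (Q.map ι) := by
  rw [coeffMap_aeval, coeffMap_jqModC]

theorem coeffMap_injective (ι : K →+* L) (hι : Function.Injective ι) :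
    Function.Injective (coeffMap ι) := by
  intro x y hxy
  ext n
  have := congrArg (fun z => z.coeff n) hxy
  simp only [coeffMap_coeff] at this
  exact hι this

/-- **PJ2 (D1')**: a polynomial in `jq` over `L` whose `q`-expansion has its principal part and
constant term in the image of `ι : K →+* L` comes from a polynomial over `K`. -/
theorem exists_map_eq_of_coeff_mem_range (ι : K →+* L) (P : Polynomial L)
    (h : ∀ n : ℤ, n ≤ 0 → (aeval (jqModC L) P).coeff n ∈ ι.range) :
    ∃ Q : Polynomial K, Q.map ι = P ∧ Q.natDegree = P.natDegree := by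
  have hmem : P ∈ lifts ι := by
    rw [lifts_iff_coeff_lifts]
    intro k
    exact coeff_mem_of_coeff_aeval_mem ι.range P h k
  obtain ⟨Q, hQ, hdeg⟩ := exists_degree_eq_of_mem_lifts hmem
  exact ⟨Q, hQ, natDegree_eq_of_degree_eq hdeg⟩

/-- **PJ2 (D2)**: if the `K`-rational Laurent series `A` (mapped to `L`) is a polynomial `P`
over `L` in `jq`, then `P` is defined over `K` and (for injective `ι`) `A = Q(jq)` over `K`. -/
theorem exists_map_eq_of_coeffMap_eq (ι : K →+* L) (A : LaurentSeries K) (P : Polynomial L)
    (h : coeffMap ι A = aeval (jqModC L) P) :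
    ∃ Q : Polynomial K, Q.map ι = P ∧ Q.natDegree = P.natDegree ∧
      (Function.Injective ι → A = aeval (jqModC K) Q) := by
  obtain ⟨Q, hQ, hdeg⟩ := exists_map_eq_of_coeff_mem_range ι P
    (fun n _ => by rw [← h]; exact ⟨A.coeff n, rfl⟩)
  refine ⟨Q, hQ, hdeg, fun hinj => ?_⟩
  apply coeffMap_injective ι hinj
  rw [coeffMap_aeval_jqModC, hQ, h]

end Map

section Emb

variable (L : Type*) [Field L] [Algebra ℚ L]

/-- the Prelude's `coeffEmb L jq` is `jqModC L` -/
theorem coeffEmb_jq : coeffEmb L jq = jqModC L := by
  rw [← jqModC_rat, coeffEmb, coeffMap_jqModC]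

end Emb

end Fermat.Agent.S24.PolyJDescent
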