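import Mathlib
import Fermat.Prelude.Def_ModularCurve_GenusNumerics
import Fermat.Agent.S24.RHGeneric

set_option autoImplicit false

namespace Fermat.Agent.S24.RH

open AlgebraicCurve KaehlerDifferential

variable {K F : Type*} [Field K] [Field F] [Algebra K F]

/-- Pure arithmetic: the Riemann–Hurwitz number is twice the genus formula. -/
theorem toNat_div_two_eq {n r0 r1 roo ν2 ν3 c : ℕ}
    (h3 : 3 * r0 = n + 2 * ν3) (h2 : 2 * r1 = n + ν2) (hc : roo = c)
    (heven : Even (n + r0 + r1 + roo)) (hle : r0 + r1 + roo ≤ n + 2) :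
    ((((n : ℤ) - r0 + ((n : ℤ) - r1) - n - roo + 2).toNat / 2 : ℕ) : ℚ)
      = 1 + (n : ℚ) / 12 - (ν2 : ℚ) / 4 - (ν3 : ℚ) / 3 - (c : ℚ) / 2 := by
  obtain ⟨m, hm⟩ := heven
  have hT : ((n : ℤ) - r0 + ((n : ℤ) - r1) - n - roo + 2) = ((2 * (n + 1 - m) : ℕ) : ℤ) := by
    omega
  rw [hT, Int.toNat_natCast, Nat.mul_div_cancel_left _ (by norm_num : 0 < 2)]
  have hmle : m ≤ n + 1 := by omega
  rw [Nat.cast_sub hmle]
  have h3' : (3 : ℚ) * r0 = n + 2 * ν3 := by exact_mod_cast h3
  have h2' : (2 : ℚ) * r1 = n + ν2 := by exact_mod_cast h2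
  have hm' : (n : ℚ) + r0 + r1 + roo = m + m := by exact_mod_cast hm
  have hc' : (roo : ℚ) = c := by exact_mod_cast hc
  push_cast
  linarith

/-- The genus formula from the fibre counts of a function `x` of degree `ψ(N)` branched only
over `0`, `1728` and `∞`. -/
theorem genus_eq_genusFormula [CharZero K] [HasCanonicalDivisor (K := K) (F := F)]
    (N : ℕ) {x : F} {n : ℕ} (h : Data K F x n) (hnt : ∃ ω : Ω[F⁄K], ω ≠ 0)
    (hn : n = ModularCurve.dedekindPsi N)
    (hgen : ∀ c : K, c ≠ 0 → c ≠ 1728 → (zeros (K := K) x c).ncard = n)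
    {r0 r1 roo : ℕ}
    (h0 : (zeros (K := K) x 0).ncard = r0) (h1 : (zeros (K := K) x 1728).ncard = r1)
    (hoo : (poles K x).ncard = roo)
    (h3 : 3 * r0 = n + 2 * ModularCurve.nuThree N) (h2 : 2 * r1 = n + ModularCurve.nuTwo N)
    (hc : roo = ModularCurve.cuspCount N)
    (heven : Even (n + r0 + r1 + roo)) (hle : r0 + r1 + roo ≤ n + 2) :
    (genus K F : ℚ) = ModularCurve.genusFormula N := by
  classical
  have hne : (0 : K) ≠ 1728 := by norm_num
  have hS : ∀ c ∉ ({0, 1728} : Finset K), (zeros (K := K) x c).ncard = n := by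
    intro c hc
    simp only [Finset.mem_insert, Finset.mem_singleton, not_or] at hc
    exact hgen c hc.1 hc.2
  rw [genus_eq h hnt {0, 1728} hS, Finset.sum_pair hne, h0, h1, hoo,
    toNat_div_two_eq h3 h2 hc heven hle, ModularCurve.genusFormula, hn]

end Fermat.Agent.S24.RH
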