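import Mathlib

set_option autoImplicit false

namespace Fermat.Agent.S24.Scott

open Equiv

variable {X : Type*} [Fintype X] [DecidableEq X]

/-- The number of cycles (fixed points included) of a permutation. -/
noncomputable def cyc (σ : Perm X) : ℕ := Nat.card (Quotient (Perm.SameCycle.setoid σ))

/-- Cycles of `σ` are the fixed points together with the cycle factors. -/
noncomputable def cycToSum (σ : Perm X) :
    Quotient (Perm.SameCycle.setoid σ) → {x : X // σ x = x} ⊕ σ.cycleFactorsFinset :=
  Quotient.lift (s := Perm.SameCycle.setoid σ)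
    (fun x => if h : σ x = x then Sum.inl ⟨x, h⟩
      else Sum.inr ⟨σ.cycleOf x, Perm.cycleOf_mem_cycleFactorsFinset_iff.mpr
        (Perm.mem_support.mpr h)⟩)
    (by
      intro x y hxy
      have hxy' : σ.SameCycle x y := hxy
      by_cases hx : σ x = x
      · have hyx : x = y := hxy'.eq_of_left hx
        subst hyx
        rfl
      · have hy : σ y ≠ y := fun hy => hx (by
          have := hxy'.eq_of_right hy
          rw [this]; exact hy)
        simp only [dif_neg hx, dif_neg hy]
        congr 2
        exact hxy'.cycleOf_eq)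

theorem cycToSum_mk (σ : Perm X) (x : X) :
    cycToSum σ (Quotient.mk (Perm.SameCycle.setoid σ) x) =
      if h : σ x = x then Sum.inl ⟨x, h⟩
      else Sum.inr ⟨σ.cycleOf x, Perm.cycleOf_mem_cycleFactorsFinset_iff.mpr
        (Perm.mem_support.mpr h)⟩ := rfl

theorem cycToSum_bijective (σ : Perm X) : Function.Bijective (cycToSum σ) := by
  constructor
  · intro a b
    induction a using Quotient.ind with | _ x => ?_
    induction b using Quotient.ind with | _ y => ?_
    rw [cycToSum_mk, cycToSum_mk]
    by_cases hx : σ x = x <;> by_cases hy : σ y = y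
    · simp only [dif_pos hx, dif_pos hy, Sum.inl.injEq, Subtype.mk.injEq]
      rintro rfl; rfl
    · simp [dif_pos hx, dif_neg hy]
    · simp [dif_neg hx, dif_pos hy]
    · simp only [dif_neg hx, dif_neg hy, Sum.inr.injEq, Subtype.mk.injEq]
      intro h
      apply Quotient.sound
      exact (Perm.sameCycle_iff_cycleOf_eq_of_mem_support (Perm.mem_support.mpr hx)
        (Perm.mem_support.mpr hy)).mpr h
  · rintro (⟨x, hx⟩ | ⟨c, hc⟩)
    · exact ⟨Quotient.mk _ x, by rw [cycToSum_mk, dif_pos hx]⟩
    · have hcyc : c.IsCycle := (Perm.mem_cycleFactorsFinset_iff.mp hc).1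
      obtain ⟨a, ha⟩ : ∃ a, c a ≠ a := by
        by_contra hcon
        exact hcyc.ne_one (Perm.ext fun a => by
          by_contra h
          exact hcon ⟨a, h⟩)
      have hac : a ∈ c.support := Perm.mem_support.mpr ha
      have has : a ∈ σ.support := Perm.mem_cycleFactorsFinset_support_le hc hac
      refine ⟨Quotient.mk _ a, ?_⟩
      rw [cycToSum_mk, dif_neg (Perm.mem_support.mp has)]
      congr 2
      exact (Perm.cycle_is_cycleOf hac hc).symm

theorem cyc_add_card_support (σ : Perm X) :
    cyc σ + σ.support.card = Fintype.card X + Multiset.card σ.cycleType := by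
  have h1 : cyc σ = Nat.card ({x : X // σ x = x} ⊕ σ.cycleFactorsFinset) :=
    Nat.card_congr (Equiv.ofBijective _ (cycToSum_bijective σ))
  have h2 : Nat.card {x : X // σ x = x} + σ.support.card = Fintype.card X := by
    rw [Nat.card_eq_fintype_card, Fintype.card_subtype, ← Finset.card_compl_add_card σ.support]
    congr 2
    ext x
    simp [Perm.mem_support]
  have h3 : Multiset.card σ.cycleType = Nat.card σ.cycleFactorsFinset := by
    rw [Perm.cycleType_def, Multiset.card_map, Nat.card_eq_fintype_card, Fintype.card_coe]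
    rfl
  rw [h1, Nat.card_sum, h3]
  omega

theorem sign_eq_neg_one_pow (σ : Perm X) :
    Perm.sign σ = (-1 : ℤˣ) ^ (Fintype.card X + cyc σ) := by
  rw [Perm.sign_of_cycleType, Perm.sum_cycleType]
  have h := cyc_add_card_support σ
  have h2 : σ.support.card + Multiset.card σ.cycleType + 2 * Fintype.card X
      = Fintype.card X + cyc σ + 2 * σ.support.card := by omega
  have e1 : ((-1 : ℤˣ)) ^ (σ.support.card + Multiset.card σ.cycleType)
      = (-1 : ℤˣ) ^ (σ.support.card + Multiset.card σ.cycleType + 2 * Fintype.card X) := by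
    rw [pow_add _ _ (2 * Fintype.card X), pow_mul]; simp
  have e2 : ((-1 : ℤˣ)) ^ (Fintype.card X + cyc σ)
      = (-1 : ℤˣ) ^ (Fintype.card X + cyc σ + 2 * σ.support.card) := by
    rw [pow_add _ _ (2 * σ.support.card), pow_mul]; simp
  rw [e1, e2, h2]

/-- Parity: `|X| + c(σ) + c(τ) + c(στ)` is even. -/
theorem even_card_add_cyc (σ τ : Perm X) :
    Even (Fintype.card X + cyc σ + cyc τ + cyc (σ * τ)) := by
  have h := map_mul Perm.sign σ τ
  rw [sign_eq_neg_one_pow, sign_eq_neg_one_pow, sign_eq_neg_one_pow, ← pow_add] at h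
  by_contra hodd
  rw [Nat.not_even_iff_odd] at hodd
  have h1 : (-1 : ℤˣ) ^ (Fintype.card X + cyc (σ * τ) + (Fintype.card X + cyc σ + (Fintype.card X + cyc τ))) = 1 := by
    rw [pow_add, h, ← pow_add, ← two_mul, pow_mul]; simp
  have hodd' : Odd (Fintype.card X + cyc (σ * τ) + (Fintype.card X + cyc σ + (Fintype.card X + cyc τ))) := by
    have : Fintype.card X + cyc (σ * τ) + (Fintype.card X + cyc σ + (Fintype.card X + cyc τ))
        = (Fintype.card X + cyc σ + cyc τ + cyc (σ * τ)) + 2 * Fintype.card X := by ring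
    rw [this]
    exact hodd.add_even (even_two_mul _)
  rw [hodd'.neg_one_pow] at h1
  exact absurd h1 (by decide)


/-! ### The permutation module and Scott's inequality -/

/-- The operator `f ↦ f ∘ σ` on `X → ℚ`. -/
noncomputable def op (σ : Perm X) : (X → ℚ) →ₗ[ℚ] (X → ℚ) := LinearMap.funLeft ℚ ℚ σ

omit [Fintype X] [DecidableEq X] in
@[simp] theorem op_apply (σ : Perm X) (f : X → ℚ) (x : X) : op σ f x = f (σ x) := rfl

omit [Fintype X] [DecidableEq X] in
theorem op_mul (σ τ : Perm X) : op (σ * τ) = op τ ∘ₗ op σ := by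
  ext f x
  rfl

/-- The space of `σ`-invariant functions. -/
noncomputable def fix (σ : Perm X) : Submodule ℚ (X → ℚ) := LinearMap.ker (LinearMap.id - op σ)

omit [Fintype X] [DecidableEq X] in
theorem mem_fix {σ : Perm X} {f : X → ℚ} : f ∈ fix σ ↔ ∀ x, f (σ x) = f x := by
  rw [fix, LinearMap.mem_ker, LinearMap.sub_apply, sub_eq_zero, LinearMap.id_apply]
  constructor
  · intro h x
    have := congrFun h x
    rw [op_apply] at this
    exact this.symm
  · intro h
    funext x
    rw [op_apply, h x]

omit [Fintype X] [DecidableEq X] in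
theorem fix_zpow {σ : Perm X} {f : X → ℚ} (hf : f ∈ fix σ) (i : ℤ) (x : X) :
    f ((σ ^ i) x) = f x := by
  rw [mem_fix] at hf
  induction i using Int.induction_on generalizing x with
  | zero => simp
  | succ i ih =>
    rw [zpow_add_one, Perm.mul_apply, ih, hf]
  | pred i ih =>
    rw [zpow_sub_one, Perm.mul_apply, ih]
    have := hf (σ⁻¹ x)
    rw [show σ (σ⁻¹ x) = x from σ.apply_symm_apply x] at this
    exact this.symm

omit [Fintype X] [DecidableEq X] in
theorem fix_eq_range (σ : Perm X) :
    fix σ = LinearMap.range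
      (LinearMap.funLeft ℚ ℚ (Quotient.mk (Perm.SameCycle.setoid σ))) := by
  ext f
  constructor
  · intro hf
    refine ⟨Quotient.lift (s := Perm.SameCycle.setoid σ) f ?_, ?_⟩
    · rintro x y ⟨i, rfl⟩
      exact (fix_zpow hf i x).symm
    · funext x
      rfl
  · rintro ⟨g, rfl⟩
    rw [mem_fix]
    intro x
    show g (Quotient.mk _ (σ x)) = g (Quotient.mk _ x)
    congr 1
    apply Quotient.sound
    exact (Perm.SameCycle.refl σ x).symm.apply_left

omit [DecidableEq X] in
theorem finrank_fix (σ : Perm X) : Module.finrank ℚ (fix σ) = cyc σ := by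
  classical
  let _ : Fintype (Quotient (Perm.SameCycle.setoid σ)) := Fintype.ofFinite _
  rw [fix_eq_range, LinearMap.finrank_range_of_inj
    (LinearMap.funLeft_injective_of_surjective ℚ ℚ _ Quotient.mk_surjective),
    Module.finrank_fintype_fun_eq_card, cyc, Nat.card_eq_fintype_card]

omit [DecidableEq X] in
theorem finrank_range_add_cyc (σ : Perm X) :
    Module.finrank ℚ (LinearMap.range (LinearMap.id - op σ)) + cyc σ = Fintype.card X := by
  have h := LinearMap.finrank_range_add_finrank_ker (LinearMap.id - op σ)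
  rw [← finrank_fix, fix, h, Module.finrank_fintype_fun_eq_card]

section ScottProof

variable (σ τ : Perm X)

/-- The map `β f = ((1-A) f, (1-B) f, (1-BA) f)`. -/
noncomputable def beta : (X → ℚ) →ₗ[ℚ]
    (LinearMap.range (LinearMap.id - op σ)) × (LinearMap.range (LinearMap.id - op τ)) ×
      (LinearMap.range (LinearMap.id - op (σ * τ))) :=
  LinearMap.prod (LinearMap.id - op σ).rangeRestrict
    (LinearMap.prod (LinearMap.id - op τ).rangeRestrict (LinearMap.id - op (σ * τ)).rangeRestrict)

/-- The map `δ (u, v, w) = B u + v - w`. -/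
noncomputable def delta :
    ((LinearMap.range (LinearMap.id - op σ)) × (LinearMap.range (LinearMap.id - op τ)) ×
      (LinearMap.range (LinearMap.id - op (σ * τ)))) →ₗ[ℚ] (X → ℚ) :=
  (op τ ∘ₗ (LinearMap.range (LinearMap.id - op σ)).subtype) ∘ₗ LinearMap.fst ℚ _ _
    + ((LinearMap.range (LinearMap.id - op τ)).subtype ∘ₗ LinearMap.fst ℚ _ _) ∘ₗ LinearMap.snd ℚ _ _
    - ((LinearMap.range (LinearMap.id - op (σ * τ))).subtype ∘ₗ LinearMap.snd ℚ _ _)
        ∘ₗ LinearMap.snd ℚ _ _

omit [Fintype X] [DecidableEq X] in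
theorem delta_apply (u : LinearMap.range (LinearMap.id - op σ))
    (v : LinearMap.range (LinearMap.id - op τ))
    (w : LinearMap.range (LinearMap.id - op (σ * τ))) :
    delta σ τ (u, v, w) = op τ (u : X → ℚ) + (v : X → ℚ) - (w : X → ℚ) := rfl

omit [Fintype X] [DecidableEq X] in
theorem delta_beta (f : X → ℚ) : delta σ τ (beta σ τ f) = 0 := by
  change op τ (f - op σ f) + (f - op τ f) - (f - op (σ * τ) f) = 0
  rw [op_mul, LinearMap.comp_apply, map_sub]
  abel

omit [Fintype X] [DecidableEq X] in
theorem range_beta_le_ker_delta : LinearMap.range (beta σ τ) ≤ LinearMap.ker (delta σ τ) := by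
  rintro _ ⟨f, rfl⟩
  exact delta_beta σ τ f

omit [Fintype X] [DecidableEq X] in
theorem apply_eq_of_mem_fix {f : X → ℚ} (hσ : f ∈ fix σ) (hτ : f ∈ fix τ) {g : Perm X}
    (hg : g ∈ Subgroup.closure ({σ, τ} : Set (Perm X))) (x : X) : f (g x) = f x := by
  induction hg using Subgroup.closure_induction generalizing x with
  | mem g hg =>
    rcases hg with rfl | rfl
    · exact mem_fix.mp hσ x
    · exact mem_fix.mp hτ x
  | one => rfl
  | mul g h _ _ ihg ihh => rw [Perm.mul_apply, ihg, ihh]
  | inv g _ ih =>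
    have := ih (g⁻¹ x)
    rw [show g (g⁻¹ x) = x from g.apply_symm_apply x] at this
    exact this.symm

omit [Fintype X] [DecidableEq X] in
theorem mem_fix_of_mem_ker_beta {f : X → ℚ} (hf : f ∈ LinearMap.ker (beta σ τ)) :
    f ∈ fix σ ∧ f ∈ fix τ := by
  rw [LinearMap.mem_ker] at hf
  have h1 := congrArg (fun p => (p.1 : X → ℚ)) hf
  have h2 := congrArg (fun p => (p.2.1 : X → ℚ)) hf
  exact ⟨h1, h2⟩

omit [Fintype X] [DecidableEq X] in
theorem finrank_ker_beta_le [Nonempty X]
    (htrans : ∀ x y : X, ∃ g ∈ Subgroup.closure ({σ, τ} : Set (Perm X)), g x = y) :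
    Module.finrank ℚ (LinearMap.ker (beta σ τ)) ≤ 1 := by
  have hle : LinearMap.ker (beta σ τ) ≤ Submodule.span ℚ {(fun _ => 1 : X → ℚ)} := by
    intro f hf
    obtain ⟨hσ, hτ⟩ := mem_fix_of_mem_ker_beta σ τ hf
    obtain ⟨x₀⟩ := ‹Nonempty X›
    rw [Submodule.mem_span_singleton]
    refine ⟨f x₀, ?_⟩
    funext y
    obtain ⟨g, hg, rfl⟩ := htrans x₀ y
    rw [apply_eq_of_mem_fix σ τ hσ hτ hg]
    simp
  refine (Submodule.finrank_mono hle).trans ?_
  exact (finrank_span_le_card _).trans (by simp)

/-- The sum functional. -/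
noncomputable def eps : (X → ℚ) →ₗ[ℚ] ℚ := ∑ x : X, LinearMap.proj x

omit [DecidableEq X] in
theorem eps_apply (f : X → ℚ) : eps f = ∑ x, f x := by
  simp [eps]

omit [DecidableEq X] in
theorem card_le_finrank_ker_eps : Fintype.card X ≤ Module.finrank ℚ (LinearMap.ker (eps (X := X))) + 1 := by
  have h := LinearMap.finrank_range_add_finrank_ker (eps (X := X))
  rw [Module.finrank_fintype_fun_eq_card] at h
  have h2 : Module.finrank ℚ (LinearMap.range (eps (X := X))) ≤ 1 := by
    have := Submodule.finrank_le (LinearMap.range (eps (X := X)))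
    rwa [Module.finrank_self] at this
  omega

omit [Fintype X] in
theorem op_single (x : X) : op σ (Pi.single (σ x) (1 : ℚ)) = Pi.single x 1 := by
  funext z
  rw [op_apply, Pi.single_apply, Pi.single_apply]
  simp only [σ.injective.eq_iff]

omit [Fintype X] [DecidableEq X] in
theorem sub_op_tau_mem (f : X → ℚ) : f - op τ f ∈ LinearMap.range (delta σ τ) :=
  ⟨(0, ⟨f - op τ f, ⟨f, rfl⟩⟩, 0), by rw [delta_apply]; simp⟩

omit [Fintype X] [DecidableEq X] in
theorem op_tau_sub_op_sigma_mem (f : X → ℚ) :
    op τ (f - op σ f) ∈ LinearMap.range (delta σ τ) :=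
  ⟨(⟨f - op σ f, ⟨f, rfl⟩⟩, 0, 0), by rw [delta_apply]; simp⟩

omit [Fintype X] [DecidableEq X] in
theorem sub_op_sigma_mem (f : X → ℚ) : f - op σ f ∈ LinearMap.range (delta σ τ) := by
  have h1 := op_tau_sub_op_sigma_mem σ τ f
  have h2 := sub_op_tau_mem σ τ (f - op σ f)
  have := add_mem h1 h2
  rwa [add_sub_cancel] at this

omit [Fintype X] in
theorem single_sub_single_mem {g : Perm X}
    (hg : g ∈ Subgroup.closure ({σ, τ} : Set (Perm X))) (y : X) :
    (Pi.single (g y) (1 : ℚ) - Pi.single y 1 : X → ℚ) ∈ LinearMap.range (delta σ τ) := by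
  induction hg using Subgroup.closure_induction generalizing y with
  | mem g hg =>
    rcases hg with rfl | rfl
    · have := sub_op_sigma_mem g τ (Pi.single (g y) (1 : ℚ))
      rwa [op_single] at this
    · have := sub_op_tau_mem σ g (Pi.single (g y) (1 : ℚ))
      rwa [op_single] at this
  | one => simp
  | mul g h _ _ ihg ihh =>
    have := add_mem (ihg (h y)) (ihh y)
    rwa [sub_add_sub_cancel] at this
  | inv g _ ih =>
    have := neg_mem (ih (g⁻¹ y))
    rwa [show g (g⁻¹ y) = y from g.apply_symm_apply y, neg_sub] at this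

theorem ker_eps_le_range_delta [Nonempty X]
    (htrans : ∀ x y : X, ∃ g ∈ Subgroup.closure ({σ, τ} : Set (Perm X)), g x = y) :
    LinearMap.ker (eps (X := X)) ≤ LinearMap.range (delta σ τ) := by
  intro f hf
  obtain ⟨x₀⟩ := ‹Nonempty X›
  rw [LinearMap.mem_ker, eps_apply] at hf
  have hfe : f = ∑ x, f x • (Pi.single x (1 : ℚ) - Pi.single x₀ 1 : X → ℚ) := by
    funext z
    simp only [Finset.sum_apply, Pi.smul_apply, Pi.sub_apply, smul_eq_mul, mul_sub,
      Finset.sum_sub_distrib, Pi.single_apply, mul_ite, mul_one, mul_zero]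
    rw [Finset.sum_ite_eq Finset.univ z f, if_pos (Finset.mem_univ z)]
    by_cases hz : z = x₀
    · simp [hz, hf]
    · simp [hz]
  rw [hfe]
  refine Submodule.sum_mem _ fun x _ => Submodule.smul_mem _ _ ?_
  obtain ⟨g, hg, rfl⟩ := htrans x₀ x
  exact single_sub_single_mem σ τ hg x₀

/-- **Scott's inequality** (Ree's theorem for three permutations): if `σ, τ` generate a
transitive group then `c(σ) + c(τ) + c(στ) ≤ |X| + 2`. -/
theorem cyc_add_le
    (htrans : ∀ x y : X, ∃ g ∈ Subgroup.closure ({σ, τ} : Set (Perm X)), g x = y) :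
    cyc σ + cyc τ + cyc (σ * τ) ≤ Fintype.card X + 2 := by
  rcases isEmpty_or_nonempty X with hX | hX
  · have h0 : ∀ ρ : Perm X, cyc ρ = 0 := fun ρ => by
      have := finrank_range_add_cyc ρ
      rw [Fintype.card_eq_zero] at this
      omega
    rw [h0, h0, h0]; omega
  have h1 := finrank_range_add_cyc σ
  have h2 := finrank_range_add_cyc τ
  have h3 := finrank_range_add_cyc (σ * τ)
  have hW : Module.finrank ℚ ((LinearMap.range (LinearMap.id - op σ)) ×
      (LinearMap.range (LinearMap.id - op τ)) × (LinearMap.range (LinearMap.id - op (σ * τ))))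
      = Module.finrank ℚ (LinearMap.range (LinearMap.id - op σ))
        + (Module.finrank ℚ (LinearMap.range (LinearMap.id - op τ))
          + Module.finrank ℚ (LinearMap.range (LinearMap.id - op (σ * τ)))) := by
    rw [Module.finrank_prod, Module.finrank_prod]
  have hd := LinearMap.finrank_range_add_finrank_ker (delta σ τ)
  have hb := LinearMap.finrank_range_add_finrank_ker (beta σ τ)
  rw [Module.finrank_fintype_fun_eq_card] at hb
  have hkb := finrank_ker_beta_le σ τ htrans
  have hbd := Submodule.finrank_mono (range_beta_le_ker_delta σ τ)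
  have hed := Submodule.finrank_mono (ker_eps_le_range_delta σ τ htrans)
  have he := card_le_finrank_ker_eps (X := X)
  omega

end ScottProof

/-! ### Group actions -/

section Action

variable {G : Type*} [Group G]

/-- The number of orbits on `Y` of the cyclic subgroup generated by `g`. -/
noncomputable def orb (Y : Type*) [MulAction G Y] (g : G) : ℕ :=
  Nat.card (MulAction.orbitRel.Quotient (Subgroup.zpowers g) Y)

theorem orbitRel_zpowers_iff {Y : Type*} [MulAction G Y] (g : G) (x y : Y) :
    MulAction.orbitRel (Subgroup.zpowers g) Y x y ↔ (MulAction.toPerm g : Perm Y).SameCycle x y := by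
  rw [MulAction.orbitRel_apply, MulAction.mem_orbit_iff]
  constructor
  · rintro ⟨⟨h, hh⟩, rfl⟩
    obtain ⟨i, rfl⟩ := Subgroup.mem_zpowers_iff.mp hh
    refine (show (MulAction.toPerm g : Perm Y).SameCycle y ((g ^ i) • y) from ⟨i, ?_⟩).symm
    have : (MulAction.toPerm g : Perm Y) ^ i = MulAction.toPerm (g ^ i) :=
      (map_zpow (MulAction.toPermHom G Y) g i).symm
    rw [this]
    rfl
  · intro h
    obtain ⟨i, hi⟩ := h.symm
    refine ⟨⟨g ^ i, Subgroup.zpow_mem_zpowers g i⟩, ?_⟩
    have : (MulAction.toPerm g : Perm Y) ^ i = MulAction.toPerm (g ^ i) :=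
      (map_zpow (MulAction.toPermHom G Y) g i).symm
    rw [this] at hi
    exact hi

theorem orb_eq_cyc {Y : Type*} [MulAction G Y] [Fintype Y] [DecidableEq Y] (g : G) :
    orb Y g = cyc (MulAction.toPerm g : Perm Y) := by
  unfold orb cyc
  exact Nat.card_congr (Quotient.congr (Equiv.refl Y) (fun x y => orbitRel_zpowers_iff g x y))

/-- Parity of the orbit counts. -/
theorem even_card_add_orb (Y : Type*) [MulAction G Y] [Finite Y] (a b : G) :
    Even (Nat.card Y + orb Y a + orb Y b + orb Y (a * b)) := by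
  classical
  let _ : Fintype Y := Fintype.ofFinite Y
  rw [orb_eq_cyc, orb_eq_cyc, orb_eq_cyc, Nat.card_eq_fintype_card]
  have h : (MulAction.toPerm (a * b) : Perm Y) = MulAction.toPerm a * MulAction.toPerm b :=
    map_mul (MulAction.toPermHom G Y) a b
  rw [h]
  exact even_card_add_cyc _ _

/-- Scott/Ree inequality for a transitive action of a group generated by `a` and `b`. -/
theorem orb_add_le (Y : Type*) [MulAction G Y] [Finite Y] [MulAction.IsPretransitive G Y]
    (a b : G) (hgen : Subgroup.closure ({a, b} : Set G) = ⊤) :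
    orb Y a + orb Y b + orb Y (a * b) ≤ Nat.card Y + 2 := by
  classical
  let _ : Fintype Y := Fintype.ofFinite Y
  rw [orb_eq_cyc, orb_eq_cyc, orb_eq_cyc, Nat.card_eq_fintype_card]
  have h : (MulAction.toPerm (a * b) : Perm Y) = MulAction.toPerm a * MulAction.toPerm b :=
    map_mul (MulAction.toPermHom G Y) a b
  rw [h]
  apply cyc_add_le
  intro x y
  obtain ⟨g, rfl⟩ := MulAction.exists_smul_eq G x y
  refine ⟨MulAction.toPerm g, ?_, rfl⟩
  have hg : g ∈ Subgroup.closure ({a, b} : Set G) := by rw [hgen]; exact Subgroup.mem_top g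
  have hmap : (Subgroup.closure ({a, b} : Set G)).map (MulAction.toPermHom G Y)
      = Subgroup.closure ({MulAction.toPerm a, MulAction.toPerm b} : Set (Perm Y)) := by
    rw [MonoidHom.map_closure]
    congr 1
    ext p
    simp [Set.image_pair]
  rw [← hmap]
  exact ⟨g, hg, rfl⟩

end Action

/-! ### The modular group -/

section Modular

open Matrix.SpecialLinearGroup ModularGroup

/-- For a finite transitive `SL(2,ℤ)`-set: parity of the orbit counts of `S`, `T`, `S * T`. -/
theorem even_card_add_orb_S_T (Y : Type*) [MulAction (Matrix.SpecialLinearGroup (Fin 2) ℤ) Y]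
    [Finite Y] :
    Even (Nat.card Y + orb Y S + orb Y T + orb Y (S * T)) :=
  even_card_add_orb Y S T

/-- For a finite transitive `SL(2,ℤ)`-set: the orbit counts of `S`, `T`, `S * T` add up to at
most `|Y| + 2`. -/
theorem orb_S_T_le (Y : Type*) [MulAction (Matrix.SpecialLinearGroup (Fin 2) ℤ) Y] [Finite Y]
    [MulAction.IsPretransitive (Matrix.SpecialLinearGroup (Fin 2) ℤ) Y] :
    orb Y S + orb Y T + orb Y (S * T) ≤ Nat.card Y + 2 :=
  orb_add_le Y S T _root_.SpecialLinearGroup.SL2Z_generators

end Modular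

end Fermat.Agent.S24.Scott
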