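import Mathlib

set_option autoImplicit false

open UpperHalfPlane Complex
open scoped Manifold MatrixGroups Topology

noncomputable section

namespace Fermat.Agent.S24.Taylor

/-- The ring of holomorphic functions on the upper half plane. -/
def holRing : Subring (ℍ → ℂ) where
  carrier := {f | MDifferentiable 𝓘(ℂ) 𝓘(ℂ) f}
  mul_mem' hf hg := hf.mul hg
  one_mem' := mdifferentiable_const
  add_mem' hf hg := hf.add hg
  zero_mem' := mdifferentiable_const
  neg_mem' hf := hf.neg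

theorem mem_holRing {f : ℍ → ℂ} : f ∈ holRing ↔ MDifferentiable 𝓘(ℂ) 𝓘(ℂ) f := Iff.rfl

theorem differentiableOn_comp_ofComplex {f : ℍ → ℂ} (hf : f ∈ holRing) :
    DifferentiableOn ℂ (f ∘ ofComplex) {z | 0 < z.im} :=
  mdifferentiable_iff.mp hf

theorem analyticAt_comp_ofComplex {f : ℍ → ℂ} (hf : f ∈ holRing) (τ0 : ℍ) :
    AnalyticAt ℂ (f ∘ ofComplex) (τ0 : ℂ) :=
  (differentiableOn_comp_ofComplex hf).analyticAt (isOpen_upperHalfPlaneSet.mem_nhds τ0.im_pos)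

/-- The Taylor series at `τ0` of a function on the upper half plane. -/
def taylorSeries (τ0 : ℍ) (f : ℍ → ℂ) : PowerSeries ℂ :=
  PowerSeries.mk fun m => ((m.factorial : ℂ))⁻¹ * iteratedDeriv m (f ∘ ofComplex) (τ0 : ℂ)

theorem coeff_taylorSeries (τ0 : ℍ) (f : ℍ → ℂ) (m : ℕ) :
    PowerSeries.coeff m (taylorSeries τ0 f) =
      ((m.factorial : ℂ))⁻¹ * iteratedDeriv m (f ∘ ofComplex) (τ0 : ℂ) := by
  simp [taylorSeries]

theorem taylorSeries_mul (τ0 : ℍ) {f g : ℍ → ℂ} (hf : f ∈ holRing) (hg : g ∈ holRing) :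
    taylorSeries τ0 (f * g) = taylorSeries τ0 f * taylorSeries τ0 g := by
  ext m
  have hf' := (analyticAt_comp_ofComplex hf τ0).contDiffAt (n := (m : WithTop ℕ∞))
  have hg' := (analyticAt_comp_ofComplex hg τ0).contDiffAt (n := (m : WithTop ℕ∞))
  have hfg : (f * g) ∘ ofComplex = (f ∘ ofComplex) * (g ∘ ofComplex) := rfl
  simp only [coeff_taylorSeries, hfg, iteratedDeriv_mul hf' hg', Finset.mul_sum,
    PowerSeries.coeff_mul, Finset.Nat.sum_antidiagonal_eq_sum_range_succ_mk, Nat.succ_eq_add_one]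
  refine Finset.sum_congr rfl fun i hi ↦ ?_
  rw [Nat.cast_choose _ (by grind)]
  field_simp [Nat.factorial_ne_zero]

theorem taylorSeries_add (τ0 : ℍ) {f g : ℍ → ℂ} (hf : f ∈ holRing) (hg : g ∈ holRing) :
    taylorSeries τ0 (f + g) = taylorSeries τ0 f + taylorSeries τ0 g := by
  ext m
  have hf' := (analyticAt_comp_ofComplex hf τ0).contDiffAt (n := (m : WithTop ℕ∞))
  have hg' := (analyticAt_comp_ofComplex hg τ0).contDiffAt (n := (m : WithTop ℕ∞))
  have hfg : (f + g) ∘ ofComplex = (f ∘ ofComplex) + (g ∘ ofComplex) := rfl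
  simp [coeff_taylorSeries, hfg, iteratedDeriv_add hf' hg', mul_add]

theorem taylorSeries_const (τ0 : ℍ) (c : ℂ) :
    taylorSeries τ0 (fun _ => c) = PowerSeries.C c := by
  ext m
  have h1 : (fun _ : ℍ => c) ∘ ofComplex = fun _ : ℂ => c := rfl
  have h2 : iteratedDeriv m (fun _ : ℂ => c) (τ0 : ℂ) = if m = 0 then c else 0 := by
    simpa [ite_apply] using! iteratedDeriv_const
  rw [coeff_taylorSeries, h1, h2, PowerSeries.coeff_C]
  split_ifs <;> simp_all

/-- Taylor expansion at `τ0` as a ring homomorphism on holomorphic functions. -/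
def taylorAt (τ0 : ℍ) : holRing →+* PowerSeries ℂ where
  toFun f := taylorSeries τ0 f
  map_one' := by
    have h := taylorSeries_const τ0 1
    rw [map_one] at h
    exact h
  map_mul' f g := taylorSeries_mul τ0 f.2 g.2
  map_zero' := by
    have h := taylorSeries_const τ0 0
    rw [map_zero] at h
    exact h
  map_add' f g := taylorSeries_add τ0 f.2 g.2

@[simp]
theorem taylorAt_apply (τ0 : ℍ) (f : holRing) : taylorAt τ0 f = taylorSeries τ0 f := rfl

theorem coeff_zero_taylorSeries (τ0 : ℍ) (f : ℍ → ℂ) :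
    PowerSeries.coeff 0 (taylorSeries τ0 f) = f τ0 := by
  simp [coeff_taylorSeries]

theorem coeff_one_taylorSeries (τ0 : ℍ) (f : ℍ → ℂ) :
    PowerSeries.coeff 1 (taylorSeries τ0 f) = deriv (f ∘ ofComplex) (τ0 : ℂ) := by
  simp [coeff_taylorSeries]

/-- The order of the Taylor series is the analytic order of vanishing. -/
theorem order_taylorSeries (τ0 : ℍ) {f : ℍ → ℂ} (hf : f ∈ holRing) :
    (taylorSeries τ0 f).order = analyticOrderAt (f ∘ ofComplex) (τ0 : ℂ) := by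
  have key : ∀ n : ℕ, (n : ℕ∞) ≤ (taylorSeries τ0 f).order ↔
      (n : ℕ∞) ≤ analyticOrderAt (f ∘ ofComplex) (τ0 : ℂ) := by
    intro n
    rw [natCast_le_analyticOrderAt_iff_iteratedDeriv_eq_zero (analyticAt_comp_ofComplex hf τ0)]
    constructor
    · intro h i hi
      have h0 : PowerSeries.coeff i (taylorSeries τ0 f) = 0 :=
        PowerSeries.coeff_of_lt_order i (lt_of_lt_of_le (by exact_mod_cast hi) h)
      rw [coeff_taylorSeries] at h0
      have hne : ((i.factorial : ℂ))⁻¹ ≠ 0 := inv_ne_zero (by exact_mod_cast i.factorial_ne_zero)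
      exact (mul_eq_zero.mp h0).resolve_left hne
    · intro h
      refine PowerSeries.nat_le_order _ n fun i hi => ?_
      rw [coeff_taylorSeries, h i hi, mul_zero]
  refine le_antisymm ?_ ?_
  · refine ENat.forall_natCast_le_iff_le.mp fun n hn => (key n).mp hn
  · refine ENat.forall_natCast_le_iff_le.mp fun n hn => (key n).mpr hn

theorem taylorSeries_eq_zero_iff (τ0 : ℍ) {f : ℍ → ℂ} (hf : f ∈ holRing) :
    taylorSeries τ0 f = 0 ↔ f = 0 := by
  constructor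
  · intro h
    have htop : analyticOrderAt (f ∘ ofComplex) (τ0 : ℂ) = ⊤ := by
      rw [← order_taylorSeries τ0 hf, h, PowerSeries.order_zero]
    have hev := analyticOrderAt_eq_top.mp htop
    have hU : IsPreconnected {z : ℂ | 0 < z.im} := (convex_halfSpace_im_gt 0).isPreconnected
    have han : AnalyticOnNhd ℂ (f ∘ ofComplex) {z : ℂ | 0 < z.im} :=
      (differentiableOn_comp_ofComplex hf).analyticOnNhd isOpen_upperHalfPlaneSet
    have hzero := han.eqOn_zero_of_preconnected_of_eventuallyEq_zero hU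
      (show (τ0 : ℂ) ∈ {z : ℂ | 0 < z.im} from τ0.im_pos) hev
    funext z
    have := hzero (show (z : ℂ) ∈ {z : ℂ | 0 < z.im} from z.im_pos)
    simpa using this
  · rintro rfl
    have h := taylorSeries_const τ0 0
    rw [map_zero] at h
    exact h

theorem taylorAt_injective (τ0 : ℍ) : Function.Injective (taylorAt τ0) := by
  rw [injective_iff_map_eq_zero]
  intro f hf
  exact Subtype.ext ((taylorSeries_eq_zero_iff τ0 f.2).mp hf)

instance : IsDomain holRing :=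
  (taylorAt_injective (⟨Complex.I, by simp⟩ : ℍ)).isDomain _

/-- Constant functions. -/
def const : ℂ →+* holRing where
  toFun c := ⟨fun _ => c, mdifferentiable_const⟩
  map_one' := rfl
  map_mul' _ _ := rfl
  map_zero' := rfl
  map_add' _ _ := rfl

@[simp]
theorem const_apply (c : ℂ) (τ : ℍ) : (const c : ℍ → ℂ) τ = c := rfl

theorem taylorAt_const (τ0 : ℍ) (c : ℂ) : taylorAt τ0 (const c) = PowerSeries.C c :=
  taylorSeries_const τ0 c

theorem coeff_zero_taylorAt (τ0 : ℍ) (f : holRing) :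
    PowerSeries.coeff 0 (taylorAt τ0 f) = (f : ℍ → ℂ) τ0 :=
  coeff_zero_taylorSeries τ0 f

theorem coeff_one_taylorAt (τ0 : ℍ) (f : holRing) :
    PowerSeries.coeff 1 (taylorAt τ0 f) = deriv ((f : ℍ → ℂ) ∘ ofComplex) (τ0 : ℂ) :=
  coeff_one_taylorSeries τ0 f

theorem order_taylorAt (τ0 : ℍ) (f : holRing) :
    (taylorAt τ0 f).order = analyticOrderAt ((f : ℍ → ℂ) ∘ ofComplex) (τ0 : ℂ) :=
  order_taylorSeries τ0 f.2

theorem order_taylorAt_eq_nat_iff (τ0 : ℍ) (f : holRing) (n : ℕ) :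
    (taylorAt τ0 f).order = n ↔
      iteratedDeriv n ((f : ℍ → ℂ) ∘ ofComplex) (τ0 : ℂ) ≠ 0 ∧
        ∀ i < n, iteratedDeriv i ((f : ℍ → ℂ) ∘ ofComplex) (τ0 : ℂ) = 0 := by
  have hne : ∀ i : ℕ, ((i.factorial : ℂ))⁻¹ ≠ 0 := fun i =>
    inv_ne_zero (by exact_mod_cast i.factorial_ne_zero)
  rw [PowerSeries.order_eq_nat]
  simp only [taylorAt_apply, coeff_taylorSeries, ne_eq, mul_eq_zero, hne, false_or]

theorem order_taylorAt_pos_iff (τ0 : ℍ) (f : holRing) :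
    0 < (taylorAt τ0 f).order ↔ (f : ℍ → ℂ) τ0 = 0 := by
  rw [pos_iff_ne_zero, PowerSeries.order_ne_zero_iff_constCoeff_eq_zero,
    ← PowerSeries.coeff_zero_eq_constantCoeff_apply, coeff_zero_taylorAt]

/-! ### Composition with the modular group -/

/-- Composition with the action of `σ ∈ SL(2,ℤ)` on the upper half plane. -/
def compSL (σ : SL(2, ℤ)) : holRing →+* holRing where
  toFun f := ⟨fun τ => f.1 (σ • τ),
    f.2.comp (mdifferentiable_smul (g := Matrix.SpecialLinearGroup.mapGL ℝ σ) (by simp))⟩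
  map_one' := rfl
  map_mul' _ _ := rfl
  map_zero' := rfl
  map_add' _ _ := rfl

@[simp]
theorem compSL_apply (σ : SL(2, ℤ)) (f : holRing) (τ : ℍ) :
    (compSL σ f : ℍ → ℂ) τ = (f : ℍ → ℂ) (σ • τ) := rfl

/-- The Moebius transformation of `σ` as a function on `ℂ`. -/
def moeb (σ : SL(2, ℤ)) (z : ℂ) : ℂ :=
  (((σ 0 0 : ℤ) : ℂ) * z + ((σ 0 1 : ℤ) : ℂ)) / (((σ 1 0 : ℤ) : ℂ) * z + ((σ 1 1 : ℤ) : ℂ))

/-- The denominator `c z + d`. -/
def den (σ : SL(2, ℤ)) (z : ℂ) : ℂ := ((σ 1 0 : ℤ) : ℂ) * z + ((σ 1 1 : ℤ) : ℂ)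

theorem coe_smul_eq_moeb (σ : SL(2, ℤ)) (τ : ℍ) : ((σ • τ : ℍ) : ℂ) = moeb σ τ := by
  rw [coe_specialLinearGroup_apply]
  simp [moeb]

theorem den_ne_zero (σ : SL(2, ℤ)) (τ : ℍ) : den σ τ ≠ 0 := by
  have h := UpperHalfPlane.denom_ne_zero (Matrix.SpecialLinearGroup.mapGL ℝ σ) τ
  simpa [den, UpperHalfPlane.denom] using h

theorem det_cast (σ : SL(2, ℤ)) :
    ((σ 0 0 : ℤ) : ℂ) * ((σ 1 1 : ℤ) : ℂ) - ((σ 0 1 : ℤ) : ℂ) * ((σ 1 0 : ℤ) : ℂ) = 1 := by
  have h := σ.det_coe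
  rw [Matrix.det_fin_two] at h
  exact_mod_cast h

theorem moeb_sub_moeb (σ : SL(2, ℤ)) {z w : ℂ} (hz : den σ z ≠ 0) (hw : den σ w ≠ 0) :
    moeb σ z - moeb σ w = (z - w) * (den σ z * den σ w)⁻¹ := by
  have hd := det_cast σ
  unfold moeb
  unfold den at hz hw ⊢
  rw [div_sub_div _ _ hz hw, div_eq_mul_inv]
  congr 1
  linear_combination (z - w) * hd

theorem continuous_den (σ : SL(2, ℤ)) : Continuous (den σ) := by
  unfold den
  fun_prop

theorem analyticAt_moeb (σ : SL(2, ℤ)) {z : ℂ} (hz : den σ z ≠ 0) : AnalyticAt ℂ (moeb σ) z := by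
  unfold moeb
  unfold den at hz
  exact ((analyticAt_const.mul analyticAt_id).add analyticAt_const).div
    ((analyticAt_const.mul analyticAt_id).add analyticAt_const) hz

theorem eventually_den_ne_zero (σ : SL(2, ℤ)) {z : ℂ} (hz : den σ z ≠ 0) :
    ∀ᶠ w in 𝓝 z, den σ w ≠ 0 :=
  (continuous_den σ).continuousAt.eventually_ne hz

theorem hasDerivAt_moeb (σ : SL(2, ℤ)) {z : ℂ} (hz : den σ z ≠ 0) :
    HasDerivAt (moeb σ) ((den σ z * den σ z)⁻¹) z := by
  rw [hasDerivAt_iff_tendsto_slope]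
  have hcont : ContinuousAt (fun w => (den σ w * den σ z)⁻¹) z :=
    (((continuous_den σ).continuousAt).mul continuousAt_const).inv₀ (mul_ne_zero hz hz)
  refine (hcont.tendsto.mono_left nhdsWithin_le_nhds).congr' ?_
  have h1 : ∀ᶠ w in 𝓝[≠] z, den σ w ≠ 0 :=
    (eventually_den_ne_zero σ hz).filter_mono nhdsWithin_le_nhds
  filter_upwards [h1, self_mem_nhdsWithin] with w hw hwz
  have hwz' : w - z ≠ 0 := sub_ne_zero.mpr hwz
  rw [slope_def_field, moeb_sub_moeb σ hw hz]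
  field_simp

theorem deriv_moeb_ne_zero (σ : SL(2, ℤ)) {z : ℂ} (hz : den σ z ≠ 0) :
    deriv (moeb σ) z ≠ 0 := by
  rw [(hasDerivAt_moeb σ hz).deriv]
  exact inv_ne_zero (mul_ne_zero hz hz)

theorem compSL_comp_ofComplex_eventuallyEq (σ : SL(2, ℤ)) (f : holRing) (τ0 : ℍ) :
    ((compSL σ f : ℍ → ℂ) ∘ ofComplex) =ᶠ[𝓝 (τ0 : ℂ)] ((f : ℍ → ℂ) ∘ ofComplex) ∘ moeb σ := by
  filter_upwards [isOpen_upperHalfPlaneSet.mem_nhds τ0.im_pos] with z hz
  have h := coe_smul_eq_moeb σ ⟨z, hz⟩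
  simp only [Function.comp_apply, compSL_apply]
  rw [ofComplex_apply_of_im_pos hz]
  have h2 : moeb σ z = ((σ • (⟨z, hz⟩ : ℍ) : ℍ) : ℂ) := h.symm
  rw [h2, ofComplex_apply]

/-- Composition with `σ` transports the order of vanishing. -/
theorem order_taylorAt_compSL (σ : SL(2, ℤ)) (f : holRing) (τ0 : ℍ) :
    (taylorAt τ0 (compSL σ f)).order = (taylorAt (σ • τ0) f).order := by
  rw [taylorAt_apply, taylorAt_apply, order_taylorSeries τ0 (compSL σ f).2,
    order_taylorSeries (σ • τ0) f.2,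
    analyticOrderAt_congr (compSL_comp_ofComplex_eventuallyEq σ f τ0),
    analyticOrderAt_comp_of_deriv_ne_zero (analyticAt_moeb σ (den_ne_zero σ τ0))
      (deriv_moeb_ne_zero σ (den_ne_zero σ τ0)), coe_smul_eq_moeb]

theorem order_taylorAt_compSL_of_fixed (σ : SL(2, ℤ)) (f : holRing) {τ0 : ℍ}
    (hσ : σ • τ0 = τ0) : (taylorAt τ0 (compSL σ f)).order = (taylorAt τ0 f).order := by
  rw [order_taylorAt_compSL, hσ]

/-! ### The rotation lemma at a fixed point -/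

/-- The derivative of `σ` at `τ0`: `(c τ0 + d)⁻²`. -/
def rotFactor (σ : SL(2, ℤ)) (τ0 : ℍ) : ℂ := (den σ τ0 * den σ τ0)⁻¹

theorem moeb_fixed (σ : SL(2, ℤ)) {τ0 : ℍ} (hσ : σ • τ0 = τ0) : moeb σ τ0 = τ0 := by
  rw [← coe_smul_eq_moeb, hσ]

theorem factor_compSL (σ : SL(2, ℤ)) {τ0 : ℍ} (hσ : σ • τ0 = τ0) (f : holRing) (n : ℕ)
    (H : ℂ → ℂ)
    (hH : ∀ᶠ z in 𝓝 (τ0 : ℂ), ((f : ℍ → ℂ) ∘ ofComplex) z = (z - τ0) ^ n • H z) :
    ∀ᶠ z in 𝓝 (τ0 : ℂ), ((compSL σ f : ℍ → ℂ) ∘ ofComplex) z =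
      (z - τ0) ^ n * (((den σ z * den σ τ0)⁻¹) ^ n * H (moeb σ z)) := by
  have hfix := moeb_fixed σ hσ
  have hcont : ContinuousAt (moeb σ) τ0 := (analyticAt_moeb σ (den_ne_zero σ τ0)).continuousAt
  have htend : Filter.Tendsto (moeb σ) (𝓝 (τ0 : ℂ)) (𝓝 (τ0 : ℂ)) := by
    have := hcont.tendsto
    rwa [hfix] at this
  have hH' := htend.eventually hH
  filter_upwards [compSL_comp_ofComplex_eventuallyEq σ f τ0, hH',
    eventually_den_ne_zero σ (den_ne_zero σ τ0)] with z h1 h2 h3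
  have h4 : moeb σ z - τ0 = (z - τ0) * (den σ z * den σ τ0)⁻¹ :=
    calc moeb σ z - τ0 = moeb σ z - moeb σ τ0 := by rw [hfix]
      _ = _ := moeb_sub_moeb σ h3 (den_ne_zero σ τ0)
  rw [h1, Function.comp_apply, h2, smul_eq_mul, h4, mul_pow, mul_assoc]

/-- **Rotation lemma.** If `σ` fixes `τ0` and the quotient `A / B` of two holomorphic functions
is `σ`-invariant, then the rotation factor of `σ` at `τ0` raised to the orders of `A` and `B`
at `τ0` agree. -/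
theorem rotation_pow_eq (σ : SL(2, ℤ)) {τ0 : ℍ} (hσ : σ • τ0 = τ0) (A B : holRing)
    (hA : A ≠ 0) (hB : B ≠ 0) (h : compSL σ A * B = A * compSL σ B) :
    rotFactor σ τ0 ^ (taylorAt τ0 A).order.toNat =
      rotFactor σ τ0 ^ (taylorAt τ0 B).order.toNat := by
  have hfix := moeb_fixed σ hσ
  have hAan := analyticAt_comp_ofComplex A.2 τ0
  have hBan := analyticAt_comp_ofComplex B.2 τ0
  have hAtop : analyticOrderAt ((A : ℍ → ℂ) ∘ ofComplex) (τ0 : ℂ) ≠ ⊤ := by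
    rw [← order_taylorSeries τ0 A.2]
    intro htop
    exact hA (Subtype.ext ((taylorSeries_eq_zero_iff τ0 A.2).mp (PowerSeries.order_eq_top.mp htop)))
  have hBtop : analyticOrderAt ((B : ℍ → ℂ) ∘ ofComplex) (τ0 : ℂ) ≠ ⊤ := by
    rw [← order_taylorSeries τ0 B.2]
    intro htop
    exact hB (Subtype.ext ((taylorSeries_eq_zero_iff τ0 B.2).mp (PowerSeries.order_eq_top.mp htop)))
  obtain ⟨HA, hHAan, hHA0, hHAeq⟩ := hAan.analyticOrderAt_ne_top.mp hAtop
  obtain ⟨HB, hHBan, hHB0, hHBeq⟩ := hBan.analyticOrderAt_ne_top.mp hBtop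
  have hmA : (taylorAt τ0 A).order.toNat = analyticOrderNatAt ((A : ℍ → ℂ) ∘ ofComplex) (τ0 : ℂ) := by
    rw [taylorAt_apply, order_taylorSeries τ0 A.2]; rfl
  have hmB : (taylorAt τ0 B).order.toNat = analyticOrderNatAt ((B : ℍ → ℂ) ∘ ofComplex) (τ0 : ℂ) := by
    rw [taylorAt_apply, order_taylorSeries τ0 B.2]; rfl
  rw [hmA, hmB]
  set mA := analyticOrderNatAt ((A : ℍ → ℂ) ∘ ofComplex) (τ0 : ℂ)
  set mB := analyticOrderNatAt ((B : ℍ → ℂ) ∘ ofComplex) (τ0 : ℂ)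
  have hA' := factor_compSL σ hσ A mA HA hHAeq
  have hB' := factor_compSL σ hσ B mB HB hHBeq
  have hid : ∀ z : ℂ, ((compSL σ A : ℍ → ℂ) ∘ ofComplex) z * ((B : ℍ → ℂ) ∘ ofComplex) z =
      ((A : ℍ → ℂ) ∘ ofComplex) z * ((compSL σ B : ℍ → ℂ) ∘ ofComplex) z := by
    intro z
    have := congrArg (fun F : holRing => (F : ℍ → ℂ) (ofComplex z)) h
    simpa using this
  let u : ℂ → ℂ := fun z => ((den σ z * den σ τ0)⁻¹) ^ mA * HA (moeb σ z) * HB z
  let v : ℂ → ℂ := fun z => HA z * (((den σ z * den σ τ0)⁻¹) ^ mB * HB (moeb σ z))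
  have hQ : ContinuousAt (fun z => (den σ z * den σ τ0)⁻¹) (τ0 : ℂ) :=
    (((continuous_den σ).continuousAt).mul continuousAt_const).inv₀
      (mul_ne_zero (den_ne_zero σ τ0) (den_ne_zero σ τ0))
  have hmoeb : ContinuousAt (moeb σ) τ0 := (analyticAt_moeb σ (den_ne_zero σ τ0)).continuousAt
  have hHAm : ContinuousAt (fun z => HA (moeb σ z)) (τ0 : ℂ) := by
    have h1 : ContinuousAt HA (moeb σ τ0) := by rw [hfix]; exact hHAan.continuousAt
    exact ContinuousAt.comp (g := HA) h1 hmoeb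
  have hHBm : ContinuousAt (fun z => HB (moeb σ z)) (τ0 : ℂ) := by
    have h1 : ContinuousAt HB (moeb σ τ0) := by rw [hfix]; exact hHBan.continuousAt
    exact ContinuousAt.comp (g := HB) h1 hmoeb
  have hu : ContinuousAt u (τ0 : ℂ) := ((hQ.pow mA).mul hHAm).mul hHBan.continuousAt
  have hv : ContinuousAt v (τ0 : ℂ) := hHAan.continuousAt.mul ((hQ.pow mB).mul hHBm)
  have hev : ∀ᶠ z : ℂ in 𝓝 (τ0 : ℂ), z ≠ (τ0 : ℂ) → u z = v z := by
    filter_upwards [hA', hB', hHAeq, hHBeq] with z h1 h2 h3 h4 hz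
    have hz' : (z - (τ0 : ℂ)) ^ (mA + mB) ≠ 0 := pow_ne_zero _ (sub_ne_zero.mpr hz)
    have key := hid z
    rw [h1, h2, h3, h4] at key
    simp only [smul_eq_mul] at key
    apply mul_left_cancel₀ hz'
    simp only [u, v]
    linear_combination key
  have hevw : u =ᶠ[𝓝[≠] (τ0 : ℂ)] v := by
    rw [Filter.EventuallyEq, eventually_nhdsWithin_iff]
    exact hev
  have hut : Filter.Tendsto v (𝓝[≠] (τ0 : ℂ)) (𝓝 (u (τ0 : ℂ))) :=
    (hu.tendsto.mono_left nhdsWithin_le_nhds).congr' hevw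
  have hvt : Filter.Tendsto v (𝓝[≠] (τ0 : ℂ)) (𝓝 (v (τ0 : ℂ))) :=
    hv.tendsto.mono_left nhdsWithin_le_nhds
  have huv : u (τ0 : ℂ) = v (τ0 : ℂ) := tendsto_nhds_unique hut hvt
  simp only [u, v, hfix] at huv
  have hne : HA τ0 * HB τ0 ≠ 0 := mul_ne_zero hHA0 hHB0
  apply mul_right_cancel₀ hne
  unfold rotFactor
  linear_combination huv

theorem rotFactor_ne_zero (σ : SL(2, ℤ)) (τ0 : ℍ) : rotFactor σ τ0 ≠ 0 :=
  inv_ne_zero (mul_ne_zero (den_ne_zero σ τ0) (den_ne_zero σ τ0))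

/-- If `σ` fixes `τ0` then `c τ0 + d` is an eigenvalue of `σ`. -/
theorem den_mul_den_of_fixed (σ : SL(2, ℤ)) {τ0 : ℍ} (hσ : σ • τ0 = τ0) :
    den σ τ0 * den σ τ0 = (((σ 0 0 : ℤ) : ℂ) + ((σ 1 1 : ℤ) : ℂ)) * den σ τ0 - 1 := by
  have hfix := moeb_fixed σ hσ
  have hden := den_ne_zero σ τ0
  have hd := det_cast σ
  unfold moeb at hfix
  unfold den at hden ⊢
  rw [div_eq_iff hden] at hfix
  linear_combination (-((σ 1 0 : ℤ) : ℂ)) * hfix - hd

/-- **Rotation lemma, divisibility form.** -/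
theorem rotation_dvd (σ : SL(2, ℤ)) {τ0 : ℍ} (hσ : σ • τ0 = τ0) {s : ℕ}
    (hs : IsPrimitiveRoot (rotFactor σ τ0) s) (A B : holRing)
    (hA : A ≠ 0) (hB : B ≠ 0) (h : compSL σ A * B = A * compSL σ B) :
    (s : ℤ) ∣ ((taylorAt τ0 A).order.toNat : ℤ) - ((taylorAt τ0 B).order.toNat : ℤ) := by
  have hpow := rotation_pow_eq σ hσ A B hA hB h
  rw [← hs.zpow_eq_one_iff_dvd, zpow_sub₀ (rotFactor_ne_zero σ τ0), zpow_natCast, zpow_natCast,
    hpow, div_self (pow_ne_zero _ (rotFactor_ne_zero σ τ0))]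

/-- Elements of trace `0` fixing `τ0` rotate by `-1`. -/
theorem rotFactor_of_trace_zero (σ : SL(2, ℤ)) {τ0 : ℍ} (hσ : σ • τ0 = τ0)
    (htr : σ 0 0 + σ 1 1 = 0) : rotFactor σ τ0 = -1 := by
  have h := den_mul_den_of_fixed σ hσ
  have htr' : ((σ 0 0 : ℤ) : ℂ) + ((σ 1 1 : ℤ) : ℂ) = 0 := by exact_mod_cast htr
  rw [htr', zero_mul, zero_sub] at h
  rw [rotFactor, h]
  norm_num

theorem isPrimitiveRoot_rotFactor_of_trace_zero (σ : SL(2, ℤ)) {τ0 : ℍ} (hσ : σ • τ0 = τ0)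
    (htr : σ 0 0 + σ 1 1 = 0) : IsPrimitiveRoot (rotFactor σ τ0) 2 := by
  rw [rotFactor_of_trace_zero σ hσ htr]
  exact IsPrimitiveRoot.neg_one 0 (by norm_num)

theorem isPrimitiveRoot_three_of {ζ : ℂ} (h3 : ζ ^ 3 = 1) (h1 : ζ ≠ 1) : IsPrimitiveRoot ζ 3 := by
  refine IsPrimitiveRoot.mk_of_lt ζ (by norm_num) h3 fun l hl0 hl3 hl => ?_
  interval_cases l
  · exact h1 (by simpa using hl)
  · apply h1
    have : ζ ^ 3 = ζ ^ 2 * ζ := by ring
    rw [this, hl, one_mul] at h3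
    exact h3

/-- Elements of trace `±1` fixing `τ0` rotate by a primitive cube root of unity. -/
theorem isPrimitiveRoot_rotFactor_of_trace_one (σ : SL(2, ℤ)) {τ0 : ℍ} (hσ : σ • τ0 = τ0)
    (htr : σ 0 0 + σ 1 1 = 1 ∨ σ 0 0 + σ 1 1 = -1) : IsPrimitiveRoot (rotFactor σ τ0) 3 := by
  have h := den_mul_den_of_fixed σ hσ
  have hden := den_ne_zero σ τ0
  set L := den σ τ0 with hL
  have hLL : L * L ≠ 0 := mul_ne_zero hden hden
  have key : (L * L) ^ 3 = 1 ∧ L * L ≠ 1 := by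
    rcases htr with htr | htr
    · have htr' : ((σ 0 0 : ℤ) : ℂ) + ((σ 1 1 : ℤ) : ℂ) = 1 := by exact_mod_cast htr
      rw [htr', one_mul] at h
      refine ⟨?_, fun h1 => ?_⟩
      · have h3 : L ^ 3 = -1 := by linear_combination (L + 1) * h
        calc (L * L) ^ 3 = (L ^ 3) ^ 2 := by ring
          _ = 1 := by rw [h3]; norm_num
      · have h2 : L = 2 := by linear_combination h1 - h
        rw [h2] at h1
        norm_num at h1
    · have htr' : ((σ 0 0 : ℤ) : ℂ) + ((σ 1 1 : ℤ) : ℂ) = -1 := by exact_mod_cast htr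
      rw [htr'] at h
      refine ⟨?_, fun h1 => ?_⟩
      · have h3 : L ^ 3 = 1 := by linear_combination (L - 1) * h
        calc (L * L) ^ 3 = (L ^ 3) ^ 2 := by ring
          _ = 1 := by rw [h3]; norm_num
      · have h2 : L = -2 := by linear_combination h - h1
        rw [h2] at h1
        norm_num at h1
  refine isPrimitiveRoot_three_of ?_ ?_
  · rw [rotFactor, inv_pow, key.1, inv_one]
  · rw [rotFactor]
    intro h1
    exact key.2 (inv_eq_one.mp h1)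

end Fermat.Agent.S24.Taylor
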